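/-
S30x/AdicFinite34 (helper34, S30 block T2, leaf (V3) "algebra core", prefix `adf34_`; Mathlib only).

Finite generation from adic completeness (Stacks 031D) and freeness over a complete DVR:

* `adf34_step`            : an element of `I ^ n M` is, modulo `I ^ (n+1) M`, a combination of the
                            generators modulo `I` with coefficients in `I ^ n`;
* `adf34_span_eq_top`     : `R` `I`-adically precomplete, `M` `I`-adically Hausdorff,
                            `span (x i) + I M = M` (finitely many `x i`) ⟹ `span (x i) = M`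
                            (successive approximation; NO Noetherian / principal hypothesis);
* `adf34_finite`      (A) : ... `M ⧸ I M` finite ⟹ `M` finite;
* `adf34_finite_free` (B) : `O` a complete DVR, `M` torsion-free, `𝔪`-adically Hausdorff, `M ⧸ 𝔪 M`
                            finite ⟹ `M` finite and free;
* `adf34_exists_pow_le`, `adf34_isHausdorff_of_span` : `p ≠ 0` ⟹ `𝔪 ^ e ≤ (p)`, and `p`-adically
                            Hausdorff ⟹ `𝔪`-adically Hausdorff;
* `adf34_finite_free_of_span` (C) : the `p`-adic form: `p ∈ 𝔪`, `p ≠ 0`, `M` torsion-free,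
                            `p`-adically Hausdorff, `M ⧸ p M` finite ⟹ `M` finite and free
                            (this is what the sequence model of the Tate module consumes).
-/
import Mathlib

set_option autoImplicit false

namespace Fermat.Agent.S30x

open Submodule

section core

variable {R M : Type*} [CommRing R] [AddCommGroup M] [Module R M]

/-- one approximation step: an element of `I ^ n M` is, modulo `I ^ (n+1) M`, a combination of the
`x i` with coefficients in `I ^ n`. -/
theorem adf34_step (I : Ideal R) {ι : Type*} [Fintype ι] (x : ι → M)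
    (hs : span R (Set.range x) ⊔ (I • ⊤ : Submodule R M) = ⊤) (n : ℕ) (y : M)
    (hy : y ∈ (I ^ n • ⊤ : Submodule R M)) :
    ∃ a : ι → R, (∀ i, a i ∈ I ^ n) ∧
      y - ∑ i, a i • x i ∈ (I ^ (n + 1) • ⊤ : Submodule R M) := by
  rw [← hs, Submodule.smul_sup, ← Submodule.mul_smul, ← pow_succ, Submodule.mem_sup] at hy
  obtain ⟨u, hu, w, hw, rfl⟩ := hy
  rw [Submodule.mem_ideal_smul_span_iff_exists_sum] at hu
  obtain ⟨a, ha, rfl⟩ := hu
  refine ⟨fun i => a i, ha, ?_⟩
  rw [Finsupp.sum_fintype _ _ (fun i => zero_smul R (x i)), add_sub_cancel_left]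
  exact hw

/-- **Finite generation from completeness** (Stacks 031D).  If `R` is `I`-adically precomplete,
`M` is `I`-adically Hausdorff and the finitely many `x i` generate `M` modulo `I M`, then they
generate `M`. -/
theorem adf34_span_eq_top (I : Ideal R) [IsPrecomplete I R] (hH : IsHausdorff I M)
    {ι : Type*} [Fintype ι] (x : ι → M)
    (hs : span R (Set.range x) ⊔ (I • ⊤ : Submodule R M) = ⊤) :
    span R (Set.range x) = ⊤ := by
  classical
  rw [eq_top_iff]
  intro z _
  -- the approximation step as a function
  let F : ℕ → M × (ι → R) → M × (ι → R) := fun n p =>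
    if h : p.1 ∈ (I ^ n • ⊤ : Submodule R M) then
      (p.1 - ∑ i, (adf34_step I x hs n p.1 h).choose i • x i,
        fun i => p.2 i + (adf34_step I x hs n p.1 h).choose i)
    else p
  let s : ℕ → M × (ι → R) := fun n => Nat.rec (z, fun _ => 0) (fun n p => F n p) n
  have hs0 : s 0 = (z, fun _ => 0) := rfl
  have hsucc : ∀ n, s (n + 1) = F n (s n) := fun n => rfl
  -- invariants
  have hinv : ∀ n, (s n).1 ∈ (I ^ n • ⊤ : Submodule R M) ∧
      z = (s n).1 + ∑ i, (s n).2 i • x i := by
    intro n
    induction n with
    | zero =>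
      rw [hs0]
      refine ⟨by simp, by simp⟩
    | succ n ih =>
      obtain ⟨h1, h2⟩ := ih
      have hF : F n (s n) = ((s n).1 - ∑ i, (adf34_step I x hs n (s n).1 h1).choose i • x i,
          fun i => (s n).2 i + (adf34_step I x hs n (s n).1 h1).choose i) := dif_pos h1
      rw [hsucc, hF]
      refine ⟨(adf34_step I x hs n (s n).1 h1).choose_spec.2, ?_⟩
      simp only [add_smul, Finset.sum_add_distrib]
      rw [h2]
      abel
  have hdiff : ∀ n i, (s (n + 1)).2 i - (s n).2 i ∈ I ^ n := by
    intro n i
    have h1 := (hinv n).1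
    have hF : F n (s n) = ((s n).1 - ∑ i, (adf34_step I x hs n (s n).1 h1).choose i • x i,
        fun i => (s n).2 i + (adf34_step I x hs n (s n).1 h1).choose i) := dif_pos h1
    rw [hsucc, hF]
    simp only [add_sub_cancel_left]
    exact (adf34_step I x hs n (s n).1 h1).choose_spec.1 i
  -- the coefficient sequences are Cauchy
  have hcauchy : ∀ i m n, m ≤ n → (s n).2 i - (s m).2 i ∈ I ^ m := by
    intro i m n hmn
    induction n, hmn using Nat.le_induction with
    | base => simp
    | succ n hmn ih =>
      have h1 : (s (n + 1)).2 i - (s m).2 i =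
          ((s (n + 1)).2 i - (s n).2 i) + ((s n).2 i - (s m).2 i) := by ring
      rw [h1]
      exact (I ^ m).add_mem (Ideal.pow_le_pow_right hmn (hdiff n i)) ih
  -- limits
  have hlim : ∀ i, ∃ L : R, ∀ n, (s n).2 i - L ∈ I ^ n := by
    intro i
    obtain ⟨L, hL⟩ := IsPrecomplete.prec' (I := I) (M := R) (fun n => (s n).2 i) (by
      intro m n hmn
      rw [SModEq.sub_mem, smul_eq_mul, Ideal.mul_top]
      have := hcauchy i m n hmn
      rw [← neg_sub]
      exact (I ^ m).neg_mem this)
    refine ⟨L, fun n => ?_⟩
    have := hL n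
    rwa [SModEq.sub_mem, smul_eq_mul, Ideal.mul_top] at this
  choose L hL using hlim
  -- `z = ∑ L i • x i`
  have hz : z - ∑ i, L i • x i = 0 := by
    apply hH.haus
    intro n
    rw [SModEq.sub_mem, sub_zero]
    have h2 := (hinv n).2
    have h3 : z - ∑ i, L i • x i = (s n).1 + ∑ i, ((s n).2 i - L i) • x i := by
      simp only [sub_smul, Finset.sum_sub_distrib]
      rw [h2]
      abel
    rw [h3]
    refine Submodule.add_mem _ (hinv n).1 (Submodule.sum_mem _ fun i _ => ?_)
    exact Submodule.smul_mem_smul (hL i n) Submodule.mem_top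
  rw [sub_eq_zero] at hz
  rw [hz]
  exact Submodule.sum_mem _ fun i _ => Submodule.smul_mem _ _ (Submodule.subset_span ⟨i, rfl⟩)

end core

section finite

variable {R M : Type*} [CommRing R] [AddCommGroup M] [Module R M]

/-- **(A)** `R` `I`-adically precomplete, `M` `I`-adically Hausdorff, `M / I M` finite
⟹ `M` finite. -/
theorem adf34_finite (I : Ideal R) [IsPrecomplete I R] (hH : IsHausdorff I M)
    [hfin : Module.Finite R (M ⧸ (I • ⊤ : Submodule R M))] : Module.Finite R M := by
  classical
  obtain ⟨t, ht⟩ := hfin.fg_top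
  choose lift hlift using fun q : M ⧸ (I • ⊤ : Submodule R M) => Submodule.mkQ_surjective _ q
  let x : {q // q ∈ t} → M := fun q => lift q.1
  have himg : (I • ⊤ : Submodule R M).mkQ '' Set.range x = (t : Set _) := by
    ext q
    constructor
    · rintro ⟨_, ⟨q', rfl⟩, rfl⟩
      rw [hlift]
      exact q'.2
    · intro hq
      exact ⟨x ⟨q, hq⟩, ⟨⟨q, hq⟩, rfl⟩, hlift q⟩
  have hs : span R (Set.range x) ⊔ (I • ⊤ : Submodule R M) = ⊤ := by
    rw [sup_comm, ← Submodule.map_mkQ_eq_top, Submodule.map_span, himg, ht]
  have htop := adf34_span_eq_top I hH x hs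
  rw [Module.finite_def, ← htop]
  exact Submodule.fg_span (Set.finite_range x)

end finite

section dvr

open IsLocalRing

variable {O M : Type*} [CommRing O] [IsDomain O] [IsDiscreteValuationRing O]
  [AddCommGroup M] [Module O M]

/-- **(B)** over a complete discrete valuation ring, a torsion-free module which is Hausdorff for
the `𝔪`-adic topology and finite modulo `𝔪` is finite and free. -/
theorem adf34_finite_free [IsPrecomplete (maximalIdeal O) O] [Module.IsTorsionFree O M]
    (hH : IsHausdorff (maximalIdeal O) M)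
    [Module.Finite O (M ⧸ (maximalIdeal O • ⊤ : Submodule O M))] :
    Module.Finite O M ∧ Module.Free O M := by
  have hfin : Module.Finite O M := adf34_finite (maximalIdeal O) hH
  exact ⟨hfin, Module.free_of_finite_type_torsion_free'⟩

/-- a power of the maximal ideal lies in the ideal generated by a nonzero element. -/
theorem adf34_exists_pow_le (p : O) (hp0 : p ≠ 0) :
    ∃ e : ℕ, maximalIdeal O ^ e ≤ Ideal.span {p} := by
  obtain ⟨ϖ, hϖ⟩ := IsDiscreteValuationRing.exists_irreducible O
  have hne : Ideal.span {p} ≠ ⊥ := by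
    rw [Ne, Ideal.span_singleton_eq_bot]
    exact hp0
  obtain ⟨e, he⟩ := IsDiscreteValuationRing.ideal_eq_span_pow_irreducible hne hϖ
  refine ⟨e, ?_⟩
  rw [he, hϖ.maximalIdeal_eq, Ideal.span_singleton_pow]

/-- `p`-adically Hausdorff implies `𝔪`-adically Hausdorff (`p ≠ 0`). -/
theorem adf34_isHausdorff_of_span (p : O) (hp0 : p ≠ 0)
    (hH : IsHausdorff (Ideal.span {p}) M) : IsHausdorff (maximalIdeal O) M := by
  obtain ⟨e, he⟩ := adf34_exists_pow_le p hp0
  refine ⟨fun x hx => hH.haus x fun n => ?_⟩
  have h1 := hx (e * n)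
  rw [SModEq.sub_mem, sub_zero] at h1 ⊢
  have h2 : maximalIdeal O ^ (e * n) ≤ Ideal.span {p} ^ n := by
    rw [pow_mul]
    exact Ideal.pow_right_mono he n
  exact Submodule.smul_mono_left h2 h1

/-- **(C)** the `p`-adic form of (B): `p ∈ 𝔪`, `p ≠ 0`, `M` torsion-free, `p`-adically Hausdorff and
`M / p M` finite ⟹ `M` finite and free. -/
theorem adf34_finite_free_of_span [IsPrecomplete (maximalIdeal O) O] [Module.IsTorsionFree O M]
    (p : O) (hp : p ∈ maximalIdeal O) (hp0 : p ≠ 0)
    (hH : IsHausdorff (Ideal.span {p}) M)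
    [hfin : Module.Finite O (M ⧸ (Ideal.span {p} • ⊤ : Submodule O M))] :
    Module.Finite O M ∧ Module.Free O M := by
  have hle : (Ideal.span {p} • ⊤ : Submodule O M) ≤ maximalIdeal O • ⊤ :=
    Submodule.smul_mono_left ((Ideal.span_singleton_le_iff_mem _).mpr hp)
  have : Module.Finite O (M ⧸ (maximalIdeal O • ⊤ : Submodule O M)) :=
    Module.Finite.of_surjective (Submodule.factor hle) (Submodule.factor_surjective hle)
  exact adf34_finite_free (adf34_isHausdorff_of_span p hp0 hH)

/-- (C) with the completeness hypothesis in the form of the frozen statement S30. -/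
theorem adf34_finite_free_of_complete [IsAdicComplete (maximalIdeal O) O]
    [Module.IsTorsionFree O M] (p : O) (hp : p ∈ maximalIdeal O) (hp0 : p ≠ 0)
    (hH : IsHausdorff (Ideal.span {p}) M)
    [Module.Finite O (M ⧸ (Ideal.span {p} • ⊤ : Submodule O M))] :
    Module.Finite O M ∧ Module.Free O M :=
  adf34_finite_free_of_span p hp hp0 hH

end dvr

end Fermat.Agent.S30x
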