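/-
S30 project, block T2 leaf (V3) (helper29, prefix `adn29_`), Mathlib only.

**Complete Nakayama** (Matsumura 8.4): `R` commutative ring, `I` an ideal with `R` `I`-adically
precomplete (e.g. complete), `V` an `R`-module which is `I`-adically separated.  If finitely many
`v i` generate `V` modulo `I V`, they generate `V`.  (No completeness of `V` is needed.)

* `adn29_span_eq_top`        : `span (range v) ⊔ I • ⊤ = ⊤ → span (range v) = ⊤`;
* `adn29_finite_of_quotient` : `Module.Finite R (V ⧸ I • ⊤) → Module.Finite R V`;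
* `adn29_free_of_quotient`   : over a PID (e.g. a complete DVR) and `V` torsion-free:
  `Module.Free R V ∧ Module.Finite R V`.
-/
import Mathlib

set_option autoImplicit false

namespace Fermat.Agent.S30x

open Submodule

variable {R : Type*} [CommRing R] {I : Ideal R} {V : Type*} [AddCommGroup V] [Module R V]
  {ι : Type*} [Fintype ι] {v : ι → V}

/-- one approximation step: an element of `I ^ n V` is a combination of the `v i` with
coefficients in `I ^ n`, modulo `I ^ (n + 1) V`. -/
theorem adn29_step (hgen : span R (Set.range v) ⊔ (I • ⊤ : Submodule R V) = ⊤) (n : ℕ) (y : V)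
    (hy : y ∈ (I ^ n • ⊤ : Submodule R V)) :
    ∃ a : ι → R, (∀ i, a i ∈ I ^ n) ∧ y - ∑ i, a i • v i ∈ (I ^ (n + 1) • ⊤ : Submodule R V) := by
  refine Submodule.smul_induction_on hy ?_ ?_
  · intro c hc w _
    have hw : w ∈ span R (Set.range v) ⊔ (I • ⊤ : Submodule R V) := by rw [hgen]; trivial
    obtain ⟨u, hu, z, hz, rfl⟩ := Submodule.mem_sup.mp hw
    obtain ⟨b, rfl⟩ := (Submodule.mem_span_range_iff_exists_fun R).mp hu
    refine ⟨fun i => c * b i, fun i => Ideal.mul_mem_right _ _ hc, ?_⟩
    have h1 : c • (∑ i, b i • v i + z) - ∑ i, (c * b i) • v i = c • z := by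
      rw [smul_add, Finset.smul_sum]
      simp only [mul_smul]
      abel
    rw [h1, pow_succ, mul_smul]
    exact Submodule.smul_mem_smul hc hz
  · rintro y₁ y₂ ⟨a₁, ha₁, h₁⟩ ⟨a₂, ha₂, h₂⟩
    refine ⟨fun i => a₁ i + a₂ i, fun i => Ideal.add_mem _ (ha₁ i) (ha₂ i), ?_⟩
    have h3 : y₁ + y₂ - ∑ i, (a₁ i + a₂ i) • v i =
        (y₁ - ∑ i, a₁ i • v i) + (y₂ - ∑ i, a₂ i • v i) := by
      simp only [add_smul, Finset.sum_add_distrib]
      abel
    rw [h3]
    exact Submodule.add_mem _ h₁ h₂

/-- successive approximation of `x` by combinations of the `v i`. -/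
theorem adn29_exists_seq (hgen : span R (Set.range v) ⊔ (I • ⊤ : Submodule R V) = ⊤) (x : V) :
    ∃ b : ℕ → ι → R, (∀ n, x - ∑ i, b n i • v i ∈ (I ^ n • ⊤ : Submodule R V)) ∧
      ∀ n i, b (n + 1) i - b n i ∈ I ^ n := by
  classical
  have step : ∀ (n : ℕ) (b : {b : ι → R // x - ∑ i, b i • v i ∈ (I ^ n • ⊤ : Submodule R V)}),
      ∃ b' : {b : ι → R // x - ∑ i, b i • v i ∈ (I ^ (n + 1) • ⊤ : Submodule R V)},
        ∀ i, b'.1 i - b.1 i ∈ I ^ n := by
    intro n b
    obtain ⟨a, ha, hy⟩ := adn29_step hgen n _ b.2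
    refine ⟨⟨fun i => b.1 i + a i, ?_⟩, ?_⟩
    · have h3 : x - ∑ i, (b.1 i + a i) • v i = (x - ∑ i, b.1 i • v i) - ∑ i, a i • v i := by
        simp only [add_smul, Finset.sum_add_distrib]
        abel
      rw [h3]
      exact hy
    · intro i
      simpa using ha i
  let f : (n : ℕ) → {b : ι → R // x - ∑ i, b i • v i ∈ (I ^ n • ⊤ : Submodule R V)} :=
    fun n => Nat.rec (motive := fun n =>
        {b : ι → R // x - ∑ i, b i • v i ∈ (I ^ n • ⊤ : Submodule R V)})
      ⟨0, by simp⟩ (fun n b => Classical.choose (step n b)) n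
  refine ⟨fun n => (f n).1, fun n => (f n).2, fun n i => ?_⟩
  exact Classical.choose_spec (step n (f n)) i

/-- **complete Nakayama**. -/
theorem adn29_span_eq_top [IsPrecomplete I R] [IsHausdorff I V]
    (hgen : span R (Set.range v) ⊔ (I • ⊤ : Submodule R V) = ⊤) :
    span R (Set.range v) = ⊤ := by
  rw [eq_top_iff]
  rintro x -
  obtain ⟨b, hb, hstep⟩ := adn29_exists_seq hgen x
  -- each coefficient sequence is Cauchy
  have hcauchy : ∀ i, ∀ {m n : ℕ}, m ≤ n →
      b m i ≡ b n i [SMOD (I ^ m • ⊤ : Submodule R R)] := by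
    intro i m n hmn
    induction n, hmn using Nat.le_induction with
    | base => rfl
    | succ n hmn ih =>
      refine ih.trans ?_
      rw [SModEq.sub_mem, smul_eq_mul, Ideal.mul_top]
      have := hstep n i
      have h2 : b n i - b (n + 1) i = -(b (n + 1) i - b n i) := by ring
      rw [h2]
      exact Ideal.neg_mem_iff _ |>.mpr (Ideal.pow_le_pow_right hmn this)
  choose L hL using fun i => IsPrecomplete.prec ‹IsPrecomplete I R› (hcauchy i)
  have hx : x = ∑ i, L i • v i := by
    rw [← sub_eq_zero]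
    apply IsHausdorff.haus ‹IsHausdorff I V›
    intro n
    rw [SModEq.zero]
    have h3 : x - ∑ i, L i • v i = (x - ∑ i, b n i • v i) + ∑ i, (b n i - L i) • v i := by
      simp only [sub_smul, Finset.sum_sub_distrib]
      abel
    rw [h3]
    refine Submodule.add_mem _ (hb n) (Submodule.sum_mem _ fun i _ => ?_)
    have h4 : b n i - L i ∈ I ^ n := by
      have := hL i n
      rwa [SModEq.sub_mem, smul_eq_mul, Ideal.mul_top] at this
    exact Submodule.smul_mem_smul h4 trivial
  rw [hx]
  exact Submodule.sum_mem _ fun i _ => Submodule.smul_mem _ _ (Submodule.subset_span ⟨i, rfl⟩)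

/-- **complete Nakayama**, finiteness form. -/
theorem adn29_finite_of_quotient (R : Type*) [CommRing R] (I : Ideal R) (V : Type*)
    [AddCommGroup V] [Module R V] [IsPrecomplete I R] [IsHausdorff I V]
    [hfin : Module.Finite R (V ⧸ (I • ⊤ : Submodule R V))] : Module.Finite R V := by
  classical
  obtain ⟨s, hs⟩ := hfin.fg_top
  -- lift the generators
  choose! w hw using fun y : V ⧸ (I • ⊤ : Submodule R V) => Submodule.Quotient.mk_surjective _ y
  let v : ↥s → V := fun y => w y.1
  have hgen : span R (Set.range v) ⊔ (I • ⊤ : Submodule R V) = ⊤ := by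
    rw [eq_top_iff]
    rintro x -
    have hx : (Submodule.Quotient.mk x : V ⧸ (I • ⊤ : Submodule R V)) ∈ span R (s : Set _) := by
      rw [hs]; trivial
    have hmap : span R (s : Set (V ⧸ (I • ⊤ : Submodule R V))) =
        (span R (Set.range v)).map (I • ⊤ : Submodule R V).mkQ := by
      rw [Submodule.map_span]
      congr 1
      ext y
      constructor
      · intro hy
        exact ⟨w y, ⟨⟨y, hy⟩, rfl⟩, hw y⟩
      · rintro ⟨_, ⟨⟨y, hy⟩, rfl⟩, rfl⟩
        show (I • ⊤ : Submodule R V).mkQ (w y) ∈ (s : Set _)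
        rw [Submodule.mkQ_apply, hw y]
        exact hy
    rw [hmap] at hx
    obtain ⟨u, hu, hux⟩ := hx
    have hd : x - u ∈ (I • ⊤ : Submodule R V) := by
      rw [← Submodule.Quotient.eq]
      exact hux.symm
    have : x = u + (x - u) := by abel
    rw [this]
    exact Submodule.add_mem_sup hu hd
  have htop := adn29_span_eq_top (v := v) hgen
  exact ⟨⟨Finset.univ.image v, by rw [Finset.coe_image, Finset.coe_univ, Set.image_univ, htop]⟩⟩

/-- over a PID (e.g. a complete DVR), a separated torsion-free module which is finitely generated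
modulo `I` is free of finite rank. -/
theorem adn29_free_of_quotient (R : Type*) [CommRing R] [IsDomain R] [IsPrincipalIdealRing R]
    (I : Ideal R) (V : Type*) [AddCommGroup V] [Module R V] [IsPrecomplete I R] [IsHausdorff I V]
    [Module.Finite R (V ⧸ (I • ⊤ : Submodule R V))] [Module.IsTorsionFree R V] :
    Module.Free R V ∧ Module.Finite R V := by
  have : Module.Finite R V := adn29_finite_of_quotient R I V
  exact ⟨inferInstance, inferInstance⟩

end Fermat.Agent.S30x
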