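/-
S30x/AdicQuadLim88.lean (helper88, prefix `aql88_`): the ADIC LIMIT STEP for integral (`p`-adic)
Galois representations (scouting for S30).

`O` is a commutative ring, adically complete for an ideal `I`; `E` is a finite free `O`-module with
an action `ρ` of a group `G`; `ε : G →* O` is a character.  `Frob φ a l` says that `φ` is a
"Frobenius" with `ρ φ² - a ρ φ + l = 0`.  If every `g` is, modulo `I ^ n` for every `n`, a power of
a Frobenius (cyclic Frobenius density applied to the finite quotient through which `G` acts on
`E / I^n E`), compatibly with `ε`, then every `g` satisfies an EXACT quadratic relation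
`ρ g² - t ρ g + ε g = 0` with `t ∈ O`.

Proof: Dickson power step (`qpw_pow_rel`) gives `t_n` with `ρ g² - t_n ρ g + ε g ∈ I^n End(E)`;
`(t_m - t_n) ρ g ∈ I^n End(E)` and `ρ g` is invertible, so `(t_n)` is Cauchy; take the limit and use
that `E` is `I`-adically separated.  No compactness, no finiteness of residue fields.
-/
import Mathlib
import Fermat.Agent.S42x.QuadPow

set_option autoImplicit false

namespace Fermat.Agent.S30x

open Fermat.Agent.S42x

open Module

section Basic

variable {O : Type*} [CommRing O] {E : Type*} [AddCommGroup E] [Module O E]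

/-- a linear functional maps `J • ⊤` into `J`. -/
lemma aql88_functional_mem (J : Ideal O) (f : E →ₗ[O] O) {x : E}
    (hx : x ∈ J • (⊤ : Submodule O E)) : f x ∈ J := by
  refine Submodule.smul_induction_on hx (fun r hr n _ => ?_) (fun x y hx hy => ?_)
  · rw [map_smul, smul_eq_mul]
    exact J.mul_mem_right _ hr
  · rw [map_add]
    exact J.add_mem hx hy

/-- an endomorphism maps `J • ⊤` into itself. -/
lemma aql88_end_mem (J : Ideal O) (f : Module.End O E) {x : E}
    (hx : x ∈ J • (⊤ : Submodule O E)) : f x ∈ J • (⊤ : Submodule O E) := by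
  refine Submodule.smul_induction_on hx (fun r hr n _ => ?_) (fun x y hx hy => ?_)
  · rw [map_smul]
    exact Submodule.smul_mem_smul hr Submodule.mem_top
  · rw [map_add]
    exact Submodule.add_mem _ hx hy

/-- in a nontrivial free module, a scalar which maps everything into `J • ⊤` lies in `J`. -/
lemma aql88_scalar_mem [Module.Free O E] [Nontrivial E] (J : Ideal O) (t : O)
    (h : ∀ v : E, t • v ∈ J • (⊤ : Submodule O E)) : t ∈ J := by
  classical
  let b := Module.Free.chooseBasis O E
  have hne : Nonempty (Module.Free.ChooseBasisIndex O E) := by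
    by_contra hempty
    rw [not_nonempty_iff] at hempty
    have : Subsingleton E := by
      refine ⟨fun x y => ?_⟩
      apply b.ext_elem
      intro i
      exact (hempty.false i).elim
    exact not_subsingleton E this
  obtain ⟨i⟩ := hne
  have h1 := aql88_functional_mem J (b.coord i) (h (b i))
  rwa [map_smul, Basis.coord_apply, Basis.repr_self, Finsupp.single_eq_same, smul_eq_mul,
    mul_one] at h1

/-- a free module over an `I`-adically separated ring is `I`-adically separated. -/
lemma aql88_eq_zero_of_forall_mem [Module.Free O E] (I : Ideal O) [IsHausdorff I O] {x : E}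
    (h : ∀ n : ℕ, x ∈ (I ^ n) • (⊤ : Submodule O E)) : x = 0 := by
  classical
  let b := Module.Free.chooseBasis O E
  apply b.ext_elem
  intro i
  rw [map_zero, Finsupp.zero_apply]
  have hi : ∀ n : ℕ, b.repr x i ∈ I ^ n := fun n => by
    have := aql88_functional_mem (I ^ n) (b.coord i) (h n)
    rwa [Basis.coord_apply] at this
  apply IsHausdorff.haus' (I := I) (b.repr x i)
  intro n
  rw [SModEq.zero]
  have : (I ^ n • ⊤ : Submodule O O) = I ^ n := by
    rw [smul_eq_mul, Ideal.mul_top]
  rw [this]
  exact hi n

end Basic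

section Main

variable {O : Type*} [CommRing O] (I : Ideal O) [IsAdicComplete I O]
variable {E : Type*} [AddCommGroup E] [Module O E] [Module.Free O E] [Nontrivial E]
variable {G : Type*} [Group G]

/-- `f ∈ J End(E)` in the weak sense: `f` maps `E` into `J • ⊤`. -/
def aql88_Small (J : Ideal O) (f : Module.End O E) : Prop :=
  ∀ v : E, f v ∈ J • (⊤ : Submodule O E)

omit [Module.Free O E] [Nontrivial E] in
lemma aql88_small_add {J : Ideal O} {f g : Module.End O E} (hf : aql88_Small J f)
    (hg : aql88_Small J g) : aql88_Small J (f + g) := fun v => by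
  rw [LinearMap.add_apply]; exact Submodule.add_mem _ (hf v) (hg v)

omit [Module.Free O E] [Nontrivial E] in
lemma aql88_small_sub {J : Ideal O} {f g : Module.End O E} (hf : aql88_Small J f)
    (hg : aql88_Small J g) : aql88_Small J (f - g) := fun v => by
  rw [LinearMap.sub_apply]; exact Submodule.sub_mem _ (hf v) (hg v)

omit [Module.Free O E] [Nontrivial E] in
lemma aql88_small_mul_left {J : Ideal O} {f : Module.End O E} (hf : aql88_Small J f)
    (g : Module.End O E) : aql88_Small J (g * f) := fun v => by
  rw [Module.End.mul_apply]; exact aql88_end_mem J g (hf v)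

omit [Module.Free O E] [Nontrivial E] in
lemma aql88_small_mul_right {J : Ideal O} {f : Module.End O E} (hf : aql88_Small J f)
    (g : Module.End O E) : aql88_Small J (f * g) := fun v => by
  rw [Module.End.mul_apply]; exact hf (g v)

omit [Module.Free O E] [Nontrivial E] in
lemma aql88_small_smul {J : Ideal O} {f : Module.End O E} (hf : aql88_Small J f)
    (t : O) : aql88_Small J (t • f) := fun v => by
  rw [LinearMap.smul_apply]; exact Submodule.smul_mem _ _ (hf v)

omit [Module.Free O E] [Nontrivial E] in
lemma aql88_small_scalar {J : Ideal O} {t : O} (ht : t ∈ J) :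
    aql88_Small J (t • (1 : Module.End O E)) := fun v => by
  rw [LinearMap.smul_apply, Module.End.one_apply]
  exact Submodule.smul_mem_smul ht Submodule.mem_top

omit [Module.Free O E] [Nontrivial E] in
lemma aql88_small_mono {J J' : Ideal O} (hJ : J ≤ J') {f : Module.End O E}
    (hf : aql88_Small J f) : aql88_Small J' f := fun v =>
  Submodule.smul_mono_left hJ (hf v)

omit [Module.Free O E] [Nontrivial E] in
/-- approximate relation modulo `J`: if `ρ g ≡ s` and `ε g ≡ d` modulo `J` and
`s² - t s + d = 0`, then `ρ g² - t ρ g + ε g ∈ J End(E)`. -/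
lemma aql88_approx {J : Ideal O} (x s : Module.End O E) (t d e : O)
    (hs : s * s - t • s + d • (1 : Module.End O E) = 0)
    (hx : aql88_Small J (x - s)) (he : e - d ∈ J) :
    aql88_Small J (x * x - t • x + e • (1 : Module.End O E)) := by
  have key : x * x - t • x + e • (1 : Module.End O E)
      = (x - s) * x + s * (x - s) - t • (x - s) + (e - d) • (1 : Module.End O E) := by
    have : x * x - t • x + e • (1 : Module.End O E)
        = (x - s) * x + s * (x - s) - t • (x - s) + (e - d) • (1 : Module.End O E)
          + (s * s - t • s + d • (1 : Module.End O E)) := by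
      simp only [sub_mul, mul_sub, smul_sub, sub_smul]
      abel
    rw [this, hs, add_zero]
  rw [key]
  exact aql88_small_add (aql88_small_sub (aql88_small_add (aql88_small_mul_right hx x)
    (aql88_small_mul_left hx s)) (aql88_small_smul hx t)) (aql88_small_scalar he)

/-- **Adic limit step.** -/
theorem aql88_quadratic (ρ : G →* Module.End O E) (ε : G →* O)
    (Frob : G → O → O → Prop)
    (hFQ : ∀ φ a l, Frob φ a l → ρ φ * ρ φ - a • ρ φ + l • (1 : Module.End O E) = 0)
    (hdens : ∀ (g : G) (n : ℕ), ∃ (φ : G) (a l : O) (j : ℕ), Frob φ a l ∧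
      (∀ v : E, ρ g v - (ρ φ ^ j) v ∈ (I ^ n) • (⊤ : Submodule O E)) ∧ ε g - l ^ j ∈ I ^ n)
    (g : G) :
    ∃ t : O, ρ g * ρ g - t • ρ g + ε g • (1 : Module.End O E) = 0 := by
  classical
  -- approximate relations
  have happ : ∀ n : ℕ, ∃ t : O,
      aql88_Small (I ^ n) (ρ g * ρ g - t • ρ g + ε g • (1 : Module.End O E)) := by
    intro n
    obtain ⟨φ, a, l, j, hF, hρ, hε⟩ := hdens g n
    refine ⟨qpw_dickson a l j, ?_⟩
    refine aql88_approx (ρ g) (ρ φ ^ j) _ (l ^ j) (ε g) ?_ ?_ hε
    · exact qpw_pow_rel (ρ φ) a l (hFQ φ a l hF) j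
    · intro v
      rw [LinearMap.sub_apply]
      exact hρ v
  choose t ht using happ
  -- the sequence `t` is Cauchy
  have hinv : ρ g⁻¹ * ρ g = 1 := by rw [← map_mul, inv_mul_cancel, map_one]
  have hcauchy : ∀ {m n : ℕ}, m ≤ n → t m - t n ∈ I ^ m := by
    intro m n hmn
    have hn : aql88_Small (I ^ m) (ρ g * ρ g - t n • ρ g + ε g • (1 : Module.End O E)) :=
      aql88_small_mono (Ideal.pow_le_pow_right hmn) (ht n)
    have hdiff := aql88_small_sub hn (ht m)
    have e1 : (ρ g * ρ g - t n • ρ g + ε g • (1 : Module.End O E))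
        - (ρ g * ρ g - t m • ρ g + ε g • (1 : Module.End O E)) = (t m - t n) • ρ g := by
      rw [sub_smul]; abel
    rw [e1] at hdiff
    have h2 := aql88_small_mul_left hdiff (ρ g⁻¹)
    rw [mul_smul_comm, hinv] at h2
    apply aql88_scalar_mem (E := E) (I ^ m) (t m - t n)
    intro v
    have := h2 v
    rwa [LinearMap.smul_apply, Module.End.one_apply] at this
  -- the limit
  obtain ⟨T, hT⟩ := IsPrecomplete.prec (I := I) (M := O) inferInstance (f := t) (by
    intro m n hmn
    rw [SModEq.sub_mem]
    have : (I ^ m • ⊤ : Submodule O O) = I ^ m := by rw [smul_eq_mul, Ideal.mul_top]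
    rw [this]
    exact hcauchy hmn)
  have hT' : ∀ n, t n - T ∈ I ^ n := by
    intro n
    have := hT n
    rw [SModEq.sub_mem] at this
    have h3 : (I ^ n • ⊤ : Submodule O O) = I ^ n := by rw [smul_eq_mul, Ideal.mul_top]
    rwa [h3] at this
  refine ⟨T, ?_⟩
  apply LinearMap.ext
  intro v
  rw [LinearMap.zero_apply]
  apply aql88_eq_zero_of_forall_mem I
  intro n
  have e2 : ρ g * ρ g - T • ρ g + ε g • (1 : Module.End O E)
      = (ρ g * ρ g - t n • ρ g + ε g • (1 : Module.End O E)) + (t n - T) • ρ g := by
    rw [sub_smul]; abel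
  rw [e2]
  exact aql88_small_add (ht n) (aql88_small_mul_right (aql88_small_scalar (hT' n)) (ρ g)
    |> fun h => by simpa [smul_mul_assoc] using h) v

end Main

end Fermat.Agent.S30x
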