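/-
S30 project, block T3 (helper58, prefix `cyc58_`): the `p`-adic cyclotomic character of
`Gal(Qbar/ℚ)` with values in an `I`-adically complete ring `O` with `(p : O) ∈ I`
(for S30: `O = 𝒪'`, `I` its maximal ideal).

* `cyc58_toO p I hp : ℤ_[p] →+* O`, the canonical ring homomorphism;
* `cyc58_chi p : G_ℚ →* ℤ_[p]ˣ`, Mathlib's `cyclotomicCharacter` on `Gal(Qbar/ℚ)`;
* `cyc58_eps p I hp : G_ℚ →* Oˣ`;
* values: Frobenius lifts at `ℓ ≠ p` (`= ℓ`), inertia at `q ≠ p` (`= 1`), complex conjugation (`= -1`);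
* finite levels: `σ = τ` on `ℚ(ζ_{p^n})` implies `ε σ ≡ ε τ mod p^n`.
-/
import Mathlib
import Fermat.Prelude.Def_EllipticCurve_FrobeniusTrace
import Fermat.Prelude.Def_GaloisRep_ComplexConjugation
import Fermat.Agent.S41x.BridgeCyc
import Fermat.Agent.S42x.CycInertia

set_option autoImplicit false

namespace Fermat.Agent.S30x

open ValuationSubring

abbrev cyc58_Qb := AlgebraicClosure ℚ
abbrev cyc58_GQ := cyc58_Qb ≃ₐ[ℚ] cyc58_Qb

/-! ### The ring homomorphism `ℤ_[p] →+* O` -/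

section toO

variable (p : ℕ) [Fact p.Prime] {O : Type*} [CommRing O] (I : Ideal O)

omit [Fact p.Prime] in
/-- `p ^ n = 0` in `O ⧸ I ^ n` when `p ∈ I`. -/
theorem cyc58_pow_eq_zero (hp : (p : O) ∈ I) (n : ℕ) :
    ((p ^ n : ℕ) : O ⧸ I ^ n) = 0 := by
  have h : ((p ^ n : ℕ) : O) ∈ I ^ n := by
    rw [Nat.cast_pow]
    exact Ideal.pow_mem_pow hp n
  have h2 : ((p ^ n : ℕ) : O ⧸ I ^ n) = Ideal.Quotient.mk (I ^ n) ((p ^ n : ℕ) : O) := by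
    rw [map_natCast]
  rw [h2]
  exact Ideal.Quotient.eq_zero_iff_mem.2 h

/-- the level `n` map `ℤ_[p] →+* O ⧸ I ^ n`. -/
noncomputable def cyc58_level (hp : (p : O) ∈ I) (n : ℕ) : ℤ_[p] →+* O ⧸ I ^ n :=
  (ZMod.castHom (ringChar.dvd (cyc58_pow_eq_zero p I hp n)) (O ⧸ I ^ n)).comp
    (PadicInt.toZModPow n)

theorem cyc58_level_compat (hp : (p : O) ∈ I) {m n : ℕ} (hle : m ≤ n) :
    (Ideal.Quotient.factorPow I hle).comp (cyc58_level p I hp n) = cyc58_level p I hp m := by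
  have h1 : (PadicInt.toZModPow m : ℤ_[p] →+* ZMod (p ^ m)) =
      (ZMod.castHom (pow_dvd_pow p hle) (ZMod (p ^ m))).comp (PadicInt.toZModPow n) :=
    (PadicInt.zmod_cast_comp_toZModPow m n hle).symm
  unfold cyc58_level
  rw [h1, ← RingHom.comp_assoc, ← RingHom.comp_assoc]
  congr 1
  exact Subsingleton.elim _ _

variable [IsAdicComplete I O]

/-- the canonical ring homomorphism `ℤ_[p] →+* O` for an `I`-adically complete ring `O` with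
`p ∈ I`. -/
noncomputable def cyc58_toO (hp : (p : O) ∈ I) : ℤ_[p] →+* O :=
  IsAdicComplete.liftRingHom I (cyc58_level p I hp)
    (fun {_ _} hle => cyc58_level_compat p I hp hle)

theorem cyc58_mk_toO (hp : (p : O) ∈ I) (n : ℕ) (x : ℤ_[p]) :
    Ideal.Quotient.mk (I ^ n) (cyc58_toO p I hp x) = cyc58_level p I hp n x :=
  IsAdicComplete.mk_liftRingHom I _ _ n x

/-- congruences mod `p ^ n` are preserved (with the principal ideal `(p ^ n)`). -/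
theorem cyc58_toO_sub_mem_span (hp : (p : O) ∈ I) {n : ℕ} {x y : ℤ_[p]}
    (h : x - y ∈ Ideal.span {(p : ℤ_[p]) ^ n}) :
    cyc58_toO p I hp x - cyc58_toO p I hp y ∈ Ideal.span {(p : O) ^ n} := by
  obtain ⟨z, hz⟩ := Ideal.mem_span_singleton'.1 h
  rw [← map_sub, ← hz, map_mul, map_pow, map_natCast]
  exact Ideal.mem_span_singleton'.2 ⟨_, rfl⟩

omit [Fact p.Prime] [IsAdicComplete I O] in
theorem cyc58_span_le (hp : (p : O) ∈ I) (n : ℕ) : Ideal.span {(p : O) ^ n} ≤ I ^ n := by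
  rw [Ideal.span_le, Set.singleton_subset_iff]
  exact Ideal.pow_mem_pow hp n

/-- congruences mod `p ^ n` are preserved (with the ideal `I ^ n`). -/
theorem cyc58_toO_sub_mem_pow (hp : (p : O) ∈ I) {n : ℕ} {x y : ℤ_[p]}
    (h : x - y ∈ Ideal.span {(p : ℤ_[p]) ^ n}) :
    cyc58_toO p I hp x - cyc58_toO p I hp y ∈ I ^ n :=
  cyc58_span_le p I hp n (cyc58_toO_sub_mem_span p I hp h)

end toO

/-! ### The `ℤ_[p]ˣ`-valued character -/

section chi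

variable (p : ℕ) [Fact p.Prime]

instance cyc58_neZero (n : ℕ) : NeZero (((p ^ n : ℕ)) : cyc58_Qb) :=
  ⟨Nat.cast_ne_zero.mpr (pow_ne_zero n (Fact.out : p.Prime).ne_zero)⟩

/-- `Qbar` has all `p`-power roots of unity. -/
instance cyc58_enough (n : ℕ) : HasEnoughRootsOfUnity cyc58_Qb (p ^ n) :=
  haveI := cyc58_neZero p n
  inferInstance

theorem cyc58_exists_primitiveRoot (n : ℕ) : ∃ ζ : cyc58_Qb, IsPrimitiveRoot ζ (p ^ n) :=
  HasEnoughRootsOfUnity.exists_primitiveRoot cyc58_Qb (p ^ n)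

/-- the `p`-adic cyclotomic character of `Gal(Qbar/ℚ)`. -/
noncomputable def cyc58_chi : cyc58_GQ →* ℤ_[p]ˣ :=
  (cyclotomicCharacter cyc58_Qb p).comp (MulSemiringAction.toRingAut cyc58_GQ cyc58_Qb)

theorem cyc58_chi_apply (σ : cyc58_GQ) :
    cyc58_chi p σ = cyclotomicCharacter cyc58_Qb p (σ : cyc58_Qb ≃+* cyc58_Qb) :=
  rfl

/-- defining property: `σ ζ = ζ ^ (χ σ mod p ^ n)` for `ζ ^ (p ^ n) = 1`. -/
theorem cyc58_chi_spec (σ : cyc58_GQ) {n : ℕ} {ζ : cyc58_Qb} (hζ : ζ ^ p ^ n = 1) :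
    σ ζ = ζ ^ (((cyc58_chi p σ : ℤ_[p]ˣ) : ℤ_[p]).toZModPow n).val := by
  have h := cyclotomicCharacter.spec (L := cyc58_Qb) p (σ : cyc58_Qb ≃+* cyc58_Qb) ζ hζ
  simpa [cyc58_chi_apply] using h

/-- powers of a primitive `m`-th root of unity agree iff the exponents are congruent mod `m`. -/
theorem cyc58_pow_eq_pow_iff {m : ℕ} (hm : m ≠ 0) {ζ : cyc58_Qb} (hζ : IsPrimitiveRoot ζ m)
    {a b : ℕ} : ζ ^ a = ζ ^ b ↔ a ≡ b [MOD m] := by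
  have hfin : IsOfFinOrder ζ :=
    isOfFinOrder_iff_pow_eq_one.2 ⟨m, Nat.pos_of_ne_zero hm, hζ.pow_eq_one⟩
  rw [hfin.pow_eq_pow_iff_modEq, ← hζ.eq_orderOf]

/-- **computing `χ σ mod p ^ n`**: if `σ ζ = ζ ^ k` for one primitive `p ^ n`-th root of unity
`ζ`, then `χ σ ≡ k mod p ^ n`. -/
theorem cyc58_toZModPow_chi (σ : cyc58_GQ) {n : ℕ} {ζ : cyc58_Qb}
    (hζ : IsPrimitiveRoot ζ (p ^ n)) {k : ℕ} (hk : σ ζ = ζ ^ k) :
    ((cyc58_chi p σ : ℤ_[p]ˣ) : ℤ_[p]).toZModPow n = (k : ZMod (p ^ n)) := by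
  have hpn : p ^ n ≠ 0 := pow_ne_zero n (Fact.out : p.Prime).ne_zero
  have : NeZero (p ^ n) := ⟨hpn⟩
  have h1 := cyc58_chi_spec p σ hζ.pow_eq_one
  rw [hk] at h1
  have h2 := (cyc58_pow_eq_pow_iff hpn hζ).1 h1
  have h3 : ((k : ℕ) : ZMod (p ^ n)) =
      (((((cyc58_chi p σ : ℤ_[p]ˣ) : ℤ_[p]).toZModPow n).val : ℕ) : ZMod (p ^ n)) :=
    (ZMod.natCast_eq_natCast_iff _ _ _).2 h2
  rw [h3, ZMod.natCast_zmod_val]

/-- `χ σ - k ∈ (p ^ n)` if `σ ζ = ζ ^ k` for one primitive `p ^ n`-th root of unity. -/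
theorem cyc58_chi_sub_mem (σ : cyc58_GQ) {n : ℕ} {ζ : cyc58_Qb}
    (hζ : IsPrimitiveRoot ζ (p ^ n)) {k : ℕ} (hk : σ ζ = ζ ^ k) :
    ((cyc58_chi p σ : ℤ_[p]ˣ) : ℤ_[p]) - (k : ℤ_[p]) ∈ Ideal.span {(p : ℤ_[p]) ^ n} := by
  rw [← PadicInt.ker_toZModPow, RingHom.mem_ker, map_sub, map_natCast,
    cyc58_toZModPow_chi p σ hζ hk, sub_self]

/-- two automorphisms agreeing on one primitive `p ^ n`-th root of unity have congruent
characters mod `p ^ n`. -/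
theorem cyc58_chi_sub_mem_of_eq (σ τ : cyc58_GQ) {n : ℕ} {ζ : cyc58_Qb}
    (hζ : IsPrimitiveRoot ζ (p ^ n)) (h : σ ζ = τ ζ) :
    ((cyc58_chi p σ : ℤ_[p]ˣ) : ℤ_[p]) - ((cyc58_chi p τ : ℤ_[p]ˣ) : ℤ_[p]) ∈
      Ideal.span {(p : ℤ_[p]) ^ n} := by
  have h1 := cyc58_chi_spec p τ hζ.pow_eq_one
  have h2 := cyc58_chi_sub_mem p σ hζ (h.trans h1)
  have h3 := cyc58_chi_sub_mem p τ hζ h1
  have := Ideal.sub_mem _ h2 h3
  simpa using this

/-- the value of `χ` is determined by the action on `p`-power roots of unity. -/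
theorem cyc58_chi_eq_of_forall (σ : cyc58_GQ) (a : ℤ_[p])
    (h : ∀ n : ℕ, ∃ ζ : cyc58_Qb, IsPrimitiveRoot ζ (p ^ n) ∧ ∃ k : ℕ, σ ζ = ζ ^ k ∧
      a - (k : ℤ_[p]) ∈ Ideal.span {(p : ℤ_[p]) ^ n}) :
    ((cyc58_chi p σ : ℤ_[p]ˣ) : ℤ_[p]) = a := by
  refine PadicInt.ext_of_toZModPow.1 fun n => ?_
  obtain ⟨ζ, hζ, k, hk, hak⟩ := h n
  rw [cyc58_toZModPow_chi p σ hζ hk]
  rw [← PadicInt.ker_toZModPow, RingHom.mem_ker, map_sub, map_natCast, sub_eq_zero] at hak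
  exact hak.symm

/-- **Frobenius**: `χ (Frob_ℓ) = ℓ` for `ℓ ≠ p`. -/
theorem cyc58_chi_frob {ℓ : ℕ} (hℓ : ℓ.Prime) (hℓp : ℓ ≠ p)
    (A : ValuationSubring cyc58_Qb) (hA : A.LiesOverPrime ℓ) (τ : cyc58_GQ)
    (hτ : A.IsFrobeniusAt τ ℓ) : ((cyc58_chi p τ : ℤ_[p]ˣ) : ℤ_[p]) = (ℓ : ℤ_[p]) := by
  have hp : p.Prime := Fact.out
  refine cyc58_chi_eq_of_forall p τ _ fun n => ?_
  obtain ⟨ζ, hζ⟩ := cyc58_exists_primitiveRoot p n
  have hℓn : ¬ ℓ ∣ p ^ n := by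
    intro h
    have h1 := hℓ.dvd_of_dvd_pow h
    rcases (Nat.dvd_prime hp).1 h1 with h2 | h2
    · exact hℓ.one_lt.ne' h2
    · exact hℓp h2
  exact ⟨ζ, hζ, ℓ, Fermat.Agent.S41x.brcy_frobenius_apply_root hℓ hℓn A hA τ hτ hζ, by simp⟩

/-- **inertia**: `χ σ = 1` for `σ` in the inertia group at `A ∣ q`, `q ≠ p`. -/
theorem cyc58_chi_inertia {q : ℕ} (hq : q.Prime) (hqp : q ≠ p)
    (A : ValuationSubring cyc58_Qb) (hA : A.LiesOverPrime q) (σ : cyc58_GQ)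
    (hσ : σ ∈ A.inertiaSubgroupIn ℚ) : cyc58_chi p σ = 1 := by
  have hp : p.Prime := Fact.out
  apply Units.ext
  rw [Units.val_one]
  refine cyc58_chi_eq_of_forall p σ _ fun n => ?_
  obtain ⟨ζ, hζ⟩ := cyc58_exists_primitiveRoot p n
  have hqn : ¬ q ∣ p ^ n := by
    intro h
    have h1 := hq.dvd_of_dvd_pow h
    rcases (Nat.dvd_prime hp).1 h1 with h2 | h2
    · exact hq.one_lt.ne' h2
    · exact hqp h2
  refine ⟨ζ, hζ, 1, ?_, by simp⟩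
  rw [pow_one]
  exact Fermat.Agent.S42x.cyin_inertia_apply_root hqn hq A hA σ hσ hζ.pow_eq_one

/-- complex conjugation inverts roots of unity of `Qbar`. -/
theorem cyc58_conj_apply_root {m : ℕ} (hm : m ≠ 0) {ζ : cyc58_Qb} (hζ : ζ ^ m = 1) :
    complexConjugation ζ = ζ⁻¹ := by
  apply complexEmbedding.toRingHom.injective
  change complexEmbedding (complexConjugation ζ) = complexEmbedding ζ⁻¹
  rw [complexEmbedding_complexConjugation, map_inv₀]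
  have h1 : (complexEmbedding ζ) ^ m = 1 := by rw [← map_pow, hζ, map_one]
  have hnorm : ‖complexEmbedding ζ‖ = 1 := Complex.norm_eq_one_of_pow_eq_one h1 hm
  rw [Complex.inv_def, Complex.normSq_eq_norm_sq, hnorm]
  simp

/-- **complex conjugation**: `χ c = -1`. -/
theorem cyc58_chi_conj : cyc58_chi p complexConjugation = -1 := by
  have hp : p.Prime := Fact.out
  apply Units.ext
  rw [Units.val_neg, Units.val_one]
  refine cyc58_chi_eq_of_forall p complexConjugation _ fun n => ?_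
  obtain ⟨ζ, hζ⟩ := cyc58_exists_primitiveRoot p n
  have hpn : p ^ n ≠ 0 := pow_ne_zero n hp.ne_zero
  refine ⟨ζ, hζ, p ^ n - 1, ?_, ?_⟩
  · rw [cyc58_conj_apply_root hpn hζ.pow_eq_one]
    have hζ0 : ζ ≠ 0 := hζ.ne_zero hpn
    have h1 : ζ ^ (p ^ n - 1) * ζ = 1 := by
      rw [← pow_succ, Nat.sub_add_cancel (Nat.pos_of_ne_zero hpn), hζ.pow_eq_one]
    exact (eq_inv_of_mul_eq_one_left h1).symm
  · rw [Nat.cast_sub (Nat.pos_of_ne_zero hpn), Nat.cast_pow, Nat.cast_one]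
    have : (-1 : ℤ_[p]) - ((p : ℤ_[p]) ^ n - 1) = -((p : ℤ_[p]) ^ n) := by ring
    rw [this]
    exact Ideal.neg_mem_iff _ |>.2 (Ideal.mem_span_singleton_self _)

/-- the level field `ℚ(ζ_{p^n})`: finite over `ℚ`, and `χ` mod `p ^ n` only depends on the
restriction to it. -/
theorem cyc58_chi_level (n : ℕ) :
    ∃ E : IntermediateField ℚ cyc58_Qb, FiniteDimensional ℚ E ∧
      ∀ σ τ : cyc58_GQ, (∀ a ∈ E, σ a = τ a) →
        ((cyc58_chi p σ : ℤ_[p]ˣ) : ℤ_[p]) - ((cyc58_chi p τ : ℤ_[p]ˣ) : ℤ_[p]) ∈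
          Ideal.span {(p : ℤ_[p]) ^ n} := by
  obtain ⟨ζ, hζ⟩ := cyc58_exists_primitiveRoot p n
  have hpn : p ^ n ≠ 0 := pow_ne_zero n (Fact.out : p.Prime).ne_zero
  have hint : IsIntegral ℚ ζ := (hζ.isIntegral (Nat.pos_of_ne_zero hpn)).tower_top
  refine ⟨IntermediateField.adjoin ℚ {ζ}, IntermediateField.adjoin.finiteDimensional hint, ?_⟩
  intro σ τ h
  exact cyc58_chi_sub_mem_of_eq p σ τ hζ (h ζ (IntermediateField.mem_adjoin_simple_self ℚ ζ))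

/-- natural numbers are congruent mod `p ^ n` iff their images in `ℤ_[p]` are. -/
theorem cyc58_natCast_sub_mem_iff {n a b : ℕ} :
    (a : ℤ_[p]) - (b : ℤ_[p]) ∈ Ideal.span {(p : ℤ_[p]) ^ n} ↔ a ≡ b [MOD p ^ n] := by
  rw [← PadicInt.ker_toZModPow, RingHom.mem_ker, map_sub, map_natCast, map_natCast, sub_eq_zero,
    ZMod.natCast_eq_natCast_iff]

/-- powers of Frobenius lifts. -/
theorem cyc58_chi_frob_pow {ℓ : ℕ} (hℓ : ℓ.Prime) (hℓp : ℓ ≠ p)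
    (A : ValuationSubring cyc58_Qb) (hA : A.LiesOverPrime ℓ) (τ : cyc58_GQ)
    (hτ : A.IsFrobeniusAt τ ℓ) (j : ℕ) :
    ((cyc58_chi p (τ ^ j) : ℤ_[p]ˣ) : ℤ_[p]) = ((ℓ ^ j : ℕ) : ℤ_[p]) := by
  rw [map_pow, Units.val_pow_eq_pow_val, cyc58_chi_frob p hℓ hℓp A hA τ hτ, Nat.cast_pow]

/-- **congruence of Frobenius data** (consumer: S31 Step A): there is a finite level `E_n` such
that if `g = φ ^ j` and `g * σ = φ' ^ j'` on `E_n`, where `φ, φ'` are Frobenius lifts at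
`ℓ, ℓ' ≠ p` and `σ` lies in an inertia group at `q ≠ p`, then `ℓ ^ j ≡ ℓ' ^ j' mod p ^ n`. -/
theorem cyc58_level_frob_congr (n : ℕ) :
    ∃ E : IntermediateField ℚ cyc58_Qb, FiniteDimensional ℚ E ∧
      ∀ (g σ : cyc58_GQ) {q : ℕ} (_ : q.Prime) (_ : q ≠ p) (B : ValuationSubring cyc58_Qb)
        (_ : B.LiesOverPrime q) (_ : σ ∈ B.inertiaSubgroupIn ℚ)
        {ℓ : ℕ} (_ : ℓ.Prime) (_ : ℓ ≠ p) (A : ValuationSubring cyc58_Qb)
        (_ : A.LiesOverPrime ℓ) (φ : cyc58_GQ) (_ : A.IsFrobeniusAt φ ℓ) (j : ℕ)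
        {ℓ' : ℕ} (_ : ℓ'.Prime) (_ : ℓ' ≠ p) (A' : ValuationSubring cyc58_Qb)
        (_ : A'.LiesOverPrime ℓ') (φ' : cyc58_GQ) (_ : A'.IsFrobeniusAt φ' ℓ') (j' : ℕ),
        (∀ a ∈ E, g a = (φ ^ j) a) → (∀ a ∈ E, (g * σ) a = (φ' ^ j') a) →
          ℓ ^ j ≡ ℓ' ^ j' [MOD p ^ n] := by
  obtain ⟨E, hE, h⟩ := cyc58_chi_level p n
  refine ⟨E, hE, ?_⟩
  intro g σ q hq hqp B hB hσ ℓ hℓ hℓp A hA φ hφ j ℓ' hℓ' hℓ'p A' hA' φ' hφ' j' hg hgσ
  have h1 := h g (φ ^ j) hg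
  have h2 := h (g * σ) (φ' ^ j') hgσ
  rw [map_mul, cyc58_chi_inertia p hq hqp B hB σ hσ, mul_one] at h2
  rw [cyc58_chi_frob_pow p hℓ hℓp A hA φ hφ j] at h1
  rw [cyc58_chi_frob_pow p hℓ' hℓ'p A' hA' φ' hφ' j'] at h2
  rw [← cyc58_natCast_sub_mem_iff (p := p)]
  have := Ideal.sub_mem _ h2 h1
  simpa using this

end chi

/-! ### The `Oˣ`-valued character -/

section eps

variable (p : ℕ) [Fact p.Prime] {O : Type*} [CommRing O] (I : Ideal O) [IsAdicComplete I O]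
  (hp : (p : O) ∈ I)

/-- **T3**: the `p`-adic cyclotomic character of `Gal(Qbar/ℚ)` with values in `Oˣ`. -/
noncomputable def cyc58_eps : cyc58_GQ →* Oˣ :=
  (Units.map (cyc58_toO p I hp : ℤ_[p] →* O)).comp (cyc58_chi p)

theorem cyc58_eps_apply (σ : cyc58_GQ) :
    ((cyc58_eps p I hp σ : Oˣ) : O) = cyc58_toO p I hp ((cyc58_chi p σ : ℤ_[p]ˣ) : ℤ_[p]) :=
  rfl

/-- `ε σ ≡ k mod p ^ n` if `σ ζ = ζ ^ k` for one primitive `p ^ n`-th root of unity. -/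
theorem cyc58_eps_sub_mem (σ : cyc58_GQ) {n : ℕ} {ζ : cyc58_Qb}
    (hζ : IsPrimitiveRoot ζ (p ^ n)) {k : ℕ} (hk : σ ζ = ζ ^ k) :
    ((cyc58_eps p I hp σ : Oˣ) : O) - (k : O) ∈ Ideal.span {(p : O) ^ n} := by
  have h := cyc58_toO_sub_mem_span p I hp (cyc58_chi_sub_mem p σ hζ hk)
  rwa [map_natCast] at h

/-- **Frobenius**: `ε (Frob_ℓ) = ℓ` for every Frobenius lift at `A ∣ ℓ`, `ℓ ≠ p`. -/
theorem cyc58_eps_frob {ℓ : ℕ} (hℓ : ℓ.Prime) (hℓp : ℓ ≠ p)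
    (A : ValuationSubring cyc58_Qb) (hA : A.LiesOverPrime ℓ) (τ : cyc58_GQ)
    (hτ : A.IsFrobeniusAt τ ℓ) : ((cyc58_eps p I hp τ : Oˣ) : O) = (ℓ : O) := by
  rw [cyc58_eps_apply, cyc58_chi_frob p hℓ hℓp A hA τ hτ, map_natCast]

/-- powers of Frobenius lifts. -/
theorem cyc58_eps_frob_pow {ℓ : ℕ} (hℓ : ℓ.Prime) (hℓp : ℓ ≠ p)
    (A : ValuationSubring cyc58_Qb) (hA : A.LiesOverPrime ℓ) (τ : cyc58_GQ)
    (hτ : A.IsFrobeniusAt τ ℓ) (j : ℕ) :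
    ((cyc58_eps p I hp (τ ^ j) : Oˣ) : O) = (ℓ : O) ^ j := by
  rw [map_pow, Units.val_pow_eq_pow_val, cyc58_eps_frob p I hp hℓ hℓp A hA τ hτ]

/-- **inertia**: `ε σ = 1` for `σ` in the inertia group at `A ∣ q`, `q ≠ p`. -/
theorem cyc58_eps_inertia {q : ℕ} (hq : q.Prime) (hqp : q ≠ p)
    (A : ValuationSubring cyc58_Qb) (hA : A.LiesOverPrime q) (σ : cyc58_GQ)
    (hσ : σ ∈ A.inertiaSubgroupIn ℚ) : cyc58_eps p I hp σ = 1 := by
  rw [cyc58_eps, MonoidHom.comp_apply, cyc58_chi_inertia p hq hqp A hA σ hσ, map_one]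

/-- **complex conjugation**: `ε c = -1`. -/
theorem cyc58_eps_conj : cyc58_eps p I hp complexConjugation = -1 := by
  apply Units.ext
  rw [cyc58_eps_apply, cyc58_chi_conj, Units.val_neg, Units.val_one, Units.val_neg,
    Units.val_one, map_neg, map_one]

theorem cyc58_eps_conj_val : ((cyc58_eps p I hp complexConjugation : Oˣ) : O) = -1 := by
  rw [cyc58_eps_conj, Units.val_neg, Units.val_one]

/-- **finite level**: there is a finite extension `E_n = ℚ(ζ_{p^n})` of `ℚ` such that `ε σ mod p ^ n`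
only depends on `σ|E_n`. -/
theorem cyc58_eps_level (n : ℕ) :
    ∃ E : IntermediateField ℚ cyc58_Qb, FiniteDimensional ℚ E ∧
      ∀ σ τ : cyc58_GQ, (∀ a ∈ E, σ a = τ a) →
        ((cyc58_eps p I hp σ : Oˣ) : O) - ((cyc58_eps p I hp τ : Oˣ) : O) ∈
          Ideal.span {(p : O) ^ n} := by
  obtain ⟨E, hE, h⟩ := cyc58_chi_level p n
  exact ⟨E, hE, fun σ τ hστ => cyc58_toO_sub_mem_span p I hp (h σ τ hστ)⟩

/-- finite level, `I`-adic form. -/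
theorem cyc58_eps_level_pow (n : ℕ) :
    ∃ E : IntermediateField ℚ cyc58_Qb, FiniteDimensional ℚ E ∧
      ∀ σ τ : cyc58_GQ, (∀ a ∈ E, σ a = τ a) →
        ((cyc58_eps p I hp σ : Oˣ) : O) - ((cyc58_eps p I hp τ : Oˣ) : O) ∈ I ^ n := by
  obtain ⟨E, hE, h⟩ := cyc58_eps_level p I hp n
  exact ⟨E, hE, fun σ τ hστ => cyc58_span_le p I hp n (h σ τ hστ)⟩

/-- finite level, trivial on `Gal(Qbar/E_n)` mod `p ^ n`. -/
theorem cyc58_eps_level_one (n : ℕ) :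
    ∃ E : IntermediateField ℚ cyc58_Qb, FiniteDimensional ℚ E ∧
      ∀ σ : cyc58_GQ, (∀ a ∈ E, σ a = a) →
        ((cyc58_eps p I hp σ : Oˣ) : O) - 1 ∈ Ideal.span {(p : O) ^ n} := by
  obtain ⟨E, hE, h⟩ := cyc58_eps_level p I hp n
  refine ⟨E, hE, fun σ hσ => ?_⟩
  have := h σ 1 (fun a ha => by rw [hσ a ha]; rfl)
  rwa [map_one, Units.val_one] at this

/-- **density shape** (consumer: the limit argument T6): on the level field `E_n`, if `g` agrees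
with the `j`-th power of a Frobenius lift `φ` at `ℓ ≠ p`, then `ε g ≡ ℓ ^ j mod p ^ n`. -/
theorem cyc58_eps_level_frob (n : ℕ) :
    ∃ E : IntermediateField ℚ cyc58_Qb, FiniteDimensional ℚ E ∧
      ∀ (g : cyc58_GQ) {ℓ : ℕ} (_ : ℓ.Prime) (_ : ℓ ≠ p) (A : ValuationSubring cyc58_Qb)
        (_ : A.LiesOverPrime ℓ) (φ : cyc58_GQ) (_ : A.IsFrobeniusAt φ ℓ) (j : ℕ),
        (∀ a ∈ E, g a = (φ ^ j) a) →
          ((cyc58_eps p I hp g : Oˣ) : O) - (ℓ : O) ^ j ∈ Ideal.span {(p : O) ^ n} := by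
  obtain ⟨E, hE, h⟩ := cyc58_eps_level p I hp n
  refine ⟨E, hE, fun g ℓ hℓ hℓp A hA φ hφ j hg => ?_⟩
  have := h g (φ ^ j) hg
  rwa [cyc58_eps_frob_pow p I hp hℓ hℓp A hA φ hφ j] at this

/-- the `O`-valued form of `cyc58_eps`. -/
noncomputable def cyc58_epsO : cyc58_GQ →* O :=
  (Units.coeHom O).comp (cyc58_eps p I hp)

theorem cyc58_epsO_apply (σ : cyc58_GQ) :
    cyc58_epsO p I hp σ = ((cyc58_eps p I hp σ : Oˣ) : O) :=
  rfl

theorem cyc58_epsO_isUnit (σ : cyc58_GQ) : IsUnit (cyc58_epsO p I hp σ) :=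
  (cyc58_eps p I hp σ).isUnit

theorem cyc58_epsO_frob {ℓ : ℕ} (hℓ : ℓ.Prime) (hℓp : ℓ ≠ p)
    (A : ValuationSubring cyc58_Qb) (hA : A.LiesOverPrime ℓ) (τ : cyc58_GQ)
    (hτ : A.IsFrobeniusAt τ ℓ) : cyc58_epsO p I hp τ = (ℓ : O) :=
  cyc58_eps_frob p I hp hℓ hℓp A hA τ hτ

theorem cyc58_epsO_inertia {q : ℕ} (hq : q.Prime) (hqp : q ≠ p)
    (A : ValuationSubring cyc58_Qb) (hA : A.LiesOverPrime q) (σ : cyc58_GQ)
    (hσ : σ ∈ A.inertiaSubgroupIn ℚ) : cyc58_epsO p I hp σ = 1 := by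
  rw [cyc58_epsO_apply, cyc58_eps_inertia p I hp hq hqp A hA σ hσ, Units.val_one]

theorem cyc58_epsO_conj : cyc58_epsO p I hp complexConjugation = -1 :=
  cyc58_eps_conj_val p I hp

/-- finite level, trivial on `Gal(Qbar/E_n)` mod `I ^ n`. -/
theorem cyc58_eps_level_one_pow (n : ℕ) :
    ∃ E : IntermediateField ℚ cyc58_Qb, FiniteDimensional ℚ E ∧
      ∀ σ : cyc58_GQ, (∀ a ∈ E, σ a = a) → cyc58_epsO p I hp σ - 1 ∈ I ^ n := by
  obtain ⟨E, hE, h⟩ := cyc58_eps_level_one p I hp n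
  exact ⟨E, hE, fun σ hσ => cyc58_span_le p I hp n (h σ hσ)⟩

/-- density shape, `I`-adic form. -/
theorem cyc58_eps_level_frob_pow (n : ℕ) :
    ∃ E : IntermediateField ℚ cyc58_Qb, FiniteDimensional ℚ E ∧
      ∀ (g : cyc58_GQ) {ℓ : ℕ} (_ : ℓ.Prime) (_ : ℓ ≠ p) (A : ValuationSubring cyc58_Qb)
        (_ : A.LiesOverPrime ℓ) (φ : cyc58_GQ) (_ : A.IsFrobeniusAt φ ℓ) (j : ℕ),
        (∀ a ∈ E, g a = (φ ^ j) a) → cyc58_epsO p I hp g - (ℓ : O) ^ j ∈ I ^ n := by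
  obtain ⟨E, hE, h⟩ := cyc58_eps_level_frob p I hp n
  exact ⟨E, hE, fun g ℓ hℓ hℓp A hA φ hφ j hg =>
    cyc58_span_le p I hp n (h g hℓ hℓp A hA φ hφ j hg)⟩

end eps

end Fermat.Agent.S30x
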