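/-
S30 project, block T3 (p-adic cyclotomic character), helper63, prefix `cyl63_`.
INSURANCE TWIN of helper58's `CycAdic58` with a different design: no `ℤ_[p]`, no lifting of ring
homomorphisms.  For a commutative ring `O` with an ideal `I`, `[IsAdicComplete I O]` and `(p : O) ∈ I`
the character is the `I`-adic limit of the natural numbers

  `k_n(σ) := val (fin_omega0 (p ^ n) σ)`      (`σ ζ = ζ ^ k_n(σ)` on primitive `p ^ n`-th roots of unity).

Exports (`G_ℚ = AlgebraicClosure ℚ ≃ₐ[ℚ] AlgebraicClosure ℚ`):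

* `cyl63_eps p I hpI : G_ℚ →* O`, `cyl63_epsUnits p I hpI : G_ℚ →* Oˣ`;
* `cyl63_eps_spec` : `ζ` primitive `p ^ n`-th root, `σ ζ = ζ ^ k` ⟹ `eps σ - k ∈ I ^ n`;
* `cyl63_eps_frob` : `eps σ = ℓ` for every Frobenius lift `σ` at `A ∣ ℓ`, `ℓ ≠ p`;
* `cyl63_eps_inertia` : `eps σ = 1` for `σ` in the inertia group at `P ∣ q`, `q ≠ p`;
* `cyl63_eps_conj` : `eps complexConjugation = -1` (and `complexConjugation * complexConjugation = 1`
  is `complexConjugation_mul_self` of the Prelude); `cyl63_exists_conj`;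
* `cyl63_eps_level` : for every `n` a finite extension `E_n = ℚ(ζ_{p^n})` of `ℚ` with
  `σ|E_n = 1 ⟹ eps σ - 1 ∈ I ^ n`; `cyl63_eps_congr` (`g⁻¹ φ^j` fixes `E_n` ⟹ `eps g - eps φ ^ j ∈ I ^ n`).
-/
import Mathlib
import Fermat.Prelude.Def_GaloisRep_ComplexConjugation
import Fermat.Agent.S41x.BridgeCyc
import Fermat.Agent.S42x.InertiaCyc
import Fermat.Agent.S42x.FinOmega

set_option autoImplicit false

namespace Fermat.Agent.S30x

open Fermat.Agent.S42x Fermat.Agent.S41x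

/-! ### Level `n` exponents -/

/-- the exponent of `σ` on primitive `p ^ n`-th roots of unity, as a natural number `< p ^ n`. -/
noncomputable def cyl63_k (p : ℕ) [NeZero p] (n : ℕ) (σ : fin_GQ) : ℕ :=
  ((fin_omega0 (p ^ n) σ : (ZMod (p ^ n))ˣ) : ZMod (p ^ n)).val

theorem cyl63_k_spec (p : ℕ) [NeZero p] (n : ℕ) (σ : fin_GQ) {ζ : fin_Qb}
    (hζ : IsPrimitiveRoot ζ (p ^ n)) : σ ζ = ζ ^ cyl63_k p n σ :=
  fin_omega0_spec (p ^ n) σ hζ

/-- characterisation of the exponent mod `p ^ n`. -/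
theorem cyl63_modEq_k (p : ℕ) [NeZero p] (n : ℕ) (σ : fin_GQ) {ζ : fin_Qb}
    (hζ : IsPrimitiveRoot ζ (p ^ n)) {k : ℕ} (hk : σ ζ = ζ ^ k) :
    k ≡ cyl63_k p n σ [MOD p ^ n] := by
  rw [← fin_pow_eq_pow_iff hζ, ← hk, cyl63_k_spec p n σ hζ]

theorem cyl63_k_one (p : ℕ) [NeZero p] (n : ℕ) : 1 ≡ cyl63_k p n 1 [MOD p ^ n] := by
  obtain ⟨ζ, hζ⟩ := fin_exists_primitiveRoot (p ^ n)
  apply cyl63_modEq_k p n 1 hζ
  rw [pow_one]
  rfl

theorem cyl63_k_mul (p : ℕ) [NeZero p] (n : ℕ) (σ τ : fin_GQ) :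
    cyl63_k p n σ * cyl63_k p n τ ≡ cyl63_k p n (σ * τ) [MOD p ^ n] := by
  obtain ⟨ζ, hζ⟩ := fin_exists_primitiveRoot (p ^ n)
  apply cyl63_modEq_k p n (σ * τ) hζ
  rw [AlgEquiv.mul_apply, cyl63_k_spec p n τ hζ, map_pow, cyl63_k_spec p n σ hζ, ← pow_mul]

/-- compatibility of the exponents in the tower. -/
theorem cyl63_k_compat (p : ℕ) [NeZero p] {m n : ℕ} (hmn : m ≤ n) (σ : fin_GQ) :
    cyl63_k p n σ ≡ cyl63_k p m σ [MOD p ^ m] := by
  obtain ⟨ζ, hζ⟩ := fin_exists_primitiveRoot (p ^ n)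
  have hpos : 0 < p ^ n := Nat.pos_of_ne_zero (NeZero.ne _)
  have hprod : p ^ n = p ^ (n - m) * p ^ m := by
    rw [← pow_add, Nat.sub_add_cancel hmn]
  have hζ' : IsPrimitiveRoot (ζ ^ p ^ (n - m)) (p ^ m) := hζ.pow hpos hprod
  apply cyl63_modEq_k p m σ hζ'
  rw [map_pow, cyl63_k_spec p n σ hζ, ← pow_mul, ← pow_mul, mul_comm]

/-! ### The limit -/

section limit

variable {O : Type*} [CommRing O]

theorem cyl63_smul_top (I : Ideal O) (n : ℕ) : (I ^ n • (⊤ : Submodule O O)) = I ^ n := by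
  rw [smul_eq_mul, Ideal.mul_top]

/-- congruent natural numbers have congruent images. -/
theorem cyl63_cast_sub_mem {p : ℕ} (I : Ideal O) (hpI : (p : O) ∈ I) {n a b : ℕ}
    (h : a ≡ b [MOD p ^ n]) : (a : O) - (b : O) ∈ I ^ n := by
  have h1 : ((p ^ n : ℕ) : ℤ) ∣ (b : ℤ) - (a : ℤ) := (Nat.modEq_iff_dvd.1 h)
  obtain ⟨t, ht⟩ := h1
  have h2 : (a : O) - (b : O) = (p : O) ^ n * (-(t : O)) := by
    have h3 : ((b : ℤ) : O) - ((a : ℤ) : O) = (((p ^ n : ℕ) : ℤ) : O) * (t : O) := by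
      rw [← Int.cast_sub, ht, Int.cast_mul]
    push_cast at h3
    linear_combination -h3
  rw [h2]
  exact Ideal.mul_mem_right _ _ (Ideal.pow_mem_pow hpI n)

theorem cyl63_eq_of_forall_mem (I : Ideal O) [IsHausdorff I O] {x y : O}
    (h : ∀ n, x - y ∈ I ^ n) : x = y := by
  rw [IsHausdorff.eq_iff_smodEq (I := I)]
  intro n
  rw [SModEq.sub_mem, cyl63_smul_top]
  exact h n

variable (p : ℕ) [NeZero p] (I : Ideal O) [IsAdicComplete I O] (hpI : (p : O) ∈ I)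

include hpI in
theorem cyl63_exists_limit (σ : fin_GQ) :
    ∃ L : O, ∀ n, L - (cyl63_k p n σ : O) ∈ I ^ n := by
  have hprec : IsPrecomplete I O := inferInstance
  obtain ⟨L, hL⟩ := hprec.prec (f := fun n => (cyl63_k p n σ : O)) (by
    intro m n hmn
    rw [SModEq.sub_mem, cyl63_smul_top]
    exact cyl63_cast_sub_mem I hpI (cyl63_k_compat p hmn σ).symm)
  refine ⟨L, fun n => ?_⟩
  have h := hL n
  rw [SModEq.sub_mem, cyl63_smul_top] at h
  have h2 : L - (cyl63_k p n σ : O) = -((cyl63_k p n σ : O) - L) := by ring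
  rw [h2]
  exact (I ^ n).neg_mem h

/-- the value of the `p`-adic cyclotomic character in `O`. -/
noncomputable def cyl63_epsFun (σ : fin_GQ) : O :=
  Classical.choose (cyl63_exists_limit p I hpI σ)

theorem cyl63_epsFun_sub_mem (σ : fin_GQ) (n : ℕ) :
    cyl63_epsFun p I hpI σ - (cyl63_k p n σ : O) ∈ I ^ n :=
  Classical.choose_spec (cyl63_exists_limit p I hpI σ) n

theorem cyl63_epsFun_eq_of (σ : fin_GQ) (x : O)
    (h : ∀ n, x - (cyl63_k p n σ : O) ∈ I ^ n) : cyl63_epsFun p I hpI σ = x := by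
  apply cyl63_eq_of_forall_mem I
  intro n
  have h1 := cyl63_epsFun_sub_mem p I hpI σ n
  have h2 : cyl63_epsFun p I hpI σ - x =
      (cyl63_epsFun p I hpI σ - (cyl63_k p n σ : O)) - (x - (cyl63_k p n σ : O)) := by ring
  rw [h2]
  exact (I ^ n).sub_mem h1 (h n)

/-- **the `p`-adic cyclotomic character** `G_ℚ →* O`. -/
noncomputable def cyl63_eps : fin_GQ →* O where
  toFun := cyl63_epsFun p I hpI
  map_one' := by
    apply cyl63_epsFun_eq_of
    intro n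
    have h := cyl63_cast_sub_mem (O := O) I hpI (cyl63_k_one p n)
    simpa using h
  map_mul' σ τ := by
    apply cyl63_epsFun_eq_of
    intro n
    have h1 := cyl63_cast_sub_mem (O := O) I hpI (cyl63_k_mul p n σ τ)
    have hσ := cyl63_epsFun_sub_mem p I hpI σ n
    have hτ := cyl63_epsFun_sub_mem p I hpI τ n
    have h2 : cyl63_epsFun p I hpI σ * cyl63_epsFun p I hpI τ - (cyl63_k p n (σ * τ) : O) =
        (cyl63_epsFun p I hpI σ - (cyl63_k p n σ : O)) * cyl63_epsFun p I hpI τ +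
        (cyl63_k p n σ : O) * (cyl63_epsFun p I hpI τ - (cyl63_k p n τ : O)) +
        (((cyl63_k p n σ * cyl63_k p n τ : ℕ) : O) - (cyl63_k p n (σ * τ) : O)) := by
      push_cast
      ring
    rw [h2]
    exact (I ^ n).add_mem ((I ^ n).add_mem (Ideal.mul_mem_right _ _ hσ)
      (Ideal.mul_mem_left _ _ hτ)) h1

theorem cyl63_eps_apply (σ : fin_GQ) : cyl63_eps p I hpI σ = cyl63_epsFun p I hpI σ := rfl

/-- the units version. -/
noncomputable def cyl63_epsUnits : fin_GQ →* Oˣ := (cyl63_eps p I hpI).toHomUnits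

theorem cyl63_epsUnits_val (σ : fin_GQ) :
    ((cyl63_epsUnits p I hpI σ : Oˣ) : O) = cyl63_eps p I hpI σ := rfl

theorem cyl63_eps_sub_k_mem (σ : fin_GQ) (n : ℕ) :
    cyl63_eps p I hpI σ - (cyl63_k p n σ : O) ∈ I ^ n :=
  cyl63_epsFun_sub_mem p I hpI σ n

/-- **SPEC**: if `σ ζ = ζ ^ k` on a primitive `p ^ n`-th root of unity then `eps σ ≡ k` mod `I ^ n`. -/
theorem cyl63_eps_spec (σ : fin_GQ) (n : ℕ) {ζ : fin_Qb} (hζ : IsPrimitiveRoot ζ (p ^ n)) {k : ℕ}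
    (hk : σ ζ = ζ ^ k) : cyl63_eps p I hpI σ - (k : O) ∈ I ^ n := by
  have h1 := cyl63_eps_sub_k_mem p I hpI σ n
  have h2 := cyl63_cast_sub_mem (O := O) I hpI (cyl63_modEq_k p n σ hζ hk)
  have h3 : cyl63_eps p I hpI σ - (k : O) =
      (cyl63_eps p I hpI σ - (cyl63_k p n σ : O)) - ((k : O) - (cyl63_k p n σ : O)) := by ring
  rw [h3]
  exact (I ^ n).sub_mem h1 h2

/-- determination of the value: if for every `n` there is a primitive `p ^ n`-th root of unity on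
which `σ` acts as `ζ ↦ ζ ^ k`, then `eps σ = k`. -/
theorem cyl63_eps_eq_natCast (σ : fin_GQ) (k : ℕ)
    (h : ∀ n, ∃ ζ : fin_Qb, IsPrimitiveRoot ζ (p ^ n) ∧ σ ζ = ζ ^ k) :
    cyl63_eps p I hpI σ = (k : O) := by
  apply cyl63_eq_of_forall_mem I
  intro n
  obtain ⟨ζ, hζ, hk⟩ := h n
  exact cyl63_eps_spec p I hpI σ n hζ hk

/-- **(3) Frobenius value**: `eps σ = ℓ` for every Frobenius lift at `A ∣ ℓ`, `ℓ ∤ p`. -/
theorem cyl63_eps_frob_of_not_dvd {ℓ : ℕ} (hℓ : ℓ.Prime) (hℓp : ¬ ℓ ∣ p)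
    (A : ValuationSubring fin_Qb) (hA : A.LiesOverPrime ℓ) (σ : fin_GQ)
    (hσ : A.IsFrobeniusAt σ ℓ) : cyl63_eps p I hpI σ = (ℓ : O) := by
  apply cyl63_eps_eq_natCast
  intro n
  obtain ⟨ζ, hζ⟩ := fin_exists_primitiveRoot (p ^ n)
  have hℓn : ¬ ℓ ∣ p ^ n := fun h => hℓp (hℓ.dvd_of_dvd_pow h)
  exact ⟨ζ, hζ, brcy_frobenius_apply_root hℓ hℓn A hA σ hσ hζ⟩

/-- **(4) inertia**: `eps σ = 1` for `σ` in the inertia group at `P ∣ q`, `q ∤ p`. -/
theorem cyl63_eps_inertia_of_not_dvd {q : ℕ} (hq : q.Prime) (hqp : ¬ q ∣ p)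
    (P : ValuationSubring fin_Qb) (hP : P.LiesOverPrime q) (σ : fin_GQ)
    (hσ : σ ∈ P.inertiaSubgroupIn ℚ) : cyl63_eps p I hpI σ = 1 := by
  have h : cyl63_eps p I hpI σ = ((1 : ℕ) : O) := by
    apply cyl63_eps_eq_natCast
    intro n
    obtain ⟨ζ, hζ⟩ := fin_exists_primitiveRoot (p ^ n)
    have hqn : ¬ q ∣ p ^ n := fun h => hqp (hq.dvd_of_dvd_pow h)
    refine ⟨ζ, hζ, ?_⟩
    rw [pow_one]
    exact icy_inertia_apply_root hq hqn P hP σ hσ hζ.pow_eq_one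
  rw [h, Nat.cast_one]

/-- **(6) level**: `σ` fixing a primitive `p ^ n`-th root of unity has `eps σ ≡ 1` mod `I ^ n`. -/
theorem cyl63_eps_sub_one_mem_of_fix (σ : fin_GQ) (n : ℕ) {ζ : fin_Qb}
    (hζ : IsPrimitiveRoot ζ (p ^ n)) (hfix : σ ζ = ζ) : cyl63_eps p I hpI σ - 1 ∈ I ^ n := by
  have h := cyl63_eps_spec p I hpI σ n hζ (k := 1) (by rw [pow_one]; exact hfix)
  simpa using h

/-- **(6) level field**: a finite extension `E_n` of `ℚ` such that `σ|E_n = 1 ⟹ eps σ ≡ 1` mod `I ^ n`. -/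
theorem cyl63_eps_level (n : ℕ) :
    ∃ E : IntermediateField ℚ fin_Qb, FiniteDimensional ℚ E ∧
      ∀ σ : fin_GQ, (∀ a ∈ E, σ a = a) → cyl63_eps p I hpI σ - 1 ∈ I ^ n := by
  obtain ⟨ζ, hζ⟩ := fin_exists_primitiveRoot (p ^ n)
  have hpn : p ^ n ≠ 0 := NeZero.ne _
  have hint : IsIntegral ℚ ζ := (hζ.isIntegral (Nat.pos_of_ne_zero hpn)).tower_top
  refine ⟨IntermediateField.adjoin ℚ {ζ}, IntermediateField.adjoin.finiteDimensional hint, ?_⟩
  intro σ hσ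
  exact cyl63_eps_sub_one_mem_of_fix p I hpI σ n hζ
    (hσ ζ (IntermediateField.subset_adjoin ℚ {ζ} (Set.mem_singleton ζ)))

/-- congruence form: if `g⁻¹ * h` has `eps ≡ 1` mod `I ^ n` then `eps g ≡ eps h` mod `I ^ n`. -/
theorem cyl63_eps_congr {g h : fin_GQ} {n : ℕ}
    (hgh : cyl63_eps p I hpI (g⁻¹ * h) - 1 ∈ I ^ n) :
    cyl63_eps p I hpI h - cyl63_eps p I hpI g ∈ I ^ n := by
  have h1 : h = g * (g⁻¹ * h) := by group
  have h2 : cyl63_eps p I hpI h - cyl63_eps p I hpI g =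
      cyl63_eps p I hpI g * (cyl63_eps p I hpI (g⁻¹ * h) - 1) := by
    conv_lhs => rw [h1, map_mul]
    ring
  rw [h2]
  exact Ideal.mul_mem_left _ _ hgh

/-- the density shape: `g⁻¹ φ ^ j` trivial on `E_n` ⟹ `eps g ≡ eps φ ^ j` mod `I ^ n`. -/
theorem cyl63_eps_level_pow (n : ℕ) :
    ∃ E : IntermediateField ℚ fin_Qb, FiniteDimensional ℚ E ∧
      ∀ (g φ : fin_GQ) (j : ℕ), (∀ a ∈ E, (g⁻¹ * φ ^ j) a = a) →
        cyl63_eps p I hpI g - cyl63_eps p I hpI φ ^ j ∈ I ^ n := by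
  obtain ⟨E, hE, h⟩ := cyl63_eps_level p I hpI n
  refine ⟨E, hE, fun g φ j hfix => ?_⟩
  have h1 := cyl63_eps_congr p I hpI (h _ hfix)
  rw [map_pow] at h1
  have h2 : cyl63_eps p I hpI g - cyl63_eps p I hpI φ ^ j =
      -(cyl63_eps p I hpI φ ^ j - cyl63_eps p I hpI g) := by ring
  rw [h2]
  exact (I ^ n).neg_mem h1

end limit

/-! ### Complex conjugation -/

/-- complex conjugation inverts roots of unity. -/
theorem cyl63_conj_root {ζ : fin_Qb} {m : ℕ} (hm : m ≠ 0) (hζ : ζ ^ m = 1) :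
    complexConjugation ζ = ζ⁻¹ := by
  have hinj : Function.Injective complexEmbedding := complexEmbedding.toRingHom.injective
  apply hinj
  rw [complexEmbedding_complexConjugation, map_inv₀]
  have h1 : (complexEmbedding ζ) ^ m = 1 := by rw [← map_pow, hζ, map_one]
  have h2 : ‖complexEmbedding ζ‖ = 1 := Complex.norm_eq_one_of_pow_eq_one h1 hm
  exact (Complex.inv_eq_conj h2).symm

section conj

variable {O : Type*} [CommRing O]
variable (p : ℕ) [NeZero p] (I : Ideal O) [IsAdicComplete I O] (hpI : (p : O) ∈ I)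

/-- **(5)**: `eps (complex conjugation) = -1`. -/
theorem cyl63_eps_conj : cyl63_eps p I hpI complexConjugation = -1 := by
  apply cyl63_eq_of_forall_mem I
  intro n
  obtain ⟨ζ, hζ⟩ := fin_exists_primitiveRoot (p ^ n)
  have hpn : p ^ n ≠ 0 := NeZero.ne _
  have hpos : 1 ≤ p ^ n := Nat.one_le_iff_ne_zero.2 hpn
  have hk : complexConjugation ζ = ζ ^ (p ^ n - 1) := by
    rw [cyl63_conj_root hpn hζ.pow_eq_one]
    have hζ0 : ζ ≠ 0 := hζ.ne_zero hpn
    apply mul_left_cancel₀ hζ0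
    rw [mul_inv_cancel₀ hζ0, ← pow_succ', Nat.sub_add_cancel hpos, hζ.pow_eq_one]
  have h := cyl63_eps_spec p I hpI complexConjugation n hζ hk
  have h2 : cyl63_eps p I hpI complexConjugation - (-1) =
      (cyl63_eps p I hpI complexConjugation - ((p ^ n - 1 : ℕ) : O)) + (p : O) ^ n := by
    rw [Nat.cast_sub hpos]
    push_cast
    ring
  rw [h2]
  exact (I ^ n).add_mem h (Ideal.pow_mem_pow hpI n)

/-- **(5)** in existential form. -/
theorem cyl63_exists_conj :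
    ∃ c : fin_GQ, c * c = 1 ∧ cyl63_eps p I hpI c = -1 :=
  ⟨complexConjugation, complexConjugation_mul_self, cyl63_eps_conj p I hpI⟩

end conj

/-! ### The prime case (the shapes of the S30 contract) -/

section prime

variable {O : Type*} [CommRing O]
variable (p : ℕ) [NeZero p] (I : Ideal O) [IsAdicComplete I O] (hpI : (p : O) ∈ I)

/-- **(3)** for a prime `p` and `ℓ ≠ p`. -/
theorem cyl63_eps_frob (hp : p.Prime) {ℓ : ℕ} (hℓ : ℓ.Prime) (hℓp : ℓ ≠ p)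
    (A : ValuationSubring fin_Qb) (hA : A.LiesOverPrime ℓ) (σ : fin_GQ)
    (hσ : A.IsFrobeniusAt σ ℓ) : cyl63_eps p I hpI σ = (ℓ : O) :=
  cyl63_eps_frob_of_not_dvd p I hpI hℓ
    (fun h => hℓp ((Nat.prime_dvd_prime_iff_eq hℓ hp).1 h)) A hA σ hσ

/-- **(4)** for a prime `p` and `q ≠ p`. -/
theorem cyl63_eps_inertia (hp : p.Prime) {q : ℕ} (hq : q.Prime) (hqp : q ≠ p)
    (P : ValuationSubring fin_Qb) (hP : P.LiesOverPrime q) (σ : fin_GQ)
    (hσ : σ ∈ P.inertiaSubgroupIn ℚ) : cyl63_eps p I hpI σ = 1 :=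
  cyl63_eps_inertia_of_not_dvd p I hpI hq
    (fun h => hqp ((Nat.prime_dvd_prime_iff_eq hq hp).1 h)) P hP σ hσ

include hpI in
/-- **T3 in one statement** (the shape consumed by the S30 TOP): a character `ε : G_ℚ →* O` with
Frobenius values `ℓ`, trivial on inertia away from `p`, `ε(c) = -1` for an involution `c`, and
trivial mod `I ^ n` on the absolute Galois group of a number field `E_n`. -/
theorem cyl63_exists_eps (hp : p.Prime) :
    ∃ ε : fin_GQ →* O,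
      (∀ ℓ : ℕ, ℓ.Prime → ℓ ≠ p → ∀ A : ValuationSubring fin_Qb, A.LiesOverPrime ℓ →
        ∀ σ : fin_GQ, A.IsFrobeniusAt σ ℓ → ε σ = (ℓ : O)) ∧
      (∀ q : ℕ, q.Prime → q ≠ p → ∀ P : ValuationSubring fin_Qb, P.LiesOverPrime q →
        ∀ σ ∈ P.inertiaSubgroupIn ℚ, ε σ = 1) ∧
      (∃ c : fin_GQ, c * c = 1 ∧ ε c = -1) ∧
      (∀ n : ℕ, ∃ E : IntermediateField ℚ fin_Qb, FiniteDimensional ℚ E ∧
        ∀ σ : fin_GQ, (∀ a ∈ E, σ a = a) → ε σ - 1 ∈ I ^ n) :=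
  ⟨cyl63_eps p I hpI,
    fun _ hℓ hℓp A hA σ hσ => cyl63_eps_frob p I hpI hp hℓ hℓp A hA σ hσ,
    fun _ hq hqp P hP σ hσ => cyl63_eps_inertia p I hpI hp hq hqp P hP σ hσ,
    cyl63_exists_conj p I hpI,
    fun n => cyl63_eps_level p I hpI n⟩

end prime

end Fermat.Agent.S30x
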