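/-
S30 project, block T3 (TWIN by helper29, prefix `cyl29_`): the `p`-adic cyclotomic character of
`G_ℚ = Gal(ℚ̄/ℚ)` with values in a ring `O` which is complete for an ideal `I ∋ p`, constructed
DIRECTLY as the `I`-adic limit of the integer exponents of the mod `p ^ n` cyclotomic characters
(no `ℤ_[p]`, no lifting of ring homomorphisms).

Part A (any modulus `N ≠ 0`): `cyl29_val N σ : ℕ` with `σ ζ = ζ ^ cyl29_val N σ` on primitive `N`-th
roots of unity, multiplicativity, change of modulus, Frobenius value, inertia, complex conjugation,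
finite level.

Part B: `cyl29_epsO p I hp : G_ℚ →* O`, `cyl29_eps : G_ℚ →* Oˣ`, with
* `cyl29_eps_spec`    : `ε σ - cyl29_val (p ^ n) σ ∈ I ^ n`, and `ε σ - k ∈ I ^ n` if `σ ζ = ζ ^ k`;
* `cyl29_eps_frob`    : `ε τ = ℓ` for a Frobenius lift at `ℓ ≠ p`;
* `cyl29_eps_inertia` : `ε σ = 1` on inertia at `q ≠ p`;
* `cyl29_eps_conj`    : `ε c = -1` for the complex conjugation;
* `cyl29_eps_level`   : a number field `E_n` with `σ = τ` on `E_n ⟹ ε σ - ε τ ∈ I ^ n`.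
-/
import Mathlib
import Fermat.Prelude.Def_GaloisRep_ComplexConjugation
import Fermat.Agent.S42x.FinOmega
import Fermat.Agent.S42x.InertiaCyc

set_option autoImplicit false

namespace Fermat.Agent.S30x

open Fermat.Agent.S42x Fermat.Agent.S41x ValuationSubring

/-! ## Part A: the exponent of the mod `N` cyclotomic character -/

section partA

variable (N : ℕ) [NeZero N]

/-- the exponent `k ∈ [0, N)` with `σ ζ = ζ ^ k` on `N`-th roots of unity. -/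
noncomputable def cyl29_val (σ : fin_GQ) : ℕ := ((fin_omega0 N σ : (ZMod N)ˣ) : ZMod N).val

variable {N}

theorem cyl29_apply (σ : fin_GQ) {ζ : fin_Qb} (hζ : IsPrimitiveRoot ζ N) :
    σ ζ = ζ ^ cyl29_val N σ := fin_omega0_spec N σ hζ

/-- characterisation of the exponent modulo `N`. -/
theorem cyl29_modEq_iff (σ : fin_GQ) {ζ : fin_Qb} (hζ : IsPrimitiveRoot ζ N) (k : ℕ) :
    σ ζ = ζ ^ k ↔ k ≡ cyl29_val N σ [MOD N] := by
  rw [cyl29_apply σ hζ, eq_comm, fin_pow_eq_pow_iff hζ]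

theorem cyl29_val_mul (σ τ : fin_GQ) :
    cyl29_val N σ * cyl29_val N τ ≡ cyl29_val N (σ * τ) [MOD N] := by
  obtain ⟨ζ, hζ⟩ := fin_exists_primitiveRoot N
  rw [← cyl29_modEq_iff (σ * τ) hζ]
  show σ (τ ζ) = _
  rw [cyl29_apply τ hζ, map_pow, cyl29_apply σ hζ, ← pow_mul]

theorem cyl29_val_one : 1 ≡ cyl29_val N (1 : fin_GQ) [MOD N] := by
  obtain ⟨ζ, hζ⟩ := fin_exists_primitiveRoot N
  rw [← cyl29_modEq_iff 1 hζ, pow_one]
  rfl

/-- change of modulus. -/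
theorem cyl29_val_of_dvd {d : ℕ} [NeZero d] (hd : d ∣ N) (σ : fin_GQ) :
    cyl29_val N σ ≡ cyl29_val d σ [MOD d] := by
  obtain ⟨ζ, hζ⟩ := fin_exists_primitiveRoot N
  obtain ⟨e, rfl⟩ := hd
  have hζd : IsPrimitiveRoot (ζ ^ e) d :=
    hζ.pow (Nat.pos_of_ne_zero (NeZero.ne _)) (mul_comm d e)
  rw [← cyl29_modEq_iff σ hζd, map_pow, cyl29_apply σ hζ, ← pow_mul, ← pow_mul, mul_comm]

/-- a Frobenius lift at `ℓ ∤ N` has exponent `ℓ`. -/
theorem cyl29_val_frob {ℓ : ℕ} (hℓ : ℓ.Prime) (hℓN : ¬ ℓ ∣ N)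
    (A : ValuationSubring fin_Qb) (hA : A.LiesOverPrime ℓ) (τ : fin_GQ)
    (hτ : A.IsFrobeniusAt τ ℓ) : ℓ ≡ cyl29_val N τ [MOD N] := by
  obtain ⟨ζ, hζ⟩ := fin_exists_primitiveRoot N
  rw [← cyl29_modEq_iff τ hζ]
  exact brcy_frobenius_apply_root hℓ hℓN A hA τ hτ hζ

/-- inertia at `q ∤ N` has exponent `1`. -/
theorem cyl29_val_inertia {q : ℕ} (hq : q.Prime) (hqN : ¬ q ∣ N)
    (A : ValuationSubring fin_Qb) (hA : A.LiesOverPrime q) (σ : fin_GQ)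
    (hσ : σ ∈ A.inertiaSubgroupIn ℚ) : 1 ≡ cyl29_val N σ [MOD N] := by
  obtain ⟨ζ, hζ⟩ := fin_exists_primitiveRoot N
  rw [← cyl29_modEq_iff σ hζ, pow_one]
  exact icy_inertia_apply_root hq hqN A hA σ hσ hζ.pow_eq_one

/-- complex conjugation inverts roots of unity. -/
theorem cyl29_conj_apply {ζ : fin_Qb} {n : ℕ} (hn : n ≠ 0) (hζ : ζ ^ n = 1) :
    complexConjugation ζ = ζ⁻¹ := by
  apply complexEmbedding.toRingHom.injective
  show complexEmbedding (complexConjugation ζ) = complexEmbedding ζ⁻¹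
  rw [complexEmbedding_complexConjugation, map_inv₀]
  have h1 : (complexEmbedding ζ) ^ n = 1 := by rw [← map_pow, hζ, map_one]
  exact (Complex.inv_eq_conj (Complex.norm_eq_one_of_pow_eq_one h1 hn)).symm

/-- complex conjugation has exponent `-1`. -/
theorem cyl29_val_conj : cyl29_val N complexConjugation + 1 ≡ 0 [MOD N] := by
  obtain ⟨ζ, hζ⟩ := fin_exists_primitiveRoot N
  have hN : N ≠ 0 := NeZero.ne N
  have h1 := cyl29_apply complexConjugation hζ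
  rw [cyl29_conj_apply hN hζ.pow_eq_one] at h1
  have h2 : ζ ^ (cyl29_val N complexConjugation + 1) = ζ ^ 0 := by
    rw [pow_succ, ← h1, inv_mul_cancel₀ (hζ.ne_zero hN), pow_zero]
  exact (fin_pow_eq_pow_iff hζ).1 h2

/-- finite level: the exponent only depends on the restriction to `ℚ(ζ_N)`. -/
theorem cyl29_val_level :
    ∃ E : IntermediateField ℚ fin_Qb, FiniteDimensional ℚ E ∧
      ∀ σ τ : fin_GQ, (∀ a ∈ E, σ a = τ a) → cyl29_val N σ = cyl29_val N τ := by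
  obtain ⟨ζ, hζ⟩ := fin_exists_primitiveRoot N
  have hN : N ≠ 0 := NeZero.ne N
  have hint : IsIntegral ℚ ζ := (hζ.isIntegral (Nat.pos_of_ne_zero hN)).tower_top
  refine ⟨IntermediateField.adjoin ℚ {ζ}, IntermediateField.adjoin.finiteDimensional hint, ?_⟩
  intro σ τ h
  have h1 : σ ζ = τ ζ := h ζ (IntermediateField.mem_adjoin_simple_self ℚ ζ)
  rw [cyl29_apply τ hζ] at h1
  have h2 := (cyl29_modEq_iff σ hζ _).1 h1
  have hlt : ∀ ρ : fin_GQ, cyl29_val N ρ < N := fun ρ => ZMod.val_lt _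
  exact (Nat.ModEq.eq_of_lt_of_lt h2 (hlt τ) (hlt σ)).symm

end partA

/-! ## Part B: the limit in a complete ring -/

section partB

variable {O : Type*} [CommRing O] (p : ℕ) [hpf : Fact p.Prime] (I : Ideal O)

omit hpf in
/-- congruent naturals have congruent images. -/
theorem cyl29_cast_sub_mem (hp : (p : O) ∈ I) {x y n : ℕ} (h : x ≡ y [MOD p ^ n]) :
    (x : O) - (y : O) ∈ I ^ n := by
  have h1 : ((p ^ n : ℕ) : ℤ) ∣ (y : ℤ) - (x : ℤ) := (Nat.modEq_iff_dvd.mp h)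
  obtain ⟨k, hk⟩ := h1
  have h2 : (x : O) - (y : O) = (p : O) ^ n * (-(k : O)) := by
    have h3 : ((y : ℤ) - (x : ℤ) : ℤ) = ((p ^ n : ℕ) : ℤ) * k := hk
    have h4 := congrArg (fun z : ℤ => (z : O)) h3
    push_cast at h4
    linear_combination -h4
  rw [h2]
  exact Ideal.mul_mem_right _ _ (Ideal.pow_mem_pow hp n)

instance cyl29_neZero_pow (n : ℕ) : NeZero (p ^ n) := ⟨pow_ne_zero n hpf.out.ne_zero⟩

/-- the `n`-th approximation of `ε σ`. -/
noncomputable def cyl29_approx (n : ℕ) (σ : fin_GQ) : O := ((cyl29_val (p ^ n) σ : ℕ) : O)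

variable {p I}

theorem cyl29_approx_cauchy (hp : (p : O) ∈ I) (σ : fin_GQ) {m n : ℕ} (hmn : m ≤ n) :
    cyl29_approx (O := O) p m σ ≡ cyl29_approx p n σ [SMOD (I ^ m • ⊤ : Submodule O O)] := by
  rw [SModEq.sub_mem, smul_eq_mul, Ideal.mul_top]
  apply cyl29_cast_sub_mem p I hp
  exact (cyl29_val_of_dvd (pow_dvd_pow p hmn) σ).symm

variable (p I)

/-- **the `p`-adic cyclotomic character**, as a function. -/
noncomputable def cyl29_epsFun [IsPrecomplete I O] (hp : (p : O) ∈ I) (σ : fin_GQ) : O :=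
  Classical.choose (IsPrecomplete.prec ‹IsPrecomplete I O›
    (f := fun n => cyl29_approx (O := O) p n σ) (fun hmn => cyl29_approx_cauchy hp σ hmn))

variable {p I}

theorem cyl29_epsFun_spec [IsPrecomplete I O] (hp : (p : O) ∈ I) (σ : fin_GQ) (n : ℕ) :
    cyl29_epsFun p I hp σ - ((cyl29_val (p ^ n) σ : ℕ) : O) ∈ I ^ n := by
  have h := Classical.choose_spec (IsPrecomplete.prec ‹IsPrecomplete I O›
    (f := fun n => cyl29_approx (O := O) p n σ) (fun hmn => cyl29_approx_cauchy hp σ hmn)) n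
  rw [SModEq.sub_mem, smul_eq_mul, Ideal.mul_top] at h
  have h2 : cyl29_epsFun p I hp σ - ((cyl29_val (p ^ n) σ : ℕ) : O) =
      -(cyl29_approx (O := O) p n σ - cyl29_epsFun p I hp σ) := by
    unfold cyl29_approx; ring
  rw [h2]
  exact (Ideal.neg_mem_iff _).mpr h

/-- uniqueness of the limit. -/
theorem cyl29_epsFun_unique [IsPrecomplete I O] [IsHausdorff I O] (hp : (p : O) ∈ I) (σ : fin_GQ)
    (x : O) (hx : ∀ n, x - ((cyl29_val (p ^ n) σ : ℕ) : O) ∈ I ^ n) :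
    x = cyl29_epsFun p I hp σ := by
  rw [← sub_eq_zero]
  apply IsHausdorff.haus ‹IsHausdorff I O›
  intro n
  rw [SModEq.zero, smul_eq_mul, Ideal.mul_top]
  have h : x - cyl29_epsFun p I hp σ = (x - ((cyl29_val (p ^ n) σ : ℕ) : O)) -
      (cyl29_epsFun p I hp σ - ((cyl29_val (p ^ n) σ : ℕ) : O)) := by ring
  rw [h]
  exact Ideal.sub_mem _ (hx n) (cyl29_epsFun_spec hp σ n)

/-- `ε σ ≡ k mod I ^ n` whenever `k ≡ cyl29_val (p ^ n) σ mod p ^ n`. -/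
theorem cyl29_epsFun_sub_mem [IsPrecomplete I O] (hp : (p : O) ∈ I) (σ : fin_GQ) (n k : ℕ)
    (hk : k ≡ cyl29_val (p ^ n) σ [MOD p ^ n]) : cyl29_epsFun p I hp σ - (k : O) ∈ I ^ n := by
  have h : cyl29_epsFun p I hp σ - (k : O) =
      (cyl29_epsFun p I hp σ - ((cyl29_val (p ^ n) σ : ℕ) : O)) +
        (((cyl29_val (p ^ n) σ : ℕ) : O) - (k : O)) := by ring
  rw [h]
  exact Ideal.add_mem _ (cyl29_epsFun_spec hp σ n) (cyl29_cast_sub_mem p I hp hk.symm)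

variable (p I)

/-- **the `p`-adic cyclotomic character** `G_ℚ →* O`. -/
noncomputable def cyl29_epsO [IsAdicComplete I O] (hp : (p : O) ∈ I) : fin_GQ →* O where
  toFun := cyl29_epsFun p I hp
  map_one' := by
    symm
    apply cyl29_epsFun_unique hp
    intro n
    have := cyl29_cast_sub_mem (O := O) p I hp (cyl29_val_one (N := p ^ n))
    simpa using this
  map_mul' σ τ := by
    symm
    apply cyl29_epsFun_unique hp
    intro n
    have h1 := cyl29_epsFun_spec hp σ n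
    have h2 := cyl29_epsFun_spec hp τ n
    have h3 := cyl29_cast_sub_mem (O := O) p I hp (cyl29_val_mul (N := p ^ n) σ τ)
    rw [Nat.cast_mul] at h3
    set a := cyl29_epsFun p I hp σ
    set b := cyl29_epsFun p I hp τ
    set u : O := ((cyl29_val (p ^ n) σ : ℕ) : O)
    set v : O := ((cyl29_val (p ^ n) τ : ℕ) : O)
    have h : a * b - ((cyl29_val (p ^ n) (σ * τ) : ℕ) : O) =
        (a - u) * b + u * (b - v) + (u * v - ((cyl29_val (p ^ n) (σ * τ) : ℕ) : O)) := by ring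
    rw [h]
    exact Ideal.add_mem _ (Ideal.add_mem _ (Ideal.mul_mem_right _ _ h1)
      (Ideal.mul_mem_left _ _ h2)) h3

/-- unit-valued version. -/
noncomputable def cyl29_eps [IsAdicComplete I O] (hp : (p : O) ∈ I) : fin_GQ →* Oˣ :=
  (cyl29_epsO p I hp).toHomUnits

variable {p I}

@[simp] theorem cyl29_eps_coe [IsAdicComplete I O] (hp : (p : O) ∈ I) (σ : fin_GQ) :
    ((cyl29_eps p I hp σ : Oˣ) : O) = cyl29_epsO p I hp σ := rfl

/-- **level `n` congruence**: `ε σ ≡ cyl29_val (p ^ n) σ mod I ^ n`. -/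
theorem cyl29_eps_spec [IsAdicComplete I O] (hp : (p : O) ∈ I) (σ : fin_GQ) (n : ℕ) :
    cyl29_epsO p I hp σ - ((cyl29_val (p ^ n) σ : ℕ) : O) ∈ I ^ n :=
  cyl29_epsFun_spec hp σ n

/-- `σ ζ = ζ ^ k` on a primitive `p ^ n`-th root of unity gives `ε σ ≡ k mod I ^ n`. -/
theorem cyl29_eps_spec_root [IsAdicComplete I O] (hp : (p : O) ∈ I) (σ : fin_GQ) (n k : ℕ)
    {ζ : fin_Qb} (hζ : IsPrimitiveRoot ζ (p ^ n)) (hk : σ ζ = ζ ^ k) :
    cyl29_epsO p I hp σ - (k : O) ∈ I ^ n :=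
  cyl29_epsFun_sub_mem hp σ n k ((cyl29_modEq_iff σ hζ k).1 hk)

/-- **Frobenius value**: `ε τ = ℓ` for a Frobenius lift `τ` at `ℓ ≠ p`. -/
theorem cyl29_eps_frob [IsAdicComplete I O] (hp : (p : O) ∈ I) {ℓ : ℕ} (hℓ : ℓ.Prime)
    (hℓp : ℓ ≠ p) (A : ValuationSubring fin_Qb) (hA : A.LiesOverPrime ℓ) (τ : fin_GQ)
    (hτ : A.IsFrobeniusAt τ ℓ) : cyl29_epsO p I hp τ = (ℓ : O) := by
  symm
  apply cyl29_epsFun_unique hp
  intro n
  have hℓN : ¬ ℓ ∣ p ^ n := fun h =>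
    hℓp ((Nat.prime_dvd_prime_iff_eq hℓ hpf.out).1 (hℓ.dvd_of_dvd_pow h))
  exact cyl29_cast_sub_mem p I hp (cyl29_val_frob hℓ hℓN A hA τ hτ)

/-- **inertia**: `ε σ = 1` for `σ` in an inertia group at `q ≠ p`. -/
theorem cyl29_eps_inertia [IsAdicComplete I O] (hp : (p : O) ∈ I) {q : ℕ} (hq : q.Prime)
    (hqp : q ≠ p) (A : ValuationSubring fin_Qb) (hA : A.LiesOverPrime q) (σ : fin_GQ)
    (hσ : σ ∈ A.inertiaSubgroupIn ℚ) : cyl29_epsO p I hp σ = 1 := by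
  symm
  apply cyl29_epsFun_unique hp
  intro n
  have hqN : ¬ q ∣ p ^ n := fun h =>
    hqp ((Nat.prime_dvd_prime_iff_eq hq hpf.out).1 (hq.dvd_of_dvd_pow h))
  have := cyl29_cast_sub_mem (O := O) p I hp (cyl29_val_inertia hq hqN A hA σ hσ)
  simpa using this

/-- **complex conjugation**: `ε c = -1`. -/
theorem cyl29_eps_conj [IsAdicComplete I O] (hp : (p : O) ∈ I) :
    cyl29_epsO p I hp complexConjugation = -1 := by
  symm
  apply cyl29_epsFun_unique hp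
  intro n
  have := cyl29_cast_sub_mem (O := O) p I hp (cyl29_val_conj (N := p ^ n))
  have h : (-1 : O) - ((cyl29_val (p ^ n) complexConjugation : ℕ) : O) =
      -(((cyl29_val (p ^ n) complexConjugation + 1 : ℕ) : O) - ((0 : ℕ) : O)) := by
    push_cast; ring
  rw [h]
  exact (Ideal.neg_mem_iff _).mpr this

/-- **finite level**: a number field `E_n` such that `ε σ ≡ ε τ mod I ^ n` if `σ = τ` on `E_n`. -/
theorem cyl29_eps_level [IsAdicComplete I O] (hp : (p : O) ∈ I) (n : ℕ) :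
    ∃ E : IntermediateField ℚ fin_Qb, FiniteDimensional ℚ E ∧
      ∀ σ τ : fin_GQ, (∀ a ∈ E, σ a = τ a) →
        cyl29_epsO p I hp σ - cyl29_epsO p I hp τ ∈ I ^ n := by
  obtain ⟨E, hE, h⟩ := cyl29_val_level (N := p ^ n)
  refine ⟨E, hE, fun σ τ hστ => ?_⟩
  have h1 := cyl29_eps_spec hp σ n
  have h2 := cyl29_eps_spec hp τ n
  rw [h σ τ hστ] at h1
  have h3 : cyl29_epsO p I hp σ - cyl29_epsO p I hp τ =
      (cyl29_epsO p I hp σ - ((cyl29_val (p ^ n) τ : ℕ) : O)) -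
        (cyl29_epsO p I hp τ - ((cyl29_val (p ^ n) τ : ℕ) : O)) := by ring
  rw [h3]
  exact Ideal.sub_mem _ h1 h2

/-- density shape: if `g = φ ^ j` on `E_n` and `φ` is a Frobenius lift at `ℓ ≠ p` then
`ε g ≡ ℓ ^ j mod I ^ n`. -/
theorem cyl29_eps_level_frob [IsAdicComplete I O] (hp : (p : O) ∈ I) (n : ℕ) :
    ∃ E : IntermediateField ℚ fin_Qb, FiniteDimensional ℚ E ∧
      ∀ (g φ : fin_GQ) (j : ℕ) (ℓ : ℕ), ℓ.Prime → ℓ ≠ p →
        ∀ A : ValuationSubring fin_Qb, A.LiesOverPrime ℓ → A.IsFrobeniusAt φ ℓ →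
          (∀ a ∈ E, g a = (φ ^ j) a) → cyl29_epsO p I hp g - (ℓ : O) ^ j ∈ I ^ n := by
  obtain ⟨E, hE, h⟩ := cyl29_eps_level (O := O) hp n
  refine ⟨E, hE, fun g φ j ℓ hℓ hℓp A hA hφ hg => ?_⟩
  have h1 := h g (φ ^ j) hg
  rwa [map_pow, cyl29_eps_frob hp hℓ hℓp A hA φ hφ] at h1

/-! ### the `span {p ^ n}` forms (when some power of `I` lies in `(p)`, e.g. `O` a DVR, `I = 𝔪`) -/

omit hpf in
theorem cyl29_pow_le_span (hpow : ∃ e : ℕ, I ^ e ≤ Ideal.span {(p : O)}) (n : ℕ) :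
    ∃ k : ℕ, n ≤ k ∧ I ^ k ≤ Ideal.span {(p : O) ^ n} := by
  obtain ⟨e, he⟩ := hpow
  refine ⟨n + e * n, Nat.le_add_right _ _, ?_⟩
  calc I ^ (n + e * n) ≤ I ^ (e * n) := Ideal.pow_le_pow_right (Nat.le_add_left _ _)
    _ = (I ^ e) ^ n := pow_mul I e n
    _ ≤ Ideal.span {(p : O)} ^ n := Ideal.pow_right_mono he n
    _ = Ideal.span {(p : O) ^ n} := Ideal.span_singleton_pow _ _

theorem cyl29_eps_spec_span [IsAdicComplete I O] (hp : (p : O) ∈ I)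
    (hpow : ∃ e : ℕ, I ^ e ≤ Ideal.span {(p : O)}) (σ : fin_GQ) (n : ℕ) :
    cyl29_epsO p I hp σ - ((cyl29_val (p ^ n) σ : ℕ) : O) ∈ Ideal.span {(p : O) ^ n} := by
  obtain ⟨k, hnk, hk⟩ := cyl29_pow_le_span hpow n
  have h1 := hk (cyl29_eps_spec hp σ k)
  have h2 : ((cyl29_val (p ^ k) σ : ℕ) : O) - ((cyl29_val (p ^ n) σ : ℕ) : O) ∈
      Ideal.span {(p : O)} ^ n :=
    cyl29_cast_sub_mem p (Ideal.span {(p : O)}) (Ideal.subset_span rfl)
      (cyl29_val_of_dvd (pow_dvd_pow p hnk) σ)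
  rw [Ideal.span_singleton_pow] at h2
  have h3 : cyl29_epsO p I hp σ - ((cyl29_val (p ^ n) σ : ℕ) : O) =
      (cyl29_epsO p I hp σ - ((cyl29_val (p ^ k) σ : ℕ) : O)) +
        (((cyl29_val (p ^ k) σ : ℕ) : O) - ((cyl29_val (p ^ n) σ : ℕ) : O)) := by ring
  rw [h3]
  exact Ideal.add_mem _ h1 h2

theorem cyl29_eps_level_span [IsAdicComplete I O] (hp : (p : O) ∈ I)
    (hpow : ∃ e : ℕ, I ^ e ≤ Ideal.span {(p : O)}) (n : ℕ) :
    ∃ E : IntermediateField ℚ fin_Qb, FiniteDimensional ℚ E ∧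
      ∀ σ τ : fin_GQ, (∀ a ∈ E, σ a = τ a) →
        cyl29_epsO p I hp σ - cyl29_epsO p I hp τ ∈ Ideal.span {(p : O) ^ n} := by
  obtain ⟨E, hE, h⟩ := cyl29_val_level (N := p ^ n)
  refine ⟨E, hE, fun σ τ hστ => ?_⟩
  have h1 := cyl29_eps_spec_span hp hpow σ n
  have h2 := cyl29_eps_spec_span hp hpow τ n
  rw [h σ τ hστ] at h1
  have h3 : cyl29_epsO p I hp σ - cyl29_epsO p I hp τ =
      (cyl29_epsO p I hp σ - ((cyl29_val (p ^ n) τ : ℕ) : O)) -
        (cyl29_epsO p I hp τ - ((cyl29_val (p ^ n) τ : ℕ) : O)) := by ring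
  rw [h3]
  exact Ideal.sub_mem _ h1 h2

theorem cyl29_eps_level_frob_span [IsAdicComplete I O] (hp : (p : O) ∈ I)
    (hpow : ∃ e : ℕ, I ^ e ≤ Ideal.span {(p : O)}) (n : ℕ) :
    ∃ E : IntermediateField ℚ fin_Qb, FiniteDimensional ℚ E ∧
      ∀ (g φ : fin_GQ) (j : ℕ) (ℓ : ℕ), ℓ.Prime → ℓ ≠ p →
        ∀ A : ValuationSubring fin_Qb, A.LiesOverPrime ℓ → A.IsFrobeniusAt φ ℓ →
          (∀ a ∈ E, g a = (φ ^ j) a) →
            cyl29_epsO p I hp g - (ℓ : O) ^ j ∈ Ideal.span {(p : O) ^ n} := by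
  obtain ⟨E, hE, h⟩ := cyl29_eps_level_span (O := O) hp hpow n
  refine ⟨E, hE, fun g φ j ℓ hℓ hℓp A hA hφ hg => ?_⟩
  have h1 := h g (φ ^ j) hg
  rwa [map_pow, cyl29_eps_frob hp hℓ hℓp A hA φ hφ] at h1

/-! ### the package in the shape of the S30 TOP contract (C4) -/

/-- level `n`, trivial form: `σ` fixing `E_n` pointwise has `ε σ ≡ 1 mod I ^ n`. -/
theorem cyl29_eps_level_one [IsAdicComplete I O] (hp : (p : O) ∈ I) (n : ℕ) :
    ∃ E : IntermediateField ℚ fin_Qb, FiniteDimensional ℚ E ∧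
      ∀ σ : fin_GQ, (∀ a ∈ E, σ a = a) → cyl29_epsO p I hp σ - 1 ∈ I ^ n := by
  obtain ⟨E, hE, h⟩ := cyl29_eps_level (O := O) hp n
  refine ⟨E, hE, fun σ hσ => ?_⟩
  have h1 := h σ 1 (fun a ha => by rw [hσ a ha]; rfl)
  rwa [map_one] at h1

theorem cyl29_eps_level_one_span [IsAdicComplete I O] (hp : (p : O) ∈ I)
    (hpow : ∃ e : ℕ, I ^ e ≤ Ideal.span {(p : O)}) (n : ℕ) :
    ∃ E : IntermediateField ℚ fin_Qb, FiniteDimensional ℚ E ∧
      ∀ σ : fin_GQ, (∀ a ∈ E, σ a = a) →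
        cyl29_epsO p I hp σ - 1 ∈ Ideal.span {(p : O)} ^ n := by
  obtain ⟨E, hE, h⟩ := cyl29_eps_level_span (O := O) hp hpow n
  refine ⟨E, hE, fun σ hσ => ?_⟩
  have h1 := h σ 1 (fun a ha => by rw [hσ a ha]; rfl)
  rwa [map_one, ← Ideal.span_singleton_pow] at h1

/-- **C4 of the S30 TOP contract**, for a local ring complete for its maximal ideal. -/
theorem cyl29_contract (p : ℕ) [Fact p.Prime] (O : Type*) [CommRing O] [IsLocalRing O]
    [IsAdicComplete (IsLocalRing.maximalIdeal O) O]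
    (hp : (p : O) ∈ IsLocalRing.maximalIdeal O) :
    ∃ ε : fin_GQ →* O,
      (∀ ℓ : ℕ, ℓ.Prime → ℓ ≠ p → ∀ A : ValuationSubring fin_Qb, A.LiesOverPrime ℓ →
        ∀ σ : fin_GQ, A.IsFrobeniusAt σ ℓ → ε σ = (ℓ : O)) ∧
      (∀ q : ℕ, q.Prime → q ≠ p → ∀ P : ValuationSubring fin_Qb, P.LiesOverPrime q →
        ∀ σ ∈ P.inertiaSubgroupIn ℚ, ε σ = 1) ∧
      (∃ c : fin_GQ, c * c = 1 ∧ ε c = -1) ∧
      (∀ n : ℕ, ∃ E : IntermediateField ℚ fin_Qb, FiniteDimensional ℚ E ∧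
        ∀ σ : fin_GQ, (∀ a ∈ E, σ a = a) → ε σ - 1 ∈ IsLocalRing.maximalIdeal O ^ n) :=
  ⟨cyl29_epsO p _ hp, fun _ hℓ hℓp A hA σ hσ => cyl29_eps_frob hp hℓ hℓp A hA σ hσ,
    fun _ hq hqp P hP σ hσ => cyl29_eps_inertia hp hq hqp P hP σ hσ,
    ⟨complexConjugation, complexConjugation_mul_self, cyl29_eps_conj hp⟩,
    fun n => cyl29_eps_level_one hp n⟩

end partB

end Fermat.Agent.S30x
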