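/-
S30 project, block T2 (helper11), prefix `tsq11_`: the SEQUENCE MODEL of the `p`-adic Tate module
of an arbitrary module (Mathlib only, generic).

For a commutative ring `R`, an element `p : R` and an `R`-module `A`:
`tsq11_T p A = { x : ℕ → A | p • x 0 = 0 ∧ ∀ n, p • x (n+1) = x n }` (so `x n ∈ A[p^(n+1)]`).

* `tsq11_eval`, `tsq11_shift`, `tsq11_map` (functoriality; Galois and Hecke actions come from it);
* (V1) `tsq11_ker_eval` : `ker (eval n) = (span {p})^(n+1) • ⊤`;
* (V2) `tsq11_isAdicComplete` : `T` is `(p)`-adically complete (Hausdorff + precomplete);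
* `tsq11_torsionFree` : `p^k • x = 0 → x = 0`; `tsq11_eq_zero_of_smul` (any `a` dividing a power
  of `p`);
* (V4) `tsq11_eigen` : simultaneous eigen-submodules, saturated and stable under commuting maps;
* `tsq11_quotEval_injective` : `T ⧸ p T` embeds in `A` (in `A[p]`) via `eval 0` (finiteness
  interface for (V3)).
-/
import Mathlib

set_option autoImplicit false

namespace Fermat.Agent.S30x

open Submodule

variable {R : Type*} [CommRing R] (p : R) (A : Type*) [AddCommGroup A] [Module R A]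

/-- the sequence model of the `p`-adic Tate module of `A`. -/
def tsq11_T : Submodule R (ℕ → A) where
  carrier := {x | p • x 0 = 0 ∧ ∀ n, p • x (n + 1) = x n}
  add_mem' := by
    rintro x y ⟨hx0, hx⟩ ⟨hy0, hy⟩
    refine ⟨?_, fun n => ?_⟩
    · simp only [Pi.add_apply, smul_add, hx0, hy0, add_zero]
    · simp only [Pi.add_apply, smul_add, hx n, hy n]
  zero_mem' := ⟨by simp, fun n => by simp⟩
  smul_mem' := by
    rintro c x ⟨hx0, hx⟩
    refine ⟨?_, fun n => ?_⟩
    · simp only [Pi.smul_apply, smul_comm p c, hx0, smul_zero]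
    · simp only [Pi.smul_apply, smul_comm p c, hx n]

variable {p A}

theorem tsq11_mem_iff {x : ℕ → A} :
    x ∈ tsq11_T p A ↔ p • x 0 = 0 ∧ ∀ n, p • x (n + 1) = x n := Iff.rfl

theorem tsq11_smul_zero (x : tsq11_T p A) : p • (x : ℕ → A) 0 = 0 := x.2.1

theorem tsq11_smul_succ (x : tsq11_T p A) (n : ℕ) :
    p • (x : ℕ → A) (n + 1) = (x : ℕ → A) n := x.2.2 n

theorem tsq11_pow_smul_apply (x : tsq11_T p A) (k n : ℕ) :
    p ^ k • (x : ℕ → A) (n + k) = (x : ℕ → A) n := by
  induction k with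
  | zero => simp
  | succ k ih =>
    rw [pow_succ, mul_smul, ← add_assoc, tsq11_smul_succ, ih]

theorem tsq11_pow_smul_eq_zero (x : tsq11_T p A) (n : ℕ) :
    p ^ (n + 1) • (x : ℕ → A) n = 0 := by
  have h := tsq11_pow_smul_apply x n 0
  rw [zero_add] at h
  rw [pow_succ', mul_smul, h, tsq11_smul_zero]

theorem tsq11_ext {x y : tsq11_T p A} (h : ∀ n, (x : ℕ → A) n = (y : ℕ → A) n) : x = y :=
  Subtype.ext (funext h)

variable (p A)

/-- evaluation at the `n`-th component. -/
def tsq11_eval (n : ℕ) : tsq11_T p A →ₗ[R] A :=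
  (LinearMap.proj n).comp (tsq11_T p A).subtype

variable {p A}

@[simp] theorem tsq11_eval_apply (n : ℕ) (x : tsq11_T p A) :
    tsq11_eval p A n x = (x : ℕ → A) n := rfl

theorem tsq11_eval_mem_torsionBy (n : ℕ) (x : tsq11_T p A) :
    tsq11_eval p A n x ∈ Submodule.torsionBy R A (p ^ (n + 1)) := by
  rw [Submodule.mem_torsionBy_iff]
  exact tsq11_pow_smul_eq_zero x n

/-- (V1), existence half: an element whose `n`-th component vanishes is divisible by
`p ^ (n + 1)` in `T` (by the shifted sequence). -/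
theorem tsq11_exists_root (x : tsq11_T p A) (n : ℕ) (h : (x : ℕ → A) n = 0) :
    ∃ y : tsq11_T p A, p ^ (n + 1) • y = x := by
  refine ⟨⟨fun k => (x : ℕ → A) (k + (n + 1)), ?_, fun k => ?_⟩, ?_⟩
  · show p • (x : ℕ → A) (0 + (n + 1)) = 0
    rw [zero_add, tsq11_smul_succ, h]
  · show p • (x : ℕ → A) (k + 1 + (n + 1)) = (x : ℕ → A) (k + (n + 1))
    have : k + 1 + (n + 1) = k + (n + 1) + 1 := by ring
    rw [this, tsq11_smul_succ]
  · apply tsq11_ext
    intro k
    show p ^ (n + 1) • (x : ℕ → A) (k + (n + 1)) = (x : ℕ → A) k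
    exact tsq11_pow_smul_apply x (n + 1) k

/-- (V1), easy half. -/
theorem tsq11_eval_pow_smul (y : tsq11_T p A) (n : ℕ) :
    ((p ^ (n + 1) • y : tsq11_T p A) : ℕ → A) n = 0 := by
  show p ^ (n + 1) • (y : ℕ → A) n = 0
  exact tsq11_pow_smul_eq_zero y n

/-- **(V1)**: `ker (eval n) = (p)^(n+1) • T`. -/
theorem tsq11_ker_eval (n : ℕ) :
    LinearMap.ker (tsq11_eval p A n) =
      ((Ideal.span {p}) ^ (n + 1) • ⊤ : Submodule R (tsq11_T p A)) := by
  rw [Ideal.span_singleton_pow, Submodule.ideal_span_singleton_smul]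
  ext x
  rw [LinearMap.mem_ker, tsq11_eval_apply, Submodule.mem_smul_pointwise_iff_exists]
  constructor
  · intro h
    obtain ⟨y, hy⟩ := tsq11_exists_root x n h
    exact ⟨y, Submodule.mem_top, hy⟩
  · rintro ⟨y, -, rfl⟩
    exact tsq11_eval_pow_smul y n

theorem tsq11_mem_pow_smul_top_iff (x : tsq11_T p A) (n : ℕ) :
    x ∈ ((Ideal.span {p}) ^ (n + 1) • ⊤ : Submodule R (tsq11_T p A)) ↔ (x : ℕ → A) n = 0 := by
  rw [← tsq11_ker_eval, LinearMap.mem_ker, tsq11_eval_apply]

/-- components below a vanishing component vanish. -/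
theorem tsq11_apply_eq_zero_of_le (x : tsq11_T p A) {m n : ℕ} (hmn : m ≤ n)
    (h : (x : ℕ → A) n = 0) : (x : ℕ → A) m = 0 := by
  obtain ⟨k, rfl⟩ := Nat.exists_eq_add_of_le hmn
  rw [← tsq11_pow_smul_apply x k m, h, smul_zero]

variable (p A)

/-- **(V2a)**: `T` is `(p)`-adically Hausdorff. -/
theorem tsq11_isHausdorff : IsHausdorff (Ideal.span {p}) (tsq11_T p A) := by
  refine ⟨fun x hx => ?_⟩
  apply tsq11_ext
  intro n
  have h := hx (n + 1)
  rw [SModEq.zero] at h
  exact (tsq11_mem_pow_smul_top_iff x n).mp h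

/-- **(V2b)**: `T` is `(p)`-adically precomplete. -/
theorem tsq11_isPrecomplete : IsPrecomplete (Ideal.span {p}) (tsq11_T p A) := by
  refine ⟨fun f hf => ?_⟩
  -- consecutive terms agree on low components
  have hcomp : ∀ {m n : ℕ}, m + 1 ≤ n → ∀ k ≤ m, ((f n : tsq11_T p A) : ℕ → A) k =
      ((f (m + 1) : tsq11_T p A) : ℕ → A) k := by
    intro m n hmn k hk
    have h1 := hf hmn
    rw [SModEq.sub_mem] at h1
    have h2 := (tsq11_mem_pow_smul_top_iff (f (m + 1) - f n) m).mp h1
    have h3 := tsq11_apply_eq_zero_of_le (f (m + 1) - f n) hk h2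
    have h4 : ((f (m + 1) - f n : tsq11_T p A) : ℕ → A) k =
        ((f (m + 1) : tsq11_T p A) : ℕ → A) k - ((f n : tsq11_T p A) : ℕ → A) k := rfl
    rw [h4, sub_eq_zero] at h3
    exact h3.symm
  refine ⟨⟨fun k => ((f (k + 1) : tsq11_T p A) : ℕ → A) k, ?_, fun k => ?_⟩, fun n => ?_⟩
  · exact tsq11_smul_zero (f 1)
  · show p • ((f (k + 1 + 1) : tsq11_T p A) : ℕ → A) (k + 1) = ((f (k + 1) : tsq11_T p A) : ℕ → A) k
    rw [tsq11_smul_succ]
    exact hcomp (Nat.le_succ (k + 1)) k le_rfl
  · rcases n with _ | n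
    · rw [pow_zero, Ideal.one_eq_top, Submodule.top_smul]
      exact SModEq.top
    · rw [SModEq.sub_mem, tsq11_mem_pow_smul_top_iff]
      show ((f (n + 1) : tsq11_T p A) : ℕ → A) n - ((f (n + 1) : tsq11_T p A) : ℕ → A) n = 0
      exact sub_self _

/-- **(V2)**: `T` is `(p)`-adically complete. -/
theorem tsq11_isAdicComplete : IsAdicComplete (Ideal.span {p}) (tsq11_T p A) :=
  { toIsHausdorff := tsq11_isHausdorff p A
    toIsPrecomplete := tsq11_isPrecomplete p A }

variable {p A}

/-! ### torsion-freeness -/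

/-- `T` has no `p`-power torsion. -/
theorem tsq11_torsionFree (x : tsq11_T p A) (k : ℕ) (h : p ^ k • x = 0) : x = 0 := by
  apply tsq11_ext
  intro n
  rw [← tsq11_pow_smul_apply x k n]
  have := congrArg (fun y : tsq11_T p A => (y : ℕ → A) (n + k)) h
  exact this

/-- more generally no `a`-torsion for any `a` dividing a power of `p`. -/
theorem tsq11_eq_zero_of_smul {a : R} {k : ℕ} (ha : a ∣ p ^ k) (x : tsq11_T p A)
    (h : a • x = 0) : x = 0 := by
  obtain ⟨b, hb⟩ := ha
  apply tsq11_torsionFree x k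
  rw [hb, mul_comm, mul_smul, h, smul_zero]

/-- over a discrete valuation ring in which `p` is a nonzero non-unit... more generally over a
domain in which every nonzero element divides a power of `p`, `T` is torsion-free. -/
theorem tsq11_noZeroSMulDivisors [IsDomain R]
    (hdiv : ∀ a : R, a ≠ 0 → ∃ k : ℕ, a ∣ p ^ k) : NoZeroSMulDivisors R (tsq11_T p A) := by
  refine ⟨fun {a x} h => ?_⟩
  by_cases ha : a = 0
  · exact Or.inl ha
  · obtain ⟨k, hk⟩ := hdiv a ha
    exact Or.inr (tsq11_eq_zero_of_smul hk x h)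

/-- in a discrete valuation ring every nonzero element divides a power of any nonzero element of
the maximal ideal. -/
theorem tsq11_dvd_pow_of_dvr [IsDomain R] [IsDiscreteValuationRing R] (hp0 : p ≠ 0)
    (hpm : p ∈ IsLocalRing.maximalIdeal R) (a : R) (ha : a ≠ 0) : ∃ k : ℕ, a ∣ p ^ k := by
  obtain ⟨ϖ, hϖ⟩ := IsDiscreteValuationRing.exists_irreducible R
  obtain ⟨m, u, rfl⟩ := IsDiscreteValuationRing.eq_unit_mul_pow_irreducible ha hϖ
  obtain ⟨n, v, hv⟩ := IsDiscreteValuationRing.eq_unit_mul_pow_irreducible hp0 hϖ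
  have hn : n ≠ 0 := by
    rintro rfl
    rw [pow_zero, mul_one] at hv
    have : IsUnit p := hv ▸ v.isUnit
    exact (IsLocalRing.mem_maximalIdeal p).mp hpm this
  refine ⟨m, ?_⟩
  -- `ϖ ^ m ∣ ϖ ^ (n * m)` and units do not matter
  have h1 : ϖ ^ m ∣ p ^ m := by
    rw [hv, mul_pow, ← pow_mul]
    have : m ≤ n * m := Nat.le_mul_of_pos_left m (Nat.pos_of_ne_zero hn)
    exact Dvd.dvd.mul_left (pow_dvd_pow ϖ this) _
  exact (Units.mul_left_dvd).mpr h1

/-! ### functoriality -/

variable (p)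

/-- functoriality of the sequence model: componentwise application of a linear map. -/
def tsq11_map {B : Type*} [AddCommGroup B] [Module R B] (φ : A →ₗ[R] B) :
    tsq11_T p A →ₗ[R] tsq11_T p B where
  toFun x := ⟨fun n => φ ((x : ℕ → A) n), by
    refine ⟨?_, fun n => ?_⟩
    · show p • φ ((x : ℕ → A) 0) = 0
      rw [← map_smul, tsq11_smul_zero, map_zero]
    · show p • φ ((x : ℕ → A) (n + 1)) = φ ((x : ℕ → A) n)
      rw [← map_smul, tsq11_smul_succ]⟩
  map_add' := by
    intro x y
    apply tsq11_ext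
    intro n
    show φ ((x : ℕ → A) n + (y : ℕ → A) n) = φ ((x : ℕ → A) n) + φ ((y : ℕ → A) n)
    rw [map_add]
  map_smul' := by
    intro c x
    apply tsq11_ext
    intro n
    show φ (c • (x : ℕ → A) n) = c • φ ((x : ℕ → A) n)
    rw [map_smul]

variable {p}

@[simp] theorem tsq11_map_apply {B : Type*} [AddCommGroup B] [Module R B] (φ : A →ₗ[R] B)
    (x : tsq11_T p A) (n : ℕ) :
    ((tsq11_map p φ x : tsq11_T p B) : ℕ → B) n = φ ((x : ℕ → A) n) := rfl

theorem tsq11_map_id : tsq11_map p (LinearMap.id : A →ₗ[R] A) = LinearMap.id := by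
  apply LinearMap.ext
  intro x
  apply tsq11_ext
  intro n
  rfl

theorem tsq11_map_comp {B C : Type*} [AddCommGroup B] [Module R B] [AddCommGroup C] [Module R C]
    (ψ : B →ₗ[R] C) (φ : A →ₗ[R] B) :
    tsq11_map p (ψ.comp φ) = (tsq11_map p ψ).comp (tsq11_map p φ) := by
  apply LinearMap.ext
  intro x
  apply tsq11_ext
  intro n
  rfl

theorem tsq11_map_mul (ψ φ : Module.End R A) :
    tsq11_map p (ψ * φ) = tsq11_map p ψ * tsq11_map p φ :=
  tsq11_map_comp ψ φ

theorem tsq11_map_one : tsq11_map p (1 : Module.End R A) = 1 := tsq11_map_id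

theorem tsq11_map_add {B : Type*} [AddCommGroup B] [Module R B] (φ ψ : A →ₗ[R] B) :
    tsq11_map p (φ + ψ) = tsq11_map p φ + tsq11_map p ψ := by
  apply LinearMap.ext
  intro x
  apply tsq11_ext
  intro n
  rfl

theorem tsq11_map_smul {B : Type*} [AddCommGroup B] [Module R B] (c : R) (φ : A →ₗ[R] B) :
    tsq11_map p (c • φ) = c • tsq11_map p φ := by
  apply LinearMap.ext
  intro x
  apply tsq11_ext
  intro n
  rfl

theorem tsq11_map_zero {B : Type*} [AddCommGroup B] [Module R B] :
    tsq11_map p (0 : A →ₗ[R] B) = 0 := by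
  apply LinearMap.ext
  intro x
  apply tsq11_ext
  intro n
  rfl

theorem tsq11_map_sub {B : Type*} [AddCommGroup B] [Module R B] (φ ψ : A →ₗ[R] B) :
    tsq11_map p (φ - ψ) = tsq11_map p φ - tsq11_map p ψ := by
  apply LinearMap.ext
  intro x
  apply tsq11_ext
  intro n
  rfl

variable (p A)

/-- `tsq11_map` as a ring homomorphism `End A → End T` (so that a monoid/group action on `A` by
linear maps induces one on `T`). -/
def tsq11_mapEnd : Module.End R A →+* Module.End R (tsq11_T p A) where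
  toFun := tsq11_map p
  map_one' := tsq11_map_one
  map_mul' := tsq11_map_mul
  map_zero' := tsq11_map_zero
  map_add' := tsq11_map_add

variable {p A}

@[simp] theorem tsq11_mapEnd_apply (φ : Module.End R A) :
    tsq11_mapEnd p A φ = tsq11_map p φ := rfl

theorem tsq11_mapEnd_algebraMap (c : R) :
    tsq11_mapEnd p A (algebraMap R (Module.End R A) c) = algebraMap R _ c := by
  apply LinearMap.ext
  intro x
  apply tsq11_ext
  intro n
  rfl

/-- commuting endomorphisms induce commuting endomorphisms. -/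
theorem tsq11_map_commute {φ ψ : Module.End R A} (h : Commute φ ψ) :
    Commute (tsq11_map p φ) (tsq11_map p ψ) := by
  show tsq11_map p φ * tsq11_map p ψ = tsq11_map p ψ * tsq11_map p φ
  rw [← tsq11_map_mul, ← tsq11_map_mul, h.eq]

/-- a representation on `A` induces a representation on `T`. -/
def tsq11_rep {G : Type*} [Monoid G] (ρ : G →* Module.End R A) :
    G →* Module.End R (tsq11_T p A) :=
  (tsq11_mapEnd p A : Module.End R A →* Module.End R (tsq11_T p A)).comp ρ

@[simp] theorem tsq11_rep_apply {G : Type*} [Monoid G] (ρ : G →* Module.End R A) (g : G)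
    (x : tsq11_T p A) (n : ℕ) :
    ((tsq11_rep (p := p) ρ g x : tsq11_T p A) : ℕ → A) n = ρ g ((x : ℕ → A) n) := rfl

/-! ### eigen-submodules (V4) -/

variable (p)

/-- the simultaneous eigen-submodule of `T` for a family of endomorphisms of `A`. -/
def tsq11_eigen {ι : Type*} (φ : ι → Module.End R A) (c : ι → R) : Submodule R (tsq11_T p A) :=
  ⨅ i, LinearMap.ker (tsq11_map p (φ i) - c i • LinearMap.id)

variable {p}

theorem tsq11_mem_eigen {ι : Type*} {φ : ι → Module.End R A} {c : ι → R} {x : tsq11_T p A} :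
    x ∈ tsq11_eigen p φ c ↔ ∀ i, tsq11_map p (φ i) x = c i • x := by
  simp only [tsq11_eigen, Submodule.mem_iInf, LinearMap.mem_ker, LinearMap.sub_apply,
    LinearMap.smul_apply, LinearMap.id_apply, sub_eq_zero]

theorem tsq11_mem_eigen_iff_components {ι : Type*} {φ : ι → Module.End R A} {c : ι → R}
    {x : tsq11_T p A} :
    x ∈ tsq11_eigen p φ c ↔ ∀ i n, φ i ((x : ℕ → A) n) = c i • (x : ℕ → A) n := by
  rw [tsq11_mem_eigen]
  constructor
  · intro h i n
    have := congrArg (fun y : tsq11_T p A => (y : ℕ → A) n) (h i)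
    exact this
  · intro h i
    apply tsq11_ext
    intro n
    exact h i n

/-- **(V4a)** the eigen-submodule is saturated: `a • x ∈ eigen`, `a ∣ p ^ k` ⇒ `x ∈ eigen`. -/
theorem tsq11_eigen_saturated {ι : Type*} (φ : ι → Module.End R A) (c : ι → R) {a : R} {k : ℕ}
    (ha : a ∣ p ^ k) {x : tsq11_T p A} (h : a • x ∈ tsq11_eigen p φ c) :
    x ∈ tsq11_eigen p φ c := by
  rw [tsq11_mem_eigen] at h ⊢
  intro i
  have h1 := h i
  rw [map_smul, smul_comm (c i) a x] at h1
  have h2 : a • (tsq11_map p (φ i) x - c i • x) = 0 := by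
    rw [smul_sub, h1, sub_self]
  exact sub_eq_zero.mp (tsq11_eq_zero_of_smul ha _ h2)

/-- **(V4b)** the eigen-submodule is stable under every endomorphism induced by a map commuting
with the family (Galois action). -/
theorem tsq11_eigen_stable {ι : Type*} (φ : ι → Module.End R A) (c : ι → R)
    (ψ : Module.End R A) (hψ : ∀ i, Commute ψ (φ i)) {x : tsq11_T p A}
    (h : x ∈ tsq11_eigen p φ c) : tsq11_map p ψ x ∈ tsq11_eigen p φ c := by
  rw [tsq11_mem_eigen] at h ⊢
  intro i
  have h1 : tsq11_map p (φ i) (tsq11_map p ψ x) = tsq11_map p ψ (tsq11_map p (φ i) x) := by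
    have := (tsq11_map_commute (p := p) (hψ i)).eq
    exact (LinearMap.congr_fun this x).symm
  rw [h1, h i, map_smul]

/-! ### the quotient `T ⧸ p^(n+1) T` embeds in `A` -/

variable (p A)

/-- the map `T ⧸ (p)^(n+1) T → A` induced by `eval n`. -/
def tsq11_quotEval (n : ℕ) :
    (tsq11_T p A ⧸ ((Ideal.span {p}) ^ (n + 1) • ⊤ : Submodule R (tsq11_T p A))) →ₗ[R] A :=
  Submodule.liftQ _ (tsq11_eval p A n) (by rw [tsq11_ker_eval])

theorem tsq11_quotEval_injective (n : ℕ) : Function.Injective (tsq11_quotEval p A n) := by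
  rw [← LinearMap.ker_eq_bot, tsq11_quotEval, Submodule.ker_liftQ_eq_bot]
  rw [tsq11_ker_eval]

theorem tsq11_quotEval_mem_torsionBy (n : ℕ)
    (z : tsq11_T p A ⧸ ((Ideal.span {p}) ^ (n + 1) • ⊤ : Submodule R (tsq11_T p A))) :
    tsq11_quotEval p A n z ∈ Submodule.torsionBy R A (p ^ (n + 1)) := by
  obtain ⟨x, rfl⟩ := Submodule.Quotient.mk_surjective _ z
  exact tsq11_eval_mem_torsionBy n x

/-- **finiteness interface for (V3)**: if `A[p^(n+1)]` is a Noetherian `R`-module (e.g. `R`
Noetherian and `A[p^(n+1)]` finitely generated) then `T ⧸ (p)^(n+1) T` is finitely generated. -/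
theorem tsq11_quot_finite (n : ℕ) [IsNoetherian R (Submodule.torsionBy R A (p ^ (n + 1)))] :
    Module.Finite R
      (tsq11_T p A ⧸ ((Ideal.span {p}) ^ (n + 1) • ⊤ : Submodule R (tsq11_T p A))) := by
  let g : (tsq11_T p A ⧸ ((Ideal.span {p}) ^ (n + 1) • ⊤ : Submodule R (tsq11_T p A))) →ₗ[R]
      Submodule.torsionBy R A (p ^ (n + 1)) :=
    LinearMap.codRestrict _ (tsq11_quotEval p A n) (tsq11_quotEval_mem_torsionBy p A n)
  have hg : Function.Injective g := by
    intro a b hab
    apply tsq11_quotEval_injective p A n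
    exact congrArg Subtype.val hab
  exact Module.Finite.of_injective g hg


end Fermat.Agent.S30x
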