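/-
S30 project, block T2 (helper11), prefix `tsq11_`: the sequence model `tsq11_T p A` over a complete
discrete valuation ring is FINITE FREE (adapters between `TateSeq11` and helper34's `AdicFinite34`).

* `tsq11_isTorsionFree`     : `Module.IsTorsionFree R (tsq11_T p A)` (every nonzero `a` divides a
  power of `p`; e.g. a DVR with `p ≠ 0`, `p ∈ 𝔪`);
* `tsq11_quot_span_finite`  : `Module.Finite R (T ⧸ Ideal.span {p} • ⊤)` from `A[p]` Noetherian;
* `tsq11_finite_free`       : complete DVR, `p ≠ 0`, `p ∈ 𝔪`, `A[p]` Noetherian ⟹ `T` finite and free;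
* `tsq11_eigen_finite_free` : the same for every eigen-submodule (and any submodule).
-/
import Mathlib
import Fermat.Agent.S30x.TateSeq11
import Fermat.Agent.S30x.AdicFinite34

set_option autoImplicit false

namespace Fermat.Agent.S30x

open Submodule IsLocalRing

variable {R : Type*} [CommRing R] {p : R} {A : Type*} [AddCommGroup A] [Module R A]

/-- torsion-freeness in the current Mathlib form. -/
theorem tsq11_isTorsionFree [IsDomain R] (hdiv : ∀ a : R, a ≠ 0 → ∃ k : ℕ, a ∣ p ^ k) :
    Module.IsTorsionFree R (tsq11_T p A) := by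
  rw [Module.isTorsionFree_iff_smul_eq_zero]
  intro a x h
  by_cases ha : a = 0
  · exact Or.inl ha
  · obtain ⟨k, hk⟩ := hdiv a ha
    exact Or.inr (tsq11_eq_zero_of_smul hk x h)

/-- torsion-freeness over a discrete valuation ring. -/
theorem tsq11_isTorsionFree_of_dvr [IsDomain R] [IsDiscreteValuationRing R] (hp0 : p ≠ 0)
    (hpm : p ∈ maximalIdeal R) : Module.IsTorsionFree R (tsq11_T p A) :=
  tsq11_isTorsionFree (tsq11_dvd_pow_of_dvr hp0 hpm)

variable (p A)

theorem tsq11_ker_eval_zero :
    LinearMap.ker (tsq11_eval p A 0) = (Ideal.span {p} • ⊤ : Submodule R (tsq11_T p A)) := by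
  have h := tsq11_ker_eval (p := p) (A := A) 0
  rwa [zero_add, pow_one] at h

/-- the map `T ⧸ (p) T → A` induced by `eval 0`. -/
def tsq11_quotEval0 :
    (tsq11_T p A ⧸ (Ideal.span {p} • ⊤ : Submodule R (tsq11_T p A))) →ₗ[R] A :=
  Submodule.liftQ _ (tsq11_eval p A 0) (by rw [tsq11_ker_eval_zero])

theorem tsq11_quotEval0_injective : Function.Injective (tsq11_quotEval0 p A) := by
  rw [← LinearMap.ker_eq_bot, tsq11_quotEval0, Submodule.ker_liftQ_eq_bot]
  rw [tsq11_ker_eval_zero]

theorem tsq11_quotEval0_mem_torsionBy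
    (z : tsq11_T p A ⧸ (Ideal.span {p} • ⊤ : Submodule R (tsq11_T p A))) :
    tsq11_quotEval0 p A z ∈ Submodule.torsionBy R A p := by
  obtain ⟨x, rfl⟩ := Submodule.Quotient.mk_surjective _ z
  rw [Submodule.mem_torsionBy_iff]
  exact tsq11_smul_zero x

/-- `T ⧸ (p) T` is finitely generated as soon as `A[p]` is a Noetherian module. -/
theorem tsq11_quot_span_finite [IsNoetherian R (Submodule.torsionBy R A p)] :
    Module.Finite R (tsq11_T p A ⧸ (Ideal.span {p} • ⊤ : Submodule R (tsq11_T p A))) := by
  let g : (tsq11_T p A ⧸ (Ideal.span {p} • ⊤ : Submodule R (tsq11_T p A))) →ₗ[R]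
      Submodule.torsionBy R A p :=
    LinearMap.codRestrict _ (tsq11_quotEval0 p A) (tsq11_quotEval0_mem_torsionBy p A)
  have hg : Function.Injective g := by
    intro a b hab
    apply tsq11_quotEval0_injective p A
    exact congrArg Subtype.val hab
  exact Module.Finite.of_injective g hg

/-- **the sequence model over a complete DVR is finite free** (`p ≠ 0`, `p ∈ 𝔪`, `A[p]` a
Noetherian module, e.g. finitely generated). -/
theorem tsq11_finite_free [IsDomain R] [IsDiscreteValuationRing R]
    [IsAdicComplete (maximalIdeal R) R] (hp0 : p ≠ 0) (hpm : p ∈ maximalIdeal R)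
    [IsNoetherian R (Submodule.torsionBy R A p)] :
    Module.Finite R (tsq11_T p A) ∧ Module.Free R (tsq11_T p A) := by
  have := tsq11_isTorsionFree_of_dvr (A := A) hp0 hpm
  have := tsq11_quot_span_finite p A
  exact adf34_finite_free_of_complete p hpm hp0 (tsq11_isHausdorff p A)

/-- every submodule of the sequence model (in particular every eigen-submodule `tsq11_eigen`) is
finite free over a complete DVR. -/
theorem tsq11_submodule_finite_free [IsDomain R] [IsDiscreteValuationRing R]
    [IsAdicComplete (maximalIdeal R) R] (hp0 : p ≠ 0) (hpm : p ∈ maximalIdeal R)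
    [IsNoetherian R (Submodule.torsionBy R A p)] (W : Submodule R (tsq11_T p A)) :
    Module.Finite R W ∧ Module.Free R W := by
  obtain ⟨hfin, hfree⟩ := tsq11_finite_free p A hp0 hpm
  have hN : IsNoetherian R (tsq11_T p A) := isNoetherian_of_isNoetherianRing_of_finite R _
  have hfinW : Module.Finite R W := inferInstance
  refine ⟨hfinW, ?_⟩
  obtain ⟨n, bW⟩ := Submodule.basisOfPid (Module.Free.chooseBasis R (tsq11_T p A)) W
  exact Module.Free.of_basis bW

end Fermat.Agent.S30x
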