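/-
S30 project, TOP part C support (helper11), prefix `egr11_`: THE `T → E` TRANSFER LEMMAS for the
eigen-submodule `E := tsq11_eigen p φ c` of the sequence model `T := tsq11_T p A`
(contract `S30_TOP_CONTRACT_helper88`, last paragraph).  Generic: `R` a commutative ring, `p : R`,
`A` an `R`-module, `φ i : End_R A`, `c i : R`.

* (a) `egr11_mem_pow_smul_top` : `x ∈ E`, `(x : T) ∈ (p)^n • ⊤_T` ⇒ `x ∈ (p)^n • ⊤_E`
  (saturation), and `egr11_mem_ideal_pow_smul_top` for any ideal `I ∋ p` (`I := maximalIdeal O`);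
* (b) `egr11_restrict ψ hψ : Module.End R E` (restriction of `tsq11_map p ψ`, `ψ` commuting with
  the family) and `egr11_rep ρ hcomm : G →* Module.End R E` (restriction of `tsq11_rep ρ`);
* (c) transfer of the three pointwise statements on `T` to operator statements on `E`, in the
  shapes `hES` / `hin` / `hcont` of `top88_core_of_data`;
* (d) `E` finite free over a complete DVR, `Nontrivial E` from one nonzero element.
Mathlib + `TateSeq11` + `TateSeqFree11` only.
-/
import Mathlib
import Fermat.Agent.S30x.TateSeq11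
import Fermat.Agent.S30x.TateSeqFree11

set_option autoImplicit false
-- `Module.End R ↥(tsq11_eigen p φ c)` (a submodule of a submodule) needs one more level of nested
-- instance synthesis for its ring structure than the default allows.
set_option maxSynthPendingDepth 3

namespace Fermat.Agent.S30x

open IsLocalRing

section Saturated

variable {R : Type*} [CommRing R] {p : R} {A : Type*} [AddCommGroup A] [Module R A]

/-- (a), general form: a submodule `W ≤ T` closed under division by powers of `p` satisfies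
`(p)^n T ∩ W = (p)^n W`. -/
theorem egr11_mem_pow_smul_top_of_saturated (W : Submodule R (tsq11_T p A))
    (hsat : ∀ (n : ℕ) (y : tsq11_T p A), p ^ n • y ∈ W → y ∈ W) (n : ℕ) (x : W)
    (hx : (x : tsq11_T p A) ∈ ((Ideal.span {p}) ^ n • ⊤ : Submodule R (tsq11_T p A))) :
    x ∈ ((Ideal.span {p}) ^ n • ⊤ : Submodule R W) := by
  rw [Ideal.span_singleton_pow, Submodule.ideal_span_singleton_smul,
    Submodule.mem_smul_pointwise_iff_exists] at hx ⊢
  obtain ⟨y, -, hy⟩ := hx
  have hyW : y ∈ W := hsat n y (by rw [hy]; exact x.2)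
  exact ⟨⟨y, hyW⟩, Submodule.mem_top, Subtype.ext hy⟩

/-- (a), general form with an ideal `I ∋ p`. -/
theorem egr11_mem_ideal_pow_smul_top_of_saturated (W : Submodule R (tsq11_T p A))
    (hsat : ∀ (n : ℕ) (y : tsq11_T p A), p ^ n • y ∈ W → y ∈ W) (I : Ideal R) (hpI : p ∈ I)
    (n : ℕ) (x : W)
    (hx : (x : tsq11_T p A) ∈ ((Ideal.span {p}) ^ n • ⊤ : Submodule R (tsq11_T p A))) :
    x ∈ (I ^ n • ⊤ : Submodule R W) :=
  Submodule.smul_mono_left
    (Ideal.pow_right_mono ((Ideal.span_singleton_le_iff_mem I).2 hpI) n)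
    (egr11_mem_pow_smul_top_of_saturated W hsat n x hx)

end Saturated

section Eigen

variable {R : Type*} [CommRing R] {p : R} {A : Type*} [AddCommGroup A] [Module R A]
  {ι : Type*} {φ : ι → Module.End R A} {c : ι → R}

/-- the eigen-submodule is closed under division by powers of `p`. -/
theorem egr11_eigen_sat (n : ℕ) (y : tsq11_T p A) (h : p ^ n • y ∈ tsq11_eigen p φ c) :
    y ∈ tsq11_eigen p φ c :=
  tsq11_eigen_saturated φ c (dvd_refl (p ^ n)) h

/-- **(a)**: `(p)^n T ∩ E = (p)^n E`. -/
theorem egr11_mem_pow_smul_top (n : ℕ) (x : tsq11_eigen p φ c)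
    (hx : (x : tsq11_T p A) ∈ ((Ideal.span {p}) ^ n • ⊤ : Submodule R (tsq11_T p A))) :
    x ∈ ((Ideal.span {p}) ^ n • ⊤ : Submodule R (tsq11_eigen p φ c)) :=
  egr11_mem_pow_smul_top_of_saturated _ egr11_eigen_sat n x hx

/-- **(a)** with an ideal `I ∋ p` (e.g. the maximal ideal of a DVR). -/
theorem egr11_mem_ideal_pow_smul_top (I : Ideal R) (hpI : p ∈ I) (n : ℕ)
    (x : tsq11_eigen p φ c)
    (hx : (x : tsq11_T p A) ∈ ((Ideal.span {p}) ^ n • ⊤ : Submodule R (tsq11_T p A))) :
    x ∈ (I ^ n • ⊤ : Submodule R (tsq11_eigen p φ c)) :=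
  egr11_mem_ideal_pow_smul_top_of_saturated _ egr11_eigen_sat I hpI n x hx

/-- the family acts on `E` through the scalars `c i`. -/
theorem egr11_map_eq_smul (i : ι) (x : tsq11_eigen p φ c) :
    tsq11_map p (φ i) (x : tsq11_T p A) = c i • (x : tsq11_T p A) :=
  tsq11_mem_eigen.mp x.2 i

/-- **(b')** restriction to `E` of the endomorphism of `T` induced by `ψ : End A` commuting with
the family. -/
def egr11_restrict (ψ : Module.End R A) (hψ : ∀ i, Commute ψ (φ i)) :
    Module.End R (tsq11_eigen p φ c) :=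
  (tsq11_map p ψ).restrict (fun _ hx => tsq11_eigen_stable φ c ψ hψ hx)

@[simp] theorem egr11_restrict_coe (ψ : Module.End R A) (hψ : ∀ i, Commute ψ (φ i))
    (x : tsq11_eigen p φ c) :
    ((egr11_restrict ψ hψ x : tsq11_eigen p φ c) : tsq11_T p A)
      = tsq11_map p ψ (x : tsq11_T p A) := rfl

/-- **(b)** restriction to `E` of the representation on `T` induced by a representation on `A`
commuting with the family. -/
def egr11_rep {G : Type*} [Monoid G] (ρ : G →* Module.End R A)
    (hcomm : ∀ g i, Commute (ρ g) (φ i)) : G →* Module.End R (tsq11_eigen p φ c) where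
  toFun g := egr11_restrict (ρ g) (hcomm g)
  map_one' := by
    apply LinearMap.ext
    intro x
    apply Subtype.ext
    rw [egr11_restrict_coe, map_one, tsq11_map_one]
    rfl
  map_mul' := by
    intro g h
    apply LinearMap.ext
    intro x
    apply Subtype.ext
    rw [egr11_restrict_coe, map_mul, tsq11_map_mul]
    rfl

@[simp] theorem egr11_rep_coe {G : Type*} [Monoid G] (ρ : G →* Module.End R A)
    (hcomm : ∀ g i, Commute (ρ g) (φ i)) (g : G) (x : tsq11_eigen p φ c) :
    ((egr11_rep ρ hcomm g x : tsq11_eigen p φ c) : tsq11_T p A)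
      = tsq11_rep (p := p) ρ g (x : tsq11_T p A) := rfl

theorem egr11_rep_coe_apply {G : Type*} [Monoid G] (ρ : G →* Module.End R A)
    (hcomm : ∀ g i, Commute (ρ g) (φ i)) (g : G) (x : tsq11_eigen p φ c) (n : ℕ) :
    (((egr11_rep ρ hcomm g x : tsq11_eigen p φ c) : tsq11_T p A) : ℕ → A) n
      = ρ g (((x : tsq11_T p A) : ℕ → A) n) := rfl

/-- **(c1)** the Eichler--Shimura quadratic relation on `T` (pointwise, with the operator
`tsq11_map p (φ i)`) becomes the operator relation with the SCALAR `c i` on `E`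
(shape `hES` of `top88_core_of_data`). -/
theorem egr11_quadratic {G : Type*} [Monoid G] (ρ : G →* Module.End R A)
    (hcomm : ∀ g i, Commute (ρ g) (φ i)) (g : G) (i : ι) (l : R)
    (h : ∀ x : tsq11_T p A, tsq11_rep (p := p) ρ g (tsq11_rep (p := p) ρ g x)
      - tsq11_rep (p := p) ρ g (tsq11_map p (φ i) x) + l • x = 0) :
    (egr11_rep (p := p) (c := c) ρ hcomm g * egr11_rep (p := p) (c := c) ρ hcomm g
      - c i • egr11_rep (p := p) (c := c) ρ hcomm g
      + l • (1 : Module.End R (tsq11_eigen p φ c)) : Module.End R (tsq11_eigen p φ c)) = 0 := by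
  apply LinearMap.ext
  intro x
  apply Subtype.ext
  have h1 := h (x : tsq11_T p A)
  rw [egr11_map_eq_smul i x, map_smul] at h1
  simpa using h1

/-- **(c2)** an element acting trivially on `T` acts trivially on `E` (shape `hin`). -/
theorem egr11_eq_one {G : Type*} [Monoid G] (ρ : G →* Module.End R A)
    (hcomm : ∀ g i, Commute (ρ g) (φ i)) (g : G)
    (h : ∀ x : tsq11_T p A, tsq11_rep (p := p) ρ g x = x) :
    egr11_rep (p := p) (c := c) ρ hcomm g = 1 := by
  apply LinearMap.ext
  intro x
  apply Subtype.ext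
  rw [egr11_rep_coe, h]
  rfl

/-- **(c3)** congruence to the identity modulo `(p)^n T` gives congruence modulo `I^n E` for any
ideal `I ∋ p` (shape `hcont`). -/
theorem egr11_sub_mem {G : Type*} [Monoid G] (ρ : G →* Module.End R A)
    (hcomm : ∀ g i, Commute (ρ g) (φ i)) (I : Ideal R) (hpI : p ∈ I) (n : ℕ) (g : G)
    (h : ∀ x : tsq11_T p A, tsq11_rep (p := p) ρ g x - x
      ∈ ((Ideal.span {p}) ^ n • ⊤ : Submodule R (tsq11_T p A)))
    (v : tsq11_eigen p φ c) :
    egr11_rep (p := p) (c := c) ρ hcomm g v - v ∈ (I ^ n • ⊤ : Submodule R (tsq11_eigen p φ c)) := by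
  apply egr11_mem_ideal_pow_smul_top I hpI n
  have := h (v : tsq11_T p A)
  simpa using this

/-- **(d)** `E` is nontrivial as soon as it contains a nonzero element of `T`. -/
theorem egr11_nontrivial {x : tsq11_T p A} (hx0 : x ≠ 0) (hx : x ∈ tsq11_eigen p φ c) :
    Nontrivial (tsq11_eigen p φ c) :=
  ⟨⟨⟨x, hx⟩, 0, fun h => hx0 (congrArg Subtype.val h)⟩⟩

/-- **(d)** `E` is finite free over a complete DVR (`p ≠ 0`, `p ∈ 𝔪`, `A[p]` Noetherian). -/
theorem egr11_finite_free [IsDomain R] [IsDiscreteValuationRing R]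
    [IsAdicComplete (maximalIdeal R) R] (hp0 : p ≠ 0) (hpm : p ∈ maximalIdeal R)
    [IsNoetherian R (Submodule.torsionBy R A p)] :
    Module.Finite R (tsq11_eigen p φ c) ∧ Module.Free R (tsq11_eigen p φ c) :=
  tsq11_submodule_finite_free p A hp0 hpm _

end Eigen

end Fermat.Agent.S30x
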