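/-
S30 project, glue T4 → T6-inst (helper30, prefix `egr30_`): restriction of the Galois action from the
Tate sequence module `T = tsq11_T p A` to a saturated stable submodule `W` (e.g. the eigen-submodule
`V[χ] = tsq11_eigen p φ c`), keeping the congruences modulo `p^n`:

* `egr30_restrict` : `ρ : G →* End_R T`, `W` stable ⇒ `G →* End_R W`;
* `egr30_mem_pow_smul_top` : `W` saturated (`p^k • z ∈ W → z ∈ W`) ⇒ `p^n T ∩ W = p^n W`
  (membership in `(span {p})^n • ⊤` of `W` ITSELF);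
* `egr30_eigen_sat` : `tsq11_eigen p φ c` is saturated in this sense;
* `egr30_restrict_sub_mem` : `ρ σ x - x ∈ p^n T` for all `x : T` ⇒ `ρ_W σ v - v ∈ p^n W`;
* `egr30_restrict_quadratic` : Eichler–Shimura relation on `T` + eigen-property on `W` ⇒ quadratic
  relation in `End_R W`;
* `egr30_quadratic` : `qlg30_quadratic` applied to `W` with `I ⊇ span {p}` (e.g. the maximal ideal).
-/
import Mathlib
import Fermat.Agent.S30x.TateSeq11
import Fermat.Agent.S30x.QuadLimitGal30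

set_option autoImplicit false

namespace Fermat.Agent.S30x

local notation "Qbar" => AlgebraicClosure ℚ
local notation "Γ" => (AlgebraicClosure ℚ ≃ₐ[ℚ] AlgebraicClosure ℚ)

section Restrict

variable {R : Type*} [CommRing R] {T : Type*} [AddCommGroup T] [Module R T]
variable {G : Type*} [Monoid G]

/-- restriction of a representation to a stable submodule -/
def egr30_restrict (ρ : G →* Module.End R T) (W : Submodule R T)
    (hW : ∀ g, ∀ w ∈ W, ρ g w ∈ W) : G →* Module.End R W where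
  toFun σ := (ρ σ).restrict (hW σ)
  map_one' := by
    ext w
    simp
  map_mul' σ τ := by
    ext w
    simp

@[simp] theorem egr30_restrict_apply (ρ : G →* Module.End R T) (W : Submodule R T)
    (hW : ∀ g, ∀ w ∈ W, ρ g w ∈ W) (σ : G) (w : W) :
    (egr30_restrict ρ W hW σ w : T) = ρ σ w := rfl

/-- in a `p`-saturated submodule, `p^n T ∩ W = p^n W`. -/
theorem egr30_mem_pow_smul_top (p : R) (W : Submodule R T)
    (hsat : ∀ (k : ℕ) (z : T), p ^ k • z ∈ W → z ∈ W) (n : ℕ) (w : W)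
    (h : (w : T) ∈ ((Ideal.span {p}) ^ n • ⊤ : Submodule R T)) :
    w ∈ ((Ideal.span {p}) ^ n • ⊤ : Submodule R W) := by
  rw [Ideal.span_singleton_pow, Submodule.ideal_span_singleton_smul,
    Submodule.mem_smul_pointwise_iff_exists] at h ⊢
  obtain ⟨z, -, hz⟩ := h
  have hzW : z ∈ W := hsat n z (by rw [hz]; exact w.2)
  exact ⟨⟨z, hzW⟩, Submodule.mem_top, Subtype.ext hz⟩

/-- congruence `ρ σ ≡ 1 mod p^n` passes to a saturated stable submodule. -/
theorem egr30_restrict_sub_mem (p : R) (ρ : G →* Module.End R T) (W : Submodule R T)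
    (hW : ∀ g, ∀ w ∈ W, ρ g w ∈ W)
    (hsat : ∀ (k : ℕ) (z : T), p ^ k • z ∈ W → z ∈ W) (n : ℕ) (σ : G)
    (h : ∀ x : T, ρ σ x - x ∈ ((Ideal.span {p}) ^ n • ⊤ : Submodule R T)) (v : W) :
    egr30_restrict ρ W hW σ v - v ∈ ((Ideal.span {p}) ^ n • ⊤ : Submodule R W) := by
  apply egr30_mem_pow_smul_top p W hsat n
  show ((egr30_restrict ρ W hW σ v - v : W) : T) ∈ _
  rw [Submodule.coe_sub, egr30_restrict_apply]
  exact h v

/-- quadratic relation on a stable submodule on which `Tl` acts as the scalar `c`. -/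
theorem egr30_restrict_quadratic (ρ : G →* Module.End R T) (W : Submodule R T)
    (hW : ∀ g, ∀ w ∈ W, ρ g w ∈ W) (σ : G) (Tl : Module.End R T) (c l : R)
    (hTl : ∀ w ∈ W, Tl w = c • w)
    (hrel : ∀ x : T, ρ σ (ρ σ x) - ρ σ (Tl x) + l • x = 0) :
    egr30_restrict ρ W hW σ * egr30_restrict ρ W hW σ - c • egr30_restrict ρ W hW σ
      + l • (1 : Module.End R W) = 0 := by
  apply LinearMap.ext
  intro w
  apply Subtype.ext
  simp only [LinearMap.add_apply, LinearMap.sub_apply, LinearMap.smul_apply,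
    Module.End.mul_apply, Module.End.one_apply, LinearMap.zero_apply, Submodule.coe_add,
    Submodule.coe_sub, Submodule.coe_smul, egr30_restrict_apply, Submodule.coe_zero]
  have h := hrel w
  rw [hTl w w.2, map_smul] at h
  exact h

end Restrict

section Eigen

variable {R : Type*} [CommRing R] {p : R} {A : Type*} [AddCommGroup A] [Module R A]

/-- the eigen-submodule of the Tate sequence module is `p`-saturated. -/
theorem egr30_eigen_sat {ι : Type*} (φ : ι → Module.End R A) (c : ι → R) (k : ℕ)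
    (z : tsq11_T p A) (h : p ^ k • z ∈ tsq11_eigen p φ c) : z ∈ tsq11_eigen p φ c :=
  tsq11_eigen_saturated φ c (dvd_refl (p ^ k)) h

/-- the eigen-submodule is stable under a representation commuting with the family. -/
theorem egr30_eigen_stable {ι : Type*} (φ : ι → Module.End R A) (c : ι → R)
    {G : Type*} [Monoid G] (ρA : G →* Module.End R A) (hcomm : ∀ g i, Commute (ρA g) (φ i))
    (g : G) (w : tsq11_T p A) (hw : w ∈ tsq11_eigen p φ c) :
    tsq11_rep (p := p) ρA g w ∈ tsq11_eigen p φ c :=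
  tsq11_eigen_stable φ c (ρA g) (hcomm g) hw

end Eigen

section Galois

variable {O : Type*} [CommRing O] (I : Ideal O) [IsAdicComplete I O]
variable {T : Type*} [AddCommGroup T] [Module O T]

/-- **T6-inst on a saturated stable submodule** `W` of the Tate module `T`:
from T4(c) (`hρL`, on all of `T`, modulo `p^n`), T3 (`hεL`, modulo `p^n`), T4(a) (`hfrob`, on all of
`T`) and the eigen-property of `W`, every `g : G_ℚ` satisfies an exact quadratic relation on `W`
with middle coefficient `a g ∈ O`, and `a σ = c ℓ` on Frobenius lifts at `ℓ ∤ M`. -/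
theorem egr30_quadratic (p : O) (hpI : Ideal.span {p} ≤ I)
    (ρ : Γ →* Module.End O T) (W : Submodule O T) [Module.Free O W] [Nontrivial W]
    (hW : ∀ g, ∀ w ∈ W, ρ g w ∈ W)
    (hsat : ∀ (k : ℕ) (z : T), p ^ k • z ∈ W → z ∈ W)
    (ε : Γ →* O) (M : ℕ) (hM : 0 < M) (Tl : ℕ → Module.End O T) (c : ℕ → O)
    (hTl : ∀ ℓ : ℕ, ℓ.Prime → ¬ ℓ ∣ M → ∀ w ∈ W, Tl ℓ w = c ℓ • w)
    (hρL : ∀ n : ℕ, ∃ L : IntermediateField ℚ Qbar, FiniteDimensional ℚ L ∧
      ∀ σ : Γ, (∀ x ∈ L, σ x = x) →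
        ∀ x : T, ρ σ x - x ∈ ((Ideal.span {p}) ^ n • ⊤ : Submodule O T))
    (hεL : ∀ n : ℕ, ∃ L : IntermediateField ℚ Qbar, FiniteDimensional ℚ L ∧
      ∀ σ : Γ, (∀ x ∈ L, σ x = x) → ε σ - 1 ∈ (Ideal.span {p}) ^ n)
    (hfrob : ∀ ℓ : ℕ, ℓ.Prime → ¬ ℓ ∣ M → ∀ A : ValuationSubring Qbar, A.LiesOverPrime ℓ →
      ∀ σ : Γ, A.IsFrobeniusAt σ ℓ →
        (∀ x : T, ρ σ (ρ σ x) - ρ σ (Tl ℓ x) + (ℓ : O) • x = 0) ∧ ε σ = (ℓ : O)) :
    ∃ a : Γ → O,
      (∀ g : Γ, egr30_restrict ρ W hW g * egr30_restrict ρ W hW g - a g • egr30_restrict ρ W hW g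
        + ε g • (1 : Module.End O W) = 0) ∧
      ∀ ℓ : ℕ, ℓ.Prime → ¬ ℓ ∣ M → ∀ A : ValuationSubring Qbar, A.LiesOverPrime ℓ →
        ∀ σ : Γ, A.IsFrobeniusAt σ ℓ → a σ = c ℓ := by
  refine qlg30_quadratic I (egr30_restrict ρ W hW) ε M hM c ?_ ?_ ?_
  · intro n
    obtain ⟨L, hLfd, hL⟩ := hρL n
    refine ⟨L, hLfd, fun σ hσ v => ?_⟩
    exact qlg30_mem_of_le I hpI (egr30_restrict_sub_mem p ρ W hW hsat n σ (hL σ hσ) v)
  · intro n
    obtain ⟨L, hLfd, hL⟩ := hεL n
    exact ⟨L, hLfd, fun σ hσ => Ideal.pow_right_mono hpI n (hL σ hσ)⟩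
  · intro ℓ hℓ hℓM A hA σ hAσ
    obtain ⟨h1, h2⟩ := hfrob ℓ hℓ hℓM A hA σ hAσ
    exact ⟨egr30_restrict_quadratic ρ W hW σ (Tl ℓ) (c ℓ) (ℓ : O) (hTl ℓ hℓ hℓM) h1, h2⟩

end Galois

end Fermat.Agent.S30x
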