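/-
S30 block T5.c = S31 block C3 (SHARED), helper1, prefix `hpa1_`.

**The pair algebra**: for a set `S` of primes, `hpa1_A N S` is the `ℤ`-subalgebra of
`End_ℤ(lrL N) × heckeAlgebra N 2 S` generated by the pairs `(lrtT N ℓ, T_ℓ)`, `ℓ ∉ S`, `ℓ ∤ N`
(`lrL N = H¹_par(Γ₀(N), ℤ)` the Betti lattice, `lrtT` its Hecke operators, `heckeAlgebra N 2 S` the
Prelude Hecke algebra acting on weight-2 cusp forms).  It is a commutative ring and

* `hpa1_fst_injective` : the projection to `End_ℤ(lrL N)` is INJECTIVE (Betti → forms transfer: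
  a polynomial identity between the `lrtT N ℓ` on the lattice holds for the `T_ℓ` on cusp forms;
  `emp_span_parabolicHoms` + `S16x.periodHomPair_heckeFormsGen` + `S21`);
* `hpa1_snd_surjective` : the projection to `heckeAlgebra N 2 S` is surjective when all primes
  dividing `N` are in `S` (no `U`-operators);
* `hpa1_faithful` : `hpa1_A N S` acts faithfully on `lrL N`; with a character `χ` of the Hecke
  algebra, `χ.comp hpa1_snd` is a character of this faithful commutative algebra (S30 T5.c);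
* `hpa1_divisible` : Artin--Rees transfer (S31 C2+C3): there is `c` such that for all `m` and
  `a : hpa1_A N S` with `hpa1_fst a ∈ p^m End(lrL N)`, `a = p^(m-c) • b` for some `b`.
-/
import Mathlib
import Fermat.Agent.S41x.EigenLRVec
import Fermat.Agent.S41x.FormsEigen
import Fermat.Agent.S16x.CohEquiv
import Fermat.Agent.S41x.LatHomBase

set_option autoImplicit false

namespace Fermat.Agent.S30x

open scoped MatrixGroups
open CongruenceSubgroup ModularCurve ModularCurve.Period CuspForm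
open Fermat.Agent.S41x Fermat.Agent.S16x

noncomputable section

variable (N : ℕ) [NeZero N] (S : Set ℕ)

/-- the good primes: `ℓ ∉ S`, `ℓ ∤ N` -/
abbrev hpa1_I : Type := {ℓ : Nat.Primes // (ℓ : ℕ) ∉ S ∧ ¬ (ℓ : ℕ) ∣ N}

/-- the Hecke operator `T_ℓ` in `heckeAlgebra N 2 S` -/
def hpa1_T (ℓ : hpa1_I N S) : heckeAlgebra N 2 S := heckeAlgebra.T ℓ.1.2 ℓ.2.2 ℓ.2.1

/-- the generators `(lrtT N ℓ, T_ℓ)` -/
def hpa1_gen (ℓ : hpa1_I N S) : Module.End ℤ (lrL N) × heckeAlgebra N 2 S :=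
  (lrtT N ℓ.1, hpa1_T N S ℓ)

/-- **the pair algebra** -/
def hpa1_A : Subalgebra ℤ (Module.End ℤ (lrL N) × heckeAlgebra N 2 S) :=
  Algebra.adjoin ℤ (Set.range (hpa1_gen N S))

theorem hpa1_gen_mem (ℓ : hpa1_I N S) : hpa1_gen N S ℓ ∈ hpa1_A N S :=
  Algebra.subset_adjoin ⟨ℓ, rfl⟩

theorem hpa1_gen_commute (ℓ ℓ' : hpa1_I N S) : Commute (hpa1_gen N S ℓ) (hpa1_gen N S ℓ') := by
  show hpa1_gen N S ℓ * hpa1_gen N S ℓ' = hpa1_gen N S ℓ' * hpa1_gen N S ℓ
  apply Prod.ext
  · exact lrtT_comm N ℓ.1 ℓ'.1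
  · exact mul_comm _ _

instance hpa1_instIsMulCommutative : IsMulCommutative (hpa1_A N S) :=
  Algebra.isMulCommutative_adjoin ℤ (by
    rintro _ ⟨ℓ, rfl⟩ _ ⟨ℓ', rfl⟩
    exact hpa1_gen_commute N S ℓ ℓ')

instance hpa1_instCommRing : CommRing (hpa1_A N S) :=
  { (inferInstance : Ring (hpa1_A N S)) with
    mul_comm := fun a b => (hpa1_instIsMulCommutative N S).is_comm.comm a b }

/-- first projection `hpa1_A → End_ℤ(lrL N)` -/
def hpa1_fst : hpa1_A N S →+* Module.End ℤ (lrL N) :=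
  (RingHom.fst _ _).comp (hpa1_A N S).val.toRingHom

/-- second projection `hpa1_A → heckeAlgebra N 2 S` -/
def hpa1_snd : hpa1_A N S →+* heckeAlgebra N 2 S :=
  (RingHom.snd _ _).comp (hpa1_A N S).val.toRingHom

@[simp] theorem hpa1_fst_apply (a : hpa1_A N S) : hpa1_fst N S a = a.1.1 := rfl

@[simp] theorem hpa1_snd_apply (a : hpa1_A N S) : hpa1_snd N S a = a.1.2 := rfl

/-- the generator `τ_ℓ` as an element of the pair algebra -/
def hpa1_tau (ℓ : hpa1_I N S) : hpa1_A N S := ⟨hpa1_gen N S ℓ, hpa1_gen_mem N S ℓ⟩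

@[simp] theorem hpa1_fst_tau (ℓ : hpa1_I N S) : hpa1_fst N S (hpa1_tau N S ℓ) = lrtT N ℓ.1 := rfl

@[simp] theorem hpa1_snd_tau (ℓ : hpa1_I N S) :
    hpa1_snd N S (hpa1_tau N S ℓ) = heckeAlgebra.T ℓ.1.2 ℓ.2.2 ℓ.2.1 := rfl

/-! ### the Betti → forms transfer -/

/-- the pair `(period of f, period of g)` as an element of `Hom_par(Γ₀(N), ℂ)` -/
def hpa1_P (x : CuspForm (Gamma0 N) 2 × CuspForm (Gamma0 N) 2) : parabolicHoms ℂ (Gamma0 N) ℂ :=
  ⟨periodHomPair N x, lrf26_periodHomPair_mem x⟩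

/-- compatibility of a pair `(b₁, b₂)` through an operator on `Hom_par(Γ₀(N), ℂ)` -/
def hpa1_Compat (a : Module.End ℤ (lrL N) × heckeAlgebra N 2 S) : Prop :=
  ∃ bc : Module.End ℂ (parabolicHoms ℂ (Gamma0 N) ℂ),
    (∀ x : lrL N, bc (emp_castPar (Gamma0 N) x) = emp_castPar (Gamma0 N) (a.1 x)) ∧
    ∀ f g : CuspForm (Gamma0 N) 2,
      bc (hpa1_P N (f, g)) =
        hpa1_P N ((a.2 : Module.End ℂ (CuspForm (Gamma0 N) 2)) f,
          (a.2 : Module.End ℂ (CuspForm (Gamma0 N) 2)) g)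

theorem hpa1_compat_gen (ℓ : hpa1_I N S) : hpa1_Compat N S (hpa1_gen N S ℓ) := by
  refine ⟨emq_TC N ℓ.1, fun x => (emq_castPar_lrtT N ℓ.1 x).symm, fun f g => ?_⟩
  apply Subtype.ext
  have h := periodHomPair_heckeFormsGen N ℓ.1 f g
  rw [heckeFormsGen_of_not_dvd ℓ.2.2] at h
  exact h.symm

theorem hpa1_compat_one : hpa1_Compat N S 1 := by
  refine ⟨1, fun x => ?_, fun f g => ?_⟩
  · rw [Module.End.one_apply, Prod.fst_one, Module.End.one_apply]
  · rw [Module.End.one_apply, Prod.snd_one, OneMemClass.coe_one, Module.End.one_apply,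
      Module.End.one_apply]

theorem hpa1_compat_add {a b : Module.End ℤ (lrL N) × heckeAlgebra N 2 S}
    (ha : hpa1_Compat N S a) (hb : hpa1_Compat N S b) : hpa1_Compat N S (a + b) := by
  obtain ⟨bx, hx1, hx2⟩ := ha
  obtain ⟨by', hy1, hy2⟩ := hb
  refine ⟨bx + by', fun v => ?_, fun f g => ?_⟩
  · rw [LinearMap.add_apply, hx1, hy1, Prod.fst_add, LinearMap.add_apply, map_add]
  · rw [LinearMap.add_apply, hx2, hy2]
    apply Subtype.ext
    show periodHomPair N _ + periodHomPair N _ = periodHomPair N _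
    rw [← map_add, Prod.mk_add_mk, Prod.snd_add, Subalgebra.coe_add, LinearMap.add_apply,
      LinearMap.add_apply]

theorem hpa1_compat_mul {a b : Module.End ℤ (lrL N) × heckeAlgebra N 2 S}
    (ha : hpa1_Compat N S a) (hb : hpa1_Compat N S b) : hpa1_Compat N S (a * b) := by
  obtain ⟨bx, hx1, hx2⟩ := ha
  obtain ⟨by', hy1, hy2⟩ := hb
  refine ⟨bx * by', fun v => ?_, fun f g => ?_⟩
  · rw [Module.End.mul_apply, hy1, hx1, Prod.fst_mul, Module.End.mul_apply]
  · rw [Module.End.mul_apply, hy2, hx2, Prod.snd_mul, Subalgebra.coe_mul, Module.End.mul_apply,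
      Module.End.mul_apply]

theorem hpa1_compat_zsmul (n : ℤ) {a : Module.End ℤ (lrL N) × heckeAlgebra N 2 S}
    (ha : hpa1_Compat N S a) : hpa1_Compat N S (n • a) := by
  obtain ⟨bx, hx1, hx2⟩ := ha
  refine ⟨n • bx, fun v => ?_, fun f g => ?_⟩
  · rw [LinearMap.smul_apply, hx1, Prod.smul_fst, LinearMap.smul_apply, map_zsmul]
  · rw [LinearMap.smul_apply, hx2]
    apply Subtype.ext
    show n • periodHomPair N _ = periodHomPair N _
    rw [← map_zsmul, Prod.smul_mk, Prod.smul_snd]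
    rfl

theorem hpa1_compat_of_mem {a : Module.End ℤ (lrL N) × heckeAlgebra N 2 S}
    (ha : a ∈ hpa1_A N S) : hpa1_Compat N S a := by
  induction ha using Algebra.adjoin_induction with
  | mem x hx =>
    obtain ⟨ℓ, rfl⟩ := hx
    exact hpa1_compat_gen N S ℓ
  | algebraMap n =>
    rw [Algebra.algebraMap_eq_smul_one]
    exact hpa1_compat_zsmul N S n (hpa1_compat_one N S)
  | add x y _ _ hx hy => exact hpa1_compat_add N S hx hy
  | mul x y _ _ hx hy => exact hpa1_compat_mul N S hx hy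

/-- **Betti → forms**: an element of the pair algebra acting as `0` on the lattice acts as `0`
on cusp forms. -/
theorem hpa1_snd_eq_zero_of_fst {a : Module.End ℤ (lrL N) × heckeAlgebra N 2 S}
    (ha : a ∈ hpa1_A N S) (h1 : a.1 = 0) : a.2 = 0 := by
  obtain ⟨bc, hb1, hb2⟩ := hpa1_compat_of_mem N S ha
  have hfg := emp_fg_Gamma0 N
  -- `bc = 0` since it kills a spanning set
  have hbc : bc = 0 := by
    apply LinearMap.ext_on_range (emp_span_parabolicHoms (Gamma0 N))
    intro x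
    rw [hb1, h1, LinearMap.zero_apply, map_zero, LinearMap.zero_apply]
  apply Subtype.ext
  apply LinearMap.ext
  intro f
  have h2 := hb2 f 0
  rw [hbc, LinearMap.zero_apply] at h2
  have h3 : periodHomPair N ((a.2 : Module.End ℂ (CuspForm (Gamma0 N) 2)) f,
      (a.2 : Module.End ℂ (CuspForm (Gamma0 N) 2)) 0) = 0 := (congrArg Subtype.val h2).symm
  have h4 := (Fermat.Agent.S21.result N).1 (by rw [h3, map_zero] :
    periodHomPair N ((a.2 : Module.End ℂ (CuspForm (Gamma0 N) 2)) f,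
      (a.2 : Module.End ℂ (CuspForm (Gamma0 N) 2)) 0) = periodHomPair N 0)
  exact congrArg Prod.fst h4

/-- **the first projection of the pair algebra is injective** -/
theorem hpa1_fst_injective : Function.Injective (hpa1_fst N S) := by
  rw [injective_iff_map_eq_zero]
  intro a ha
  apply Subtype.ext
  apply Prod.ext
  · exact ha
  · exact hpa1_snd_eq_zero_of_fst N S a.2 ha

/-! ### surjectivity of the second projection -/

/-- if all primes dividing `N` are in `S`, the pair algebra surjects onto `heckeAlgebra N 2 S`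
(no `U`-operators occur among the generators). -/
theorem hpa1_snd_surjective (hNS : ∀ q : ℕ, q.Prime → q ∣ N → q ∈ S) :
    Function.Surjective (hpa1_snd N S) := by
  rintro ⟨t, ht⟩
  refine Algebra.adjoin_induction
    (p := fun t ht => ∃ a : hpa1_A N S, hpa1_snd N S a = ⟨t, ht⟩) ?_ ?_ ?_ ?_ ht
  · rintro x (⟨ℓ, hℓ, hℓN, hℓS, rfl⟩ | ⟨q, hqN, hq, hqS, rfl⟩)
    · exact ⟨hpa1_tau N S ⟨⟨ℓ, hℓ⟩, hℓS, hℓN⟩, Subtype.ext rfl⟩
    · exact (hqS (hNS q hq hqN)).elim
  · intro n
    exact ⟨algebraMap ℤ _ n, Subtype.ext rfl⟩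
  · rintro x y hx hy ⟨a, ha⟩ ⟨b, hb⟩
    exact ⟨a + b, by rw [map_add, ha, hb]; rfl⟩
  · rintro x y hx hy ⟨a, ha⟩ ⟨b, hb⟩
    exact ⟨a * b, by rw [map_mul, ha, hb]; rfl⟩

/-! ### the faithful action on the lattice -/

/-- `lrL N` as a module over the pair algebra (through the first projection) -/
@[reducible] def hpa1_module : Module (hpa1_A N S) (lrL N) :=
  Module.compHom (lrL N) (hpa1_fst N S)

/-- the action of the pair algebra on the lattice is faithful -/
theorem hpa1_faithful (a : hpa1_A N S) (h : ∀ v : lrL N, hpa1_fst N S a v = 0) : a = 0 := by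
  apply hpa1_fst_injective N S
  rw [map_zero]
  exact LinearMap.ext h

/-- the character of the pair algebra induced by a character of the Hecke algebra -/
def hpa1_char {R : Type*} [CommRing R] (χ : heckeAlgebra N 2 S →+* R) : hpa1_A N S →+* R :=
  χ.comp (hpa1_snd N S)

@[simp] theorem hpa1_char_tau {R : Type*} [CommRing R] (χ : heckeAlgebra N 2 S →+* R)
    (ℓ : hpa1_I N S) :
    hpa1_char N S χ (hpa1_tau N S ℓ) = χ (heckeAlgebra.T ℓ.1.2 ℓ.2.2 ℓ.2.1) := rfl

/-! ### Artin--Rees transfer -/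

instance hpa1_finite_lrL : Module.Finite ℤ (lrL N) := lhb_finite_par (Γ := Gamma0 N)

instance hpa1_free_lrL : Module.Free ℤ (lrL N) := lhb_free_par (Γ := Gamma0 N)

/-- Artin--Rees over `ℤ` in elementwise form -/
theorem hpa1_artinRees {E : Type*} [AddCommGroup E] [Module.Finite ℤ E] (TB : Submodule ℤ E)
    (p : ℤ) : ∃ c : ℕ, ∀ (m : ℕ) (x : E), x ∈ TB → (∃ e : E, x = (p ^ m) • e) →
      ∃ t ∈ TB, x = (p ^ (m - c)) • t := by
  obtain ⟨c, hc⟩ := Ideal.exists_pow_inf_eq_pow_smul (Ideal.span {p}) TB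
  refine ⟨c, fun m x hx hxe => ?_⟩
  by_cases hm : c ≤ m
  · obtain ⟨e, rfl⟩ := hxe
    have h1 : (p ^ m) • e ∈ (Ideal.span {p}) ^ m • (⊤ : Submodule ℤ E) ⊓ TB :=
      Submodule.mem_inf.mpr
        ⟨Submodule.smul_mem_smul (Ideal.pow_mem_pow (Ideal.mem_span_singleton_self p) m)
          Submodule.mem_top, hx⟩
    rw [hc m hm] at h1
    have h2 : (p ^ m) • e ∈ (Ideal.span {p}) ^ (m - c) • TB :=
      Submodule.smul_mono le_rfl inf_le_right h1
    rw [Ideal.span_singleton_pow, Submodule.ideal_span_singleton_smul,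
      Submodule.mem_smul_pointwise_iff_exists] at h2
    obtain ⟨t, ht, hb⟩ := h2
    exact ⟨t, ht, hb.symm⟩
  · refine ⟨x, hx, ?_⟩
    have : m - c = 0 := by omega
    rw [this, pow_zero, one_smul]


end

end Fermat.Agent.S30x
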