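/-
S31 block C2+C3 (consumer form) on top of the pair algebra `S30x/HeckePair1` (helper1, `hpa1_`).

* `hpa1_divisible` : Artin--Rees transfer: there is `c` such that for all `m` and `a : hpa1_A N S`
  with `hpa1_fst a ∈ p^m End(lrL N)`, `a = p^(m-c) * b` for some `b : hpa1_A N S`;
* `hpa1_exists_end_of_pointwise` : pointwise divisibility on the lattice gives divisibility in
  `End_ℤ(lrL N)`;
* `hpa1_snd_divisible` : if `hpa1_fst a` maps `lrL N` into `p^m • lrL N` then `hpa1_snd a` is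
  divisible by `p^(m-c)` in `heckeAlgebra N 2 S`.
-/
import Mathlib
import Fermat.Agent.S30x.HeckePair1

set_option autoImplicit false

namespace Fermat.Agent.S30x

open scoped MatrixGroups
open CongruenceSubgroup ModularCurve ModularCurve.Period CuspForm
open Fermat.Agent.S41x Fermat.Agent.S16x

noncomputable section

variable (N : ℕ) [NeZero N] (S : Set ℕ)

theorem hpa1_finite_end :
    @Module.Finite ℤ (Module.End ℤ (lrL N)) _ _ (AddCommGroup.toIntModule _) := by
  have hfin0 : Module.Finite ℤ (Module.End ℤ (lrL N)) := Module.Finite.linearMap _ _ _ _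
  have e : (inferInstance : Module ℤ (Module.End ℤ (lrL N))) = AddCommGroup.toIntModule _ :=
    Subsingleton.elim _ _
  rw [← e]
  exact hfin0

/-- the image of the pair algebra in `End_ℤ(lrL N)` as a `ℤ`-submodule -/
def hpa1_TB : Submodule ℤ (Module.End ℤ (lrL N)) :=
  LinearMap.range (hpa1_fst N S).toAddMonoidHom.toIntLinearMap

theorem hpa1_mem_TB (a : hpa1_A N S) : hpa1_fst N S a ∈ hpa1_TB N S := ⟨a, rfl⟩

theorem hpa1_exists_of_mem_TB {t : Module.End ℤ (lrL N)} (ht : t ∈ hpa1_TB N S) :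
    ∃ b : hpa1_A N S, hpa1_fst N S b = t := ht

/-- Artin--Rees for the image of the pair algebra -/
theorem hpa1_artinRees_TB (p : ℤ) :
    ∃ c : ℕ, ∀ (m : ℕ) (x : Module.End ℤ (lrL N)), x ∈ hpa1_TB N S →
      (∃ e : Module.End ℤ (lrL N), x = (p ^ m) • e) →
      ∃ t ∈ hpa1_TB N S, x = (p ^ (m - c)) • t :=
  @hpa1_artinRees (Module.End ℤ (lrL N)) _ (hpa1_finite_end N) (hpa1_TB N S) p

set_option maxHeartbeats 1600000 in
/-- **Divisibility transfer (Artin--Rees)**: there is a constant `c` such that every element `a`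
of the pair algebra whose action on the lattice is divisible by `p ^ m` in `End_ℤ(lrL N)` is
divisible by `p ^ (m - c)` IN the pair algebra (hence so is its image in `heckeAlgebra N 2 S`). -/
theorem hpa1_divisible (p : ℤ) :
    ∃ c : ℕ, ∀ (m : ℕ) (a : hpa1_A N S) (e : Module.End ℤ (lrL N)),
      hpa1_fst N S a = ((p ^ m : ℤ) : Module.End ℤ (lrL N)) * e →
        ∃ b : hpa1_A N S, a = ((p ^ (m - c) : ℤ) : hpa1_A N S) * b := by
  obtain ⟨c, hc⟩ := hpa1_artinRees_TB N S p
  refine ⟨c, fun m a e hae => ?_⟩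
  have h1 : ∃ e' : Module.End ℤ (lrL N), hpa1_fst N S a = (p ^ m) • e' :=
    ⟨e, hae.trans (zsmul_eq_mul e (p ^ m)).symm⟩
  obtain ⟨t, ht, hb⟩ := hc m (hpa1_fst N S a) (hpa1_mem_TB N S a) h1
  obtain ⟨b, rfl⟩ := hpa1_exists_of_mem_TB N S ht
  refine ⟨b, hpa1_fst_injective N S ?_⟩
  have h2 : hpa1_fst N S (((p ^ (m - c) : ℤ) : hpa1_A N S) * b) =
      ((p ^ (m - c) : ℤ) : Module.End ℤ (lrL N)) * hpa1_fst N S b :=
    ((hpa1_fst N S).map_mul _ _).trans
      (congrArg (· * hpa1_fst N S b) (map_intCast (hpa1_fst N S) (p ^ (m - c))))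
  exact hb.trans ((zsmul_eq_mul _ _).trans h2.symm)

/-- pointwise form of the divisibility hypothesis -/
theorem hpa1_exists_end_of_pointwise (n : ℤ) (hn : n ≠ 0) (b : Module.End ℤ (lrL N))
    (h : ∀ v : lrL N, ∃ w : lrL N, b v = n • w) :
    ∃ e : Module.End ℤ (lrL N), b = (n : Module.End ℤ (lrL N)) * e := by
  classical
  choose w hw using h
  have hinj : ∀ x y : lrL N, n • x = n • y → x = y := fun x y hxy =>
    smul_right_injective (lrL N) hn hxy
  refine ⟨{ toFun := w, map_add' := fun x y => ?_, map_smul' := fun r x => ?_ }, ?_⟩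
  · apply hinj
    rw [← hw, smul_add, ← hw, ← hw, map_add]
  · apply hinj
    rw [← hw, RingHom.id_apply, smul_comm, ← hw, map_smul]
  · apply LinearMap.ext
    intro v
    rw [Module.End.mul_apply, Module.End.intCast_apply]
    exact hw v

set_option maxHeartbeats 1600000 in
/-- **S31-C3 in consumer form**: if `hpa1_fst a` maps `lrL N` into `p ^ m • lrL N` then the image
of `a` in the Hecke algebra is divisible by `p ^ (m - c)`. -/
theorem hpa1_snd_divisible (p : ℤ) (hp : p ≠ 0) :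
    ∃ c : ℕ, ∀ (m : ℕ) (a : hpa1_A N S),
      (∀ v : lrL N, ∃ w : lrL N, hpa1_fst N S a v = (p ^ m) • w) →
        ∃ t : heckeAlgebra N 2 S,
          hpa1_snd N S a = ((p ^ (m - c) : ℤ) : heckeAlgebra N 2 S) * t := by
  obtain ⟨c, hc⟩ := hpa1_divisible N S p
  refine ⟨c, fun m a h => ?_⟩
  obtain ⟨e, he⟩ := hpa1_exists_end_of_pointwise N (p ^ m) (pow_ne_zero m hp) _ h
  obtain ⟨b, hb⟩ := hc m a e he
  refine ⟨hpa1_snd N S b, ?_⟩
  have h2 : hpa1_snd N S (((p ^ (m - c) : ℤ) : hpa1_A N S) * b) =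
      ((p ^ (m - c) : ℤ) : heckeAlgebra N 2 S) * hpa1_snd N S b :=
    ((hpa1_snd N S).map_mul _ _).trans
      (congrArg (· * hpa1_snd N S b) (map_intCast (hpa1_snd N S) (p ^ (m - c))))
  exact (congrArg (hpa1_snd N S) hb).trans h2

end

end Fermat.Agent.S30x
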