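/-
S30 project (parallel track), block T1 (modulus `p ^ n` versions of the S42 comparison map),
leaf T1c COMPAT (helper63), prefix `rlc63_`.

The relation `heq_Rel M m x ψ` of S42x/HeckeEqDefs is stated for an arbitrary modulus `m : ℕ`.
This file proves the CHANGE OF MODULUS

* `rlc63_rel_mul` : `heq_Rel M (a * b) x ψ → heq_Rel M b (a • x) (a • ψ)`
  (same `f`, divisor `a • Dt`, root `h ^ a`),
* `rlc63_nsmul_psiAdd` : `a • twp_psiAdd (a * b) χ = twp_psiAdd b χ` (`a ≠ 0`;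
  `exp(2πi/(ab))^a = exp(2πi/b)`),
* `rlc63_rel_psi` : `heq_Rel M (a * b) x (ψ_{ab,χ}) → heq_Rel M b (a • x) (ψ_{b,χ})`,
* `rlc63_iota_compat` : for the comparison maps `ι_m = rlg_iota` of S42x/RelGroup built at the
  moduli `a * b` and `b` from families `psiOf` with `a • psiOf_{ab} χ = psiOf_b χ`:
  `a • ι_{ab} χ = ι_b χ`; in particular `p • ι_{p^(n+1)} χ = ι_{p^n} χ` (`rlc63_iota_compat_pow`).

So the compatibility `p ι_{n+1} = ι_n` needed for the Tate-module sequence model of S30 is free.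
-/
import Mathlib
import Fermat.Agent.S42x.HeckeEqDefs
import Fermat.Agent.S42x.TwEisPsi
import Fermat.Agent.S42x.RelGroup

set_option autoImplicit false

namespace Fermat.Agent.S30x

open UpperHalfPlane ModularCurve AlgebraicCurve CongruenceSubgroup
open Fermat.Agent.S24x Fermat.Agent.S42x
open scoped MatrixGroups

noncomputable section

variable {M : ℕ} [NeZero M]

/-- **change of modulus in the relation `R`**. -/
theorem rlc63_rel_mul (a b : ℕ) {x : JZero M} {ψ : Additive (Gamma0 M) →+ Additive ℂˣ}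
    (hx : heq_Rel M (a * b) x ψ) : heq_Rel M b (a • x) (a • ψ) := by
  obtain ⟨f, Dt, h, hf, hDt, hdiv, hpow, hchar⟩ := hx
  refine ⟨f, a • Dt, h ^ a, hf, ?_, fun P => ?_, ?_, fun γ => ?_⟩
  · rw [← hDt]
    rfl
  · rw [← hdiv P, AddSubgroup.coe_nsmul, Finsupp.smul_apply, nsmul_eq_mul]
    push_cast
    ring
  · rw [← pow_mul, hpow]
  · rw [smul_pow', hchar γ, mul_pow, AddMonoidHom.nsmul_apply, toMul_nsmul,
      Units.val_pow_eq_pow_val, map_pow]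

/-- `ζ_{ab}^a = ζ_b`. -/
theorem rlc63_zeta_pow (a b : ℕ) (ha : a ≠ 0) : twp_zeta (a * b) ^ a = twp_zeta b := by
  apply Units.ext
  rw [Units.val_pow_eq_pow_val, twp_zeta_coe, twp_zeta_coe, ← Complex.exp_nat_mul]
  congr 1
  have ha' : (a : ℂ) ≠ 0 := by exact_mod_cast ha
  by_cases hb : b = 0
  · subst hb
    simp
  · have hb' : (b : ℂ) ≠ 0 := by exact_mod_cast hb
    push_cast
    field_simp

theorem rlc63_ep_pow (a b : ℕ) (ha : a ≠ 0) (n : ℤ) : twp_ep (a * b) n ^ a = twp_ep b n := by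
  rw [twp_ep, twp_ep, ← zpow_natCast, zpow_comm, zpow_natCast, rlc63_zeta_pow a b ha]

/-- `a • ψ_{ab,χ} = ψ_{b,χ}`. -/
theorem rlc63_nsmul_psiAdd {Γ : Subgroup SL(2, ℤ)} (a b : ℕ) (ha : a ≠ 0) (χ : Additive Γ →+ ℤ) :
    a • twp_psiAdd (a * b) χ = twp_psiAdd b χ := by
  refine AddMonoidHom.ext fun g => ?_
  rw [AddMonoidHom.nsmul_apply, twp_psiAdd_apply, twp_psiAdd_apply, ← ofMul_pow, twp_psi_apply,
    twp_psi_apply, rlc63_ep_pow a b ha]

/-- change of modulus for the characters `ψ_{m,χ} = exp(2πi χ / m)`. -/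
theorem rlc63_rel_psi (a b : ℕ) (ha : a ≠ 0) {x : JZero M} (χ : Additive (Gamma0 M) →+ ℤ)
    (hx : heq_Rel M (a * b) x (twp_psiAdd (a * b) χ)) :
    heq_Rel M b (a • x) (twp_psiAdd b χ) := by
  have h := rlc63_rel_mul a b hx
  rwa [rlc63_nsmul_psiAdd a b ha χ] at h

section Iota

variable {L : Type*} [AddCommGroup L] (a b : ℕ)
  (psiAB psiB : L →+ (Additive (Gamma0 M) →+ Additive ℂˣ))
  (hcompat : ∀ χ : L, a • psiAB χ = psiB χ)
  (hR3 : ∀ (x : JZero M) (χ : L), heq_Rel M (a * b) x (psiAB χ) → psiAB χ = 0 → x = 0)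
  (hR4 : ∀ χ : L, heq_Rel M (a * b) (0 : JZero M) (psiAB χ) → psiAB χ = 0)
  (hR5 : ∀ χ : L, ∃ x : JZero M, heq_Rel M (a * b) x (psiAB χ))
  (hR3' : ∀ (x : JZero M) (χ : L), heq_Rel M b x (psiB χ) → psiB χ = 0 → x = 0)
  (hR4' : ∀ χ : L, heq_Rel M b (0 : JZero M) (psiB χ) → psiB χ = 0)
  (hR5' : ∀ χ : L, ∃ x : JZero M, heq_Rel M b x (psiB χ))

include hcompat in
/-- **compatibility of the comparison maps**: `a • ι_{ab} = ι_b`. -/
theorem rlc63_iota_compat (χ : L) :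
    a • rlg_iota psiAB hR3 hR4 hR5 χ = rlg_iota psiB hR3' hR4' hR5' χ := by
  apply rlg_iota_eq
  have h := rlc63_rel_mul a b (rlg_iota_spec psiAB hR3 hR4 hR5 χ)
  rwa [hcompat χ] at h

end Iota

/-- the tower case: `p • ι_{p^(n+1)} = ι_{p^n}`. -/
theorem rlc63_iota_compat_pow {L : Type*} [AddCommGroup L] (p n : ℕ)
    (psi1 psi0 : L →+ (Additive (Gamma0 M) →+ Additive ℂˣ))
    (hcompat : ∀ χ : L, p • psi1 χ = psi0 χ)
    (hR3 : ∀ (x : JZero M) (χ : L), heq_Rel M (p ^ (n + 1)) x (psi1 χ) → psi1 χ = 0 → x = 0)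
    (hR4 : ∀ χ : L, heq_Rel M (p ^ (n + 1)) (0 : JZero M) (psi1 χ) → psi1 χ = 0)
    (hR5 : ∀ χ : L, ∃ x : JZero M, heq_Rel M (p ^ (n + 1)) x (psi1 χ))
    (hR3' : ∀ (x : JZero M) (χ : L), heq_Rel M (p ^ n) x (psi0 χ) → psi0 χ = 0 → x = 0)
    (hR4' : ∀ χ : L, heq_Rel M (p ^ n) (0 : JZero M) (psi0 χ) → psi0 χ = 0)
    (hR5' : ∀ χ : L, ∃ x : JZero M, heq_Rel M (p ^ n) x (psi0 χ)) (χ : L) :
    p • rlg_iota psi1 hR3 hR4 hR5 χ = rlg_iota psi0 hR3' hR4' hR5' χ := by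
  apply rlg_iota_eq
  have h0 : heq_Rel M (p * p ^ n) (rlg_iota psi1 hR3 hR4 hR5 χ) (psi1 χ) := by
    rw [← pow_succ']
    exact rlg_iota_spec psi1 hR3 hR4 hR5 χ
  have h := rlc63_rel_mul p (p ^ n) h0
  rwa [hcompat χ] at h

end

end Fermat.Agent.S30x
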