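/-
S30 project (parallel track), block T1 (helper63), prefix `iot63_`: the S42 comparison map at an
ARBITRARY MODULUS `m` and the TOWER `ι_n` at the moduli `p ^ (n + 1)`.

* `iot63_rel_of_root_gen` / `iot63_rel_of_form_gen` / `iot63_hR5_gen` : helper92's `S_p^fin` chain
  (S42x/R5Fin92) for an arbitrary modulus `m > 0`, with the only two places where the arithmetic
  of `m` enters isolated as HYPOTHESES:
  (H1) over `ℂ`: `m ∣ ord_P f` at the finite places of the complex function field for every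
       `f` whose realisation has an `m`-th root with multiplier `ψ`;
  (H2) over `Q̄`: `m ∣ ord_P f₀` at all places of `FBar M` for every `f₀` whose realisation has
       an `m`-th root with multiplier `ψ`.
  (For `m` prime to `6` both hold by S42x `cdcf71_dvd_finite` / `dsdq_dvd_ord`; for `p = 2, 3` the
  ELL-EXACT leaves are to be plugged in here.)
* `iot63_hR5` : the instance `Nat.Coprime m 6`.
* `iot63_iotaPkg_gen` / `iot63_iotaPkg` : the comparison map `ι : lrL M →+ JZero M` at modulus `m`: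
  `m • ι = 0`, kernel `m • lrL M`, Hecke equivariance (literal shape of `low92_iotaPkg`).
* `iot63_tower_gen` / `iot63_tower` : the tower `ι n` at the moduli `p ^ (n + 1)` with all of the
  above and the compatibility `p • ι (n + 1) v = ι n v` (from `rlc63_iota_compat`).
-/
import Mathlib
import Fermat.Agent.S42x.TopLow92
import Fermat.Agent.S30x.RelCompat63

set_option autoImplicit false

namespace Fermat.Agent.S30x

open UpperHalfPlane ModularCurve AlgebraicCurve CongruenceSubgroup ModularForm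
  ModularCurve.Period
open Fermat.Agent.S24x Fermat.Agent.S18x Fermat.Agent.S23x Fermat.Agent.S41x Fermat.Agent.S16x
  Fermat.Agent.S42x
open scoped MatrixGroups

noncomputable section

variable {M : ℕ} [NeZero M]

/-- hypothesis (H1): divisibility at the finite places over `ℂ`. -/
def iot63_H1 (m : ℕ) {jF : ratioField M} (D : cdc_Real (ratioField M) M jF)
    (ψ : Additive (Gamma0 M) →+ Additive ℂˣ) : Prop :=
  ∀ (fC : ratioField M) (h₁ : Mer), fC ≠ 0 → h₁ ^ m = D.φ fC → r5a_HasChar M ψ h₁ →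
    ∀ P : Place ℂ (ratioField M), 0 ≤ P.ord jF → (m : ℤ) ∣ P.ord fC

/-- hypothesis (H2): divisibility at all places over `Q̄`. -/
def iot63_H2 (M m : ℕ) [NeZero M] (ψ : Additive (Gamma0 M) →+ Additive ℂˣ) : Prop :=
  ∀ (f₀ : FBar M) (h : Mer), f₀ ≠ 0 → h ^ m = evF M f₀ → r5a_HasChar M ψ h →
    ∀ P : Place Qbar (FBar M), (m : ℤ) ∣ P.ord f₀

/-- **the `S_m^fin` chain, generic modulus**. -/
theorem iot63_rel_of_root_gen (m : ℕ) (hm0 : 0 < m)
    (jF : ratioField M) (hjF : (jF : LaurentSeries ℂ) = jqModC ℂ)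
    (D : cdc_Real (ratioField M) M jF)
    (hev : inj_EvCompat M D.φ)
    (ψ : Additive (Gamma0 M) →+ Additive ℂˣ)
    (hH1 : iot63_H1 m D ψ) (hH2 : iot63_H2 M m ψ)
    (fC : ratioField M) (hfC : fC ≠ 0) (h₁ : Mer) (hroot : h₁ ^ m = D.φ fC)
    (hchar : r5a_HasChar M ψ h₁) :
    ∃ x : JZero M, heq_Rel M m x ψ := by
  -- membership in `S_m^fin`
  have hdivfin : ∀ P : Place ℂ (ratioField M), 0 ≤ P.ord jF → (m : ℤ) ∣ P.ord fC :=
    fun P hP => hH1 fC h₁ hfC hroot hchar P hP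
  -- finitely many classes
  obtain ⟨T0, hT0fin, -, hcls⟩ := inj_exists_T0_of_dict M D.φ hev hm0
    {P : Place ℂ (ratioField M) | 0 ≤ P.ord jF} (fun τ => by
      obtain ⟨e, -, he⟩ := cdc_exists_ordAt_eq_mul D τ
      exact ⟨cdc_vPt D τ, (e : ℤ), r5f92_vPt_ord_j_nonneg D τ, fun f _ => he f⟩)
  -- descent
  have hdesc := dsct57_top_fin' M m hm0 (ratioField M) (cdcb_fullC_eq M).symm jF hjF T0 hT0fin
    (fun f hf hdiv => hcls f hf (fun P hP => hdiv P hP)) fC hfC hdivfin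
  -- assembly
  refine r5a_of_descended M m hm0 ψ (ratioField M) D.φ D.map_const
    (fun γ u => cdc_inv' D (γ : SL(2, ℤ)) γ.2 u)
    (fun f₀ y hy => inj_cmp_hcomp M D.φ hev f₀ y hy) h₁ fC hfC hroot hchar hdesc ?_
  intro f₀ hf₀ h hh hch P
  exact hH2 f₀ h hf₀ hh hch P

/-- the chain from a form with character (`twb76_Form`, B1), generic modulus. -/
theorem iot63_rel_of_form_gen (m : ℕ) (hm0 : 0 < m)
    (jF : ratioField M) (hjF : (jF : LaurentSeries ℂ) = jqModC ℂ)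
    (D : cdc_Real (ratioField M) M jF)
    (hev : inj_EvCompat M D.φ)
    (ψ : ↥(Gamma0 M) →* ℂˣ) (hψm : ∀ g : ↥(Gamma0 M), ψ g ^ m = 1)
    (hH1 : iot63_H1 m D (MonoidHom.toAdditive ψ)) (hH2 : iot63_H2 M m (MonoidHom.toAdditive ψ))
    (A : ℍ → ℂ) (hA : twb76_Form M ψ A) :
    ∃ x : JZero M, heq_Rel M m x (MonoidHom.toAdditive ψ) := by
  set fC : ratioField M := ⟨_, twb76_ratio_mem hA m hψm⟩ with hfCdef
  have hfC : fC ≠ 0 := by
    intro h
    exact twb76_ratio_ne_zero hA m hψm (congrArg Subtype.val h)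
  have hE : (cdc_E4Hol ^ m : Hol) ≠ 0 := pow_ne_zero m twb76_E4Hol_ne_zero
  have hdoor := hev fC ((m : ℤ) * 4) (hA.hol ^ m) (cdc_E4Hol ^ m)
    (twb76_isMF_pow hA m hψm) (twb76_isMF_E4_pow M m) hE (twb76_ratio_mul (M := M) m A)
  have hroot : twb76_h hA ^ m = D.φ fC := by
    rw [twb76_h_pow, div_eq_iff (twr76_algebraMap_ne_zero hE)]
    exact hdoor.symm
  exact iot63_rel_of_root_gen m hm0 jF hjF D hev (MonoidHom.toAdditive ψ) hH1 hH2 fC hfC
    (twb76_h hA) hroot (fun γ => twb76_h_char hA γ)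

/-- **(R5) at modulus `m`, generic**: hypotheses (H1), (H2) for the characters `ψ_{m,χ}`. -/
theorem iot63_hR5_gen (M m : ℕ) [NeZero M] (hm0 : 0 < m)
    (hH1 : ∀ χ : Additive (Gamma0 M) →+ ℤ, IsParabolicHom (Gamma0 M) χ →
      iot63_H1 m (cde29_realR M) (twp_psiAdd m χ))
    (hH2 : ∀ χ : Additive (Gamma0 M) →+ ℤ, IsParabolicHom (Gamma0 M) χ →
      iot63_H2 M m (twp_psiAdd m χ))
    (χ : Additive (Gamma0 M) →+ ℤ) (hχ : IsParabolicHom (Gamma0 M) χ) :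
    ∃ x : JZero M, heq_Rel M m x (twp_psiAdd m χ) :=
  iot63_rel_of_form_gen m hm0 (cde29_jR M) dl_jqModC_eq_jL.symm (cde29_realR M)
    (cde29_realR_evCompat M) (twp_psi m χ) (twp_psi_pow m χ) (hH1 χ hχ) (hH2 χ hχ)
    (twx76_A m χ) (twx76_form m hχ)

theorem iot63_pos_of_coprime_six {m : ℕ} (hm6 : Nat.Coprime m 6) : 0 < m := by
  rcases Nat.eq_zero_or_pos m with rfl | h
  · simp at hm6
  · exact h

/-- (H1) for `m` prime to `6`. -/
theorem iot63_H1_of_coprime (M m : ℕ) [NeZero M] (hm6 : Nat.Coprime m 6)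
    (ψ : Additive (Gamma0 M) →+ Additive ℂˣ) : iot63_H1 m (cde29_realR M) ψ := by
  intro fC h₁ _ hroot _ P hP
  have hcov : ∀ (c : ℂ) (τ₀ : ℍ), jFun τ₀ = c → ∀ v : Place ℂ (ratioField M),
      v ∈ placesOver ℂ (ratioField M) (cde29_jR M) c →
      ∃ g : SL(2, ℤ), v = cdc_vPt (cde29_realR M) (g • τ₀) :=
    fun c τ₀ hτ₀ v hv => cdf_covering_finite (cde29_realR M) (cde29_isCoordinateR M) c τ₀ hτ₀ v hv
  exact cdcf71_dvd_finite (cde29_realR M) (cde29_isCoordinateR M) hcov hm6 hroot hP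

/-- (H2) for `m` prime to `6` and `ψ` parabolic. -/
theorem iot63_H2_of_coprime (M m : ℕ) [NeZero M] (hm6 : Nat.Coprime m 6)
    (ψ : Additive (Gamma0 M) →+ Additive ℂˣ) (hψ : IsParabolicHom (Gamma0 M) ψ) :
    iot63_H2 M m ψ := by
  intro f₀ h hf₀ hh hch P
  exact dsdq_dvd_ord M hm6 f₀ hf₀ h hh ψ hψ hch P

/-- **(R5) at a modulus prime to `6`**, hypothesis-free. -/
theorem iot63_hR5 (M m : ℕ) [NeZero M] (hm6 : Nat.Coprime m 6)
    (χ : Additive (Gamma0 M) →+ ℤ) (hχ : IsParabolicHom (Gamma0 M) χ) :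
    ∃ x : JZero M, heq_Rel M m x (twp_psiAdd m χ) :=
  iot63_hR5_gen M m (iot63_pos_of_coprime_six hm6)
    (fun χ _ => iot63_H1_of_coprime M m hm6 _)
    (fun χ hχ => iot63_H2_of_coprime M m hm6 _ (r5f92_parabolic m hχ)) χ hχ

/-! ### the comparison map at modulus `m` -/

section Pkg

variable (M)

/-- the three inputs of `rlg_iota` at modulus `m`, from (R5). -/
theorem iot63_hR3 (m : ℕ) (hm0 : 0 < m) :
    ∀ (x : JZero M) (χ : lrL M), heq_Rel M m x (low92_psiOf M m χ) →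
      low92_psiOf M m χ = 0 → x = 0 :=
  inj_cmp_hR3 M (cde29_ev M) m hm0 (cde29_evCompat M) (low92_psiOf M m)

theorem iot63_hR4 (m : ℕ) (hm0 : 0 < m) :
    ∀ χ : lrL M, heq_Rel M m (0 : JZero M) (low92_psiOf M m χ) → low92_psiOf M m χ = 0 :=
  fun χ h => rr4_psi_eq_zero M m hm0.ne' _ h

/-- hypothesis (R5) at modulus `m` in the `psiOf` shape. -/
def iot63_R5 (m : ℕ) : Prop :=
  ∀ χ : lrL M, ∃ x : JZero M, heq_Rel M m x (low92_psiOf M m χ)

theorem iot63_R5_of_coprime (m : ℕ) (hm6 : Nat.Coprime m 6) : iot63_R5 M m := by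
  intro χ
  rw [low92_psiOf_eq]
  exact iot63_hR5 M m hm6 χ.1 (mem_parabolicHoms_iff.mp χ.2)

/-- the comparison map at modulus `m`. -/
def iot63_iota (m : ℕ) (hm0 : 0 < m) (h5 : iot63_R5 M m) : lrL M →+ JZero M :=
  rlg_iota (low92_psiOf M m) (iot63_hR3 M m hm0) (iot63_hR4 M m hm0) h5

theorem iot63_iota_tors (m : ℕ) (hm0 : 0 < m) (h5 : iot63_R5 M m) (v : lrL M) :
    m • iot63_iota M m hm0 h5 v = 0 :=
  rlg_iota_tors _ _ _ _ v

theorem iot63_iota_ker (m : ℕ) (hm0 : 0 < m) (h5 : iot63_R5 M m) (v : lrL M)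
    (hv : iot63_iota M m hm0 h5 v = 0) : ∃ w : lrL M, v = (m : ℤ) • w := by
  unfold iot63_iota at hv
  rw [rlg_iota_eq_zero_iff, low92_psiOf_eq, twp_psiAdd_eq_zero_iff hm0.ne'] at hv
  exact lrt_dvd_of_values M m hm0.ne' v (fun γ => hv (Additive.toMul γ))

theorem iot63_iota_hecke (m : ℕ) (hm0 : 0 < m) (h5 : iot63_R5 M m) (ℓ : Nat.Primes)
    (hℓM : ¬ (ℓ : ℕ) ∣ M) (v : lrL M) :
    iot63_iota M m hm0 h5 (lrtT M ℓ v) = heckeOperatorBar M ℓ (iot63_iota M m hm0 h5 v) := by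
  unfold iot63_iota
  refine rlg_iota_comm (low92_psiOf M m) _ _ _ (heckeOperatorBar M ℓ) (lrtT M ℓ) ?_ v
  intro x χ hx
  exact heq_R6_comp M m ℓ hℓM x (low92_e m) χ.1 hx

/-- `a • ψ_{ab,χ} = ψ_{b,χ}` in the `psiOf` shape. -/
theorem iot63_psiOf_compat (a b : ℕ) (ha : a ≠ 0) (χ : lrL M) :
    a • low92_psiOf M (a * b) χ = low92_psiOf M b χ := by
  rw [low92_psiOf_eq, low92_psiOf_eq]
  exact rlc63_nsmul_psiAdd a b ha χ.1

/-- compatibility of the comparison maps at the moduli `a * b` and `b`. -/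
theorem iot63_iota_compat (a b : ℕ) (ha : 0 < a) (hb : 0 < b) (h5 : iot63_R5 M (a * b))
    (h5' : iot63_R5 M b) (v : lrL M) :
    a • iot63_iota M (a * b) (Nat.mul_pos ha hb) h5 v = iot63_iota M b hb h5' v :=
  rlc63_iota_compat a b (low92_psiOf M (a * b)) (low92_psiOf M b)
    (iot63_psiOf_compat M a b ha.ne') _ _ _ _ _ _ v

/-- **the comparison package at modulus `m`** (literal shape of `low92_iotaPkg`), from (R5). -/
theorem iot63_iotaPkg_gen (m : ℕ) (hm0 : 0 < m) (h5 : iot63_R5 M m) :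
    ∃ ι : lrL M →+ JZero M,
      (∀ v : lrL M, m • ι v = 0) ∧
      (∀ v : lrL M, ι v = 0 → ∃ w : lrL M, v = (m : ℤ) • w) ∧
      ∀ ℓ : Nat.Primes, ¬ (ℓ : ℕ) ∣ M → ∀ v : lrL M,
        ι (lrtT M ℓ v) = heckeOperatorBar M ℓ (ι v) :=
  ⟨iot63_iota M m hm0 h5, iot63_iota_tors M m hm0 h5, iot63_iota_ker M m hm0 h5,
    fun ℓ hℓM v => iot63_iota_hecke M m hm0 h5 ℓ hℓM v⟩

theorem iot63_iotaPkg (m : ℕ) (hm6 : Nat.Coprime m 6) :
    ∃ ι : lrL M →+ JZero M,
      (∀ v : lrL M, m • ι v = 0) ∧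
      (∀ v : lrL M, ι v = 0 → ∃ w : lrL M, v = (m : ℤ) • w) ∧
      ∀ ℓ : Nat.Primes, ¬ (ℓ : ℕ) ∣ M → ∀ v : lrL M,
        ι (lrtT M ℓ v) = heckeOperatorBar M ℓ (ι v) :=
  iot63_iotaPkg_gen M m (iot63_pos_of_coprime_six hm6) (iot63_R5_of_coprime M m hm6)

/-- **THE TOWER**, from (R5) at all the moduli `p ^ (n + 1)`. -/
theorem iot63_tower_gen (p : ℕ) (hp0 : 0 < p) (h5 : ∀ n : ℕ, iot63_R5 M (p ^ (n + 1))) :
    ∃ ι : ℕ → lrL M →+ JZero M,
      (∀ n (v : lrL M), p ^ (n + 1) • ι n v = 0) ∧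
      (∀ n (v : lrL M), ι n v = 0 → ∃ w : lrL M, v = ((p ^ (n + 1) : ℕ) : ℤ) • w) ∧
      (∀ n (ℓ : Nat.Primes), ¬ (ℓ : ℕ) ∣ M → ∀ v : lrL M,
        ι n (lrtT M ℓ v) = heckeOperatorBar M ℓ (ι n v)) ∧
      ∀ n (v : lrL M), p • ι (n + 1) v = ι n v := by
  have hpos : ∀ n : ℕ, 0 < p ^ (n + 1) := fun n => pow_pos hp0 _
  refine ⟨fun n => iot63_iota M (p ^ (n + 1)) (hpos n) (h5 n),
    fun n v => iot63_iota_tors M _ (hpos n) (h5 n) v,
    fun n v hv => iot63_iota_ker M _ (hpos n) (h5 n) v hv,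
    fun n ℓ hℓM v => iot63_iota_hecke M _ (hpos n) (h5 n) ℓ hℓM v, fun n v => ?_⟩
  have h5a : iot63_R5 M (p * p ^ (n + 1)) := by
    rw [← pow_succ']
    exact h5 (n + 1)
  have key := iot63_iota_compat M p (p ^ (n + 1)) hp0 (hpos n) h5a (h5 n) v
  have heq : iot63_iota M (p ^ (n + 1 + 1)) (hpos (n + 1)) (h5 (n + 1)) v =
      iot63_iota M (p * p ^ (n + 1)) (Nat.mul_pos hp0 (hpos n)) h5a v := by
    have : ∀ (m m' : ℕ) (hmm : m = m') (h0 : 0 < m) (h0' : 0 < m') (hh : iot63_R5 M m)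
        (hh' : iot63_R5 M m'), iot63_iota M m h0 hh v = iot63_iota M m' h0' hh' v := by
      intro m m' hmm h0 h0' hh hh'
      subst hmm
      rfl
    exact this _ _ (pow_succ' p (n + 1)) _ _ _ _
  show p • iot63_iota M (p ^ (n + 1 + 1)) (hpos (n + 1)) (h5 (n + 1)) v = _
  rw [heq]
  exact key

/-- **THE TOWER for `p` prime to `6`** (in particular every prime `p ≥ 5`), hypothesis-free. -/
theorem iot63_tower (p : ℕ) (hp6 : Nat.Coprime p 6) :
    ∃ ι : ℕ → lrL M →+ JZero M,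
      (∀ n (v : lrL M), p ^ (n + 1) • ι n v = 0) ∧
      (∀ n (v : lrL M), ι n v = 0 → ∃ w : lrL M, v = ((p ^ (n + 1) : ℕ) : ℤ) • w) ∧
      (∀ n (ℓ : Nat.Primes), ¬ (ℓ : ℕ) ∣ M → ∀ v : lrL M,
        ι n (lrtT M ℓ v) = heckeOperatorBar M ℓ (ι n v)) ∧
      ∀ n (v : lrL M), p • ι (n + 1) v = ι n v :=
  iot63_tower_gen M p (iot63_pos_of_coprime_six hp6)
    (fun n => iot63_R5_of_coprime M _ (Nat.Coprime.pow_left _ hp6))

end Pkg

end

end Fermat.Agent.S30x
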