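/-
S30 project (parallel track), block T1 (helper63), prefix `iot63_`: the comparison map at EVERY
modulus `m > 0` and the TOWER `ι_n` at the moduli `p ^ (n + 1)` for EVERY `p > 0` (in particular
`p = 2, 3`), hypothesis-free.

Input: S30x/IotaTower63 (`iot63_iotaPkg_gen`, `iot63_tower_gen`: everything from (R5) at the
relevant moduli) + helper90's closed all-modulus (R5) `r5fap90_hR5` (S42x/R5FinAllP90: ELL-EXACT
at the elliptic points, exact ramification at the cusps).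
-/
import Mathlib
import Fermat.Agent.S30x.IotaTower63
import Fermat.Agent.S42x.R5FinAllP90

set_option autoImplicit false

namespace Fermat.Agent.S30x

open UpperHalfPlane ModularCurve AlgebraicCurve CongruenceSubgroup ModularCurve.Period
open Fermat.Agent.S24x Fermat.Agent.S23x Fermat.Agent.S41x Fermat.Agent.S16x Fermat.Agent.S42x
open scoped MatrixGroups

noncomputable section

variable (M : ℕ) [NeZero M]

/-- (R5) at every modulus `m > 0`, in the `psiOf` shape. -/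
theorem iot63_R5_all (m : ℕ) (hm0 : 0 < m) : iot63_R5 M m := by
  intro χ
  rw [low92_psiOf_eq]
  exact r5fap90_hR5 M m hm0 χ.1 (mem_parabolicHoms_iff.mp χ.2)

/-- **the comparison package at EVERY modulus `m > 0`** (literal shape of `low92_iotaPkg`). -/
theorem iot63_iotaPkg_all (m : ℕ) (hm0 : 0 < m) :
    ∃ ι : lrL M →+ JZero M,
      (∀ v : lrL M, m • ι v = 0) ∧
      (∀ v : lrL M, ι v = 0 → ∃ w : lrL M, v = (m : ℤ) • w) ∧
      ∀ ℓ : Nat.Primes, ¬ (ℓ : ℕ) ∣ M → ∀ v : lrL M,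
        ι (lrtT M ℓ v) = heckeOperatorBar M ℓ (ι v) :=
  iot63_iotaPkg_gen M m hm0 (iot63_R5_all M m hm0)

/-- **THE TOWER for EVERY `p > 0`** (all primes, including `2` and `3`), hypothesis-free. -/
theorem iot63_tower_all (p : ℕ) (hp0 : 0 < p) :
    ∃ ι : ℕ → lrL M →+ JZero M,
      (∀ n (v : lrL M), p ^ (n + 1) • ι n v = 0) ∧
      (∀ n (v : lrL M), ι n v = 0 → ∃ w : lrL M, v = ((p ^ (n + 1) : ℕ) : ℤ) • w) ∧
      (∀ n (ℓ : Nat.Primes), ¬ (ℓ : ℕ) ∣ M → ∀ v : lrL M,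
        ι n (lrtT M ℓ v) = heckeOperatorBar M ℓ (ι n v)) ∧
      ∀ n (v : lrL M), p • ι (n + 1) v = ι n v :=
  iot63_tower_gen M p hp0 (fun n => iot63_R5_all M _ (pow_pos hp0 _))

/-- the named tower (a definition, for consumers who prefer it to the existential). -/
def iot63_iotaN (p : ℕ) (hp0 : 0 < p) (n : ℕ) : lrL M →+ JZero M :=
  iot63_iota M (p ^ (n + 1)) (pow_pos hp0 _) (iot63_R5_all M _ (pow_pos hp0 _))

theorem iot63_iotaN_tors (p : ℕ) (hp0 : 0 < p) (n : ℕ) (v : lrL M) :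
    p ^ (n + 1) • iot63_iotaN M p hp0 n v = 0 :=
  iot63_iota_tors M _ _ _ v

theorem iot63_iotaN_ker (p : ℕ) (hp0 : 0 < p) (n : ℕ) (v : lrL M)
    (hv : iot63_iotaN M p hp0 n v = 0) : ∃ w : lrL M, v = ((p ^ (n + 1) : ℕ) : ℤ) • w :=
  iot63_iota_ker M _ _ _ v hv

theorem iot63_iotaN_hecke (p : ℕ) (hp0 : 0 < p) (n : ℕ) (ℓ : Nat.Primes) (hℓM : ¬ (ℓ : ℕ) ∣ M)
    (v : lrL M) :
    iot63_iotaN M p hp0 n (lrtT M ℓ v) = heckeOperatorBar M ℓ (iot63_iotaN M p hp0 n v) :=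
  iot63_iota_hecke M _ _ _ ℓ hℓM v

/-- the relation `R` satisfied by the values of the tower (for further equivariance statements). -/
theorem iot63_iotaN_spec (p : ℕ) (hp0 : 0 < p) (n : ℕ) (v : lrL M) :
    heq_Rel M (p ^ (n + 1)) (iot63_iotaN M p hp0 n v) (low92_psiOf M (p ^ (n + 1)) v) := by
  unfold iot63_iotaN iot63_iota
  exact rlg_iota_spec _ _ _ _ v

theorem iot63_iotaN_eq (p : ℕ) (hp0 : 0 < p) (n : ℕ) {x : JZero M} {v : lrL M}
    (h : heq_Rel M (p ^ (n + 1)) x (low92_psiOf M (p ^ (n + 1)) v)) :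
    x = iot63_iotaN M p hp0 n v := by
  unfold iot63_iotaN iot63_iota
  exact rlg_iota_eq _ _ _ _ h

theorem iot63_iotaN_compat (p : ℕ) (hp0 : 0 < p) (n : ℕ) (v : lrL M) :
    p • iot63_iotaN M p hp0 (n + 1) v = iot63_iotaN M p hp0 n v := by
  apply iot63_iotaN_eq
  have h0 : heq_Rel M (p * p ^ (n + 1)) (iot63_iotaN M p hp0 (n + 1) v)
      (low92_psiOf M (p * p ^ (n + 1)) v) := by
    rw [← pow_succ']
    exact iot63_iotaN_spec M p hp0 (n + 1) v
  have h := rlc63_rel_mul p (p ^ (n + 1)) h0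
  rwa [iot63_psiOf_compat M p (p ^ (n + 1)) hp0.ne' v] at h

end

end Fermat.Agent.S30x
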