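/-
S30x/Lattice32.lean (helper32, prefix `lat32_`): S30 block T8 of `ROUTE_S30_helper88`, the
LATTICE STEP, in abstract form.

`O` is a principal ideal domain with `2 ≠ 0`, `E` a nonzero finitely generated free `O`-module with
an action `ρ` of a group `G` such that every `g` satisfies the quadratic relation
`ρ g ^ 2 - a g • ρ g + ε g = 0` (`a g ∈ O`, `ε : G →* O`), and `c ∈ G` is a "complex conjugation"
(`c * c = 1`, `ε c = -1`).  Then there is a representation `ρ'` of `G` on `Fin 2 → O` whose
characteristic polynomials are `X ^ 2 - a g X + ε g`, and every congruence `ρ g ≡ 1`, `ε g ≡ 1`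
modulo `d` (resp. modulo an ideal `I`) is inherited by `ρ'` (`d = 0`, `I = ⊥`: the kernel clause;
`I = 𝔪 ^ n`: adic continuity).

Proof: Lemma R (`qrr97_exists_irred_sub`, helper97) on `FractionRing O ⊗ E` gives an irreducible
invariant subspace `U₀` of dimension `1` or `2`; `Λ := U₀ ∩ E` is a saturated invariant lattice with
`K ⊗ Λ = U₀`.  Plane: transport `Λ` to `Fin 2 → O` by a basis.  Line: `G` acts on `Λ ≅ O` through
`η : G →* O` with `η ^ 2 - a η + ε = 0`, take `diag (η, ε / η)`.
-/
import Mathlib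
import Fermat.Agent.S42x.QuadRepRat97
import Fermat.Prelude.Def_GaloisRep_Adic

set_option autoImplicit false
set_option linter.unusedSectionVars false
set_option linter.style.haveILetI false

namespace Fermat.Agent.S30x

open Polynomial Module TensorProduct Fermat.Agent.S42x

section Diag

variable {O : Type*} [CommRing O] {G : Type*} [Group G]

/-- the diagonal representation `lam ⊕ mu` on `Fin 2 → O` over a commutative ring -/
noncomputable def lat32_diagRep (lam mu : G →* O) : G →* Module.End O (Fin 2 → O) where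
  toFun g := Matrix.toLin' (Matrix.diagonal ![lam g, mu g])
  map_one' := by
    have : (![lam 1, mu 1] : Fin 2 → O) = fun _ => 1 := by
      funext i; fin_cases i <;> simp
    rw [this]
    have h1 : (Matrix.diagonal (fun _ : Fin 2 => (1 : O))) = 1 := Matrix.diagonal_one
    rw [h1, Matrix.toLin'_one]; rfl
  map_mul' g k := by
    have : (![lam (g * k), mu (g * k)] : Fin 2 → O)
        = fun i => (![lam g, mu g] : Fin 2 → O) i * (![lam k, mu k] : Fin 2 → O) i := by
      funext i; fin_cases i <;> simp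
    rw [this, ← Matrix.diagonal_mul_diagonal, Matrix.toLin'_mul]; rfl

lemma lat32_diagRep_charpoly (lam mu : G →* O) (g : G) :
    LinearMap.charpoly (lat32_diagRep lam mu g)
      = X ^ 2 - C (lam g + mu g) * X + C (lam g * mu g) := by
  change LinearMap.charpoly (Matrix.toLin' (Matrix.diagonal ![lam g, mu g])) = _
  rw [Matrix.charpoly_toLin', Matrix.charpoly_diagonal, Fin.prod_univ_two]
  simp only [Matrix.cons_val_zero, Matrix.cons_val_one, map_add, map_mul]
  ring

lemma lat32_diagRep_apply (lam mu : G →* O) (g : G) (w : Fin 2 → O) :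
    lat32_diagRep lam mu g w = ![lam g * w 0, mu g * w 1] := by
  change Matrix.toLin' (Matrix.diagonal ![lam g, mu g]) w = _
  rw [Matrix.toLin'_apply]
  funext i
  rw [Matrix.mulVec_diagonal]
  fin_cases i <;> simp

lemma lat32_diagRep_sub (lam mu : G →* O) (g : G) (d r₁ r₂ : O) (h1 : lam g - 1 = d * r₁)
    (h2 : mu g - 1 = d * r₂) (w : Fin 2 → O) :
    lat32_diagRep lam mu g w - w = d • ![r₁ * w 0, r₂ * w 1] := by
  rw [lat32_diagRep_apply]
  funext i
  fin_cases i
  · show lam g * w 0 - w 0 = d * (r₁ * w 0)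
    linear_combination (w 0) * h1
  · show mu g * w 1 - w 1 = d * (r₂ * w 1)
    linear_combination (w 1) * h2

end Diag

section Lattice

variable {O : Type} [CommRing O] [IsDomain O] (K : Type) [Field K] [Algebra O K]
  [IsFractionRing O K] {E : Type} [AddCommGroup E] [Module O E]
  {G : Type*} [Group G]

/-- base change of a representation to the fraction field -/
noncomputable def lat32_bc (ρ : G →* Module.End O E) :
    G →* Module.End K (K ⊗[O] E) where
  toFun g := (ρ g).baseChange K
  map_one' := by rw [map_one, LinearMap.baseChange_one]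
  map_mul' g k := by rw [map_mul, LinearMap.baseChange_mul]

lemma lat32_bc_tmul (ρ : G →* Module.End O E) (g : G) (k : K) (e : E) :
    lat32_bc K ρ g (k ⊗ₜ[O] e) = k ⊗ₜ[O] ρ g e := rfl

/-- the character `ε` with values in the fraction field -/
noncomputable def lat32_epsK (ε : G →* O) : G →* K :=
  ((algebraMap O K : O →+* K) : O →* K).comp ε

lemma lat32_epsK_apply (ε : G →* O) (g : G) :
    lat32_epsK K ε g = algebraMap O K (ε g) := rfl

lemma lat32_bc_rel (ρ : G →* Module.End O E) (ε : G →* O) (a : G → O)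
    (h : ∀ g, ρ g * ρ g - a g • ρ g + ε g • (1 : Module.End O E) = 0) (g : G) :
    lat32_bc K ρ g * lat32_bc K ρ g - (algebraMap O K (a g)) • lat32_bc K ρ g
      + lat32_epsK K ε g • (1 : Module.End K (K ⊗[O] E)) = 0 := by
  apply LinearMap.ext
  intro x
  induction x using TensorProduct.induction_on with
  | zero => simp
  | add x y hx hy => rw [map_add, hx, hy]; simp
  | tmul k e =>
    have he := congrArg (fun f : Module.End O E => f e) (h g)
    simp only [LinearMap.add_apply, LinearMap.sub_apply, Module.End.mul_apply,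
      LinearMap.smul_apply, Module.End.one_apply, LinearMap.zero_apply] at he
    simp only [LinearMap.add_apply, LinearMap.sub_apply, Module.End.mul_apply,
      LinearMap.smul_apply, Module.End.one_apply, LinearMap.zero_apply, lat32_bc_tmul,
      lat32_epsK_apply, algebraMap_smul]
    rw [← TensorProduct.tmul_smul, ← TensorProduct.tmul_smul, ← TensorProduct.tmul_sub,
      ← TensorProduct.tmul_add, he, TensorProduct.tmul_zero]

lemma lat32_mk_isLocalizedModule :
    IsLocalizedModule (nonZeroDivisors O) (TensorProduct.mk O K E 1) :=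
  (isLocalizedModule_iff_isBaseChange (nonZeroDivisors O) K _).mpr
    (TensorProduct.isBaseChange O E K)

variable {K}
variable {V : Type} [AddCommGroup V] [Module K V] [Module O V] [IsScalarTower O K V]
  (ι : E →ₗ[O] V)

/-- the lattice cut out by a subspace of the localisation -/
def lat32_lattice (U : Submodule K V) : Submodule O E :=
  Submodule.comap ι (U.restrictScalars O)

lemma lat32_mem_lattice (U : Submodule K V) (e : E) :
    e ∈ lat32_lattice ι U ↔ ι e ∈ U := Iff.rfl

lemma lat32_lattice_saturated (U : Submodule K V)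
    {d : O} (hd : d ≠ 0) {x : E} (h : d • x ∈ lat32_lattice ι U) : x ∈ lat32_lattice ι U := by
  rw [lat32_mem_lattice] at h ⊢
  rw [map_smul, ← algebraMap_smul K d] at h
  have hd' : algebraMap O K d ≠ 0 := by
    intro h0
    exact hd ((IsFractionRing.injective O K) (by rw [h0, map_zero]))
  have := U.smul_mem (algebraMap O K d)⁻¹ h
  rwa [smul_smul, inv_mul_cancel₀ hd', one_smul] at this

lemma lat32_lattice_inv (ρ : G →* Module.End O E) (ρK : G →* Module.End K V)
    (hcomm : ∀ g e, ρK g (ι e) = ι (ρ g e)) (U : Submodule K V)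
    (hU : ∀ g : G, ∀ v ∈ U, ρK g v ∈ U) (g : G) {x : E} (hx : x ∈ lat32_lattice ι U) :
    ρ g x ∈ lat32_lattice ι U := by
  have := hU g _ hx
  rwa [hcomm] at this

/-- the natural map from the lattice to the subspace -/
noncomputable def lat32_toSub (U : Submodule K V) : lat32_lattice ι U →ₗ[O] U where
  toFun x := ⟨ι (x : E), x.2⟩
  map_add' x y := Subtype.ext (by simp)
  map_smul' r x := Subtype.ext (by simp)

lemma lat32_toSub_coe (U : Submodule K V) (x : lat32_lattice ι U) :
    ((lat32_toSub ι U x : U) : V) = ι (x : E) := rfl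

lemma lat32_injective [Module.IsTorsionFree O E] [IsLocalizedModule (nonZeroDivisors O) ι] :
    Function.Injective ι := by
  rw [injective_iff_map_eq_zero]
  intro e he
  obtain ⟨s, hs⟩ := (IsLocalizedModule.eq_zero_iff (nonZeroDivisors O) ι).1 he
  rw [Submonoid.smul_def] at hs
  rcases smul_eq_zero.1 hs with h | h
  · exact absurd h (nonZeroDivisors.coe_ne_zero s)
  · exact h

instance lat32_toSub_isLocalizedModule [Module.IsTorsionFree O E]
    [IsLocalizedModule (nonZeroDivisors O) ι] (U : Submodule K V) :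
    IsLocalizedModule (nonZeroDivisors O) (lat32_toSub ι U) where
  map_units s := (isLocalizedModule_id (nonZeroDivisors O) U K).map_units s
  surj y := by
    obtain ⟨⟨e, s⟩, hs⟩ := IsLocalizedModule.surj (nonZeroDivisors O) ι (y : V)
    have he : e ∈ lat32_lattice ι U := by
      rw [lat32_mem_lattice]
      have h1 : ι e = s • (y : V) := hs.symm
      rw [h1, Submonoid.smul_def, ← algebraMap_smul K]
      exact U.smul_mem _ y.2
    exact ⟨(⟨e, he⟩, s), Subtype.ext hs⟩
  exists_of_eq {x₁ x₂} h := ⟨1, by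
    have h1 := congrArg Subtype.val h
    have h2 : (x₁ : E) = (x₂ : E) := lat32_injective ι h1
    rw [one_smul, one_smul]
    exact Subtype.ext h2⟩

end Lattice

section Restrict

variable {O : Type*} [CommRing O] {E : Type*} [AddCommGroup E] [Module O E]
  {G : Type*} [Group G]

/-- restriction of a representation over a commutative ring to an invariant submodule -/
noncomputable def lat32_restrict (ρ : G →* Module.End O E) (L : Submodule O E)
    (hL : ∀ g : G, ∀ v ∈ L, ρ g v ∈ L) : G →* Module.End O L where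
  toFun g := (ρ g).restrict (hL g)
  map_one' := by
    apply LinearMap.ext; intro v; apply Subtype.ext
    simp [LinearMap.restrict_apply]
  map_mul' g k := by
    apply LinearMap.ext; intro v; apply Subtype.ext
    simp [LinearMap.restrict_apply]

lemma lat32_restrict_apply (ρ : G →* Module.End O E) (L : Submodule O E)
    (hL : ∀ g : G, ∀ v ∈ L, ρ g v ∈ L) (g : G) (v : L) :
    ((lat32_restrict ρ L hL g) v : E) = ρ g (v : E) := rfl

lemma lat32_restrict_rel (ρ : G →* Module.End O E) (ε : G →* O) (a : G → O)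
    (h : ∀ g, ρ g * ρ g - a g • ρ g + ε g • (1 : Module.End O E) = 0) (L : Submodule O E)
    (hL : ∀ g : G, ∀ v ∈ L, ρ g v ∈ L) (g : G) :
    lat32_restrict ρ L hL g * lat32_restrict ρ L hL g - a g • lat32_restrict ρ L hL g
      + ε g • (1 : Module.End O L) = 0 := by
  apply LinearMap.ext; intro v; apply Subtype.ext
  have := congrArg (fun f : Module.End O E => f (v : E)) (h g)
  simpa [lat32_restrict_apply] using this

/-- an endomorphism of a free module of rank one is the scalar `det` -/
lemma lat32_eq_det_smul_of_finrank_one [Nontrivial O] {L : Type*} [AddCommGroup L] [Module O L]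
    [Module.Free O L] [Module.Finite O L] (hL : finrank O L = 1) (f : Module.End O L) :
    f = LinearMap.det f • (1 : Module.End O L) := by
  let bb : Basis (Fin 1) O L := Module.finBasisOfFinrankEq O L hL
  set r : O := bb.repr (f (bb 0)) 0 with hr
  have h0 : f (bb 0) = r • bb 0 := by
    conv_lhs => rw [← bb.sum_repr (f (bb 0))]
    simp [hr]
  have hf : f = r • (1 : Module.End O L) := by
    apply bb.ext
    intro i
    have hi : i = 0 := Subsingleton.elim _ _
    rw [hi, h0]
    simp
  have hdet : LinearMap.det f = r := by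
    rw [hf, LinearMap.det_smul, hL, pow_one, map_one, mul_one]
  rw [hdet]; exact hf

lemma lat32_mem_span_smul_top {M : Type*} [AddCommGroup M] [Module O M] (d : O) (x : M) :
    x ∈ Ideal.span {d} • (⊤ : Submodule O M) ↔ ∃ y : M, x = d • y := by
  rw [Submodule.ideal_span_singleton_smul, Submodule.mem_smul_pointwise_iff_exists]
  constructor
  · rintro ⟨y, -, rfl⟩; exact ⟨y, rfl⟩
  · rintro ⟨y, rfl⟩; exact ⟨y, trivial, rfl⟩

end Restrict

section Main

variable {O : Type} [CommRing O] [IsDomain O] [IsPrincipalIdealRing O]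
  {E : Type} [AddCommGroup E] [Module O E] [Module.Free O E] [Module.Finite O E]
  {G : Type*} [Group G]

/-- congruences modulo `d` are inherited by a saturated invariant lattice -/
lemma lat32_inherit {K : Type} [Field K] [Algebra O K] [IsFractionRing O K]
    {V : Type} [AddCommGroup V] [Module K V] [Module O V] [IsScalarTower O K V]
    (ι : E →ₗ[O] V) (ρ : G →* Module.End O E) (U : Submodule K V)
    (hU : ∀ g : G, ∀ v ∈ lat32_lattice ι U, ρ g v ∈ lat32_lattice ι U) (d : O) (g : G)
    (hg : ∀ v : E, ∃ y : E, ρ g v - v = d • y) (x : lat32_lattice ι U) :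
    ∃ z : lat32_lattice ι U, lat32_restrict ρ (lat32_lattice ι U) hU g x - x = d • z := by
  obtain ⟨y, hy⟩ := hg (x : E)
  by_cases hd : d = 0
  · refine ⟨0, Subtype.ext ?_⟩
    rw [hd, zero_smul] at hy
    simp only [Submodule.coe_sub, lat32_restrict_apply, smul_zero, Submodule.coe_zero]
    exact hy
  · have hmem : d • y ∈ lat32_lattice ι U := by
      rw [← hy]
      exact (lat32_lattice ι U).sub_mem (hU g _ x.2) x.2
    refine ⟨⟨y, lat32_lattice_saturated ι U hd hmem⟩, Subtype.ext ?_⟩
    simp only [Submodule.coe_sub, lat32_restrict_apply, Submodule.coe_smul]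
    exact hy

/-- T8 with an abstract localisation `ι : E → V` of `E` at the nonzero elements of `O` -/
theorem lat32_exists_rank_two_aux {K : Type} [Field K] [Algebra O K] [IsFractionRing O K]
    {V : Type} [AddCommGroup V] [Module K V] [Module O V] [IsScalarTower O K V]
    [FiniteDimensional K V] [Nontrivial V]
    (ι : E →ₗ[O] V) [IsLocalizedModule (nonZeroDivisors O) ι]
    (h2 : (2 : O) ≠ 0)
    (ρ : G →* Module.End O E) (ε : G →* O) (a : G → O)
    (h : ∀ g, ρ g * ρ g - a g • ρ g + ε g • (1 : Module.End O E) = 0)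
    (ρK : G →* Module.End K V) (hcomm : ∀ g e, ρK g (ι e) = ι (ρ g e))
    (hK : ∀ g, ρK g * ρK g - (algebraMap O K (a g)) • ρK g
      + lat32_epsK K ε g • (1 : Module.End K V) = 0)
    {c : G} (hc : c * c = 1) (hεc : ε c = -1) :
    ∃ ρ' : G →* Module.End O (Fin 2 → O),
      (∀ g, LinearMap.charpoly (ρ' g) = X ^ 2 - C (a g) * X + C (ε g)) ∧
      ∀ (d : O) (g : G), (∀ v : E, ∃ y : E, ρ g v - v = d • y) → d ∣ ε g - 1 →
        ∀ w : Fin 2 → O, ∃ z : Fin 2 → O, ρ' g w - w = d • z := by
  classical
  have hinj : Function.Injective (algebraMap O K) := IsFractionRing.injective O K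
  have hK2 : (2 : K) ≠ 0 := by
    intro h0
    apply h2
    apply hinj
    rw [map_zero, map_ofNat]
    exact h0
  obtain ⟨U, hUinv, hU0, hirr, hrelU, hcases⟩ :=
    qrr97_exists_irred_sub hK2 ρK (lat32_epsK K ε)
      (fun g => algebraMap O K (a g)) hK hc
      (by rw [lat32_epsK_apply, hεc, map_neg, map_one])
  -- the lattice
  have hΛinv : ∀ g : G, ∀ v ∈ lat32_lattice ι U, ρ g v ∈ lat32_lattice ι U :=
    fun g v hv => lat32_lattice_inv ι ρ ρK hcomm U hUinv g hv
  set ρΛ := lat32_restrict ρ (lat32_lattice ι U) hΛinv with hρΛ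
  have hrelΛ := lat32_restrict_rel ρ ε a h (lat32_lattice ι U) hΛinv
  let b := Module.Free.chooseBasis O (lat32_lattice ι U)
  let bK : Basis _ K U := b.ofIsLocalizedModule K (nonZeroDivisors O) (lat32_toSub ι U)
  have hrank : finrank K U = finrank O (lat32_lattice ι U) := by
    rw [Module.finrank_eq_card_basis bK, Module.finrank_eq_card_basis b]
  have hcharp : ∀ g : G, LinearMap.charpoly (qdr_restrict ρK U hUinv g)
      = (LinearMap.charpoly (ρΛ g)).map (algebraMap O K) := by
    intro g
    rw [← LinearMap.charpoly_toMatrix (qdr_restrict ρK U hUinv g) bK,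
      ← LinearMap.charpoly_toMatrix (ρΛ g) b, ← Matrix.charpoly_map]
    congr 1
    ext i j
    rw [LinearMap.toMatrix_apply, Matrix.map_apply, LinearMap.toMatrix_apply]
    have hj : (qdr_restrict ρK U hUinv g) (bK j) = lat32_toSub ι U (ρΛ g (b j)) := by
      rw [Basis.ofIsLocalizedModule_apply]
      apply Subtype.ext
      rw [qdr_restrict_apply, lat32_toSub_coe, lat32_toSub_coe, hcomm]
      rfl
    rw [hj, Basis.ofIsLocalizedModule_repr_apply]
  rcases hcases with h1 | h2'
  · -- the line case
    have hL1 : finrank O (lat32_lattice ι U) = 1 := by rw [← hrank]; exact h1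
    have hnt : Nontrivial (lat32_lattice ι U) :=
      Module.nontrivial_of_finrank_pos (R := O) (by omega)
    let η : G →* O := (LinearMap.det : Module.End O (lat32_lattice ι U) →* O).comp ρΛ
    have hρη : ∀ g : G, ρΛ g = η g • (1 : Module.End O (lat32_lattice ι U)) := fun g =>
      lat32_eq_det_smul_of_finrank_one hL1 (ρΛ g)
    have hquad : ∀ g : G, η g * η g - a g * η g + ε g = 0 := by
      intro g
      have hg := hrelΛ g
      rw [← hρΛ, hρη g] at hg
      generalize η g = l at hg ⊢
      have e2 : (l • (1 : Module.End O (lat32_lattice ι U))) *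
          (l • (1 : Module.End O (lat32_lattice ι U)))
          - a g • (l • (1 : Module.End O (lat32_lattice ι U)))
          + ε g • (1 : Module.End O (lat32_lattice ι U))
          = (l * l - a g * l + ε g) • (1 : Module.End O (lat32_lattice ι U)) := by
        simp only [smul_mul_assoc, mul_smul_comm, smul_smul, one_mul, sub_smul, add_smul]
      rw [e2] at hg
      obtain ⟨x, hx⟩ := exists_ne (0 : lat32_lattice ι U)
      have hgx := congrArg (fun f : Module.End O (lat32_lattice ι U) => f x) hg
      simp only [LinearMap.smul_apply, Module.End.one_apply, LinearMap.zero_apply] at hgx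
      rcases smul_eq_zero.1 hgx with h7 | h7
      · exact h7
      · exact absurd h7 hx
    have hηinv : ∀ g : G, η g * η g⁻¹ = 1 := fun g => by
      rw [← map_mul, mul_inv_cancel, map_one]
    let μ : G →* O :=
      { toFun := fun g => ε g * η g⁻¹
        map_one' := by simp
        map_mul' := fun g k => by
          simp only [map_mul, mul_inv_rev]
          ring }
    have hμ : ∀ g, μ g = ε g * η g⁻¹ := fun _ => rfl
    refine ⟨lat32_diagRep η μ, ?_, ?_⟩
    · intro g
      rw [lat32_diagRep_charpoly]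
      have e1 : η g + μ g = a g := by
        rw [hμ]
        linear_combination η g⁻¹ * hquad g - (η g - a g) * hηinv g
      have e2 : η g * μ g = ε g := by
        rw [hμ]
        linear_combination ε g * hηinv g
      rw [e1, e2]
    · intro d g hg hdε w
      let bb : Basis (Fin 1) O (lat32_lattice ι U) := Module.finBasisOfFinrankEq O _ hL1
      obtain ⟨z₀, hz₀⟩ := lat32_inherit ι ρ U hΛinv d g hg (bb 0)
      have hz₁ : (η g - 1) • bb 0 = d • z₀ := by
        rw [← hz₀, ← hρΛ, hρη g]
        simp [sub_smul]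
      have hr₁ : η g - 1 = d * bb.repr z₀ 0 := by
        have := congrArg (fun y => bb.repr y 0) hz₁
        simpa using this
      obtain ⟨s, hs⟩ := hdε
      have hr₂ : μ g - 1 = d * (s * η g⁻¹ - η g⁻¹ * bb.repr z₀ 0) := by
        rw [hμ]
        linear_combination η g⁻¹ * hs - η g⁻¹ * hr₁ + hηinv g
      exact ⟨_, lat32_diagRep_sub η μ g d _ _ hr₁ hr₂ w⟩
  · -- the plane case
    have hL2 : finrank O (lat32_lattice ι U) = 2 := by rw [← hrank]; exact h2'
    let bb : Basis (Fin 2) O (lat32_lattice ι U) := Module.finBasisOfFinrankEq O _ hL2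
    let e : lat32_lattice ι U ≃ₗ[O] (Fin 2 → O) := bb.equivFun
    let ρ' : G →* Module.End O (Fin 2 → O) :=
      { toFun := fun g => e.conj (ρΛ g)
        map_one' := by rw [map_one]; exact LinearEquiv.conj_id e
        map_mul' := fun g k => by
          rw [map_mul]
          apply LinearMap.ext
          intro w
          simp [LinearEquiv.conj_apply] }
    have hρ' : ∀ g, ρ' g = e.conj (ρΛ g) := fun _ => rfl
    refine ⟨ρ', ?_, ?_⟩
    · intro g
      rw [hρ', LinearEquiv.charpoly_conj]
      apply Polynomial.map_injective (algebraMap O K) hinj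
      rw [← hcharp g, qdr_charpoly_irred hrelU hirr h2' g]
      simp [lat32_epsK_apply]
    · intro d g hg _ w
      obtain ⟨z, hz⟩ := lat32_inherit ι ρ U hΛinv d g hg (e.symm w)
      refine ⟨e z, ?_⟩
      rw [hρ', LinearEquiv.conj_apply_apply, ← map_smul, ← hz, map_sub,
        LinearEquiv.apply_symm_apply]

/-- **T8, elementwise form.** -/
theorem lat32_exists_rank_two_dvd (h2 : (2 : O) ≠ 0) [Nontrivial E]
    (ρ : G →* Module.End O E) (ε : G →* O) (a : G → O)
    (h : ∀ g, ρ g * ρ g - a g • ρ g + ε g • (1 : Module.End O E) = 0)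
    {c : G} (hc : c * c = 1) (hεc : ε c = -1) :
    ∃ ρ' : G →* Module.End O (Fin 2 → O),
      (∀ g, LinearMap.charpoly (ρ' g) = X ^ 2 - C (a g) * X + C (ε g)) ∧
      ∀ (d : O) (g : G), (∀ v : E, ∃ y : E, ρ g v - v = d • y) → d ∣ ε g - 1 →
        ∀ w : Fin 2 → O, ∃ z : Fin 2 → O, ρ' g w - w = d • z := by
  have hpos : 0 < finrank (FractionRing O) (FractionRing O ⊗[O] E) := by
    rw [Module.finrank_baseChange]
    exact Module.finrank_pos
  haveI : Nontrivial (FractionRing O ⊗[O] E) :=
    Module.nontrivial_of_finrank_pos (R := FractionRing O) hpos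
  haveI := lat32_mk_isLocalizedModule (O := O) (FractionRing O) (E := E)
  exact lat32_exists_rank_two_aux (K := FractionRing O) (V := FractionRing O ⊗[O] E)
    (TensorProduct.mk O (FractionRing O) E 1) h2 ρ ε a h (lat32_bc (FractionRing O) ρ)
    (fun g e => rfl) (lat32_bc_rel (FractionRing O) ρ ε a h) hc hεc

/-- **T8, ideal form.** One clause for every ideal `I`: `I = ⊥` is the kernel clause,
`I = 𝔪 ^ n` adic continuity. -/
theorem lat32_exists_rank_two (h2 : (2 : O) ≠ 0) [Nontrivial E]
    (ρ : G →* Module.End O E) (ε : G →* O) (a : G → O)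
    (h : ∀ g, ρ g * ρ g - a g • ρ g + ε g • (1 : Module.End O E) = 0)
    {c : G} (hc : c * c = 1) (hεc : ε c = -1) :
    ∃ ρ' : G →* Module.End O (Fin 2 → O),
      (∀ g, LinearMap.charpoly (ρ' g) = X ^ 2 - C (a g) * X + C (ε g)) ∧
      ∀ (I : Ideal O) (g : G), (∀ v : E, ρ g v - v ∈ I • (⊤ : Submodule O E)) → ε g - 1 ∈ I →
        ∀ w : Fin 2 → O, ρ' g w - w ∈ I • (⊤ : Submodule O (Fin 2 → O)) := by
  obtain ⟨ρ', h1, h3⟩ := lat32_exists_rank_two_dvd h2 ρ ε a h hc hεc
  refine ⟨ρ', h1, ?_⟩
  intro I g hg hε w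
  obtain ⟨d, hd⟩ : ∃ d : O, I = Ideal.span {d} :=
    ⟨Submodule.IsPrincipal.generator I, (Ideal.span_singleton_generator I).symm⟩
  rw [hd] at hg hε ⊢
  rw [lat32_mem_span_smul_top]
  exact h3 d g (fun v => (lat32_mem_span_smul_top d _).1 (hg v))
    (Ideal.mem_span_singleton.1 hε) w

end Main

section Galois

open IsLocalRing

variable {O : Type} [CommRing O] [IsDomain O] [IsDiscreteValuationRing O]
  {E : Type} [AddCommGroup E] [Module O E] [Module.Free O E] [Module.Finite O E]

/-- **T8, packaged.** From a nonzero free lattice `E` with an exact quadratic relation for the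
absolute Galois group, a complex conjugation `c`, and adic continuity of `E` and of `ε`, a
`GaloisRepAdic O` (on `Fin 2 → O`) with the prescribed characteristic polynomials and the kernel
clause. -/
theorem lat32_galoisRepAdic (h2 : (2 : O) ≠ 0) [Nontrivial E]
    (ρ : (AlgebraicClosure ℚ ≃ₐ[ℚ] AlgebraicClosure ℚ) →* Module.End O E)
    (ε : (AlgebraicClosure ℚ ≃ₐ[ℚ] AlgebraicClosure ℚ) →* O)
    (a : (AlgebraicClosure ℚ ≃ₐ[ℚ] AlgebraicClosure ℚ) → O)
    (h : ∀ g, ρ g * ρ g - a g • ρ g + ε g • (1 : Module.End O E) = 0)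
    {c : AlgebraicClosure ℚ ≃ₐ[ℚ] AlgebraicClosure ℚ} (hc : c * c = 1) (hεc : ε c = -1)
    (hcont : ∀ n : ℕ, ∃ L : IntermediateField ℚ (AlgebraicClosure ℚ), FiniteDimensional ℚ L ∧
      ∀ σ : AlgebraicClosure ℚ ≃ₐ[ℚ] AlgebraicClosure ℚ, (∀ x ∈ L, σ x = x) →
        (∀ v : E, ρ σ v - v ∈ (maximalIdeal O ^ n) • (⊤ : Submodule O E)) ∧
          ε σ - 1 ∈ maximalIdeal O ^ n) :
    ∃ r : GaloisRepAdic O,
      (∀ σ, LinearMap.charpoly (r.ρ σ) = X ^ 2 - C (a σ) * X + C (ε σ)) ∧
      ∀ σ, ρ σ = 1 → ε σ = 1 → r.ρ σ = 1 := by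
  obtain ⟨ρ', h1, h3⟩ := lat32_exists_rank_two h2 ρ ε a h hc hεc
  refine ⟨{ V := Fin 2 → O, finrank_eq := by simp, ρ := ρ', isAdicContinuous := ?_ }, h1, ?_⟩
  · intro n
    obtain ⟨L, hL, hσ⟩ := hcont n
    exact ⟨L, hL, fun σ hσL v => h3 _ σ (hσ σ hσL).1 (hσ σ hσL).2 v⟩
  · intro σ hρ hε
    apply LinearMap.ext
    intro w
    have := h3 ⊥ σ (fun v => by rw [hρ]; simp) (by rw [hε]; simp) w
    rw [Submodule.bot_smul, Submodule.mem_bot, sub_eq_zero] at this
    simpa using this

/-- the same with congruences modulo powers of an element `π` of the maximal ideal (e.g. `π = p`) -/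
theorem lat32_galoisRepAdic_of_dvd (h2 : (2 : O) ≠ 0) [Nontrivial E]
    (ρ : (AlgebraicClosure ℚ ≃ₐ[ℚ] AlgebraicClosure ℚ) →* Module.End O E)
    (ε : (AlgebraicClosure ℚ ≃ₐ[ℚ] AlgebraicClosure ℚ) →* O)
    (a : (AlgebraicClosure ℚ ≃ₐ[ℚ] AlgebraicClosure ℚ) → O)
    (h : ∀ g, ρ g * ρ g - a g • ρ g + ε g • (1 : Module.End O E) = 0)
    {c : AlgebraicClosure ℚ ≃ₐ[ℚ] AlgebraicClosure ℚ} (hc : c * c = 1) (hεc : ε c = -1)
    (π : O) (hπ : π ∈ maximalIdeal O)
    (hcont : ∀ n : ℕ, ∃ L : IntermediateField ℚ (AlgebraicClosure ℚ), FiniteDimensional ℚ L ∧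
      ∀ σ : AlgebraicClosure ℚ ≃ₐ[ℚ] AlgebraicClosure ℚ, (∀ x ∈ L, σ x = x) →
        (∀ v : E, ∃ y : E, ρ σ v - v = π ^ n • y) ∧ π ^ n ∣ ε σ - 1) :
    ∃ r : GaloisRepAdic O,
      (∀ σ, LinearMap.charpoly (r.ρ σ) = X ^ 2 - C (a σ) * X + C (ε σ)) ∧
      ∀ σ, ρ σ = 1 → ε σ = 1 → r.ρ σ = 1 := by
  obtain ⟨ρ', h1, h3⟩ := lat32_exists_rank_two_dvd h2 ρ ε a h hc hεc
  refine ⟨{ V := Fin 2 → O, finrank_eq := by simp, ρ := ρ', isAdicContinuous := ?_ }, h1, ?_⟩
  · intro n
    obtain ⟨L, hL, hσ⟩ := hcont n
    refine ⟨L, hL, fun σ hσL v => ?_⟩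
    obtain ⟨z, hz⟩ := h3 (π ^ n) σ (hσ σ hσL).1 (hσ σ hσL).2 v
    rw [hz]
    exact Submodule.smul_mem_smul (Ideal.pow_mem_pow hπ n) Submodule.mem_top
  · intro σ hρ hε
    apply LinearMap.ext
    intro w
    obtain ⟨z, hz⟩ := h3 0 σ (fun v => ⟨0, by rw [hρ]; simp⟩) (by rw [hε]; simp) w
    rw [zero_smul, sub_eq_zero] at hz
    simpa using hz

end Galois

end Fermat.Agent.S30x
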