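/-
S30 project, block T8 (LATTICE STEP), independent twin by the INTEGRAL route (helper97, prefix
`lti97_`; primary = helper32's `S30x/Lattice32.lean`, which goes through `FractionRing O ⊗ E`).

`O` is a principal ideal domain with `2 ≠ 0`, `E` a nonzero finite free `O`-module with an action of
a group `G` such that every `g` satisfies `ρ g ^ 2 - a g • ρ g + ε g = 0` (`a g, ε g ∈ O`), and
`c ∈ G` is a "complex conjugation" (`c * c = 1`, `ε c = -1`).  Then there is a representation of
`G` on `O²` with characteristic polynomials `X² - a g X + ε g`, which is congruent to the identity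
modulo an ideal `I` whenever `ρ g` and `ε g` are.

No fraction field is used: we take a nonzero `G`-stable SATURATED submodule `Λ ≤ E` of minimal
rank; the two relations for `g` and `c * g` show `rank Λ ≤ 2` exactly as in `qrr97_`
(`S42x/QuadRepRat97.lean`); on a free module of rank 2 over a domain, Cayley--Hamilton and the
quadratic relation give `tr = a`, `det = ε` for non-scalar elements, and the scalar ones are
handled through a non-scalar one; in rank 1 the action is through an `O`-valued character `η`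
and we take `diag (η, ε / η)`.
-/
import Mathlib
import Fermat.Prelude.Def_GaloisRep_Adic

set_option autoImplicit false

namespace Fermat.Agent.S30x

open Polynomial Module

/-! ### saturation and ranks -/

section Sat

variable {O : Type*} [CommRing O] [IsDomain O] {E : Type*} [AddCommGroup E] [Module O E]

/-- a submodule is saturated if it is closed under division by nonzero scalars -/
def lti97_IsSat (Λ : Submodule O E) : Prop :=
  ∀ (s : O) (v : E), s ≠ 0 → s • v ∈ Λ → v ∈ Λ

/-- the saturation of a submodule -/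
def lti97_sat (Λ : Submodule O E) : Submodule O E where
  carrier := {v | ∃ s : O, s ≠ 0 ∧ s • v ∈ Λ}
  add_mem' := by
    rintro v w ⟨s, hs, hv⟩ ⟨t, ht, hw⟩
    refine ⟨s * t, mul_ne_zero hs ht, ?_⟩
    rw [smul_add]
    refine Λ.add_mem ?_ ?_
    · rw [mul_comm, mul_smul]; exact Λ.smul_mem t hv
    · rw [mul_smul]; exact Λ.smul_mem s hw
  zero_mem' := ⟨1, one_ne_zero, by rw [smul_zero]; exact Λ.zero_mem⟩
  smul_mem' := by
    rintro r v ⟨s, hs, hv⟩
    exact ⟨s, hs, by rw [smul_comm]; exact Λ.smul_mem r hv⟩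

theorem lti97_mem_sat {Λ : Submodule O E} {v : E} :
    v ∈ lti97_sat Λ ↔ ∃ s : O, s ≠ 0 ∧ s • v ∈ Λ := Iff.rfl

theorem lti97_le_sat (Λ : Submodule O E) : Λ ≤ lti97_sat Λ := fun v hv =>
  ⟨1, one_ne_zero, by rwa [one_smul]⟩

theorem lti97_sat_isSat (Λ : Submodule O E) : lti97_IsSat (lti97_sat Λ) := by
  rintro s v hs ⟨t, ht, hv⟩
  exact ⟨t * s, mul_ne_zero ht hs, by rwa [mul_smul]⟩

theorem lti97_sat_le {Λ Λ' : Submodule O E} (h : Λ ≤ Λ') (hsat : lti97_IsSat Λ') :
    lti97_sat Λ ≤ Λ' := by
  rintro v ⟨s, hs, hv⟩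
  exact hsat s v hs (h hv)

variable [IsPrincipalIdealRing O] [Module.Free O E] [Module.Finite O E]

omit [Module.Free O E] in
/-- if `N ≤ M` and `rank M ≤ rank N` then `M / N` is torsion -/
theorem lti97_torsion_of_finrank_le {N M : Submodule O E} (hNM : N ≤ M)
    (h : finrank O M ≤ finrank O N) : ∀ v ∈ M, ∃ s : O, s ≠ 0 ∧ s • v ∈ N := by
  intro v hv
  have e := Submodule.comapSubtypeEquivOfLe hNM
  have h1 := Submodule.finrank_quotient_add_finrank (Submodule.comap M.subtype N)
  rw [e.finrank_eq] at h1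
  have h0 : finrank O (M ⧸ Submodule.comap M.subtype N) = 0 := by omega
  have htor := Module.finrank_eq_zero_iff_isTorsion.1 h0
  obtain ⟨a, ha⟩ := @htor (Submodule.Quotient.mk ⟨v, hv⟩)
  refine ⟨(a : O), nonZeroDivisors.coe_ne_zero a, ?_⟩
  have h2 : (a : O) • (Submodule.Quotient.mk (⟨v, hv⟩ : M) : M ⧸ Submodule.comap M.subtype N) = 0 := ha
  rw [← Submodule.Quotient.mk_smul, Submodule.Quotient.mk_eq_zero] at h2
  exact h2

omit [Module.Free O E] in
/-- if `N ≤ M` and `M / N` is torsion then `rank M ≤ rank N` -/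
theorem lti97_finrank_le_of_torsion {N M : Submodule O E} (hNM : N ≤ M)
    (h : ∀ v ∈ M, ∃ s : O, s ≠ 0 ∧ s • v ∈ N) : finrank O M ≤ finrank O N := by
  have e := Submodule.comapSubtypeEquivOfLe hNM
  have h1 := Submodule.finrank_quotient_add_finrank (Submodule.comap M.subtype N)
  rw [e.finrank_eq] at h1
  have h0 : finrank O (M ⧸ Submodule.comap M.subtype N) = 0 := by
    apply Module.finrank_eq_zero_iff_isTorsion.2
    intro x
    induction x using Submodule.Quotient.induction_on with
    | H x =>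
      obtain ⟨s, hs, hsv⟩ := h x x.2
      refine ⟨⟨s, mem_nonZeroDivisors_of_ne_zero hs⟩, ?_⟩
      show s • (Submodule.Quotient.mk x : M ⧸ Submodule.comap M.subtype N) = 0
      rw [← Submodule.Quotient.mk_smul, Submodule.Quotient.mk_eq_zero]
      exact hsv
  omega

omit [Module.Free O E] in
theorem lti97_finrank_sat_le (Λ : Submodule O E) : finrank O (lti97_sat Λ) ≤ finrank O Λ :=
  lti97_finrank_le_of_torsion (lti97_le_sat Λ) fun _ hv => hv

end Sat

/-! ### the minimal saturated stable submodule has rank at most two -/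

section Rep

variable {O : Type*} [CommRing O] [IsDomain O] [IsPrincipalIdealRing O]
  {E : Type*} [AddCommGroup E] [Module O E] [Module.Free O E] [Module.Finite O E]
  {G : Type*} [Group G] (ρ : G →* Module.End O E) (ε : G →* O) (a : G → O)

/-- nonzero, stable, saturated -/
def lti97_Good (Λ : Submodule O E) : Prop :=
  Λ ≠ ⊥ ∧ (∀ g : G, ∀ v ∈ Λ, ρ g v ∈ Λ) ∧ lti97_IsSat Λ

omit [IsDomain O] [IsPrincipalIdealRing O] [Module.Free O E] [Module.Finite O E] in
theorem lti97_exists_min [Nontrivial E] :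
    ∃ Λ : Submodule O E, lti97_Good ρ Λ ∧
      ∀ Λ' : Submodule O E, lti97_Good ρ Λ' → finrank O Λ ≤ finrank O Λ' := by
  classical
  have hex : ∃ n : ℕ, ∃ Λ : Submodule O E, lti97_Good ρ Λ ∧ finrank O Λ = n :=
    ⟨_, ⊤, ⟨top_ne_bot, fun _ _ _ => Submodule.mem_top, fun _ _ _ _ => Submodule.mem_top⟩, rfl⟩
  obtain ⟨Λ, hΛ, hn⟩ := Nat.find_spec hex
  refine ⟨Λ, hΛ, fun Λ' hΛ' => ?_⟩
  rw [hn]
  exact Nat.find_min' hex ⟨Λ', hΛ', rfl⟩

variable {ρ ε a}

omit [IsDomain O] [IsPrincipalIdealRing O] [Module.Free O E] [Module.Finite O E] in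
theorem lti97_inv_apply (g : G) (v : E) : ρ g (ρ g⁻¹ v) = v := by
  have h1 : ρ g * ρ g⁻¹ = 1 := by rw [← map_mul, mul_inv_cancel, map_one]
  calc ρ g (ρ g⁻¹ v) = (ρ g * ρ g⁻¹) v := rfl
    _ = v := by rw [h1]; rfl

omit [IsDomain O] [IsPrincipalIdealRing O] [Module.Free O E] [Module.Finite O E] in
/-- the relation for `g`, evaluated on a vector -/
theorem lti97_star_apply
    (h : ∀ g : G, ρ g * ρ g - a g • ρ g + ε g • (1 : Module.End O E) = 0) (g : G) (v : E) :
    ρ g v + ε g • ρ g⁻¹ v = a g • v := by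
  have h1 := congrArg (fun f : Module.End O E => f (ρ g⁻¹ v)) (h g)
  simp only [LinearMap.add_apply, LinearMap.sub_apply, Module.End.mul_apply, LinearMap.smul_apply,
    Module.End.one_apply, LinearMap.zero_apply, lti97_inv_apply] at h1
  have h2 : ρ g v + ε g • ρ g⁻¹ v - a g • v = 0 := by rw [← h1]; abel
  exact sub_eq_zero.1 h2

omit [IsDomain O] [IsPrincipalIdealRing O] [Module.Free O E] [Module.Finite O E] in
/-- the relation for `c * g`, evaluated on a vector -/
theorem lti97_star_c_apply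
    (h : ∀ g : G, ρ g * ρ g - a g • ρ g + ε g • (1 : Module.End O E) = 0)
    {c : G} (hc : c * c = 1) (hεc : ε c = -1) (g : G) (v : E) :
    ρ c (ρ g v) - ε g • ρ g⁻¹ (ρ c v) = a (c * g) • v := by
  have h1 := lti97_star_apply h (c * g) v
  have hcinv : c⁻¹ = c := inv_eq_of_mul_eq_one_left hc
  have hinv : (c * g)⁻¹ = g⁻¹ * c := by rw [mul_inv_rev, hcinv]
  rw [hinv, map_mul ρ c g, map_mul ρ g⁻¹ c, map_mul ε c g, hεc] at h1
  rw [← h1]
  simp only [Module.End.mul_apply, neg_mul, one_mul, neg_smul]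
  abel

omit [IsPrincipalIdealRing O] [Module.Free O E] [Module.Finite O E] in
/-- the saturated span of an orbit is good -/
theorem lti97_good_orbit {w : E} (hw : w ≠ 0) :
    lti97_Good ρ (lti97_sat (Submodule.span O (Set.range fun g : G => ρ g w))) := by
  refine ⟨?_, ?_, lti97_sat_isSat _⟩
  · intro h0
    apply hw
    have hmem : w ∈ lti97_sat (Submodule.span O (Set.range fun g : G => ρ g w)) := by
      apply lti97_le_sat
      apply Submodule.subset_span
      refine ⟨1, ?_⟩
      show ρ 1 w = w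
      rw [map_one]; rfl
    rw [h0] at hmem
    exact (Submodule.mem_bot O).1 hmem
  · have hstab : ∀ g : G, ∀ x ∈ Submodule.span O (Set.range fun g : G => ρ g w),
        ρ g x ∈ Submodule.span O (Set.range fun g : G => ρ g w) := by
      intro g x hx
      induction hx using Submodule.span_induction with
      | mem x hx =>
        obtain ⟨k, rfl⟩ := hx
        apply Submodule.subset_span
        refine ⟨g * k, ?_⟩
        show ρ (g * k) w = ρ g (ρ k w)
        rw [map_mul]; rfl
      | zero => rw [map_zero]; exact Submodule.zero_mem _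
      | add x y _ _ hx hy => rw [map_add]; exact Submodule.add_mem _ hx hy
      | smul r x _ hx => rw [map_smul]; exact Submodule.smul_mem _ r hx
    rintro g v ⟨s, hs, hv⟩
    refine ⟨s, hs, ?_⟩
    rw [← map_smul]
    exact hstab g _ hv

omit [Module.Free O E] in
/-- in a minimal good submodule every vector has a nonzero multiple in the span of the orbit of
any nonzero vector ("irreducibility") -/
theorem lti97_min_orbit {Λ : Submodule O E} (hΛ : lti97_Good ρ Λ)
    (hmin : ∀ Λ' : Submodule O E, lti97_Good ρ Λ' → finrank O Λ ≤ finrank O Λ')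
    {w : E} (hwΛ : w ∈ Λ) (hw : w ≠ 0) {v : E} (hv : v ∈ Λ) :
    ∃ s : O, s ≠ 0 ∧ s • v ∈ Submodule.span O (Set.range fun g : G => ρ g w) := by
  have hle : lti97_sat (Submodule.span O (Set.range fun g : G => ρ g w)) ≤ Λ := by
    apply lti97_sat_le _ hΛ.2.2
    rw [Submodule.span_le]
    rintro _ ⟨g, rfl⟩
    exact hΛ.2.1 g w hwΛ
  obtain ⟨s, hs, t, ht, hst⟩ :=
    lti97_torsion_of_finrank_le hle (hmin _ (lti97_good_orbit hw)) v hv
  exact ⟨t * s, mul_ne_zero ht hs, by rwa [mul_smul]⟩

/-- **rank at most two** -/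
theorem lti97_min_finrank_le_two (h2 : (2 : O) ≠ 0)
    (h : ∀ g : G, ρ g * ρ g - a g • ρ g + ε g • (1 : Module.End O E) = 0)
    {c : G} (hc : c * c = 1) (hεc : ε c = -1)
    {Λ : Submodule O E} (hΛ : lti97_Good ρ Λ)
    (hmin : ∀ Λ' : Submodule O E, lti97_Good ρ Λ' → finrank O Λ ≤ finrank O Λ') :
    finrank O Λ ≤ 2 := by
  classical
  have hγγ : ∀ v : E, ρ c (ρ c v) = v := by
    intro v
    have : ρ c * ρ c = 1 := by rw [← map_mul, hc, map_one]
    have := congrArg (fun f : Module.End O E => f v) this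
    simpa using this
  obtain ⟨hne, hstab, hsat⟩ := hΛ
  obtain ⟨w, hwΛ, hw⟩ := Submodule.exists_mem_ne_zero_of_ne_bot hne
  by_cases hsc : ∃ s : O, ∀ v ∈ Λ, ρ c v = s • v
  · -- scalar case
    obtain ⟨s, hs⟩ := hsc
    have hs2 : s * s = 1 := by
      have := hγγ w
      rw [hs w hwΛ, map_smul, hs w hwΛ, smul_smul] at this
      have h3 : (s * s - 1) • w = 0 := by rw [sub_smul, this, one_smul, sub_self]
      rcases smul_eq_zero.1 h3 with h4 | h4
      · exact sub_eq_zero.1 h4
      · exact absurd h4 hw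
    have hs0 : s ≠ 0 := by
      rintro rfl
      rw [mul_zero] at hs2
      exact zero_ne_one hs2
    have h2s : (2 * s) ≠ 0 := mul_ne_zero h2 hs0
    have hscal : ∀ g : G, ∀ v ∈ Λ, (2 * s) • ρ g v = (a (c * g) + s * a g) • v := by
      intro g v hv
      have e1 := lti97_star_apply h g v
      have e2 := lti97_star_c_apply h hc hεc g v
      rw [hs v hv, hs _ (hstab g v hv), map_smul] at e2
      have : (2 * s) • ρ g v = (s • ρ g v - ε g • s • ρ g⁻¹ v) + s • (ρ g v + ε g • ρ g⁻¹ v) := by
        rw [smul_add, smul_comm s (ε g), two_mul, add_smul]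
        abel
      rw [this, e1, e2, add_smul, mul_smul]
    have hgood : lti97_Good ρ (lti97_sat (Submodule.span O ({w} : Set E))) := by
      refine ⟨?_, ?_, lti97_sat_isSat _⟩
      · intro h0
        apply hw
        have hmem : w ∈ lti97_sat (Submodule.span O ({w} : Set E)) :=
          lti97_le_sat _ (Submodule.mem_span_singleton_self w)
        rw [h0] at hmem
        exact (Submodule.mem_bot O).1 hmem
      · rintro g v ⟨t, ht, hv⟩
        obtain ⟨r, hr⟩ := Submodule.mem_span_singleton.1 hv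
        refine ⟨2 * s * t, mul_ne_zero h2s ht, ?_⟩
        have e : (2 * s * t) • ρ g v = r • ((a (c * g) + s * a g) • w) := by
          rw [mul_smul, ← map_smul (ρ g) t v, ← hr, map_smul, smul_comm (2 * s) r,
            hscal g w hwΛ]
        rw [e]
        exact Submodule.smul_mem _ _ (Submodule.smul_mem _ _ (Submodule.mem_span_singleton_self w))
    have h1 := hmin _ hgood
    have h3 := lti97_finrank_sat_le (Submodule.span O ({w} : Set E))
    have h4 : finrank O (Submodule.span O ({w} : Set E)) ≤ 1 := by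
      have := finrank_span_finset_le_card (R := O) ({w} : Finset E)
      rw [Finset.coe_singleton, Finset.card_singleton] at this
      exact this
    omega
  · -- non-scalar case
    push Not at hsc
    obtain ⟨u₁, hu₁Λ, hu₁⟩ := hsc 1
    obtain ⟨u₂, hu₂Λ, hu₂⟩ := hsc (-1)
    rw [one_smul] at hu₁
    rw [neg_one_smul] at hu₂
    have hwmΛ : u₁ - ρ c u₁ ∈ Λ := Λ.sub_mem hu₁Λ (hstab c u₁ hu₁Λ)
    have hwpΛ : u₂ + ρ c u₂ ∈ Λ := Λ.add_mem hu₂Λ (hstab c u₂ hu₂Λ)
    have hwm0 : u₁ - ρ c u₁ ≠ 0 := by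
      intro h0
      apply hu₁
      rw [sub_eq_zero] at h0
      exact h0.symm
    have hwp0 : u₂ + ρ c u₂ ≠ 0 := by
      intro h0
      apply hu₂
      rw [eq_neg_iff_add_eq_zero, add_comm]
      exact h0
    have hγm : ρ c (u₁ - ρ c u₁) = -(u₁ - ρ c u₁) := by
      rw [map_sub, hγγ]; abel
    have hγp : ρ c (u₂ + ρ c u₂) = u₂ + ρ c u₂ := by
      rw [map_add, hγγ]; abel
    generalize u₁ - ρ c u₁ = wm at hwmΛ hwm0 hγm
    generalize u₂ + ρ c u₂ = wp at hwpΛ hwp0 hγp
    have hp : ∀ v ∈ Λ, ∃ s : O, s ≠ 0 ∧ s • (v + ρ c v) ∈ Submodule.span O ({wp, wm} : Set E) := by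
      have hle : Submodule.span O (Set.range fun g : G => ρ g wp) ≤
          Submodule.comap ((1 : Module.End O E) + ρ c) (Submodule.span O ({wp, wm} : Set E)) := by
        rw [Submodule.span_le]
        rintro _ ⟨g, rfl⟩
        simp only [SetLike.mem_coe, Submodule.mem_comap]
        have e1 := lti97_star_apply h g wp
        have e2 := lti97_star_c_apply h hc hεc g wp
        rw [hγp] at e2
        have e3 : ((1 : Module.End O E) + ρ c) (ρ g wp) = (a g + a (c * g)) • wp := by
          rw [LinearMap.add_apply, Module.End.one_apply, add_smul, ← e1, ← e2]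
          abel
        rw [e3]
        exact Submodule.smul_mem _ _ (Submodule.subset_span (by simp))
      intro v hv
      obtain ⟨s, hs, hsv⟩ := lti97_min_orbit ⟨hne, hstab, hsat⟩ hmin hwpΛ hwp0 hv
      refine ⟨s, hs, ?_⟩
      have := hle hsv
      simp only [Submodule.mem_comap, LinearMap.add_apply, Module.End.one_apply, map_smul] at this
      exact this
    have hm : ∀ v ∈ Λ, ∃ s : O, s ≠ 0 ∧ s • (v - ρ c v) ∈ Submodule.span O ({wp, wm} : Set E) := by
      have hle : Submodule.span O (Set.range fun g : G => ρ g wm) ≤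
          Submodule.comap ((1 : Module.End O E) - ρ c) (Submodule.span O ({wp, wm} : Set E)) := by
        rw [Submodule.span_le]
        rintro _ ⟨g, rfl⟩
        simp only [SetLike.mem_coe, Submodule.mem_comap]
        have e1 := lti97_star_apply h g wm
        have e2 := lti97_star_c_apply h hc hεc g wm
        rw [hγm, map_neg, smul_neg, sub_neg_eq_add] at e2
        have e3 : ((1 : Module.End O E) - ρ c) (ρ g wm) = (a g - a (c * g)) • wm := by
          rw [LinearMap.sub_apply, Module.End.one_apply, sub_smul, ← e1, ← e2]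
          abel
        rw [e3]
        exact Submodule.smul_mem _ _ (Submodule.subset_span (by simp))
      intro v hv
      obtain ⟨s, hs, hsv⟩ := lti97_min_orbit ⟨hne, hstab, hsat⟩ hmin hwmΛ hwm0 hv
      refine ⟨s, hs, ?_⟩
      have := hle hsv
      simp only [Submodule.mem_comap, LinearMap.sub_apply, Module.End.one_apply, map_smul] at this
      exact this
    have hNΛ : Submodule.span O ({wp, wm} : Set E) ≤ Λ := by
      rw [Submodule.span_le]
      rintro x hx
      rcases hx with rfl | hx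
      · exact hwpΛ
      · rw [Set.mem_singleton_iff] at hx
        rw [hx]; exact hwmΛ
    have htor : ∀ v ∈ Λ, ∃ s : O, s ≠ 0 ∧ s • v ∈ Submodule.span O ({wp, wm} : Set E) := by
      intro v hv
      obtain ⟨s, hs, hsv⟩ := hp v hv
      obtain ⟨t, ht, htv⟩ := hm v hv
      refine ⟨2 * (s * t), mul_ne_zero h2 (mul_ne_zero hs ht), ?_⟩
      have e : (2 * (s * t)) • v = t • (s • (v + ρ c v)) + s • (t • (v - ρ c v)) := by
        have e1 : t • (s • (v + ρ c v)) = (s * t) • (v + ρ c v) := by rw [smul_smul, mul_comm]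
        have e2 : s • (t • (v - ρ c v)) = (s * t) • (v - ρ c v) := by rw [smul_smul]
        rw [e1, e2, ← smul_add, mul_comm 2, mul_smul]
        congr 1
        rw [two_smul]; abel
      rw [e]
      exact Submodule.add_mem _ (Submodule.smul_mem _ _ hsv) (Submodule.smul_mem _ _ htv)
    have h1 := lti97_finrank_le_of_torsion hNΛ htor
    have hfin : finrank O (Submodule.span O (({wp, wm} : Finset E) : Set E)) ≤
        ({wp, wm} : Finset E).card := finrank_span_finset_le_card _
    have hcoe : (({wp, wm} : Finset E) : Set E) = ({wp, wm} : Set E) := by simp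
    rw [hcoe] at hfin
    exact h1.trans (hfin.trans Finset.card_le_two)

end Rep

/-! ### `2 × 2` matrices over a domain -/

section Mat

variable {O : Type*} [CommRing O] [IsDomain O]

omit [IsDomain O] in
/-- Cayley--Hamilton for `2 × 2` matrices -/
theorem lti97_cayley (M : Matrix (Fin 2) (Fin 2) O) :
    M * M - M.trace • M + M.det • (1 : Matrix (Fin 2) (Fin 2) O) = 0 := by
  ext i j
  fin_cases i <;> fin_cases j <;>
    simp [Matrix.mul_apply, Fin.sum_univ_two, Matrix.trace_fin_two, Matrix.det_fin_two] <;> ring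

/-- a `2 × 2` matrix `M` with `d • M` scalar, `d ≠ 0`, is scalar -/
theorem lti97_scalar_of_smul_scalar (M : Matrix (Fin 2) (Fin 2) O) {d e : O} (hd : d ≠ 0)
    (h : d • M = e • (1 : Matrix (Fin 2) (Fin 2) O)) : M = (M 0 0) • (1 : Matrix (Fin 2) (Fin 2) O) := by
  have h00 := congrFun (congrFun h 0) 0
  have h01 := congrFun (congrFun h 0) 1
  have h10 := congrFun (congrFun h 1) 0
  have h11 := congrFun (congrFun h 1) 1
  simp only [Matrix.smul_apply, smul_eq_mul, Matrix.one_apply_eq, Matrix.one_apply_ne,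
    ne_eq, zero_ne_one, one_ne_zero, not_false_eq_true, mul_one, mul_zero, Fin.isValue] at h00 h01 h10 h11
  have e01 : M 0 1 = 0 := (mul_eq_zero.1 h01).resolve_left hd
  have e10 : M 1 0 = 0 := (mul_eq_zero.1 h10).resolve_left hd
  have e11 : M 1 1 = M 0 0 := mul_left_cancel₀ hd (h11.trans h00.symm)
  ext i j
  fin_cases i <;> fin_cases j <;> simp [e01, e10, e11]

/-- a non-scalar `2 × 2` matrix satisfying a monic quadratic: the quadratic is the characteristic
polynomial -/
theorem lti97_trace_det_of_nonscalar (M : Matrix (Fin 2) (Fin 2) O) {x y : O}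
    (hM : M * M - x • M + y • (1 : Matrix (Fin 2) (Fin 2) O) = 0)
    (hns : ∀ t : O, M ≠ t • (1 : Matrix (Fin 2) (Fin 2) O)) : M.trace = x ∧ M.det = y := by
  have hCH := lti97_cayley M
  have hsub : (M.trace - x) • M = (M.det - y) • (1 : Matrix (Fin 2) (Fin 2) O) := by
    have : (M.trace - x) • M - (M.det - y) • (1 : Matrix (Fin 2) (Fin 2) O) = 0 := by
      rw [sub_smul, sub_smul]
      have e : M.trace • M - x • M - (M.det • (1 : Matrix (Fin 2) (Fin 2) O) - y • 1) =
          (M * M - x • M + y • (1 : Matrix (Fin 2) (Fin 2) O)) -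
            (M * M - M.trace • M + M.det • (1 : Matrix (Fin 2) (Fin 2) O)) := by abel
      rw [e, hM, hCH, sub_zero]
    exact sub_eq_zero.1 this
  have hd : M.trace - x = 0 := by
    by_contra hd
    exact hns _ (lti97_scalar_of_smul_scalar M hd hsub)
  rw [hd, zero_smul] at hsub
  have h00 := congrFun (congrFun hsub 0) 0
  simp only [Matrix.zero_apply, Matrix.smul_apply, Matrix.one_apply_eq, smul_eq_mul, mul_one] at h00
  exact ⟨sub_eq_zero.1 hd, sub_eq_zero.1 h00.symm⟩

variable {G : Type*} [Group G]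

/-- **trace and determinant** of a matrix representation satisfying the quadratic relations, if
some element is not scalar -/
theorem lti97_matrix_trace_det (A : G →* Matrix (Fin 2) (Fin 2) O) (ε : G →* O) (a : G → O)
    (hA : ∀ g : G, A g * A g - a g • A g + ε g • (1 : Matrix (Fin 2) (Fin 2) O) = 0)
    (hns : ∃ k : G, ∀ t : O, A k ≠ t • (1 : Matrix (Fin 2) (Fin 2) O)) (g : G) :
    (A g).trace = a g ∧ (A g).det = ε g := by
  by_cases hg : ∀ t : O, A g ≠ t • (1 : Matrix (Fin 2) (Fin 2) O)
  · exact lti97_trace_det_of_nonscalar (A g) (hA g) hg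
  · push Not at hg
    obtain ⟨s, hs⟩ := hg
    obtain ⟨k, hk⟩ := hns
    -- `s ≠ 0`
    have hs0 : s ≠ 0 := by
      rintro rfl
      have h1 : A g * A g⁻¹ = 1 := by rw [← map_mul, mul_inv_cancel, map_one]
      rw [hs, zero_smul, zero_mul] at h1
      have := congrFun (congrFun h1 0) 0
      simp at this
    -- `A (g * k) = s • A k` is not scalar
    have hgk : A (g * k) = s • A k := by rw [map_mul, hs, Matrix.smul_mul, one_mul]
    have hgkns : ∀ t : O, A (g * k) ≠ t • (1 : Matrix (Fin 2) (Fin 2) O) := by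
      intro t ht
      rw [hgk] at ht
      exact hk _ (lti97_scalar_of_smul_scalar (A k) hs0 ht)
    obtain ⟨-, hdet⟩ := lti97_trace_det_of_nonscalar (A (g * k)) (hA (g * k)) hgkns
    obtain ⟨-, hdetk⟩ := lti97_trace_det_of_nonscalar (A k) (hA k) hk
    have hεk : ε k ≠ 0 := by
      intro h0
      have : ε k * ε k⁻¹ = 1 := by rw [← map_mul, mul_inv_cancel, map_one]
      rw [h0, zero_mul] at this
      exact zero_ne_one this
    have hεg : ε g = s * s := by
      rw [hgk, Matrix.det_smul, Fintype.card_fin, hdetk, map_mul] at hdet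
      have : ε g * ε k = (s * s) * ε k := by rw [← hdet]; ring
      exact mul_right_cancel₀ hεk this
    have hag : a g = 2 * s := by
      have h00 := congrFun (congrFun (hA g) 0) 0
      rw [hs] at h00
      simp only [Matrix.add_apply, Matrix.sub_apply, Matrix.mul_apply, Fin.sum_univ_two,
        Matrix.smul_apply, Matrix.one_apply_eq, Matrix.one_apply_ne, ne_eq, zero_ne_one,
        one_ne_zero, not_false_eq_true, smul_eq_mul, mul_one, mul_zero, add_zero,
        Matrix.zero_apply, Fin.isValue] at h00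
      rw [hεg] at h00
      have : s * (2 * s - a g) = 0 := by linear_combination h00
      rcases mul_eq_zero.1 this with h1 | h1
      · exact absurd h1 hs0
      · exact (sub_eq_zero.1 h1).symm
    rw [hs, hag, hεg]
    constructor
    · rw [Matrix.trace_fin_two]
      simp only [Matrix.smul_apply, Matrix.one_apply_eq, smul_eq_mul, mul_one]
      ring
    · rw [Matrix.det_fin_two]
      simp

end Mat

/-! ### packaging -/

section Pack

variable {O : Type*} [CommRing O] [IsDomain O] {G : Type*} [Group G]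

omit [IsDomain O] in
/-- vectors with coordinates in `I` are in `I • ⊤` -/
theorem lti97_mem_smul_top_pi {n : ℕ} (I : Ideal O) (w : Fin n → O) (hw : ∀ i, w i ∈ I) :
    w ∈ I • (⊤ : Submodule O (Fin n → O)) := by
  have e : w = ∑ i, w i • (Pi.single i (1 : O) : Fin n → O) := by
    ext j
    simp [Finset.sum_apply, Pi.single_apply]
  rw [e]
  exact Submodule.sum_mem _ fun i _ => Submodule.smul_mem_smul (hw i) Submodule.mem_top

/-- from a matrix representation with the right traces and determinants to the representation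
on `O²` -/
theorem lti97_of_matrix (A : G →* Matrix (Fin 2) (Fin 2) O) (ε : G →* O) (a : G → O)
    (htd : ∀ g : G, (A g).trace = a g ∧ (A g).det = ε g) :
    ∃ ρ' : G →* Module.End O (Fin 2 → O),
      (∀ g : G, LinearMap.charpoly (ρ' g) = X ^ 2 - C (a g) * X + C (ε g)) ∧
      ∀ (I : Ideal O) (g : G), (∀ i j, (A g - 1) i j ∈ I) →
        ∀ w : Fin 2 → O, ρ' g w - w ∈ I • (⊤ : Submodule O (Fin 2 → O)) := by
  refine ⟨(Matrix.toLinAlgEquiv' : Matrix (Fin 2) (Fin 2) O ≃ₐ[O] _).toAlgHom.toRingHom.toMonoidHom.comp A,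
    ?_, ?_⟩
  · intro g
    show LinearMap.charpoly (Matrix.toLin' (A g)) = _
    rw [Matrix.charpoly_toLin', Matrix.charpoly_fin_two, (htd g).1, (htd g).2]
  · intro I g hg w
    show Matrix.toLin' (A g) w - w ∈ _
    have e : Matrix.toLin' (A g) w - w = (A g - 1).mulVec w := by
      rw [Matrix.toLin'_apply, Matrix.sub_mulVec, Matrix.one_mulVec]
    rw [e]
    apply lti97_mem_smul_top_pi
    intro i
    rw [Matrix.mulVec, dotProduct]
    exact Ideal.sum_mem _ fun j _ => I.mul_mem_right _ (hg i j)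

end Pack

/-! ### restriction to a stable submodule and its matrices -/

section Restrict

variable {O : Type*} [CommRing O] [IsDomain O] [IsPrincipalIdealRing O]
  {E : Type*} [AddCommGroup E] [Module O E] [Module.Free O E] [Module.Finite O E]
  {G : Type*} [Group G]

/-- restriction of the action to a stable submodule -/
def lti97_restrict (ρ : G →* Module.End O E) (Λ : Submodule O E)
    (hΛ : ∀ g : G, ∀ v ∈ Λ, ρ g v ∈ Λ) : G →* Module.End O Λ where
  toFun g := (ρ g).restrict (hΛ g)
  map_one' := by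
    apply LinearMap.ext; intro v; apply Subtype.ext
    simp [LinearMap.restrict_apply]
  map_mul' g k := by
    apply LinearMap.ext; intro v; apply Subtype.ext
    simp [LinearMap.restrict_apply]

omit [IsDomain O] [IsPrincipalIdealRing O] [Module.Free O E] [Module.Finite O E] in
theorem lti97_restrict_apply (ρ : G →* Module.End O E) (Λ : Submodule O E)
    (hΛ : ∀ g : G, ∀ v ∈ Λ, ρ g v ∈ Λ) (g : G) (v : Λ) :
    ((lti97_restrict ρ Λ hΛ g) v : E) = ρ g (v : E) := rfl

/-- matrices of the restricted action in a basis -/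
noncomputable def lti97_mat (ρ : G →* Module.End O E) (Λ : Submodule O E)
    (hΛ : ∀ g : G, ∀ v ∈ Λ, ρ g v ∈ Λ) {n : ℕ} (b : Basis (Fin n) O Λ) :
    G →* Matrix (Fin n) (Fin n) O where
  toFun g := LinearMap.toMatrix b b (lti97_restrict ρ Λ hΛ g)
  map_one' := by rw [map_one]; exact LinearMap.toMatrix_one b
  map_mul' g k := by rw [map_mul]; exact LinearMap.toMatrix_mul b _ _

omit [IsDomain O] [IsPrincipalIdealRing O] [Module.Free O E] [Module.Finite O E] in
theorem lti97_mat_apply (ρ : G →* Module.End O E) (Λ : Submodule O E)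
    (hΛ : ∀ g : G, ∀ v ∈ Λ, ρ g v ∈ Λ) {n : ℕ} (b : Basis (Fin n) O Λ) (g : G) (i j : Fin n) :
    lti97_mat ρ Λ hΛ b g i j = b.repr (lti97_restrict ρ Λ hΛ g (b j)) i :=
  LinearMap.toMatrix_apply b b _ i j

variable {ρ : G →* Module.End O E} {ε : G →* O} {a : G → O}

omit [IsDomain O] [IsPrincipalIdealRing O] [Module.Free O E] [Module.Finite O E] in
theorem lti97_mat_rel (h : ∀ g : G, ρ g * ρ g - a g • ρ g + ε g • (1 : Module.End O E) = 0)
    (Λ : Submodule O E) (hΛ : ∀ g : G, ∀ v ∈ Λ, ρ g v ∈ Λ) {n : ℕ} (b : Basis (Fin n) O Λ)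
    (g : G) :
    lti97_mat ρ Λ hΛ b g * lti97_mat ρ Λ hΛ b g - a g • lti97_mat ρ Λ hΛ b g
      + ε g • (1 : Matrix (Fin n) (Fin n) O) = 0 := by
  have hf : lti97_restrict ρ Λ hΛ g * lti97_restrict ρ Λ hΛ g - a g • lti97_restrict ρ Λ hΛ g
      + ε g • (1 : Module.End O Λ) = 0 := by
    apply LinearMap.ext; intro v; apply Subtype.ext
    have := congrArg (fun f : Module.End O E => f (v : E)) (h g)
    simpa [lti97_restrict_apply] using this
  have h1 := congrArg (LinearMap.toMatrix b b) hf
  rw [map_add, map_sub, map_smul, map_smul, LinearMap.toMatrix_mul, LinearMap.toMatrix_one,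
    map_zero] at h1
  exact h1

/-- the matrix of `g` is congruent to `1` modulo `I` if `ρ g` is, for a saturated `Λ` -/
theorem lti97_mat_sub_one_mem {Λ : Submodule O E} (hΛ : ∀ g : G, ∀ v ∈ Λ, ρ g v ∈ Λ)
    (hsat : lti97_IsSat Λ) {n : ℕ} (b : Basis (Fin n) O Λ) (I : Ideal O) (g : G)
    (hg : ∀ v : E, ρ g v - v ∈ I • (⊤ : Submodule O E)) (i j : Fin n) :
    (lti97_mat ρ Λ hΛ b g - 1) i j ∈ I := by
  classical
  have e : (lti97_mat ρ Λ hΛ b g - 1) i j =
      b.repr (lti97_restrict ρ Λ hΛ g (b j) - b j) i := by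
    rw [Matrix.sub_apply, lti97_mat_apply, map_sub, Finsupp.sub_apply, Basis.repr_self,
      Finsupp.single_apply, Matrix.one_apply]
    congr 1
    by_cases hij : i = j
    · rw [if_pos hij, if_pos hij.symm]
    · rw [if_neg hij, if_neg (Ne.symm hij)]
  rw [e]
  obtain ⟨x, hx⟩ := (IsPrincipalIdealRing.principal I).principal
  have hmem := hg (b j : E)
  have hxI : x ∈ I := by rw [hx]; exact Submodule.mem_span_singleton_self x
  have hI : I = Ideal.span {x} := hx
  rw [hI, Submodule.ideal_span_singleton_smul, Submodule.mem_smul_pointwise_iff_exists] at hmem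
  obtain ⟨u, -, hu⟩ := hmem
  by_cases hx0 : x = 0
  · have h0 : lti97_restrict ρ Λ hΛ g (b j) - b j = 0 := by
      apply Subtype.ext
      show ρ g (b j : E) - (b j : E) = 0
      rw [← hu, hx0, zero_smul]
    rw [h0, map_zero]
    exact I.zero_mem
  · have huΛ : u ∈ Λ := by
      apply hsat x u hx0
      rw [hu]
      exact Λ.sub_mem (hΛ g _ (b j).2) (b j).2
    have h1 : lti97_restrict ρ Λ hΛ g (b j) - b j = x • (⟨u, huΛ⟩ : Λ) := by
      apply Subtype.ext
      show ρ g (b j : E) - (b j : E) = x • u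
      rw [hu]
    rw [h1, map_smul, Finsupp.smul_apply, smul_eq_mul]
    exact I.mul_mem_right _ hxI

end Restrict

/-! ### the two cases -/

section Cases

variable {O : Type*} [CommRing O] [IsDomain O] [IsPrincipalIdealRing O]
  {E : Type*} [AddCommGroup E] [Module O E] [Module.Free O E] [Module.Finite O E]
  {G : Type*} [Group G] {ρ : G →* Module.End O E} {ε : G →* O} {a : G → O}

/-- if the matrix of `k` is scalar, the first basis vector is an eigenvector -/
theorem lti97_scalar_apply {Λ : Submodule O E} (hΛ : ∀ g : G, ∀ v ∈ Λ, ρ g v ∈ Λ) {n : ℕ}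
    (b : Basis (Fin n) O Λ) (k : G) (t : O)
    (ht : lti97_mat ρ Λ hΛ b k = t • (1 : Matrix (Fin n) (Fin n) O)) (j : Fin n) :
    ρ k (b j : E) = t • (b j : E) := by
  classical
  have h1 : lti97_restrict ρ Λ hΛ k (b j) = t • b j := by
    apply b.repr.injective
    ext i
    rw [← lti97_mat_apply, ht, map_smul, Finsupp.smul_apply, Basis.repr_self,
      Finsupp.single_apply, Matrix.smul_apply, Matrix.one_apply]
    by_cases hij : i = j
    · rw [if_pos hij, if_pos hij.symm]
    · rw [if_neg hij, if_neg (Ne.symm hij)]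
  have := congrArg (fun x : Λ => (x : E)) h1
  simpa [lti97_restrict_apply] using this

/-- in rank two some element is not scalar -/
theorem lti97_exists_nonscalar {Λ : Submodule O E} (hΛ : lti97_Good ρ Λ)
    (hmin : ∀ Λ' : Submodule O E, lti97_Good ρ Λ' → finrank O Λ ≤ finrank O Λ')
    (b : Basis (Fin 2) O Λ) :
    ∃ k : G, ∀ t : O, lti97_mat ρ Λ hΛ.2.1 b k ≠ t • (1 : Matrix (Fin 2) (Fin 2) O) := by
  classical
  by_contra hall
  push Not at hall
  have hw : (b 0 : E) ≠ 0 := fun h0 => b.ne_zero 0 (Subtype.ext h0)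
  have hgood : lti97_Good ρ (lti97_sat (Submodule.span O ({(b 0 : E)} : Set E))) := by
    refine ⟨?_, ?_, lti97_sat_isSat _⟩
    · intro h0
      apply hw
      have hmem : (b 0 : E) ∈ lti97_sat (Submodule.span O ({(b 0 : E)} : Set E)) :=
        lti97_le_sat _ (Submodule.mem_span_singleton_self _)
      rw [h0] at hmem
      exact (Submodule.mem_bot O).1 hmem
    · rintro g v ⟨s, hs, hv⟩
      obtain ⟨r, hr⟩ := Submodule.mem_span_singleton.1 hv
      obtain ⟨t, ht⟩ := hall g
      refine ⟨s, hs, ?_⟩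
      rw [← map_smul, ← hr, map_smul, lti97_scalar_apply hΛ.2.1 b g t ht 0]
      exact Submodule.smul_mem _ _ (Submodule.smul_mem _ _ (Submodule.mem_span_singleton_self _))
  have h1 := hmin _ hgood
  have h3 := lti97_finrank_sat_le (Submodule.span O ({(b 0 : E)} : Set E))
  have h4 : finrank O (Submodule.span O ({(b 0 : E)} : Set E)) ≤ 1 := by
    have := finrank_span_finset_le_card (R := O) ({(b 0 : E)} : Finset E)
    rw [Finset.coe_singleton, Finset.card_singleton] at this
    exact this
  have h5 : finrank O Λ = 2 := by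
    rw [Module.finrank_eq_card_basis b]; simp
  omega

/-- **the plane case** -/
theorem lti97_plane (h : ∀ g : G, ρ g * ρ g - a g • ρ g + ε g • (1 : Module.End O E) = 0)
    {Λ : Submodule O E} (hΛ : lti97_Good ρ Λ)
    (hmin : ∀ Λ' : Submodule O E, lti97_Good ρ Λ' → finrank O Λ ≤ finrank O Λ')
    (b : Basis (Fin 2) O Λ) :
    ∃ A : G →* Matrix (Fin 2) (Fin 2) O, (∀ g : G, (A g).trace = a g ∧ (A g).det = ε g) ∧
      ∀ (I : Ideal O) (g : G), (∀ v : E, ρ g v - v ∈ I • (⊤ : Submodule O E)) → ε g - 1 ∈ I →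
        ∀ i j, (A g - 1) i j ∈ I :=
  ⟨lti97_mat ρ Λ hΛ.2.1 b,
    fun g => lti97_matrix_trace_det _ ε a (lti97_mat_rel h Λ hΛ.2.1 b)
      (lti97_exists_nonscalar hΛ hmin b) g,
    fun I g hg _ i j => lti97_mat_sub_one_mem hΛ.2.1 hΛ.2.2 b I g hg i j⟩

/-- **the line case** -/
theorem lti97_line (h : ∀ g : G, ρ g * ρ g - a g • ρ g + ε g • (1 : Module.End O E) = 0)
    {Λ : Submodule O E} (hΛ : lti97_Good ρ Λ) (b : Basis (Fin 1) O Λ) :
    ∃ A : G →* Matrix (Fin 2) (Fin 2) O, (∀ g : G, (A g).trace = a g ∧ (A g).det = ε g) ∧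
      ∀ (I : Ideal O) (g : G), (∀ v : E, ρ g v - v ∈ I • (⊤ : Submodule O E)) → ε g - 1 ∈ I →
        ∀ i j, (A g - 1) i j ∈ I := by
  classical
  -- the character
  let η : G →* O :=
    { toFun := fun g => lti97_mat ρ Λ hΛ.2.1 b g 0 0
      map_one' := by rw [map_one, Matrix.one_apply_eq]
      map_mul' := fun g k => by
        rw [map_mul, Matrix.mul_apply]
        simp }
  have hη : ∀ g, η g = lti97_mat ρ Λ hΛ.2.1 b g 0 0 := fun _ => rfl
  have hinv : ∀ g : G, η g * η g⁻¹ = 1 := fun g => by rw [← map_mul, mul_inv_cancel, map_one]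
  have hrel : ∀ g : G, η g * η g - a g * η g + ε g = 0 := by
    intro g
    have h00 := congrFun (congrFun (lti97_mat_rel h Λ hΛ.2.1 b g) 0) 0
    simp only [Matrix.add_apply, Matrix.sub_apply, Matrix.mul_apply, Matrix.smul_apply,
      Matrix.one_apply_eq, smul_eq_mul, mul_one, Matrix.zero_apply] at h00
    rw [hη]
    simpa using h00
  let A : G →* Matrix (Fin 2) (Fin 2) O :=
    { toFun := fun g => Matrix.diagonal ![η g, ε g * η g⁻¹]
      map_one' := by
        rw [← Matrix.diagonal_one]
        congr 1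
        ext i
        fin_cases i <;> simp
      map_mul' := fun g k => by
        rw [Matrix.diagonal_mul_diagonal]
        congr 1
        ext i
        fin_cases i
        · simp
        · simp only [mul_inv_rev, map_mul]
          simp
          ring }
  have hA : ∀ g, A g = Matrix.diagonal ![η g, ε g * η g⁻¹] := fun _ => rfl
  refine ⟨A, ?_, ?_⟩
  · intro g
    rw [hA, Matrix.trace_fin_two, Matrix.det_fin_two]
    simp only [Matrix.diagonal_apply_eq, Matrix.cons_val_zero, Matrix.cons_val_one,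
      Matrix.diagonal_apply_ne, ne_eq, zero_ne_one, one_ne_zero, not_false_eq_true,
      Fin.isValue, mul_zero, sub_zero]
    constructor
    · linear_combination (η g⁻¹) * hrel g - (η g - a g) * hinv g
    · linear_combination (ε g) * hinv g
  · intro I g hg hε i j
    have h00 : η g - 1 ∈ I := by
      have := lti97_mat_sub_one_mem hΛ.2.1 hΛ.2.2 b I g hg 0 0
      rwa [Matrix.sub_apply, Matrix.one_apply_eq] at this
    have h11 : ε g * η g⁻¹ - 1 ∈ I := by
      have e : ε g * η g⁻¹ - 1 = η g⁻¹ * ((ε g - 1) - (η g - 1)) := by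
        linear_combination hinv g
      rw [e]
      exact I.mul_mem_left _ (I.sub_mem hε h00)
    rw [hA]
    fin_cases i <;> fin_cases j
    · simpa using h00
    · simp
    · simp
    · simpa using h11

end Cases

/-! ### the main theorem -/

section Main

variable {O : Type*} [CommRing O] [IsDomain O] [IsPrincipalIdealRing O]
  {E : Type*} [AddCommGroup E] [Module O E] [Module.Free O E] [Module.Finite O E]
  {G : Type*} [Group G]

/-- matrix form of the lattice step -/
theorem lti97_exists_matrix [Nontrivial E] (h2 : (2 : O) ≠ 0)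
    (ρ : G →* Module.End O E) (ε : G →* O) (a : G → O)
    (h : ∀ g : G, ρ g * ρ g - a g • ρ g + ε g • (1 : Module.End O E) = 0)
    {c : G} (hc : c * c = 1) (hεc : ε c = -1) :
    ∃ A : G →* Matrix (Fin 2) (Fin 2) O, (∀ g : G, (A g).trace = a g ∧ (A g).det = ε g) ∧
      ∀ (I : Ideal O) (g : G), (∀ v : E, ρ g v - v ∈ I • (⊤ : Submodule O E)) → ε g - 1 ∈ I →
        ∀ i j, (A g - 1) i j ∈ I := by
  obtain ⟨Λ, hΛ, hmin⟩ := lti97_exists_min ρ
  have hle := lti97_min_finrank_le_two h2 h hc hεc hΛ hmin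
  have hpos : 0 < finrank O Λ := by
    have : Nontrivial Λ := Submodule.nontrivial_iff_ne_bot.2 hΛ.1
    exact Module.finrank_pos
  have hcases : finrank O Λ = 1 ∨ finrank O Λ = 2 := by omega
  rcases hcases with h1 | h2'
  · exact lti97_line h hΛ (Module.finBasisOfFinrankEq O Λ h1)
  · exact lti97_plane h hΛ hmin (Module.finBasisOfFinrankEq O Λ h2')

/-- **T8, the lattice step** (same export shape as `lat32_exists_rank_two`): a representation on
`O²` with the prescribed characteristic polynomials, congruent to `1` modulo every ideal `I`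
modulo which `ρ g` and `ε g` are. `I = 𝔪 ^ n` gives adic continuity, `I = ⊥` the kernel /
inertia clause. -/
theorem lti97_exists_rank_two [Nontrivial E] (h2 : (2 : O) ≠ 0)
    (ρ : G →* Module.End O E) (ε : G →* O) (a : G → O)
    (h : ∀ g : G, ρ g * ρ g - a g • ρ g + ε g • (1 : Module.End O E) = 0)
    {c : G} (hc : c * c = 1) (hεc : ε c = -1) :
    ∃ ρ' : G →* Module.End O (Fin 2 → O),
      (∀ g : G, LinearMap.charpoly (ρ' g) = X ^ 2 - C (a g) * X + C (ε g)) ∧
      ∀ (I : Ideal O) (g : G), (∀ v : E, ρ g v - v ∈ I • (⊤ : Submodule O E)) → ε g - 1 ∈ I →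
        ∀ w : Fin 2 → O, ρ' g w - w ∈ I • (⊤ : Submodule O (Fin 2 → O)) := by
  obtain ⟨A, htd, hcong⟩ := lti97_exists_matrix h2 ρ ε a h hc hεc
  obtain ⟨ρ', hchar, hI⟩ := lti97_of_matrix A ε a htd
  exact ⟨ρ', hchar, fun I g hg hε w => hI I g (hcong I g hg hε) w⟩

/-- kernel clause: `I = ⊥`. -/
theorem lti97_exists_rank_two' [Nontrivial E] (h2 : (2 : O) ≠ 0)
    (ρ : G →* Module.End O E) (ε : G →* O) (a : G → O)
    (h : ∀ g : G, ρ g * ρ g - a g • ρ g + ε g • (1 : Module.End O E) = 0)
    {c : G} (hc : c * c = 1) (hεc : ε c = -1) :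
    ∃ ρ' : G →* Module.End O (Fin 2 → O),
      (∀ g : G, LinearMap.charpoly (ρ' g) = X ^ 2 - C (a g) * X + C (ε g)) ∧
      (∀ (I : Ideal O) (g : G), (∀ v : E, ρ g v - v ∈ I • (⊤ : Submodule O E)) → ε g - 1 ∈ I →
        ∀ w : Fin 2 → O, ρ' g w - w ∈ I • (⊤ : Submodule O (Fin 2 → O))) ∧
      ∀ g : G, ρ g = 1 → ε g = 1 → ρ' g = 1 := by
  obtain ⟨ρ', hchar, hI⟩ := lti97_exists_rank_two h2 ρ ε a h hc hεc
  refine ⟨ρ', hchar, hI, fun g hg hε => ?_⟩
  apply LinearMap.ext
  intro w
  have h1 := hI ⊥ g (fun v => by rw [hg]; simp) (by rw [hε]; simp) w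
  rw [Submodule.bot_smul, Submodule.mem_bot, sub_eq_zero] at h1
  rw [h1]; rfl

end Main

/-! ### the `GaloisRepAdic` corollary -/

section Galois

/-- **T8 (B)**: the lattice step packaged as a `GaloisRepAdic` (same export shape as
`lat32_galoisRepAdic`). -/
theorem lti97_galoisRepAdic {O : Type} [CommRing O] [IsDomain O] [IsDiscreteValuationRing O]
    (h2 : (2 : O) ≠ 0)
    {E : Type*} [AddCommGroup E] [Module O E] [Module.Free O E] [Module.Finite O E] [Nontrivial E]
    (ρ : (AlgebraicClosure ℚ ≃ₐ[ℚ] AlgebraicClosure ℚ) →* Module.End O E)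
    (ε : (AlgebraicClosure ℚ ≃ₐ[ℚ] AlgebraicClosure ℚ) →* O)
    (a : (AlgebraicClosure ℚ ≃ₐ[ℚ] AlgebraicClosure ℚ) → O)
    (h : ∀ g, ρ g * ρ g - a g • ρ g + ε g • (1 : Module.End O E) = 0)
    {c : AlgebraicClosure ℚ ≃ₐ[ℚ] AlgebraicClosure ℚ} (hc : c * c = 1) (hεc : ε c = -1)
    (hcont : ∀ n : ℕ, ∃ L : IntermediateField ℚ (AlgebraicClosure ℚ), FiniteDimensional ℚ L ∧
      ∀ σ : AlgebraicClosure ℚ ≃ₐ[ℚ] AlgebraicClosure ℚ, (∀ x ∈ L, σ x = x) →
        (∀ v : E, ρ σ v - v ∈ (IsLocalRing.maximalIdeal O ^ n) • (⊤ : Submodule O E)) ∧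
          ε σ - 1 ∈ IsLocalRing.maximalIdeal O ^ n) :
    ∃ r : GaloisRepAdic O,
      (∀ σ, LinearMap.charpoly (r.ρ σ) = X ^ 2 - C (a σ) * X + C (ε σ)) ∧
      ∀ σ, ρ σ = 1 → ε σ = 1 → r.ρ σ = 1 := by
  obtain ⟨ρ', hchar, hI, hker⟩ := lti97_exists_rank_two' h2 ρ ε a h hc hεc
  refine ⟨{ V := Fin 2 → O
            finrank_eq := by simp
            ρ := ρ'
            isAdicContinuous := ?_ }, hchar, hker⟩
  intro n
  obtain ⟨L, hL, hσ⟩ := hcont n
  refine ⟨L, hL, fun σ hσL v => ?_⟩
  obtain ⟨h1, h3⟩ := hσ σ hσL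
  exact hI _ σ h1 h3 v

end Galois

end Fermat.Agent.S30x
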