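/-
S30 project, block T8 helpers (helper30, prefix `lln30_`), Mathlib only.

* `lln30_exists_retraction` (L1): a saturated submodule `W` of a finitely generated module `E` over a
  PID has a retraction `π : E →ₗ W`, `π w = w`.
* `lln30_mem_smul_top_of_mem` : hence `I E ∩ W = I W` for EVERY ideal `I`.
* `lln30_line_case` (L2): the LINE case of the lattice step: a vector `u` with a functional `f`,
  `f u = 1`, spanning a `G`-stable line ⇒ the full conclusion of `lat32_exists_rank_two` with
  `ρ' = diag(η, ε η⁻¹)` (no PID hypothesis).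
-/
import Mathlib

set_option autoImplicit false

namespace Fermat.Agent.S30x

open Polynomial

section Retraction

variable {O : Type*} [CommRing O] [IsDomain O] [IsPrincipalIdealRing O]
variable {E : Type*} [AddCommGroup E] [Module O E] [Module.Finite O E]

/-- **(L1)** a saturated submodule of a finitely generated module over a PID is a direct summand. -/
theorem lln30_exists_retraction (W : Submodule O E)
    (hsat : ∀ (r : O) (x : E), r ≠ 0 → r • x ∈ W → x ∈ W) :
    ∃ π : E →ₗ[O] W, ∀ w : W, π w = w := by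
  classical
  have : Module.IsTorsionFree O (E ⧸ W) := by
    refine ⟨fun r hr => ?_⟩
    have hr0 : r ≠ 0 := hr.ne_zero
    intro x y hxy
    obtain ⟨x, rfl⟩ := Submodule.Quotient.mk_surjective W x
    obtain ⟨y, rfl⟩ := Submodule.Quotient.mk_surjective W y
    simp only at hxy
    rw [← Submodule.Quotient.mk_smul, ← Submodule.Quotient.mk_smul, Submodule.Quotient.eq,
      ← smul_sub] at hxy
    rw [Submodule.Quotient.eq]
    exact hsat r _ hr0 hxy
  have : Module.Free O (E ⧸ W) := Module.free_of_finite_type_torsion_free'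
  obtain ⟨s, hs⟩ := Module.projective_lifting_property W.mkQ (LinearMap.id : (E ⧸ W) →ₗ[O] (E ⧸ W))
    (Submodule.mkQ_surjective W)
  have hs' : ∀ q, W.mkQ (s q) = q := fun q => LinearMap.congr_fun hs q
  have hmem : ∀ x : E, x - s (W.mkQ x) ∈ W := by
    intro x
    have h1 : W.mkQ (x - s (W.mkQ x)) = 0 := by rw [map_sub, hs', sub_self]
    exact (Submodule.Quotient.mk_eq_zero W).mp h1
  refine ⟨LinearMap.codRestrict W (LinearMap.id - s.comp W.mkQ) hmem, fun w => ?_⟩
  apply Subtype.ext
  rw [LinearMap.codRestrict_apply, LinearMap.sub_apply, LinearMap.id_apply, LinearMap.comp_apply]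
  have : W.mkQ (w : E) = 0 := by
    rw [Submodule.mkQ_apply, Submodule.Quotient.mk_eq_zero]
    exact w.2
  rw [this, map_zero, sub_zero]

omit [IsDomain O] [IsPrincipalIdealRing O] [Module.Finite O E] in
/-- a linear map sends `I • ⊤` into `I • ⊤`. -/
theorem lln30_map_mem {F : Type*} [AddCommGroup F] [Module O F] (I : Ideal O) (φ : E →ₗ[O] F)
    {x : E} (hx : x ∈ I • (⊤ : Submodule O E)) : φ x ∈ I • (⊤ : Submodule O F) := by
  refine Submodule.smul_induction_on hx (fun r hr y _ => ?_) (fun a b ha hb => ?_)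
  · rw [map_smul]
    exact Submodule.smul_mem_smul hr Submodule.mem_top
  · rw [map_add]
    exact add_mem ha hb

/-- in a saturated submodule, `I E ∩ W = I W` for every ideal `I`. -/
theorem lln30_mem_smul_top_of_mem (W : Submodule O E)
    (hsat : ∀ (r : O) (x : E), r ≠ 0 → r • x ∈ W → x ∈ W) (I : Ideal O) (w : W)
    (h : (w : E) ∈ I • (⊤ : Submodule O E)) : w ∈ I • (⊤ : Submodule O W) := by
  obtain ⟨π, hπ⟩ := lln30_exists_retraction W hsat
  have := lln30_map_mem I π h
  rwa [hπ w] at this

end Retraction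

section Line

variable {O : Type*} [CommRing O] {E : Type*} [AddCommGroup E] [Module O E]
variable {G : Type*} [Group G]

/-- a vector of `Fin 2 → O` with all coordinates in `I` lies in `I • ⊤`. -/
theorem lln30_pi_mem (I : Ideal O) (x : Fin 2 → O) (hx : ∀ i, x i ∈ I) :
    x ∈ I • (⊤ : Submodule O (Fin 2 → O)) := by
  have h : x = x 0 • (Pi.single 0 1 : Fin 2 → O) + x 1 • (Pi.single 1 1 : Fin 2 → O) := by
    funext i
    fin_cases i <;> simp
  rw [h]
  exact add_mem (Submodule.smul_mem_smul (hx 0) Submodule.mem_top)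
    (Submodule.smul_mem_smul (hx 1) Submodule.mem_top)

/-- **(L2) the line case of the lattice step.** -/
theorem lln30_line_case [Nontrivial O] (ρ : G →* Module.End O E) (ε : G →* O) (a : G → O)
    (h : ∀ g, ρ g * ρ g - a g • ρ g + ε g • (1 : Module.End O E) = 0)
    (u : E) (f : E →ₗ[O] O) (hfu : f u = 1) (hline : ∀ g, ∃ r : O, ρ g u = r • u) :
    ∃ ρ' : G →* Module.End O (Fin 2 → O),
      (∀ g, LinearMap.charpoly (ρ' g) = X ^ 2 - C (a g) * X + C (ε g)) ∧
      ∀ (I : Ideal O) (g : G), (∀ v : E, ρ g v - v ∈ I • (⊤ : Submodule O E)) → ε g - 1 ∈ I →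
        ∀ w, ρ' g w - w ∈ I • (⊤ : Submodule O (Fin 2 → O)) := by
  classical
  -- the character `η`
  have hη : ∀ g, ρ g u = f (ρ g u) • u := by
    intro g
    obtain ⟨r, hr⟩ := hline g
    rw [hr, map_smul, hfu, smul_eq_mul, mul_one]
  let η : G →* O :=
    { toFun := fun g => f (ρ g u)
      map_one' := by rw [map_one, Module.End.one_apply, hfu]
      map_mul' := fun g k => by
        rw [map_mul, Module.End.mul_apply]
        conv_lhs => rw [hη k]
        rw [map_smul, map_smul, smul_eq_mul, mul_comm] }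
  have hηapp : ∀ g, η g = f (ρ g u) := fun _ => rfl
  have hηu : ∀ g, ρ g u = η g • u := hη
  have hinv : ∀ g, η g * η g⁻¹ = 1 := fun g => by rw [← map_mul, mul_inv_cancel, map_one]
  have hinv' : ∀ g, η g⁻¹ * η g = 1 := fun g => by rw [← map_mul, inv_mul_cancel, map_one]
  -- the relation for `η`
  have hrel : ∀ g, η g * η g - a g * η g + ε g = 0 := by
    intro g
    have h1 := congrArg (fun φ : Module.End O E => f (φ u)) (h g)
    simp only [LinearMap.add_apply, LinearMap.sub_apply, LinearMap.smul_apply,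
      Module.End.mul_apply, Module.End.one_apply, LinearMap.zero_apply, map_zero] at h1
    rw [hηu g, map_smul, hηu g, map_add, map_sub, map_smul, map_smul, map_smul, map_smul, hfu] at h1
    simpa [smul_eq_mul, hfu] using h1
  -- the second character `θ = ε η⁻¹`
  let θ : G →* O :=
    { toFun := fun g => ε g * η g⁻¹
      map_one' := by rw [map_one, inv_one, map_one, mul_one]
      map_mul' := fun g k => by
        rw [map_mul, mul_inv_rev, map_mul]
        ring }
  have hθapp : ∀ g, θ g = ε g * η g⁻¹ := fun _ => rfl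
  have htrace : ∀ g, η g + θ g = a g := by
    intro g
    have h1 := hrel g
    have h2 : η g⁻¹ * (η g * η g - a g * η g + ε g) = 0 := by rw [h1, mul_zero]
    have h3 : η g⁻¹ * (η g * η g - a g * η g + ε g)
        = (η g⁻¹ * η g) * η g - a g * (η g⁻¹ * η g) + ε g * η g⁻¹ := by ring
    rw [h3, hinv' g, one_mul, mul_one] at h2
    rw [hθapp]
    linear_combination h2
  have hdet : ∀ g, η g * θ g = ε g := by
    intro g
    rw [hθapp]
    calc η g * (ε g * η g⁻¹) = ε g * (η g * η g⁻¹) := by ring
      _ = ε g := by rw [hinv g, mul_one]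
  -- the diagonal representation
  let d : G →* (Fin 2 → O) := MonoidHom.pi (fun i : Fin 2 => if i = 0 then η else θ)
  let ρ' : G →* Module.End O (Fin 2 → O) :=
    ((Matrix.toLinAlgEquiv' : Matrix (Fin 2) (Fin 2) O ≃ₐ[O] Module.End O (Fin 2 → O)) :
        Matrix (Fin 2) (Fin 2) O →* Module.End O (Fin 2 → O)).comp
      (((Matrix.diagonalRingHom (Fin 2) O : (Fin 2 → O) →+* Matrix (Fin 2) (Fin 2) O) :
        (Fin 2 → O) →* Matrix (Fin 2) (Fin 2) O).comp d)
  have hρ' : ∀ g, ρ' g = Matrix.toLin' (Matrix.diagonal (d g)) := fun _ => rfl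
  have hd0 : ∀ g, d g 0 = η g := fun _ => rfl
  have hd1 : ∀ g, d g 1 = θ g := fun _ => rfl
  refine ⟨ρ', fun g => ?_, fun I g hρ hε w => ?_⟩
  · rw [hρ', Matrix.charpoly_toLin', Matrix.charpoly_fin_two, Matrix.trace_fin_two,
      Matrix.det_fin_two]
    simp only [Matrix.diagonal_apply_eq, Matrix.diagonal_apply_ne _ (by decide : (0 : Fin 2) ≠ 1),
      Matrix.diagonal_apply_ne _ (by decide : (1 : Fin 2) ≠ 0), mul_zero, sub_zero, hd0, hd1,
      htrace g, hdet g]
  · -- `η g - 1 ∈ I`
    have h1 : η g - 1 ∈ I := by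
      have h2 := hρ u
      rw [hηu g] at h2
      have h3 : f (η g • u - u) ∈ I := by
        have := lln30_map_mem I f h2
        rwa [smul_eq_mul, Ideal.mul_top] at this
      rwa [map_sub, map_smul, hfu, smul_eq_mul, mul_one] at h3
    have h4 : θ g - 1 ∈ I := by
      have : θ g - 1 = η g⁻¹ * ((ε g - 1) - (η g - 1)) := by
        rw [hθapp]
        have := hinv' g
        linear_combination (1 : O) * this
      rw [this]
      exact Ideal.mul_mem_left _ _ (sub_mem hε h1)
    apply lln30_pi_mem
    intro i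
    rw [hρ', Pi.sub_apply, Matrix.toLin'_apply, Matrix.mulVec_diagonal]
    have : d g i * w i - w i = (d g i - 1) * w i := by ring
    rw [this]
    apply Ideal.mul_mem_right
    fin_cases i
    · exact h1
    · exact h4

end Line

end Fermat.Agent.S30x
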