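/-
S30 project, block T6 (helper30, prefix `qlm30_`): the LIMIT / CAUCHY argument (Simplification 3 of
docs `ROUTE_S30_helper88`).  Mathlib + `S42x/QuadPow` (Dickson recursion) only.

Setting: `R` a commutative ring, `I` an ideal with `R` `I`-adically complete, `E` an `R`-module which
is `I`-adically separated and "faithful mod `I^n`" (both automatic for a free module `≠ 0`).

* `qlm30_exact_of_approx` : an invertible endomorphism `u` of `E` with approximate quadratic relations
  `u² - t_n u + d_n ∈ I^n End(E)`, `d_n → d`, satisfies an EXACT relation `u² - a u + d = 0` with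
  `a = lim t_n` (the sequence `t_n` is Cauchy because `u` is invertible).  No compactness, no
  finiteness of the residue field.
* `qlm30_hsep_of_basis`, `qlm30_hfaith_of_basis` : the two side conditions for a free module.
* `qlm30_unique` : uniqueness of the middle coefficient.
* `qlm30_glue` : group form: `ρ : G →* End_R E`, `ε : G →* R`, a set `Frob` of elements with exact
  relations, subgroups `H n` acting trivially mod `I^n` (on `E` and through `ε`), density
  `∀ g n, ∃ φ ∈ Frob, ∃ j, g⁻¹ φ^j ∈ H n` (the shape of `fdndi_exists_frobenius`)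
  ⟹ `∃ a : G → R` with `ρ g² - a g • ρ g + ε g = 0` for ALL `g`, and `a φ = aF φ` on `Frob`.
-/
import Mathlib
import Fermat.Agent.S42x.QuadPow

set_option autoImplicit false

namespace Fermat.Agent.S30x

open Fermat.Agent.S42x

section Basic

variable {R : Type*} [CommRing R] (I : Ideal R) {E : Type*} [AddCommGroup E] [Module R E]

theorem qlm30_smul_mem {n : ℕ} {r : R} (hr : r ∈ I ^ n) (x : E) :
    r • x ∈ (I ^ n • ⊤ : Submodule R E) :=
  Submodule.smul_mem_smul hr Submodule.mem_top

theorem qlm30_map_mem (f : E →ₗ[R] E) {n : ℕ} {x : E} (hx : x ∈ (I ^ n • ⊤ : Submodule R E)) :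
    f x ∈ (I ^ n • ⊤ : Submodule R E) := by
  refine Submodule.smul_induction_on hx (fun r hr y _ => ?_) (fun a b ha hb => ?_)
  · rw [map_smul]
    exact qlm30_smul_mem I hr _
  · rw [map_add]
    exact add_mem ha hb

theorem qlm30_mono {m n : ℕ} (h : n ≤ m) :
    (I ^ m • ⊤ : Submodule R E) ≤ (I ^ n • ⊤ : Submodule R E) :=
  Submodule.smul_mono_left (Ideal.pow_le_pow_right h)

theorem qlm30_mem_pow_iff {n : ℕ} {r : R} : r ∈ (I ^ n • ⊤ : Submodule R R) ↔ r ∈ I ^ n := by
  rw [smul_eq_mul, Ideal.mul_top]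

/-- **Exact relation from approximate relations.** -/
theorem qlm30_exact_of_approx [IsAdicComplete I R]
    (hsep : ∀ x : E, (∀ n : ℕ, x ∈ (I ^ n • ⊤ : Submodule R E)) → x = 0)
    (hfaith : ∀ (r : R) (n : ℕ), (∀ x : E, r • x ∈ (I ^ n • ⊤ : Submodule R E)) → r ∈ I ^ n)
    (u u' : Module.End R E) (huu' : u * u' = 1)
    (d : R) (t dn : ℕ → R) (hd : ∀ n, dn n - d ∈ I ^ n)
    (happ : ∀ (n : ℕ) (x : E),
      (u * u - t n • u + dn n • (1 : Module.End R E)) x ∈ (I ^ n • ⊤ : Submodule R E)) :
    ∃ a : R, (∀ n, a - t n ∈ I ^ n) ∧ u * u - a • u + d • (1 : Module.End R E) = 0 := by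
  -- the sequence `t` is Cauchy
  have hcauchy : ∀ {n m : ℕ}, n ≤ m → t m - t n ∈ I ^ n := by
    intro n m hnm
    apply hfaith
    intro y
    have hy : u (u' y) = y := by
      have := congrArg (fun f : Module.End R E => f y) huu'
      simpa using this
    have h1 := happ n (u' y)
    have h2 := qlm30_mono I (E := E) hnm (happ m (u' y))
    have h3 : dn n - dn m ∈ I ^ n := by
      have : dn n - dn m = (dn n - d) - (dn m - d) := by ring
      rw [this]
      exact sub_mem (hd n) (Ideal.pow_le_pow_right hnm (hd m))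
    have h4 := qlm30_smul_mem I h3 (u' y)
    have key : (t m - t n) • y =
        (u * u - t n • u + dn n • (1 : Module.End R E)) (u' y)
          - (u * u - t m • u + dn m • (1 : Module.End R E)) (u' y)
          - (dn n - dn m) • (u' y) := by
      simp only [LinearMap.add_apply, LinearMap.sub_apply, LinearMap.smul_apply,
        Module.End.mul_apply, Module.End.one_apply, hy, sub_smul]
      abel
    rw [key]
    exact sub_mem (sub_mem h1 h2) h4
  -- the limit
  obtain ⟨a, ha⟩ := IsPrecomplete.prec (I := I) (M := R) inferInstance (f := t) (by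
    intro m n hmn
    rw [SModEq.sub_mem, qlm30_mem_pow_iff]
    have := hcauchy hmn
    have h2 : t m - t n = -(t n - t m) := by ring
    rw [h2]
    exact neg_mem this)
  have ha' : ∀ n, a - t n ∈ I ^ n := by
    intro n
    have := ha n
    rw [SModEq.sub_mem, qlm30_mem_pow_iff] at this
    have h2 : a - t n = -(t n - a) := by ring
    rw [h2]
    exact neg_mem this
  refine ⟨a, ha', ?_⟩
  apply LinearMap.ext
  intro x
  rw [LinearMap.zero_apply]
  apply hsep
  intro n
  have h1 := happ n x
  have h2 := qlm30_smul_mem I (ha' n) (u x)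
  have h3 := qlm30_smul_mem I (hd n) x
  have key : (u * u - a • u + d • (1 : Module.End R E)) x =
      (u * u - t n • u + dn n • (1 : Module.End R E)) x - (a - t n) • u x - (dn n - d) • x := by
    simp only [LinearMap.add_apply, LinearMap.sub_apply, LinearMap.smul_apply,
      Module.End.mul_apply, Module.End.one_apply, sub_smul]
    abel
  rw [key]
  exact sub_mem (sub_mem h1 h2) h3

/-- uniqueness of the middle coefficient -/
theorem qlm30_unique [IsHausdorff I R]
    (hfaith : ∀ (r : R) (n : ℕ), (∀ x : E, r • x ∈ (I ^ n • ⊤ : Submodule R E)) → r ∈ I ^ n)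
    (u u' : Module.End R E) (huu' : u * u' = 1) (a a' d : R)
    (h : u * u - a • u + d • (1 : Module.End R E) = 0)
    (h' : u * u - a' • u + d • (1 : Module.End R E) = 0) : a = a' := by
  have h1 : (a - a') • u = 0 := by
    have := congrArg₂ (· - ·) h' h
    simp only [sub_self] at this
    rw [sub_smul]
    rw [← this]
    abel
  have h2 : ∀ y : E, (a - a') • y = 0 := by
    intro y
    have hy : u (u' y) = y := by
      have := congrArg (fun f : Module.End R E => f y) huu'
      simpa using this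
    have := congrArg (fun f : Module.End R E => f (u' y)) h1
    simpa [hy] using this
  have h3 : ∀ n, a - a' ∈ I ^ n := by
    intro n
    apply hfaith
    intro y
    rw [h2 y]
    exact zero_mem _
  rw [← sub_eq_zero]
  apply IsHausdorff.haus' (I := I) (a - a')
  intro n
  rw [SModEq.sub_mem, sub_zero, qlm30_mem_pow_iff]
  exact h3 n

end Basic

section Free

variable {R : Type*} [CommRing R] (I : Ideal R) {E : Type*} [AddCommGroup E] [Module R E]
variable {ι : Type*}

theorem qlm30_coord_mem (b : Module.Basis ι R E) {n : ℕ} {x : E} (hx : x ∈ (I ^ n • ⊤ : Submodule R E)) (i : ι) :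
    b.coord i x ∈ I ^ n := by
  refine Submodule.smul_induction_on hx (fun r hr y _ => ?_) (fun a c ha hc => ?_)
  · rw [map_smul, smul_eq_mul]
    exact Ideal.mul_mem_right _ _ hr
  · rw [map_add]
    exact add_mem ha hc

/-- a free module over an `I`-adically Hausdorff ring is `I`-adically separated -/
theorem qlm30_hsep_of_basis (b : Module.Basis ι R E) [IsHausdorff I R] (x : E)
    (hx : ∀ n : ℕ, x ∈ (I ^ n • ⊤ : Submodule R E)) : x = 0 := by
  apply b.ext_elem
  intro i
  rw [map_zero, Finsupp.zero_apply]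
  apply IsHausdorff.haus' (I := I) (b.repr x i)
  intro n
  rw [SModEq.sub_mem, sub_zero, qlm30_mem_pow_iff]
  exact qlm30_coord_mem I b (hx n) i

/-- a nonzero free module is faithful modulo every power of `I` -/
theorem qlm30_hfaith_of_basis (b : Module.Basis ι R E) [Nonempty ι] (r : R) (n : ℕ)
    (h : ∀ x : E, r • x ∈ (I ^ n • ⊤ : Submodule R E)) : r ∈ I ^ n := by
  classical
  obtain ⟨i⟩ := ‹Nonempty ι›
  have := qlm30_coord_mem I b (h (b i)) i
  simpa using this

end Free

section Glue

variable {R : Type*} [CommRing R] (I : Ideal R) [IsAdicComplete I R]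
  {E : Type*} [AddCommGroup E] [Module R E] {G : Type*} [Group G]

omit [IsAdicComplete I R] in
/-- one approximation step: if `g⁻¹ φ^j` acts trivially mod `I^n` then `ρ g` satisfies the Dickson
relation of `ρ φ ^ j` modulo `I^n`. -/
theorem qlm30_approx_step (ρ : G →* Module.End R E) (g φ h : G) (j n : ℕ) (a e : R)
    (hF : ρ φ * ρ φ - a • ρ φ + e • (1 : Module.End R E) = 0)
    (hh : g⁻¹ * φ ^ j = h)
    (hHρ : ∀ x : E, ρ h x - x ∈ (I ^ n • ⊤ : Submodule R E)) (x : E) :
    (ρ g * ρ g - qpw_dickson a e j • ρ g + (e ^ j) • (1 : Module.End R E)) x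
      ∈ (I ^ n • ⊤ : Submodule R E) := by
  have hpow := qpw_pow_rel (K := R) (R := Module.End R E) (ρ φ) a e hF j
  have hw : ρ φ ^ j = ρ g * ρ h := by
    rw [← map_pow, ← map_mul, ← hh, mul_inv_cancel_left]
  rw [hw] at hpow
  set u := ρ g with hu
  set δ : E → E := fun z => ρ h z - z with hδ
  have hδmem : ∀ z, δ z ∈ (I ^ n • ⊤ : Submodule R E) := hHρ
  have hρh : ∀ z, ρ h z = z + δ z := fun z => by
    show ρ h z = z + (ρ h z - z)
    abel
  have hwx : ∀ z, (u * ρ h) z = u z + u (δ z) := by
    intro z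
    rw [Module.End.mul_apply, hρh, map_add]
  have h0 := congrArg (fun f : Module.End R E => f x) hpow
  simp only [LinearMap.add_apply, LinearMap.sub_apply, LinearMap.smul_apply,
    Module.End.mul_apply, Module.End.one_apply, LinearMap.zero_apply] at h0
  have hwx' : u (ρ h x) = u x + u (δ x) := by rw [hρh, map_add]
  have hwwx : u (ρ h (u (ρ h x))) =
      u (u x) + u (u (δ x)) + u (δ (u x + u (δ x))) := by
    rw [hwx', hρh (u x + u (δ x)), map_add, map_add]
  rw [hwwx, hwx'] at h0
  have key : (u * u - qpw_dickson a e j • u + (e ^ j) • (1 : Module.End R E)) x =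
      qpw_dickson a e j • u (δ x) - u (u (δ x)) - u (δ (u x + u (δ x))) := by
    simp only [LinearMap.add_apply, LinearMap.sub_apply, LinearMap.smul_apply,
      Module.End.mul_apply, Module.End.one_apply]
    rw [smul_add] at h0
    have h1 : u (u x) - qpw_dickson a e j • u x + e ^ j • x =
        (u (u x) + u (u (δ x)) + u (δ (u x + u (δ x))) -
          (qpw_dickson a e j • u x + qpw_dickson a e j • u (δ x)) + e ^ j • x)
        + (qpw_dickson a e j • u (δ x) - u (u (δ x)) - u (δ (u x + u (δ x)))) := by abel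
    rw [h1, h0, zero_add]
  rw [key]
  refine sub_mem (sub_mem ?_ ?_) ?_
  · exact Submodule.smul_mem _ _ (qlm30_map_mem I u (hδmem x))
  · exact qlm30_map_mem I u (qlm30_map_mem I u (hδmem x))
  · exact qlm30_map_mem I u (hδmem _)

/-- **Group form of the limit argument.** -/
theorem qlm30_glue
    (hsep : ∀ x : E, (∀ n : ℕ, x ∈ (I ^ n • ⊤ : Submodule R E)) → x = 0)
    (hfaith : ∀ (r : R) (n : ℕ), (∀ x : E, r • x ∈ (I ^ n • ⊤ : Submodule R E)) → r ∈ I ^ n)
    (ρ : G →* Module.End R E) (ε : G →* R) (Frob : Set G) (aF : G → R)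
    (hF : ∀ φ ∈ Frob, ρ φ * ρ φ - aF φ • ρ φ + ε φ • (1 : Module.End R E) = 0)
    (H : ℕ → Set G)
    (hHρ : ∀ n, ∀ h ∈ H n, ∀ x : E, ρ h x - x ∈ (I ^ n • ⊤ : Submodule R E))
    (hHε : ∀ n, ∀ h ∈ H n, ε h - 1 ∈ I ^ n)
    (hdense : ∀ (g : G) (n : ℕ), ∃ φ ∈ Frob, ∃ j : ℕ, g⁻¹ * φ ^ j ∈ H n) :
    ∃ a : G → R, (∀ g : G, ρ g * ρ g - a g • ρ g + ε g • (1 : Module.End R E) = 0) ∧
      ∀ φ ∈ Frob, a φ = aF φ := by
  classical
  have hinv : ∀ g : G, ρ g * ρ g⁻¹ = 1 := fun g => by rw [← map_mul, mul_inv_cancel, map_one]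
  have hex : ∀ g : G, ∃ b : R, ρ g * ρ g - b • ρ g + ε g • (1 : Module.End R E) = 0 := by
    intro g
    choose φ hφ j hj using hdense g
    obtain ⟨b, -, hb⟩ := qlm30_exact_of_approx I hsep hfaith (ρ g) (ρ g⁻¹) (hinv g) (ε g)
      (fun n => qpw_dickson (aF (φ n)) (ε (φ n)) (j n)) (fun n => ε (φ n) ^ j n)
      (fun n => by
        have h1 : ε (φ n) ^ j n = ε g * ε (g⁻¹ * φ n ^ j n) := by
          rw [← map_pow, ← map_mul, mul_inv_cancel_left]
        have h2 : ε (φ n) ^ j n - ε g = ε g * (ε (g⁻¹ * φ n ^ j n) - 1) := by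
          rw [h1]; ring
        rw [h2]
        exact Ideal.mul_mem_left _ _ (hHε n _ (hj n)))
      (fun n x => qlm30_approx_step I ρ g (φ n) _ (j n) n (aF (φ n)) (ε (φ n)) (hF _ (hφ n)) rfl
        (hHρ n _ (hj n)) x)
    exact ⟨b, hb⟩
  choose a ha using hex
  refine ⟨a, ha, fun φ hφ => ?_⟩
  exact qlm30_unique I hfaith (ρ φ) (ρ φ⁻¹) (hinv φ) (a φ) (aF φ) (ε φ) (ha φ) (hF φ hφ)

end Glue

end Fermat.Agent.S30x
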