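/-
S30 project, block T6-inst (helper30, prefix `qlg30_`): the adic limit step INSTANTIATED at
`G = Gal(ℚ̄/ℚ)` with the cyclic Frobenius density theorem B9 (`fdndi_exists_frobenius`).

Input (abstract in the coefficient ring `O`, ideal `I`, free module `E ≠ 0`; these are exactly the
exports of T4(a),(c) and T3 restricted to `E = V[χ]`):
* `hρL` : for every `n` a finite-dimensional `L ⊆ ℚ̄` with `σ|L = 1 ⇒ ρ σ v - v ∈ I^n E`;
* `hεL` : for every `n` a finite-dimensional `L ⊆ ℚ̄` with `σ|L = 1 ⇒ ε σ - 1 ∈ I^n`;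
* `hfrob` : for `ℓ ∤ M` and every Frobenius lift `σ` at every `A | ℓ`:
  `ρ σ² - aℓ ℓ • ρ σ + ℓ = 0` and `ε σ = ℓ`.
Output: `a : G_ℚ → O` with `ρ g² - a g • ρ g + ε g = 0` for EVERY `g` and `a σ = aℓ ℓ` for every
Frobenius lift at `ℓ ∤ M`  (`qlg30_quadratic`), the hypothesis of Lemma R (`qrr97_`) / T8.
-/
import Mathlib
import Fermat.Agent.S30x.QuadLimit30
import Fermat.Agent.S41x.FDnDictFinal
import Fermat.Agent.S42x.FinOrbit

set_option autoImplicit false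

namespace Fermat.Agent.S30x

open Fermat.Agent.S42x Fermat.Agent.S41x

local notation "Qbar" => AlgebraicClosure ℚ
local notation "Γ" => (AlgebraicClosure ℚ ≃ₐ[ℚ] AlgebraicClosure ℚ)

section

variable {O : Type*} [CommRing O] (I : Ideal O)
variable {E : Type*} [AddCommGroup E] [Module O E]

/-- monotonicity in the ideal: `J ≤ I` ⇒ `J^n E ≤ I^n E`. -/
theorem qlg30_mem_of_le {J : Ideal O} (hJI : J ≤ I) {n : ℕ} {x : E}
    (hx : x ∈ (J ^ n • ⊤ : Submodule O E)) : x ∈ (I ^ n • ⊤ : Submodule O E) :=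
  Submodule.smul_mono_left (Ideal.pow_right_mono hJI n) hx

variable [Module.Free O E] [Nontrivial E]

omit [Nontrivial E] in
/-- side condition `hsep` of `qlm30_glue` for a free module. -/
theorem qlg30_hsep [IsHausdorff I O] (x : E)
    (hx : ∀ n : ℕ, x ∈ (I ^ n • ⊤ : Submodule O E)) : x = 0 :=
  qlm30_hsep_of_basis I (Module.Free.chooseBasis O E) x hx

/-- side condition `hfaith` of `qlm30_glue` for a nontrivial free module. -/
theorem qlg30_hfaith (r : O) (n : ℕ)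
    (h : ∀ x : E, r • x ∈ (I ^ n • ⊤ : Submodule O E)) : r ∈ I ^ n := by
  have hne : Nonempty (Module.Free.ChooseBasisIndex O E) := by
    by_contra hempty
    rw [not_nonempty_iff] at hempty
    have : Subsingleton E := by
      refine ⟨fun x y => ?_⟩
      apply (Module.Free.chooseBasis O E).ext_elem
      intro i
      exact (hempty.false i).elim
    exact not_subsingleton E this
  exact qlm30_hfaith_of_basis I (Module.Free.chooseBasis O E) r n h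

/-- **T6-inst**: exact quadratic relations for every element of `G_ℚ`. -/
theorem qlg30_quadratic [IsAdicComplete I O]
    (ρ : Γ →* Module.End O E) (ε : Γ →* O) (M : ℕ) (hM : 0 < M) (aℓ : ℕ → O)
    (hρL : ∀ n : ℕ, ∃ L : IntermediateField ℚ Qbar, FiniteDimensional ℚ L ∧
      ∀ σ : Γ, (∀ x ∈ L, σ x = x) → ∀ v : E, ρ σ v - v ∈ (I ^ n • ⊤ : Submodule O E))
    (hεL : ∀ n : ℕ, ∃ L : IntermediateField ℚ Qbar, FiniteDimensional ℚ L ∧
      ∀ σ : Γ, (∀ x ∈ L, σ x = x) → ε σ - 1 ∈ I ^ n)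
    (hfrob : ∀ ℓ : ℕ, ℓ.Prime → ¬ ℓ ∣ M → ∀ A : ValuationSubring Qbar, A.LiesOverPrime ℓ →
      ∀ σ : Γ, A.IsFrobeniusAt σ ℓ →
        ρ σ * ρ σ - aℓ ℓ • ρ σ + (ℓ : O) • (1 : Module.End O E) = 0 ∧ ε σ = (ℓ : O)) :
    ∃ a : Γ → O, (∀ g : Γ, ρ g * ρ g - a g • ρ g + ε g • (1 : Module.End O E) = 0) ∧
      ∀ ℓ : ℕ, ℓ.Prime → ¬ ℓ ∣ M → ∀ A : ValuationSubring Qbar, A.LiesOverPrime ℓ →
        ∀ σ : Γ, A.IsFrobeniusAt σ ℓ → a σ = aℓ ℓ := by
  classical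
  -- the fields
  choose Lρ hLρfd hLρ using hρL
  choose Lε hLεfd hLε using hεL
  have hst := fun n => fino_exists_stable (Lρ n) (Lε n) (hLρfd n) (hLεfd n)
  choose L1 hL1fd hL1ρ hL1ε hL1norm using hst
  -- the Frobenius set
  let Frob : Set Γ := {φ | ∃ (ℓ : ℕ) (A : ValuationSubring Qbar), ℓ.Prime ∧ ¬ ℓ ∣ M ∧
    A.LiesOverPrime ℓ ∧ A.IsFrobeniusAt φ ℓ}
  let aF : Γ → O := fun φ => if h : φ ∈ Frob then aℓ h.choose else 0
  have hF : ∀ φ ∈ Frob, ρ φ * ρ φ - aF φ • ρ φ + ε φ • (1 : Module.End O E) = 0 := by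
    intro φ hφ
    obtain ⟨A, hℓ, hℓM, hA, hAφ⟩ := hφ.choose_spec
    obtain ⟨h1, h2⟩ := hfrob _ hℓ hℓM A hA φ hAφ
    show ρ φ * ρ φ - (if h : φ ∈ Frob then aℓ h.choose else 0) • ρ φ
      + ε φ • (1 : Module.End O E) = 0
    rw [dif_pos hφ, h2]
    exact h1
  have hinv : ∀ g : Γ, ρ g * ρ g⁻¹ = 1 := fun g => by rw [← map_mul, mul_inv_cancel, map_one]
  obtain ⟨a, ha, -⟩ := qlm30_glue I (qlg30_hsep I) (qlg30_hfaith I) ρ ε Frob aF hF
    (fun n => ((L1 n).fixingSubgroup : Set Γ))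
    (fun n h hh v => by
      apply hLρ n h
      intro x hx
      exact (IntermediateField.mem_fixingSubgroup_iff (L1 n) h).mp hh x (hL1ρ n hx))
    (fun n h hh => by
      apply hLε n h
      intro x hx
      exact (IntermediateField.mem_fixingSubgroup_iff (L1 n) h).mp hh x (hL1ε n hx))
    (fun g n => by
      obtain ⟨ℓ, A, φ, j, hℓ, hℓM, hA, hAφ, hmem⟩ :=
        fdndi_exists_frobenius (L1 n) (hL1fd n) (hL1norm n) g M hM
      exact ⟨φ, ⟨ℓ, A, hℓ, hℓM, hA, hAφ⟩, j, hmem⟩)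
  refine ⟨a, ha, ?_⟩
  intro ℓ hℓ hℓM A hA σ hAσ
  obtain ⟨h1, h2⟩ := hfrob ℓ hℓ hℓM A hA σ hAσ
  have h3 := ha σ
  rw [h2] at h3
  exact qlm30_unique I (qlg30_hfaith I) (ρ σ) (ρ σ⁻¹) (hinv σ) (a σ) (aℓ ℓ) (ℓ : O) h3 h1

end

end Fermat.Agent.S30x
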