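/-
S30 project, block T1 (helper71, prefix `rcp71_`): COMPATIBILITY of the relation `heq_Rel` in the
modulus.

* `rcp71_rel_mul`      : `heq_Rel M (a * b) x ψ → heq_Rel M b (a • x) (a • ψ)`
                         (`Dt ↦ a • Dt`, `h ↦ h ^ a`);
* `rcp71_zeta_pow`     : `ζ_{ab} ^ a = ζ_b` (`a ≠ 0`);
* `rcp71_psiAdd_mul`   : `a • ψ_{χ, ab} = ψ_{χ, b}` (`a ≠ 0`), `ψ_{χ,m} = exp(2πi χ / m)`;
* `rcp71_rel_psi_mul`  : `heq_Rel M (a * b) x ψ_{χ,ab} → heq_Rel M b (a • x) ψ_{χ,b}`;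
* `rcp71_rel_pow_succ` : `heq_Rel M (p^(n+1)) x ψ_{χ,p^(n+1)} → heq_Rel M (p^n) (p • x) ψ_{χ,p^n}`;
* `rcp71_iota_compat`  : for the comparison maps `rlg_iota` at the moduli `a * b` and `b`
                         (`psiOf = ψ_{·, m}`-shaped): `a • ι_{ab} χ = ι_b χ`.
-/
import Fermat.Agent.S42x.RelGroup
import Fermat.Agent.S42x.TwEisPsi

set_option autoImplicit false

namespace Fermat.Agent.S30x

open UpperHalfPlane ModularCurve AlgebraicCurve CongruenceSubgroup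
open Fermat.Agent.S24x Fermat.Agent.S42x
open scoped MatrixGroups Real

noncomputable section

variable (M : ℕ) [NeZero M]

/-- **compatibility in the modulus**: a relation modulo `a * b` gives one modulo `b`. -/
theorem rcp71_rel_mul (a b : ℕ) {x : JZero M} {ψ : Additive (Gamma0 M) →+ Additive ℂˣ}
    (hx : heq_Rel M (a * b) x ψ) : heq_Rel M b (a • x) (a • ψ) := by
  obtain ⟨f, Dt, h, hf, hDt, hdiv, hpow, hchar⟩ := hx
  refine ⟨f, a • Dt, h ^ a, hf, ?_, fun P => ?_, ?_, fun γ => ?_⟩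
  · rw [← hDt]
    rfl
  · rw [← hdiv P, AddSubgroup.coe_nsmul, Finsupp.smul_apply, nsmul_eq_mul]
    push_cast
    ring
  · rw [← pow_mul, hpow]
  · rw [smul_pow', hchar γ, mul_pow, ← map_pow]
    congr 2

/-! ### the characters `ψ_{χ, m} = exp(2πi χ / m)` -/

omit [NeZero M] in
/-- `ζ_{ab} ^ a = ζ_b` for `a ≠ 0`. -/
theorem rcp71_zeta_pow {a : ℕ} (ha : a ≠ 0) (b : ℕ) : twp_zeta (a * b) ^ a = twp_zeta b := by
  apply Units.ext
  rw [Units.val_pow_eq_pow_val, twp_zeta_coe, twp_zeta_coe, ← Complex.exp_nat_mul]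
  congr 1
  have ha' : (a : ℂ) ≠ 0 := Nat.cast_ne_zero.mpr ha
  rcases Nat.eq_zero_or_pos b with rfl | hb
  · simp
  · have hb' : (b : ℂ) ≠ 0 := Nat.cast_ne_zero.mpr hb.ne'
    push_cast
    field_simp

variable {Γ : Subgroup SL(2, ℤ)}

omit [NeZero M] in
theorem rcp71_psi_pow {a : ℕ} (ha : a ≠ 0) (b : ℕ) (χ : Additive Γ →+ ℤ) (g : Γ) :
    twp_psi (a * b) χ g ^ a = twp_psi b χ g := by
  rw [twp_psi_apply_zpow, twp_psi_apply_zpow, ← zpow_natCast, zpow_comm, zpow_natCast,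
    rcp71_zeta_pow ha b]

omit [NeZero M] in
/-- `a • ψ_{χ, ab} = ψ_{χ, b}` for `a ≠ 0`. -/
theorem rcp71_psiAdd_mul {a : ℕ} (ha : a ≠ 0) (b : ℕ) (χ : Additive Γ →+ ℤ) :
    a • twp_psiAdd (a * b) χ = twp_psiAdd b χ := by
  refine DFunLike.ext _ _ (fun g => ?_)
  rw [AddMonoidHom.nsmul_apply, twp_psiAdd_apply, twp_psiAdd_apply, ← ofMul_pow,
    rcp71_psi_pow ha b]

/-- a relation with `ψ_{χ, ab}` modulo `a * b` gives a relation with `ψ_{χ, b}` modulo `b`. -/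
theorem rcp71_rel_psi_mul {a : ℕ} (ha : a ≠ 0) (b : ℕ) {x : JZero M}
    {χ : Additive (Gamma0 M) →+ ℤ} (hx : heq_Rel M (a * b) x (twp_psiAdd (a * b) χ)) :
    heq_Rel M b (a • x) (twp_psiAdd b χ) := by
  have h := rcp71_rel_mul M a b hx
  rwa [rcp71_psiAdd_mul ha b χ] at h

/-- the `p`-power tower: from level `p^(n+1)` to level `p^n`. -/
theorem rcp71_rel_pow_succ {p : ℕ} (hp : p ≠ 0) (n : ℕ) {x : JZero M}
    {χ : Additive (Gamma0 M) →+ ℤ}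
    (hx : heq_Rel M (p ^ (n + 1)) x (twp_psiAdd (p ^ (n + 1)) χ)) :
    heq_Rel M (p ^ n) (p • x) (twp_psiAdd (p ^ n) χ) := by
  rw [pow_succ'] at hx
  exact rcp71_rel_psi_mul M hp (p ^ n) hx

/-! ### compatibility of the comparison maps -/

section Iota

variable {M}
variable {L : Type*} [AddCommGroup L] {a b : ℕ}
  (psiAB psiB : L →+ (Additive (Gamma0 M) →+ Additive ℂˣ))
  (hAB3 : ∀ (x : JZero M) (χ : L), heq_Rel M (a * b) x (psiAB χ) → psiAB χ = 0 → x = 0)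
  (hAB4 : ∀ χ : L, heq_Rel M (a * b) (0 : JZero M) (psiAB χ) → psiAB χ = 0)
  (hAB5 : ∀ χ : L, ∃ x : JZero M, heq_Rel M (a * b) x (psiAB χ))
  (hB3 : ∀ (x : JZero M) (χ : L), heq_Rel M b x (psiB χ) → psiB χ = 0 → x = 0)
  (hB4 : ∀ χ : L, heq_Rel M b (0 : JZero M) (psiB χ) → psiB χ = 0)
  (hB5 : ∀ χ : L, ∃ x : JZero M, heq_Rel M b x (psiB χ))

/-- **`a • ι_{ab} = ι_b`** whenever `a • psiAB χ = psiB χ` (e.g. `psi_m χ = ψ_{χ, m}`). -/
theorem rcp71_iota_compat (hpsi : ∀ χ : L, a • psiAB χ = psiB χ) (χ : L) :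
    a • rlg_iota psiAB hAB3 hAB4 hAB5 χ = rlg_iota psiB hB3 hB4 hB5 χ := by
  apply rlg_iota_eq psiB hB3 hB4 hB5
  have h := rcp71_rel_mul M a b (rlg_iota_spec psiAB hAB3 hAB4 hAB5 χ)
  rwa [hpsi χ] at h

end Iota

end

end Fermat.Agent.S30x
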