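/-
S30x/T4Tensor37 (helper37): block T4 of ROUTE_S30_helper88, abstract half (Mathlib only).

`J` an abelian group, `O` a `ℤ`-flat commutative ring, `m : ℕ`.
* `t4q37_mem_range_of_torsion` : `(O ⊗ J)[m]` is the image of `O ⊗ J[m]`  (flatness; this is (V1) of T2).
* `t4q37_lTensor_vanish`       : an additive endomorphism `Q` of `J` killing `J[m]` induces `id ⊗ Q`
                                 killing `(O ⊗ J)[m]`.
* `t4q37_quadratic`            : the Eichler–Shimura shape: if `s (s x) - s (t x) + ℓ x = 0` on `J[m]`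
                                 then `(1⊗s)((1⊗s) y) - (1⊗s)((1⊗t) y) + ℓ y = 0` on `(O ⊗ J)[m]`.
* `t4q37_fixed`                : if `s x = x` on `J[m]` then `(1⊗s) y = y` on `(O ⊗ J)[m]` (inertia).
-/
import Mathlib

set_option autoImplicit false

namespace Fermat.Agent.S30x

open TensorProduct

section

variable (O : Type*) [CommRing O] [Module.Flat ℤ O] {J : Type*} [AddCommGroup J]

/-- multiplication by `m` on `J` as a `ℤ`-linear map -/
noncomputable def t4q37_mul (J : Type*) [AddCommGroup J] (m : ℕ) : J →ₗ[ℤ] J :=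
  (m : ℤ) • (LinearMap.id : J →ₗ[ℤ] J)

theorem t4q37_mul_apply (m : ℕ) (x : J) : t4q37_mul J m x = m • x := by
  simp [t4q37_mul]

omit [Module.Flat ℤ O] in
theorem t4q37_lTensor_mul (m : ℕ) (y : O ⊗[ℤ] J) :
    (t4q37_mul J m).lTensor O y = m • y := by
  rw [t4q37_mul, LinearMap.lTensor_smul, LinearMap.lTensor_id, LinearMap.smul_apply,
    LinearMap.id_apply]
  exact natCast_zsmul y m

/-- **flatness**: the `m`-torsion of `O ⊗ J` comes from `O ⊗ J[m]`. -/
theorem t4q37_mem_range_of_torsion (m : ℕ) (y : O ⊗[ℤ] J) (hy : m • y = 0) :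
    y ∈ LinearMap.range ((LinearMap.ker (t4q37_mul J m)).subtype.lTensor O) := by
  have hex : Function.Exact (LinearMap.ker (t4q37_mul J m)).subtype (t4q37_mul J m) :=
    LinearMap.exact_subtype_ker_map _
  have hex' := Module.Flat.lTensor_exact O hex
  have : (t4q37_mul J m).lTensor O y = 0 := by rw [t4q37_lTensor_mul, hy]
  exact (hex' y).mp this

/-- an endomorphism killing `J[m]` induces an endomorphism killing `(O ⊗ J)[m]`. -/
theorem t4q37_lTensor_vanish (m : ℕ) (Q : J →ₗ[ℤ] J) (hQ : ∀ x : J, m • x = 0 → Q x = 0)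
    (y : O ⊗[ℤ] J) (hy : m • y = 0) : Q.lTensor O y = 0 := by
  obtain ⟨z, rfl⟩ := t4q37_mem_range_of_torsion O m y hy
  rw [← LinearMap.comp_apply, ← LinearMap.lTensor_comp]
  have hcomp : Q ∘ₗ (LinearMap.ker (t4q37_mul J m)).subtype = 0 := by
    ext x
    have hx : m • (x : J) = 0 := by
      have := x.2
      rwa [LinearMap.mem_ker, t4q37_mul_apply] at this
    simpa using hQ x hx
  rw [hcomp, LinearMap.lTensor_zero, LinearMap.zero_apply]

/-- Eichler–Shimura shape on `(O ⊗ J)[m]`. -/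
theorem t4q37_quadratic (m ℓ : ℕ) (s t : J →ₗ[ℤ] J)
    (h : ∀ x : J, m • x = 0 → s (s x) - s (t x) + ℓ • x = 0)
    (y : O ⊗[ℤ] J) (hy : m • y = 0) :
    s.lTensor O (s.lTensor O y) - s.lTensor O (t.lTensor O y) + ℓ • y = 0 := by
  have hQ := t4q37_lTensor_vanish O m (s ∘ₗ s - s ∘ₗ t + t4q37_mul J ℓ)
    (fun x hx => by
      simp only [LinearMap.add_apply, LinearMap.sub_apply, LinearMap.comp_apply, t4q37_mul_apply]
      exact h x hx) y hy
  rw [LinearMap.lTensor_add, LinearMap.lTensor_sub, LinearMap.lTensor_comp, LinearMap.lTensor_comp,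
    LinearMap.add_apply, LinearMap.sub_apply, LinearMap.comp_apply, LinearMap.comp_apply,
    t4q37_lTensor_mul] at hQ
  exact hQ

/-- fixed points (inertia) on `(O ⊗ J)[m]`. -/
theorem t4q37_fixed (m : ℕ) (s : J →ₗ[ℤ] J) (h : ∀ x : J, m • x = 0 → s x = x)
    (y : O ⊗[ℤ] J) (hy : m • y = 0) : s.lTensor O y = y := by
  have hQ := t4q37_lTensor_vanish O m (s - LinearMap.id)
    (fun x hx => by simp [h x hx]) y hy
  rw [LinearMap.lTensor_sub, LinearMap.lTensor_id, LinearMap.sub_apply, LinearMap.id_apply,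
    sub_eq_zero] at hQ
  exact hQ

end

end Fermat.Agent.S30x

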