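/-
S30x/T4Abs37 (helper37): block T4 of ROUTE_S30_helper88, abstract layer (Mathlib + TateSeq11 + T4Tensor37).

`J` an abelian group with a monoid `G` acting by `ρ : G →* Module.End ℤ J`, `O` a commutative ring
(flat over `ℤ` where needed), `p : ℕ`.
* `t4a37_repO ρ : G →* Module.End O (O ⊗[ℤ] J)`, `t4a37_endO T` (base change), `t4a37_commute`;
* `t4a37_V O J p := tsq11_T (p : O) (O ⊗[ℤ] J)` (helper11's sequence model), `t4a37_rhoV`, `t4a37_TV`,
  `t4a37_commuteV`;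
* `t4a37_quadratic`, `t4a37_fixed` : torsion-level relations on `J[m]` pass to `(O ⊗ J)[m]`;
* `t4a37_quadraticV`, `t4a37_fixedV`, `t4a37_congV` : and to `V`.
-/
import Mathlib
import Fermat.Agent.S30x.T4Tensor37
import Fermat.Agent.S30x.TateSeq11

set_option autoImplicit false

namespace Fermat.Agent.S30x

open TensorProduct

noncomputable section

variable (O : Type*) [CommRing O] {J : Type*} [AddCommGroup J] {G : Type*} [Monoid G]

/-- base change of a `ℤ`-linear representation to `O`. -/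
def t4a37_repO (ρ : G →* Module.End ℤ J) : G →* Module.End O (O ⊗[ℤ] J) where
  toFun g := (ρ g).baseChange O
  map_one' := by rw [map_one, LinearMap.baseChange_one]
  map_mul' g h := by rw [map_mul, LinearMap.baseChange_mul]

/-- base change of a `ℤ`-linear endomorphism to `O`. -/
def t4a37_endO (T : Module.End ℤ J) : Module.End O (O ⊗[ℤ] J) := T.baseChange O

theorem t4a37_repO_apply (ρ : G →* Module.End ℤ J) (g : G) (y : O ⊗[ℤ] J) :
    t4a37_repO O ρ g y = (ρ g).lTensor O y := rfl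

theorem t4a37_endO_apply (T : Module.End ℤ J) (y : O ⊗[ℤ] J) :
    t4a37_endO O T y = T.lTensor O y := rfl

@[simp] theorem t4a37_repO_tmul (ρ : G →* Module.End ℤ J) (g : G) (a : O) (x : J) :
    t4a37_repO O ρ g (a ⊗ₜ[ℤ] x) = a ⊗ₜ[ℤ] (ρ g x) := rfl

@[simp] theorem t4a37_endO_tmul (T : Module.End ℤ J) (a : O) (x : J) :
    t4a37_endO O T (a ⊗ₜ[ℤ] x) = a ⊗ₜ[ℤ] (T x) := rfl

theorem t4a37_endO_mul (S T : Module.End ℤ J) :
    t4a37_endO O (S * T) = t4a37_endO O S * t4a37_endO O T :=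
  LinearMap.baseChange_mul S T

theorem t4a37_commute_endO {S T : Module.End ℤ J} (h : Commute S T) :
    Commute (t4a37_endO O S) (t4a37_endO O T) := by
  show t4a37_endO O S * t4a37_endO O T = t4a37_endO O T * t4a37_endO O S
  rw [← t4a37_endO_mul, ← t4a37_endO_mul, h.eq]

theorem t4a37_commute (ρ : G →* Module.End ℤ J) (T : Module.End ℤ J) (g : G)
    (h : Commute (ρ g) T) : Commute (t4a37_repO O ρ g) (t4a37_endO O T) :=
  t4a37_commute_endO O h

/-! ### torsion level -/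

section Torsion

variable [Module.Flat ℤ O]

/-- an Eichler–Shimura relation on `J[m]` passes to `(O ⊗ J)[m]`. -/
theorem t4a37_quadratic (ρ : G →* Module.End ℤ J) (T : Module.End ℤ J) (m ℓ : ℕ) (g : G)
    (h : ∀ x : J, m • x = 0 → ρ g (ρ g x) - ρ g (T x) + ℓ • x = 0)
    (y : O ⊗[ℤ] J) (hy : m • y = 0) :
    t4a37_repO O ρ g (t4a37_repO O ρ g y) - t4a37_repO O ρ g (t4a37_endO O T y) + (ℓ : O) • y = 0 := by
  have := t4q37_quadratic O m ℓ (ρ g) T h y hy
  rw [Nat.cast_smul_eq_nsmul]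
  exact this

/-- `ρ g = 1` on `J[m]` passes to `(O ⊗ J)[m]`. -/
theorem t4a37_fixed (ρ : G →* Module.End ℤ J) (m : ℕ) (g : G)
    (h : ∀ x : J, m • x = 0 → ρ g x = x)
    (y : O ⊗[ℤ] J) (hy : m • y = 0) : t4a37_repO O ρ g y = y :=
  t4q37_fixed O m (ρ g) h y hy

end Torsion

/-! ### the Tate module (sequence model) -/

variable (J) in
/-- the `O`-adic Tate module of `J` at `p`, helper11's sequence model. -/
abbrev t4a37_V (p : ℕ) : Submodule O (ℕ → O ⊗[ℤ] J) :=
  tsq11_T ((p : ℕ) : O) (O ⊗[ℤ] J)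

/-- the action of `G` on the Tate module. -/
def t4a37_rhoV (ρ : G →* Module.End ℤ J) (p : ℕ) : G →* Module.End O (t4a37_V O J p) :=
  tsq11_rep (p := ((p : ℕ) : O)) (t4a37_repO O ρ)

/-- the action of an endomorphism of `J` on the Tate module. -/
def t4a37_TV (T : Module.End ℤ J) (p : ℕ) : Module.End O (t4a37_V O J p) :=
  tsq11_map ((p : ℕ) : O) (t4a37_endO O T)

@[simp] theorem t4a37_rhoV_apply (ρ : G →* Module.End ℤ J) (p : ℕ) (g : G) (x : t4a37_V O J p)
    (n : ℕ) :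
    ((t4a37_rhoV O ρ p g x : t4a37_V O J p) : ℕ → O ⊗[ℤ] J) n =
      t4a37_repO O ρ g ((x : ℕ → O ⊗[ℤ] J) n) := rfl

@[simp] theorem t4a37_TV_apply (T : Module.End ℤ J) (p : ℕ) (x : t4a37_V O J p) (n : ℕ) :
    ((t4a37_TV O T p x : t4a37_V O J p) : ℕ → O ⊗[ℤ] J) n =
      t4a37_endO O T ((x : ℕ → O ⊗[ℤ] J) n) := rfl

/-- the `n`-th component of an element of `V` is killed by the natural number `p ^ (n + 1)`. -/
theorem t4a37_comp_torsion (p : ℕ) (x : t4a37_V O J p) (n : ℕ) :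
    (p ^ (n + 1)) • ((x : ℕ → O ⊗[ℤ] J) n) = 0 := by
  have := tsq11_pow_smul_eq_zero x n
  rw [← Nat.cast_pow, Nat.cast_smul_eq_nsmul] at this
  exact this

theorem t4a37_commuteV (ρ : G →* Module.End ℤ J) (T : Module.End ℤ J) (p : ℕ) (g : G)
    (h : Commute (ρ g) T) : Commute (t4a37_rhoV O ρ p g) (t4a37_TV O T p) :=
  tsq11_map_commute (t4a37_commute O ρ T g h)

theorem t4a37_commuteTV {S T : Module.End ℤ J} (p : ℕ) (h : Commute S T) :
    Commute (t4a37_TV O S p) (t4a37_TV O T p) :=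
  tsq11_map_commute (t4a37_commute_endO O h)

section TorsionV

variable [Module.Flat ℤ O]

/-- Eichler–Shimura relation on `V`, given it on every `J[p^k]`. -/
theorem t4a37_quadraticV (ρ : G →* Module.End ℤ J) (T : Module.End ℤ J) (p ℓ : ℕ) (g : G)
    (h : ∀ (k : ℕ) (x : J), p ^ k • x = 0 → ρ g (ρ g x) - ρ g (T x) + ℓ • x = 0)
    (x : t4a37_V O J p) :
    t4a37_rhoV O ρ p g (t4a37_rhoV O ρ p g x) - t4a37_rhoV O ρ p g (t4a37_TV O T p x)
      + (ℓ : O) • x = 0 := by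
  apply tsq11_ext
  intro n
  exact t4a37_quadratic O ρ T (p ^ (n + 1)) ℓ g (h (n + 1)) _ (t4a37_comp_torsion O p x n)

/-- `ρ g = 1` on `V`, given it on every `J[p^k]`. -/
theorem t4a37_fixedV (ρ : G →* Module.End ℤ J) (p : ℕ) (g : G)
    (h : ∀ (k : ℕ) (x : J), p ^ k • x = 0 → ρ g x = x) :
    t4a37_rhoV O ρ p g = 1 := by
  apply LinearMap.ext
  intro x
  apply tsq11_ext
  intro n
  exact t4a37_fixed O ρ (p ^ (n + 1)) g (h (n + 1)) _ (t4a37_comp_torsion O p x n)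

/-- `ρ g ≡ 1` modulo `p ^ n` on `V`, given `ρ g = 1` on `J[p^n]`. -/
theorem t4a37_congV (ρ : G →* Module.End ℤ J) (p n : ℕ) (g : G)
    (h : ∀ x : J, p ^ n • x = 0 → ρ g x = x) (x : t4a37_V O J p) :
    t4a37_rhoV O ρ p g x - x ∈
      ((Ideal.span {((p : ℕ) : O)}) ^ n • ⊤ : Submodule O (t4a37_V O J p)) := by
  cases n with
  | zero =>
    rw [pow_zero, Ideal.one_eq_top, Submodule.top_smul]
    exact Submodule.mem_top
  | succ n =>
    refine (tsq11_mem_pow_smul_top_iff _ n).mpr ?_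
    have h1 := t4a37_fixed O ρ (p ^ (n + 1)) g h _ (t4a37_comp_torsion O p x n)
    show t4a37_repO O ρ g ((x : ℕ → O ⊗[ℤ] J) n) - (x : ℕ → O ⊗[ℤ] J) n = 0
    rw [h1, sub_self]

end TorsionV

end

end Fermat.Agent.S30x
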