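/-
S30x/T4Defs37 (helper37): block T4 of ROUTE_S30_helper88, the OFFICIAL DEFINITIONS (ARCH-S30-1).

`O` a commutative ring, `A = O ⊗[ℤ] J₀(N)(ℚ̄)` (`O` on the left), `pO = ((p : ℕ) : O)`,
`V = t4g37_V O N p = tsq11_T pO A` (helper11's sequence model of the `O`-adic Tate module).
* `t4g37_galZ N : G_ℚ →* Module.End ℤ (JZero N)`           (Galois action on `J₀(N)(ℚ̄)`),
* `t4g37_galO O N : G_ℚ →* Module.End O A`                 (base change),
* `t4g37_heckeO O N ℓ : Module.End O A`                    (`(heckeOperatorBar N ℓ).baseChange O`),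
* `t4g37_rhoV O N p : G_ℚ →* Module.End O V`               (`tsq11_rep galO`),
* `t4g37_TV O N p ℓ : Module.End O V`                      (`tsq11_map pO (heckeO ℓ)`),
with their `apply` lemmas, and the commutation lemmas GIVEN Galois-equivariance of `T_ℓ` on `J₀(N)`
(`t4g37_commute_of`, `t4g37_commuteV_of`; the hypothesis-free versions are in `T4Comm37`).
Only Mathlib + Prelude + `T4Abs37` are imported, so this file builds in seconds.
-/
import Mathlib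
import Fermat.Prelude.Def_ModularCurve_HeckeModule
import Fermat.Agent.S30x.T4Abs37

set_option autoImplicit false

namespace Fermat.Agent.S30x

open TensorProduct ModularCurve

local notation "Q̄" => AlgebraicClosure ℚ

noncomputable section

variable (O : Type*) [CommRing O] (N : ℕ)

/-- the Galois action on `J₀(N)(ℚ̄)` by `ℤ`-linear endomorphisms. -/
def t4g37_galZ : (Q̄ ≃ₐ[ℚ] Q̄) →* Module.End ℤ (JZero N) where
  toFun σ := (DistribSMul.toAddMonoidHom (JZero N) σ).toIntLinearMap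
  map_one' := by
    apply LinearMap.ext
    intro x
    show (1 : Q̄ ≃ₐ[ℚ] Q̄) • x = x
    rw [one_smul]
  map_mul' σ τ := by
    apply LinearMap.ext
    intro x
    show (σ * τ) • x = σ • τ • x
    rw [mul_smul]

@[simp] theorem t4g37_galZ_apply (σ : Q̄ ≃ₐ[ℚ] Q̄) (x : JZero N) : t4g37_galZ N σ x = σ • x := rfl

/-- the Galois action on `O ⊗[ℤ] J₀(N)(ℚ̄)` by `O`-linear endomorphisms. -/
def t4g37_galO : (Q̄ ≃ₐ[ℚ] Q̄) →* Module.End O (O ⊗[ℤ] JZero N) :=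
  t4a37_repO O (t4g37_galZ N)

theorem t4g37_galO_eq : t4g37_galO O N = t4a37_repO O (t4g37_galZ N) := rfl

theorem t4g37_galO_apply (σ : Q̄ ≃ₐ[ℚ] Q̄) (y : O ⊗[ℤ] JZero N) :
    t4g37_galO O N σ y = (t4g37_galZ N σ).lTensor O y := rfl

theorem t4g37_galO_baseChange (σ : Q̄ ≃ₐ[ℚ] Q̄) :
    t4g37_galO O N σ = (t4g37_galZ N σ).baseChange O := rfl

@[simp] theorem t4g37_galO_tmul (σ : Q̄ ≃ₐ[ℚ] Q̄) (a : O) (x : JZero N) :
    t4g37_galO O N σ (a ⊗ₜ[ℤ] x) = a ⊗ₜ[ℤ] (σ • x) := rfl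

variable [NeZero N]

/-- the Hecke operator `T_ℓ` on `O ⊗[ℤ] J₀(N)(ℚ̄)`. -/
def t4g37_heckeO (ℓ : Nat.Primes) : Module.End O (O ⊗[ℤ] JZero N) :=
  t4a37_endO O (heckeOperatorBar N ℓ)

theorem t4g37_heckeO_eq (ℓ : Nat.Primes) :
    t4g37_heckeO O N ℓ = t4a37_endO O (heckeOperatorBar N ℓ) := rfl

theorem t4g37_heckeO_apply (ℓ : Nat.Primes) (y : O ⊗[ℤ] JZero N) :
    t4g37_heckeO O N ℓ y = (heckeOperatorBar N ℓ).lTensor O y := rfl

theorem t4g37_heckeO_baseChange (ℓ : Nat.Primes) :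
    t4g37_heckeO O N ℓ = (heckeOperatorBar N ℓ).baseChange O := rfl

@[simp] theorem t4g37_heckeO_tmul (ℓ : Nat.Primes) (a : O) (x : JZero N) :
    t4g37_heckeO O N ℓ (a ⊗ₜ[ℤ] x) = a ⊗ₜ[ℤ] (heckeOperatorBar N ℓ x) := rfl

omit [NeZero N] in
/-- the `O`-adic Tate module of `J₀(N)` at `p` (helper11's sequence model). -/
abbrev t4g37_V (p : ℕ) : Submodule O (ℕ → O ⊗[ℤ] JZero N) :=
  tsq11_T ((p : ℕ) : O) (O ⊗[ℤ] JZero N)

omit [NeZero N] in
/-- the Galois representation on the Tate module. -/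
def t4g37_rhoV (p : ℕ) : (Q̄ ≃ₐ[ℚ] Q̄) →* Module.End O (t4g37_V O N p) :=
  tsq11_rep (p := ((p : ℕ) : O)) (t4g37_galO O N)

/-- the Hecke operators on the Tate module. -/
def t4g37_TV (p : ℕ) (ℓ : Nat.Primes) : Module.End O (t4g37_V O N p) :=
  tsq11_map ((p : ℕ) : O) (t4g37_heckeO O N ℓ)

omit [NeZero N] in
theorem t4g37_rhoV_eq (p : ℕ) : t4g37_rhoV O N p = t4a37_rhoV O (t4g37_galZ N) p := rfl

theorem t4g37_TV_eq (p : ℕ) (ℓ : Nat.Primes) :
    t4g37_TV O N p ℓ = t4a37_TV O (heckeOperatorBar N ℓ) p := rfl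

omit [NeZero N] in
@[simp] theorem t4g37_rhoV_apply (p : ℕ) (σ : Q̄ ≃ₐ[ℚ] Q̄) (x : t4g37_V O N p) (n : ℕ) :
    ((t4g37_rhoV O N p σ x : t4g37_V O N p) : ℕ → O ⊗[ℤ] JZero N) n =
      t4g37_galO O N σ ((x : ℕ → O ⊗[ℤ] JZero N) n) := rfl

@[simp] theorem t4g37_TV_apply (p : ℕ) (ℓ : Nat.Primes) (x : t4g37_V O N p) (n : ℕ) :
    ((t4g37_TV O N p ℓ x : t4g37_V O N p) : ℕ → O ⊗[ℤ] JZero N) n =
      t4g37_heckeO O N ℓ ((x : ℕ → O ⊗[ℤ] JZero N) n) := rfl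

omit [NeZero N] in
/-- the `n`-th component of an element of `V` is killed by the natural number `p ^ (n + 1)`. -/
theorem t4g37_comp_torsion (p : ℕ) (x : t4g37_V O N p) (n : ℕ) :
    (p ^ (n + 1)) • ((x : ℕ → O ⊗[ℤ] JZero N) n) = 0 :=
  t4a37_comp_torsion O p x n

/-! ### commutation, given equivariance on `J₀(N)` -/

theorem t4g37_commute_galZ_of (ℓ : Nat.Primes) (σ : Q̄ ≃ₐ[ℚ] Q̄)
    (h : ∀ x : JZero N, heckeOperatorBar N ℓ (σ • x) = σ • heckeOperatorBar N ℓ x) :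
    Commute (t4g37_galZ N σ) (heckeOperatorBar N ℓ) := by
  show t4g37_galZ N σ * heckeOperatorBar N ℓ = heckeOperatorBar N ℓ * t4g37_galZ N σ
  apply LinearMap.ext
  intro x
  show σ • heckeOperatorBar N ℓ x = heckeOperatorBar N ℓ (σ • x)
  rw [h]

theorem t4g37_commute_of (ℓ : Nat.Primes) (σ : Q̄ ≃ₐ[ℚ] Q̄)
    (h : ∀ x : JZero N, heckeOperatorBar N ℓ (σ • x) = σ • heckeOperatorBar N ℓ x) :
    Commute (t4g37_galO O N σ) (t4g37_heckeO O N ℓ) :=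
  t4a37_commute O (t4g37_galZ N) (heckeOperatorBar N ℓ) σ (t4g37_commute_galZ_of N ℓ σ h)

theorem t4g37_commuteV_of (p : ℕ) (ℓ : Nat.Primes) (σ : Q̄ ≃ₐ[ℚ] Q̄)
    (h : ∀ x : JZero N, heckeOperatorBar N ℓ (σ • x) = σ • heckeOperatorBar N ℓ x) :
    Commute (t4g37_rhoV O N p σ) (t4g37_TV O N p ℓ) :=
  tsq11_map_commute (t4g37_commute_of O N ℓ σ h)

/-- Hecke operators commute on `O ⊗ J` and on `V` as soon as they commute on `J₀(N)`. -/
theorem t4g37_commute_heckeO_of {ℓ ℓ' : Nat.Primes}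
    (h : Commute (heckeOperatorBar N ℓ) (heckeOperatorBar N ℓ')) :
    Commute (t4g37_heckeO O N ℓ) (t4g37_heckeO O N ℓ') :=
  t4a37_commute_endO O h

theorem t4g37_commute_TV_of (p : ℕ) {ℓ ℓ' : Nat.Primes}
    (h : Commute (heckeOperatorBar N ℓ) (heckeOperatorBar N ℓ')) :
    Commute (t4g37_TV O N p ℓ) (t4g37_TV O N p ℓ') :=
  tsq11_map_commute (t4g37_commute_heckeO_of O N h)

end

end Fermat.Agent.S30x
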