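/-
S30x/T4Comm37 (helper37): block T4 of ROUTE_S30_helper88: Galois commutes with the Hecke operators on
`J₀(N)(ℚ̄)`, on `O ⊗[ℤ] J₀(N)(ℚ̄)` and on the Tate module `t4g37_V O N p`, hypothesis-free
(from helper4's `eslg_heckeOperatorBar_smul_of_deg` and `hif_deg_eq_one`).
-/
import Mathlib
import Fermat.Agent.S30x.T4Defs37
import Fermat.Agent.S42x.ESlGalois
import Fermat.Agent.S37x.HeckeInputsFinal

set_option autoImplicit false

namespace Fermat.Agent.S30x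

open TensorProduct ModularCurve AlgebraicCurve
open Fermat.Agent.S42x Fermat.Agent.S37x

local notation "Q̄" => AlgebraicClosure ℚ

noncomputable section

variable (O : Type*) [CommRing O] (N : ℕ) [NeZero N]

/-- Galois-equivariance of `T_ℓ` on `J₀(N)(ℚ̄)` (same statement as `esl_heckeOperatorBar_smul`). -/
theorem t4g37_heckeOperatorBar_smul (ℓ : Nat.Primes) (σ : Q̄ ≃ₐ[ℚ] Q̄) (x : JZero N) :
    heckeOperatorBar N ℓ (σ • x) = σ • heckeOperatorBar N ℓ x :=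
  eslg_heckeOperatorBar_smul_of_deg N ℓ
    (fun v => by rw [hif_deg_eq_one N v]; exact one_ne_zero) σ x

theorem t4g37_commute_galZ (ℓ : Nat.Primes) (σ : Q̄ ≃ₐ[ℚ] Q̄) :
    Commute (t4g37_galZ N σ) (heckeOperatorBar N ℓ) :=
  t4g37_commute_galZ_of N ℓ σ (t4g37_heckeOperatorBar_smul N ℓ σ)

/-- Galois commutes with Hecke on `O ⊗[ℤ] J₀(N)(ℚ̄)`. -/
theorem t4g37_commute (ℓ : Nat.Primes) (σ : Q̄ ≃ₐ[ℚ] Q̄) :
    Commute (t4g37_galO O N σ) (t4g37_heckeO O N ℓ) :=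
  t4g37_commute_of O N ℓ σ (t4g37_heckeOperatorBar_smul N ℓ σ)

/-- Galois commutes with Hecke on the Tate module. -/
theorem t4g37_commuteV (p : ℕ) (ℓ : Nat.Primes) (σ : Q̄ ≃ₐ[ℚ] Q̄) :
    Commute (t4g37_rhoV O N p σ) (t4g37_TV O N p ℓ) :=
  t4g37_commuteV_of O N p ℓ σ (t4g37_heckeOperatorBar_smul N ℓ σ)

end

end Fermat.Agent.S30x
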