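/-
S30x/T4ES4 (helper4, backup of block T4 (a),(b),(d) of ROUTE_S30_helper88, prefix `t4e4_`):
Eichler–Shimura, inertia and Hecke–Galois commutation ON THE MODEL `V = t4g37_V O N p`
(helper37's official definitions, `T4Defs37`), hypothesis-free, from the S42 block B8 exports
(`S42x/ESlFinal`): for `O` flat over `ℤ`, `p` prime,

* `t4e4_commute`     : `Commute (t4g37_galO O N σ) (t4g37_heckeO O N ℓ)`;
* `t4e4_commuteV`    : `Commute (t4g37_rhoV O N p σ) (t4g37_TV O N p ℓ)`;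
* `t4e4_quadraticV`  : for `ℓ ∤ N`, `ℓ ≠ p`, `A | ℓ`, `σ` Frobenius at `A`, all `x : V`:
  `ρ_V σ (ρ_V σ x) - ρ_V σ (T_ℓ x) + (ℓ : O) • x = 0`;
* `t4e4_quadraticV'` : the same as an identity in `Module.End O V`:
  `ρ_V σ * ρ_V σ - ρ_V σ * T_ℓ + (ℓ : O) • 1 = 0` (and `T_ℓ * ρ_V σ` form);
* `t4e4_inertiaV`    : for `q ∤ N`, `q ≠ p`, `τ` in the inertia group at `P | q`: `ρ_V τ = 1`.
-/
import Mathlib
import Fermat.Agent.S30x.T4Defs37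
import Fermat.Agent.S42x.ESlFinal

set_option autoImplicit false

namespace Fermat.Agent.S30x

open ModularCurve TensorProduct Fermat.Agent.S42x

local notation "Q̄" => AlgebraicClosure ℚ

noncomputable section

variable (O : Type*) [CommRing O] (N : ℕ) [NeZero N]

/-- Hecke operators commute with Galois on `O ⊗ J₀(N)`. -/
theorem t4e4_commute (ℓ : Nat.Primes) (σ : Q̄ ≃ₐ[ℚ] Q̄) :
    Commute (t4g37_galO O N σ) (t4g37_heckeO O N ℓ) :=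
  t4g37_commute_of O N ℓ σ (esl_heckeOperatorBar_smul N ℓ σ)

/-- Hecke operators commute with Galois on the Tate module. -/
theorem t4e4_commuteV (p : ℕ) (ℓ : Nat.Primes) (σ : Q̄ ≃ₐ[ℚ] Q̄) :
    Commute (t4g37_rhoV O N p σ) (t4g37_TV O N p ℓ) :=
  t4g37_commuteV_of O N p ℓ σ (esl_heckeOperatorBar_smul N ℓ σ)

variable [Module.Flat ℤ O]

/-- **Eichler–Shimura on the Tate module.** -/
theorem t4e4_quadraticV (p : ℕ) (hp : p.Prime) (ℓ : ℕ) (hℓ : ℓ.Prime) (hℓN : ¬ ℓ ∣ N)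
    (hℓp : ℓ ≠ p) (A : ValuationSubring Q̄) (hA : A.LiesOverPrime ℓ) (σ : Q̄ ≃ₐ[ℚ] Q̄)
    (hσ : A.IsFrobeniusAt σ ℓ) (x : t4g37_V O N p) :
    t4g37_rhoV O N p σ (t4g37_rhoV O N p σ x) -
      t4g37_rhoV O N p σ (t4g37_TV O N p ⟨ℓ, hℓ⟩ x) + (ℓ : O) • x = 0 := by
  rw [t4g37_rhoV_eq, t4g37_TV_eq]
  refine t4a37_quadraticV O (t4g37_galZ N) (heckeOperatorBar N ⟨ℓ, hℓ⟩) p ℓ σ ?_ x
  intro k y hy
  exact esl_frob_quadratic_ppow N ℓ hℓ hℓN A hA p hp hℓp k y hy σ hσ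

/-- **Eichler–Shimura on the Tate module**, as an identity of endomorphisms. -/
theorem t4e4_quadraticV' (p : ℕ) (hp : p.Prime) (ℓ : ℕ) (hℓ : ℓ.Prime) (hℓN : ¬ ℓ ∣ N)
    (hℓp : ℓ ≠ p) (A : ValuationSubring Q̄) (hA : A.LiesOverPrime ℓ) (σ : Q̄ ≃ₐ[ℚ] Q̄)
    (hσ : A.IsFrobeniusAt σ ℓ) :
    t4g37_rhoV O N p σ * t4g37_rhoV O N p σ -
      t4g37_rhoV O N p σ * t4g37_TV O N p ⟨ℓ, hℓ⟩ + (ℓ : O) • (1 : Module.End O (t4g37_V O N p)) =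
        0 := by
  apply LinearMap.ext
  intro x
  exact t4e4_quadraticV O N p hp ℓ hℓ hℓN hℓp A hA σ hσ x

/-- the same with `T_ℓ` on the left. -/
theorem t4e4_quadraticV'' (p : ℕ) (hp : p.Prime) (ℓ : ℕ) (hℓ : ℓ.Prime) (hℓN : ¬ ℓ ∣ N)
    (hℓp : ℓ ≠ p) (A : ValuationSubring Q̄) (hA : A.LiesOverPrime ℓ) (σ : Q̄ ≃ₐ[ℚ] Q̄)
    (hσ : A.IsFrobeniusAt σ ℓ) :
    t4g37_rhoV O N p σ * t4g37_rhoV O N p σ -
      t4g37_TV O N p ⟨ℓ, hℓ⟩ * t4g37_rhoV O N p σ + (ℓ : O) • (1 : Module.End O (t4g37_V O N p)) =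
        0 := by
  rw [← (t4e4_commuteV O N p ⟨ℓ, hℓ⟩ σ).eq]
  exact t4e4_quadraticV' O N p hp ℓ hℓ hℓN hℓp A hA σ hσ

/-- **Inertia at `q ∤ N p` acts trivially on the Tate module.** -/
theorem t4e4_inertiaV (p : ℕ) (hp : p.Prime) (q : ℕ) (hq : q.Prime) (hqN : ¬ q ∣ N)
    (hqp : q ≠ p) (P : ValuationSubring Q̄) (hP : P.LiesOverPrime q) (τ : Q̄ ≃ₐ[ℚ] Q̄)
    (hτ : τ ∈ P.inertiaSubgroupIn ℚ) : t4g37_rhoV O N p τ = 1 := by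
  rw [t4g37_rhoV_eq]
  refine t4a37_fixedV O (t4g37_galZ N) p τ ?_
  intro k y hy
  exact esl_inertia_trivial_ppow N q hq hqN P hP p hp hqp k y hy τ hτ

end

end Fermat.Agent.S30x
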