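/-
S30x/T4Fields74 (helper74; S30 block T4, half (c), prefix `t4f74_`): the NUMBER FIELDS `L_n`.

* `t4f74_finite_torsion N m (hm : m ≠ 0)` : `{x : JZero N | m • x = 0}` is finite, hypothesis-free
  (helper85 `jtf85_finite` + helper81 `r5f81_R3_zero`);
* `t4f74_exists_field N m hm E0 hE0` : a finite-dimensional, Galois-stable `L ⊇ E0` inside `ℚ̄` such that
  every `σ ∈ G_ℚ` fixing `L` pointwise fixes `J₀(N)(ℚ̄)[m]` pointwise (`ost_`, `fino_`);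
* `t4f74_exists_field_V` : the same on helper37's model `t4a37_V O (JZero N) p` of the Tate module:
  `σ|_L = 1 ⇒ ρ_V(σ) x - x ∈ (p)^n V` for all `x` (via `t4a37_congV`); stated for an arbitrary
  `ρ : G_ℚ →* Module.End ℤ (JZero N)` with `ρ σ x = σ • x`;
* `t4f74_exists_field_V_normal` : `L` is moreover `Normal` over `ℚ` (= Galois, char 0).
-/
import Mathlib
import Fermat.Agent.S30x.T4Abs37
import Fermat.Agent.S42x.OpenStab
import Fermat.Agent.S42x.FinOrbit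
import Fermat.Agent.S42x.R5Final81

set_option autoImplicit false
set_option linter.style.haveILetI false
set_option linter.unusedSectionVars false

namespace Fermat.Agent.S30x

open ModularCurve AlgebraicCurve TensorProduct
open Fermat.Agent.S42x

local notation "Q̄" => AlgebraicClosure ℚ

noncomputable section

variable (N : ℕ) [NeZero N]

/-- **finiteness of `J₀(N)(ℚ̄)[m]`**, every `m ≠ 0`, hypothesis-free. -/
theorem t4f74_finite_torsion (m : ℕ) (hm : m ≠ 0) : {x : JZero N | m • x = 0}.Finite :=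
  jtf85_finite N m hm (r5f81_R3_zero N m (Nat.pos_of_ne_zero hm))

/-- **the number field `L`** cut out by `J₀(N)(ℚ̄)[m]`: finite-dimensional, Galois-stable, containing a
prescribed finite-dimensional `E0`, and every `σ` fixing it pointwise fixes `J[m]` pointwise. -/
theorem t4f74_exists_field (m : ℕ) (hm : m ≠ 0)
    (E0 : IntermediateField ℚ Q̄) (hE0 : FiniteDimensional ℚ E0) :
    ∃ L : IntermediateField ℚ Q̄, FiniteDimensional ℚ L ∧ E0 ≤ L ∧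
      (∀ σ : Q̄ ≃ₐ[ℚ] Q̄, ∀ a ∈ L, σ a ∈ L) ∧
      ∀ σ : Q̄ ≃ₐ[ℚ] Q̄, (∀ a ∈ L, σ a = a) → ∀ x : JZero N, m • x = 0 → σ • x = x := by
  classical
  have hfin := t4f74_finite_torsion N m hm
  obtain ⟨E, hE, hfix⟩ := ost_jzero_finset_fixed N hfin.toFinset
  obtain ⟨L, hL, hEL, hE0L, hstab⟩ := fino_exists_stable E E0 hE hE0
  refine ⟨L, hL, hE0L, hstab, fun σ hσ x hx => ?_⟩
  exact hfix σ (fun a ha => hσ a (hEL ha)) x (hfin.mem_toFinset.mpr hx)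

/-- a Galois-stable intermediate field of `ℚ̄/ℚ` is normal over `ℚ`. -/
theorem t4f74_normal_of_stable (L : IntermediateField ℚ Q̄)
    (hstab : ∀ σ : Q̄ ≃ₐ[ℚ] Q̄, ∀ a ∈ L, σ a ∈ L) : Normal ℚ L := by
  haveI : Normal ℚ Q̄ := fino_normal_qbar
  refine IntermediateField.normal_iff_forall_map_le'.mpr (fun σ => ?_)
  rintro _ ⟨a, ha, rfl⟩
  exact hstab σ a ha

/-- `t4f74_exists_field` with `Normal ℚ L` recorded. -/
theorem t4f74_exists_field_normal (m : ℕ) (hm : m ≠ 0)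
    (E0 : IntermediateField ℚ Q̄) (hE0 : FiniteDimensional ℚ E0) :
    ∃ L : IntermediateField ℚ Q̄, FiniteDimensional ℚ L ∧ Normal ℚ L ∧ E0 ≤ L ∧
      (∀ σ : Q̄ ≃ₐ[ℚ] Q̄, ∀ a ∈ L, σ a ∈ L) ∧
      ∀ σ : Q̄ ≃ₐ[ℚ] Q̄, (∀ a ∈ L, σ a = a) → ∀ x : JZero N, m • x = 0 → σ • x = x := by
  obtain ⟨L, h1, h2, h3, h4⟩ := t4f74_exists_field N m hm E0 hE0
  exact ⟨L, h1, t4f74_normal_of_stable L h3, h2, h3, h4⟩

variable (O : Type*) [CommRing O] [Module.Flat ℤ O]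

/-- **(c) on the model `V`**: for every `n` a finite-dimensional Galois-stable `L ⊇ E0` with
`σ|_L = 1 ⇒ ρ_V(σ) x - x ∈ (p)^n V`. -/
theorem t4f74_exists_field_V (p : ℕ) (hp : p ≠ 0) (n : ℕ)
    (ρ : (Q̄ ≃ₐ[ℚ] Q̄) →* Module.End ℤ (JZero N)) (hρ : ∀ σ x, ρ σ x = σ • x)
    (E0 : IntermediateField ℚ Q̄) (hE0 : FiniteDimensional ℚ E0) :
    ∃ L : IntermediateField ℚ Q̄, FiniteDimensional ℚ L ∧ Normal ℚ L ∧ E0 ≤ L ∧
      (∀ σ : Q̄ ≃ₐ[ℚ] Q̄, ∀ a ∈ L, σ a ∈ L) ∧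
      ∀ σ : Q̄ ≃ₐ[ℚ] Q̄, (∀ a ∈ L, σ a = a) → ∀ x : t4a37_V O (JZero N) p,
        t4a37_rhoV O ρ p σ x - x ∈
          ((Ideal.span {((p : ℕ) : O)}) ^ n • ⊤ : Submodule O (t4a37_V O (JZero N) p)) := by
  obtain ⟨L, h1, h2, h3, h4, h5⟩ :=
    t4f74_exists_field_normal N (p ^ n) (pow_ne_zero n hp) E0 hE0
  refine ⟨L, h1, h2, h3, h4, fun σ hσ x => ?_⟩
  refine t4a37_congV O ρ p n σ (fun y hy => ?_) x
  rw [hρ]
  exact h5 σ hσ y hy

/-- **(c), group form**: the (normal, finite index after `fdndi_`) subgroup fixing `L` acts trivially on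
`V / (p)^n V`. -/
theorem t4f74_exists_field_V_fixing (p : ℕ) (hp : p ≠ 0) (n : ℕ)
    (ρ : (Q̄ ≃ₐ[ℚ] Q̄) →* Module.End ℤ (JZero N)) (hρ : ∀ σ x, ρ σ x = σ • x)
    (E0 : IntermediateField ℚ Q̄) (hE0 : FiniteDimensional ℚ E0) :
    ∃ L : IntermediateField ℚ Q̄, FiniteDimensional ℚ L ∧ Normal ℚ L ∧ E0 ≤ L ∧
      ∀ σ ∈ L.fixingSubgroup, ∀ x : t4a37_V O (JZero N) p,
        t4a37_rhoV O ρ p σ x - x ∈
          ((Ideal.span {((p : ℕ) : O)}) ^ n • ⊤ : Submodule O (t4a37_V O (JZero N) p)) := by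
  obtain ⟨L, h1, h2, h3, _, h5⟩ := t4f74_exists_field_V N O p hp n ρ hρ E0 hE0
  refine ⟨L, h1, h2, h3, fun σ hσ x => h5 σ (fun a ha => ?_) x⟩
  exact (IntermediateField.mem_fixingSubgroup_iff L σ).mp hσ a ha

end

end Fermat.Agent.S30x
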