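/-
S30x/T4FieldsInst74 (helper74; S30 block T4, half (c), prefix `t4f74_`): `T4Fields74` specialised to the
OFFICIAL definitions of helper37 (`T4Defs37`): `V = t4g37_V O N p`, `ρ_V = t4g37_rhoV O N p`.

* `t4f74_field_rhoV` : for every `n` a finite-dimensional normal Galois-stable `L ⊇ E0` with
  `σ|_L = 1 ⇒ ρ_V(σ) x - x ∈ (p)^n V`;
* `t4f74_field_rhoV_fixing` : the `L.fixingSubgroup` form;
* `t4f74_rhoV_eq_one_mod` : the same as an equality of endomorphisms of `V ⧸ (p)^n V`-classes: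
  `Submodule.Quotient.mk (ρ_V(σ) x) = Submodule.Quotient.mk x`.
-/
import Mathlib
import Fermat.Agent.S30x.T4Fields74
import Fermat.Agent.S30x.T4Defs37

set_option autoImplicit false
set_option linter.unusedSectionVars false

namespace Fermat.Agent.S30x

open ModularCurve TensorProduct

local notation "Q̄" => AlgebraicClosure ℚ

noncomputable section

variable (O : Type*) [CommRing O] [Module.Flat ℤ O] (N : ℕ) [NeZero N]

/-- **(c) for the official `ρ_V`**. -/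
theorem t4f74_field_rhoV (p : ℕ) (hp : p ≠ 0) (n : ℕ)
    (E0 : IntermediateField ℚ Q̄) (hE0 : FiniteDimensional ℚ E0) :
    ∃ L : IntermediateField ℚ Q̄, FiniteDimensional ℚ L ∧ Normal ℚ L ∧ E0 ≤ L ∧
      (∀ σ : Q̄ ≃ₐ[ℚ] Q̄, ∀ a ∈ L, σ a ∈ L) ∧
      ∀ σ : Q̄ ≃ₐ[ℚ] Q̄, (∀ a ∈ L, σ a = a) → ∀ x : t4g37_V O N p,
        t4g37_rhoV O N p σ x - x ∈
          ((Ideal.span {((p : ℕ) : O)}) ^ n • ⊤ : Submodule O (t4g37_V O N p)) :=
  t4f74_exists_field_V N O p hp n (t4g37_galZ N) (fun _ _ => rfl) E0 hE0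

/-- **(c) for the official `ρ_V`**, fixing-subgroup form. -/
theorem t4f74_field_rhoV_fixing (p : ℕ) (hp : p ≠ 0) (n : ℕ)
    (E0 : IntermediateField ℚ Q̄) (hE0 : FiniteDimensional ℚ E0) :
    ∃ L : IntermediateField ℚ Q̄, FiniteDimensional ℚ L ∧ Normal ℚ L ∧ E0 ≤ L ∧
      ∀ σ ∈ L.fixingSubgroup, ∀ x : t4g37_V O N p,
        t4g37_rhoV O N p σ x - x ∈
          ((Ideal.span {((p : ℕ) : O)}) ^ n • ⊤ : Submodule O (t4g37_V O N p)) :=
  t4f74_exists_field_V_fixing N O p hp n (t4g37_galZ N) (fun _ _ => rfl) E0 hE0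

/-- two elements of `G_ℚ` with the same restriction to `L` act in the same way modulo `(p)^n V`. -/
theorem t4f74_field_rhoV_congr (p : ℕ) (hp : p ≠ 0) (n : ℕ)
    (E0 : IntermediateField ℚ Q̄) (hE0 : FiniteDimensional ℚ E0) :
    ∃ L : IntermediateField ℚ Q̄, FiniteDimensional ℚ L ∧ Normal ℚ L ∧ E0 ≤ L ∧
      ∀ σ τ : Q̄ ≃ₐ[ℚ] Q̄, (∀ a ∈ L, σ a = τ a) → ∀ x : t4g37_V O N p,
        t4g37_rhoV O N p σ x - t4g37_rhoV O N p τ x ∈
          ((Ideal.span {((p : ℕ) : O)}) ^ n • ⊤ : Submodule O (t4g37_V O N p)) := by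
  obtain ⟨L, h1, h2, h3, h4, h5⟩ := t4f74_field_rhoV O N p hp n E0 hE0
  refine ⟨L, h1, h2, h3, fun σ τ hστ x => ?_⟩
  -- `σ = τ * (τ⁻¹ σ)` and `τ⁻¹ σ` fixes `L`
  have hfix : ∀ a ∈ L, (τ⁻¹ * σ) a = a := by
    intro a ha
    show τ⁻¹ (σ a) = a
    rw [hστ a ha]
    exact τ.symm_apply_apply a
  have h6 := h5 (τ⁻¹ * σ) hfix x
  have h7 : t4g37_rhoV O N p σ x - t4g37_rhoV O N p τ x =
      t4g37_rhoV O N p τ (t4g37_rhoV O N p (τ⁻¹ * σ) x - x) := by
    rw [map_sub, ← Module.End.mul_apply, ← map_mul, mul_inv_cancel_left]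
  rw [h7]
  -- `(p)^n V` is stable under every `O`-linear endomorphism
  have hstable : ∀ (F : Module.End O (t4g37_V O N p)) (y : t4g37_V O N p),
      y ∈ ((Ideal.span {((p : ℕ) : O)}) ^ n • ⊤ : Submodule O (t4g37_V O N p)) →
      F y ∈ ((Ideal.span {((p : ℕ) : O)}) ^ n • ⊤ : Submodule O (t4g37_V O N p)) := by
    intro F y hy
    have : ((Ideal.span {((p : ℕ) : O)}) ^ n • ⊤ : Submodule O (t4g37_V O N p)).map F ≤
        (Ideal.span {((p : ℕ) : O)}) ^ n • ⊤ := by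
      rw [Submodule.map_smul'']
      exact Submodule.smul_mono le_rfl le_top
    exact this (Submodule.mem_map_of_mem hy)
  exact hstable _ _ h6

end

end Fermat.Agent.S30x
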