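/-
S30x/T4Galois37 (helper37): block T4 of ROUTE_S30_helper88, the THEOREMS, hypothesis-free
(only `[Module.Flat ℤ O]`).

`V = t4g37_V O N p = tsq11_T (p : O) (O ⊗[ℤ] J₀(N)(ℚ̄))`, Galois action `t4g37_rhoV`, Hecke `t4g37_TV`
(all from `T4Defs37`):
* `t4g37_frob_quadratic`   : `φ² - φ T_ℓ + ℓ = 0` on `V` for every Frobenius element `φ` at `A ∣ ℓ`,
                             `ℓ ∤ N`, `ℓ ≠ p` (Eichler–Shimura, block B8 of S42);
* `t4g37_inertia_trivial`  : inertia at `A ∣ ℓ`, `ℓ ∤ N`, `ℓ ≠ p`, acts trivially on `V`;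
* `t4g37_exists_field`     : for every `n` a number field `L_n` with `σ|L_n = 1 ⇒ σ ≡ 1 mod p^n V`
                             (open stabilisers B11 + finiteness of `J₀(N)[p^n]`).
Torsion-level forms on `(O ⊗ J)[m]`: `t4g37_frob_quadratic_tors`, `t4g37_inertia_trivial_tors`,
`t4g37_exists_field_tors`; on `J₀(N)` itself: `t4g37_finite_torsion`, `t4g37_exists_field_J`.
-/
import Mathlib
import Fermat.Agent.S30x.T4Defs37
import Fermat.Agent.S42x.ESlFinal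
import Fermat.Agent.S42x.FinLevel
import Fermat.Agent.S42x.R5Final81

set_option autoImplicit false

namespace Fermat.Agent.S30x

open TensorProduct ModularCurve AlgebraicCurve ValuationSubring
open Fermat.Agent.S42x

local notation "Q̄" => AlgebraicClosure ℚ

noncomputable section

variable (O : Type*) [CommRing O] (N : ℕ) [NeZero N]

section Flat

variable [Module.Flat ℤ O]

/-! ### torsion level -/

/-- Eichler–Shimura on `(O ⊗ J₀(N))[m]`, `m` prime to `ℓ`. -/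
theorem t4g37_frob_quadratic_tors (ℓ : ℕ) (hℓ : ℓ.Prime) (hℓN : ¬ ℓ ∣ N)
    (A : ValuationSubring Q̄) (hA : A.LiesOverPrime ℓ) (m : ℕ) (hm : ¬ ℓ ∣ m)
    (σ : Q̄ ≃ₐ[ℚ] Q̄) (hσ : A.IsFrobeniusAt σ ℓ) (y : O ⊗[ℤ] JZero N) (hy : m • y = 0) :
    t4g37_galO O N σ (t4g37_galO O N σ y) - t4g37_galO O N σ (t4g37_heckeO O N ⟨ℓ, hℓ⟩ y)
      + (ℓ : O) • y = 0 :=
  t4a37_quadratic O (t4g37_galZ N) (heckeOperatorBar N ⟨ℓ, hℓ⟩) m ℓ σ
    (fun x hx => esl_frob_quadratic_closed N ℓ hℓ hℓN A hA m hm x hx σ hσ) y hy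

/-- inertia at `A ∣ ℓ ∤ N` is trivial on `(O ⊗ J₀(N))[m]`, `m` prime to `ℓ`. -/
theorem t4g37_inertia_trivial_tors (ℓ : ℕ) (hℓ : ℓ.Prime) (hℓN : ¬ ℓ ∣ N)
    (A : ValuationSubring Q̄) (hA : A.LiesOverPrime ℓ) (m : ℕ) (hm : ¬ ℓ ∣ m)
    (τ : Q̄ ≃ₐ[ℚ] Q̄) (hτ : τ ∈ A.inertiaSubgroupIn ℚ) (y : O ⊗[ℤ] JZero N) (hy : m • y = 0) :
    t4g37_galO O N τ y = y :=
  t4a37_fixed O (t4g37_galZ N) m τ
    (fun x hx => esl_inertia_trivial N ℓ hℓ hℓN A hA m hm x hx τ hτ) y hy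

omit [Module.Flat ℤ O] in
/-- finiteness of `J₀(N)(ℚ̄)[m]` in the set form. -/
theorem t4g37_finite_torsion (m : ℕ) (hm : m ≠ 0) : {x : JZero N | m • x = 0}.Finite :=
  jtf85_finite N m hm (r5f81_R3_zero N m (Nat.pos_of_ne_zero hm))

omit [Module.Flat ℤ O] in
/-- a number field cutting out `J₀(N)(ℚ̄)[m]`. -/
theorem t4g37_exists_field_J (m : ℕ) (hm : m ≠ 0) :
    ∃ L : IntermediateField ℚ Q̄, FiniteDimensional ℚ L ∧
      ∀ σ : Q̄ ≃ₐ[ℚ] Q̄, (∀ a ∈ L, σ a = a) → ∀ x : JZero N, m • x = 0 → σ • x = x := by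
  have hfin : {x : JZero N | (m : ℤ) • x = 0}.Finite := by
    have := t4g37_finite_torsion N m hm
    simpa only [natCast_zsmul] using this
  obtain ⟨L, hL, h⟩ := finl_stab_open_torsion N (m : ℤ) (by exact_mod_cast hm) hfin
  refine ⟨L, hL, fun σ hσ x hx => h σ ?_ x (by rw [natCast_zsmul]; exact hx)⟩
  rw [IntermediateField.mem_fixingSubgroup_iff]
  exact hσ

omit [NeZero N] in
/-- `Gal(ℚ̄/L)` acts trivially on `(O ⊗ J₀(N))[m]` as soon as it does on `J₀(N)[m]`. -/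
theorem t4g37_fixed_tors_of (m : ℕ) (σ : Q̄ ≃ₐ[ℚ] Q̄)
    (h : ∀ x : JZero N, m • x = 0 → σ • x = x) (y : O ⊗[ℤ] JZero N) (hy : m • y = 0) :
    t4g37_galO O N σ y = y :=
  t4a37_fixed O (t4g37_galZ N) m σ (fun x hx => h x hx) y hy

/-- a number field `L` with `Gal(ℚ̄/L)` acting trivially on `(O ⊗ J₀(N))[m]`. -/
theorem t4g37_exists_field_tors (m : ℕ) (hm : m ≠ 0) :
    ∃ L : IntermediateField ℚ Q̄, FiniteDimensional ℚ L ∧
      ∀ σ : Q̄ ≃ₐ[ℚ] Q̄, (∀ a ∈ L, σ a = a) →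
        ∀ y : O ⊗[ℤ] JZero N, m • y = 0 → t4g37_galO O N σ y = y := by
  obtain ⟨L, hL, h⟩ := t4g37_exists_field_J N m hm
  refine ⟨L, hL, fun σ hσ y hy => ?_⟩
  exact t4g37_fixed_tors_of O N m σ (h σ hσ) y hy

/-! ### the Tate module -/

/-- **Eichler–Shimura on the Tate module**. -/
theorem t4g37_frob_quadratic (p : ℕ) (hp : p.Prime) (ℓ : ℕ) (hℓ : ℓ.Prime) (hℓN : ¬ ℓ ∣ N)
    (hℓp : ℓ ≠ p) (A : ValuationSubring Q̄) (hA : A.LiesOverPrime ℓ)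
    (σ : Q̄ ≃ₐ[ℚ] Q̄) (hσ : A.IsFrobeniusAt σ ℓ) (x : t4g37_V O N p) :
    t4g37_rhoV O N p σ (t4g37_rhoV O N p σ x) - t4g37_rhoV O N p σ (t4g37_TV O N p ⟨ℓ, hℓ⟩ x)
      + (ℓ : O) • x = 0 := by
  apply tsq11_ext
  intro n
  exact t4g37_frob_quadratic_tors O N ℓ hℓ hℓN A hA (p ^ (n + 1))
    (esl_not_dvd_pow hℓ hp hℓp (n + 1)) σ hσ _ (t4g37_comp_torsion O N p x n)

/-- **inertia away from `Np` is trivial on the Tate module**. -/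
theorem t4g37_inertia_trivial (p : ℕ) (hp : p.Prime) (ℓ : ℕ) (hℓ : ℓ.Prime) (hℓN : ¬ ℓ ∣ N)
    (hℓp : ℓ ≠ p) (A : ValuationSubring Q̄) (hA : A.LiesOverPrime ℓ)
    (τ : Q̄ ≃ₐ[ℚ] Q̄) (hτ : τ ∈ A.inertiaSubgroupIn ℚ) :
    t4g37_rhoV O N p τ = 1 := by
  apply LinearMap.ext
  intro x
  apply tsq11_ext
  intro n
  exact t4g37_inertia_trivial_tors O N ℓ hℓ hℓN A hA (p ^ (n + 1))
    (esl_not_dvd_pow hℓ hp hℓp (n + 1)) τ hτ _ (t4g37_comp_torsion O N p x n)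

omit [NeZero N] in
/-- `σ ≡ 1` modulo `p ^ n` on the Tate module, given `σ = 1` on `J₀(N)[p^n]`. -/
theorem t4g37_cong_of (p n : ℕ) (σ : Q̄ ≃ₐ[ℚ] Q̄)
    (h : ∀ x : JZero N, p ^ n • x = 0 → σ • x = x) (x : t4g37_V O N p) :
    t4g37_rhoV O N p σ x - x ∈
      ((Ideal.span {((p : ℕ) : O)}) ^ n • ⊤ : Submodule O (t4g37_V O N p)) :=
  t4a37_congV O (t4g37_galZ N) p n σ (fun x hx => h x hx) x

set_option maxHeartbeats 2000000 in
/-- **the number fields `L_n`**: `σ|L_n = 1` implies `σ ≡ 1` modulo `p ^ n` on the Tate module. -/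
theorem t4g37_exists_field (p : ℕ) (hp : p ≠ 0) (n : ℕ) :
    ∃ L : IntermediateField ℚ Q̄, FiniteDimensional ℚ L ∧
      ∀ σ : Q̄ ≃ₐ[ℚ] Q̄, (∀ a ∈ L, σ a = a) → ∀ x : t4g37_V O N p,
        t4g37_rhoV O N p σ x - x ∈
          ((Ideal.span {((p : ℕ) : O)}) ^ n • ⊤ : Submodule O (t4g37_V O N p)) := by
  obtain ⟨L, hL, h⟩ := t4g37_exists_field_J N (p ^ n) (pow_ne_zero n hp)
  exact ⟨L, hL, fun σ hσ => t4g37_cong_of O N p n σ (h σ hσ)⟩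

end Flat

end

end Fermat.Agent.S30x
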