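/-
S30 (route `ROUTE_S30_helper88`), block T5 (`V[χ] ≠ 0`), leaf CORE (helper52), prefix `t5c52_`.
Mathlib + `S42x/BettiEigenLin52` only.

* `t5c52_exists_functional` : (T5.a) CHARACTERISTIC-FREE eigen-FUNCTIONAL.  `A` a commutative ring, `V` a finitely
  generated FAITHFUL `A`-module, `K` ANY field, `χ : A →+* K`.  Then there is a nonzero additive `θ : V →+ K`
  with `θ (x • v) = χ x * θ v`.  (`ker χ` is in the support of `V`; residue field tensor product.)
* `t5c52_exists_eigenvector` : (T5.b) eigen-VECTOR over a domain.  `V` a finite free `ℤ`-module, `φ : A →+* End_ℤ V`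
  faithful, `O` a domain, `χ : A →+* O`.  Then there is a nonzero `v ∈ O ⊗[ℤ] V` with
  `(φ x ⊗ O) v = χ x • v` for all `x`.
-/
import Mathlib
import Fermat.Agent.S42x.BettiEigenLin52

set_option autoImplicit false

namespace Fermat.Agent.S30x

open TensorProduct Fermat.Agent.S42x

/-- **(T5.a) eigen-functional for an arbitrary character of a ring acting faithfully on a f.g. module.** -/
theorem t5c52_exists_functional {A : Type*} [CommRing A] {V : Type*} [AddCommGroup V] [Module A V]
    [Module.Finite A V] (hfaith : ∀ x : A, (∀ v : V, x • v = 0) → x = 0)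
    {K : Type*} [Field K] (χ : A →+* K) :
    ∃ θ : V →+ K, θ ≠ 0 ∧ ∀ (x : A) (v : V), θ (x • v) = χ x * θ v := by
  classical
  have hprime : (RingHom.ker χ).IsPrime := RingHom.ker_isPrime χ
  let P : PrimeSpectrum A := ⟨RingHom.ker χ, hprime⟩
  have hsupp : P ∈ Module.support A V := by
    rw [Module.mem_support_iff_of_finite]
    intro x hx
    have h0 : x = 0 := hfaith x (fun v => Module.mem_annihilator.mp hx v)
    rw [h0]
    exact (RingHom.ker χ).zero_mem
  have hnt : Nontrivial ((RingHom.ker χ).ResidueField ⊗[A] V) :=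
    (Module.mem_support_iff_nontrivial_residueField_tensorProduct P).mp hsupp
  obtain ⟨t, ht⟩ := exists_ne (0 : (RingHom.ker χ).ResidueField ⊗[A] V)
  obtain ⟨f, hf⟩ : ∃ f : Module.Dual (RingHom.ker χ).ResidueField
      ((RingHom.ker χ).ResidueField ⊗[A] V), f t ≠ 0 := by
    by_contra hcon
    push Not at hcon
    exact ht ((Module.forall_dual_apply_eq_zero_iff (RingHom.ker χ).ResidueField t).mp hcon)
  let σ : (RingHom.ker χ).ResidueField →+* K :=
    Ideal.ResidueField.lift (RingHom.ker χ) χ le_rfl (by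
      intro x hx
      show IsUnit (χ x)
      rw [isUnit_iff_ne_zero]
      intro h0
      exact hx (RingHom.mem_ker.mpr h0))
  have hσ : ∀ a : A, σ (algebraMap A (RingHom.ker χ).ResidueField a) = χ a := fun a =>
    Ideal.ResidueField.lift_algebraMap (RingHom.ker χ) χ le_rfl _ a
  let θ : V →+ K :=
    { toFun := fun v => σ (f ((1 : (RingHom.ker χ).ResidueField) ⊗ₜ[A] v))
      map_zero' := by rw [TensorProduct.tmul_zero, map_zero, map_zero]
      map_add' := fun v w => by rw [TensorProduct.tmul_add, map_add, map_add] }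
  have hθ : ∀ v, θ v = σ (f ((1 : (RingHom.ker χ).ResidueField) ⊗ₜ[A] v)) := fun _ => rfl
  refine ⟨θ, ?_, ?_⟩
  · intro h0
    apply hf
    have h1 : ∀ v : V, f ((1 : (RingHom.ker χ).ResidueField) ⊗ₜ[A] v) = 0 := by
      intro v
      have h2 : θ v = 0 := by rw [h0, AddMonoidHom.zero_apply]
      rw [hθ] at h2
      exact (map_eq_zero_iff σ (RingHom.injective σ)).mp h2
    have hall : ∀ t' : (RingHom.ker χ).ResidueField ⊗[A] V, f t' = 0 := by
      intro t'
      induction t' using TensorProduct.induction_on with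
      | zero => exact map_zero f
      | tmul c v =>
        have h3 : c ⊗ₜ[A] v = c • ((1 : (RingHom.ker χ).ResidueField) ⊗ₜ[A] v) := by
          rw [TensorProduct.smul_tmul', smul_eq_mul, mul_one]
        rw [h3, map_smul, h1, smul_zero]
      | add a b ha hb => rw [map_add, ha, hb, add_zero]
    exact hall t
  · intro x v
    rw [hθ, hθ]
    have h3 : (1 : (RingHom.ker χ).ResidueField) ⊗ₜ[A] (x • v) =
        (algebraMap A (RingHom.ker χ).ResidueField x) •
          ((1 : (RingHom.ker χ).ResidueField) ⊗ₜ[A] v) := by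
      rw [TensorProduct.tmul_smul, algebraMap_smul]
    rw [h3, map_smul, smul_eq_mul, map_mul, hσ]

/-- the inclusion `O ⊗[ℤ] V → K ⊗[ℤ] V` (`K` an `O`-algebra), `O`-linear -/
noncomputable def t5c52_incl (O K V : Type*) [CommRing O] [CommRing K] [Algebra O K]
    [AddCommGroup V] : O ⊗[ℤ] V →ₗ[O] K ⊗[ℤ] V :=
  TensorProduct.AlgebraTensorModule.map (Algebra.linearMap O K) (LinearMap.id : V →ₗ[ℤ] V)

theorem t5c52_incl_tmul {O K V : Type*} [CommRing O] [CommRing K] [Algebra O K]
    [AddCommGroup V] (a : O) (v : V) :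
    t5c52_incl O K V (a ⊗ₜ[ℤ] v) = (algebraMap O K a) ⊗ₜ[ℤ] v := rfl

theorem t5c52_incl_injective {O K V : Type*} [CommRing O] [CommRing K] [Algebra O K]
    [AddCommGroup V] [Module.Flat ℤ V] (h : Function.Injective (algebraMap O K)) :
    Function.Injective (t5c52_incl O K V) := by
  have h1 : Function.Injective ((Algebra.linearMap O K).restrictScalars ℤ) := h
  have h2 := Module.Flat.rTensor_preserves_injective_linearMap (M := V)
    ((Algebra.linearMap O K).restrictScalars ℤ) h1
  have e : ∀ z, (LinearMap.rTensor V ((Algebra.linearMap O K).restrictScalars ℤ)) z =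
      t5c52_incl O K V z := by
    intro z
    induction z using TensorProduct.induction_on with
    | zero => simp
    | tmul a b => rfl
    | add a b ha hb => rw [map_add, map_add, ha, hb]
  intro x y hxy
  apply h2
  rw [e, e, hxy]

theorem t5c52_incl_baseChange {O K V : Type*} [CommRing O] [CommRing K] [Algebra O K]
    [AddCommGroup V] (T : V →ₗ[ℤ] V) (z : O ⊗[ℤ] V) :
    t5c52_incl O K V (LinearMap.baseChange O T z) = LinearMap.baseChange K T (t5c52_incl O K V z) := by
  induction z using TensorProduct.induction_on with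
  | zero => simp
  | tmul a b => rfl
  | add a b ha hb => simp only [map_add, ha, hb]

/-- clearing denominators: every element of `K ⊗ V` (`K = Frac O`) becomes integral after multiplication
by a nonzero element of `O` -/
theorem t5c52_clear_denominators {O K V : Type*} [CommRing O] [IsDomain O] [Field K] [Algebra O K]
    [IsFractionRing O K] [AddCommGroup V] (u : K ⊗[ℤ] V) :
    ∃ d : O, d ≠ 0 ∧ ∃ v : O ⊗[ℤ] V, t5c52_incl O K V v = (algebraMap O K d) • u := by
  induction u using TensorProduct.induction_on with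
  | zero => exact ⟨1, one_ne_zero, 0, by simp⟩
  | tmul k w =>
    obtain ⟨a, d, hd, rfl⟩ := IsFractionRing.div_surjective (A := O) k
    have hd0 : d ≠ 0 := nonZeroDivisors.ne_zero hd
    refine ⟨d, hd0, a ⊗ₜ[ℤ] w, ?_⟩
    rw [t5c52_incl_tmul, TensorProduct.smul_tmul', smul_eq_mul]
    congr 1
    have : algebraMap O K d ≠ 0 := by
      intro h0
      exact hd0 ((IsFractionRing.injective O K) (by rw [h0, map_zero]))
    field_simp
  | add u₁ u₂ h₁ h₂ =>
    obtain ⟨d₁, hd₁, v₁, hv₁⟩ := h₁
    obtain ⟨d₂, hd₂, v₂, hv₂⟩ := h₂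
    refine ⟨d₁ * d₂, mul_ne_zero hd₁ hd₂, d₂ • v₁ + d₁ • v₂, ?_⟩
    rw [map_add, map_smul, map_smul, hv₁, hv₂, smul_add, algebraMap_smul, algebraMap_smul,
      algebraMap_smul, algebraMap_smul, smul_smul, smul_smul, mul_comm d₂ d₁]

/-- (T5.b) with an explicit fraction field `K` -/
theorem t5c52_exists_eigenvector_aux {A : Type*} [CommRing A] {V : Type*} [AddCommGroup V]
    [Module.Finite ℤ V] [Module.Free ℤ V] (φ : A →+* Module.End ℤ V)
    (hfaith : ∀ x : A, φ x = 0 → x = 0)
    {O : Type*} [CommRing O] [IsDomain O] (K : Type*) [Field K] [Algebra O K] [IsFractionRing O K]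
    (χ : A →+* O) :
    ∃ v : O ⊗[ℤ] V, v ≠ 0 ∧ ∀ x : A, LinearMap.baseChange O (φ x) v = χ x • v := by
  classical
  let _ : Module A V := Module.compHom V φ
  have hsmul : ∀ (x : A) (v : V), x • v = φ x v := fun _ _ => rfl
  have : IsScalarTower ℤ A V := ⟨fun n x v => by
    rw [hsmul, hsmul, zsmul_eq_mul, map_mul, map_intCast, Module.End.mul_apply,
      Module.End.intCast_apply]⟩
  have : Module.Finite A V := Module.Finite.of_restrictScalars_finite ℤ A V
  let χK : A →+* K := (algebraMap O K).comp χ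
  obtain ⟨θ, hθ0, hθ⟩ := t5c52_exists_functional (A := A) (V := V)
    (fun x hx => hfaith x (LinearMap.ext fun v => by rw [← hsmul, hx v, LinearMap.zero_apply])) χK
  obtain ⟨w₀, hw₀⟩ : ∃ w, θ w ≠ 0 := by
    by_contra hcon
    push Not at hcon
    exact hθ0 (AddMonoidHom.ext fun x => by rw [hcon x, AddMonoidHom.zero_apply])
  let π : K ⊗[ℤ] V →ₗ[K] K := LinearMap.liftBaseChange K θ.toIntLinearMap
  have hπt : ∀ (a : K) (w : V), π (a ⊗ₜ[ℤ] w) = a * θ w := by
    intro a w
    show LinearMap.liftBaseChange K θ.toIntLinearMap (a ⊗ₜ[ℤ] w) = a * θ w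
    rw [LinearMap.liftBaseChange_tmul, smul_eq_mul]
    rfl
  obtain ⟨u, hu0, hu⟩ := bel52_eigvec_of_eigfun (K := K) (I := A) (fun x => χK x) _ (K ⊗[ℤ] V)
    (fun x => (LinearMap.baseChange K (φ x) : Module.End K (K ⊗[ℤ] V)))
    (fun x y => by
      rw [Module.End.mul_eq_comp, Module.End.mul_eq_comp, ← LinearMap.baseChange_comp,
        ← LinearMap.baseChange_comp, ← Module.End.mul_eq_comp, ← Module.End.mul_eq_comp,
        ← map_mul, ← map_mul, mul_comm])
    π
    (fun h0 => hw₀ (by
      have := hπt 1 w₀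
      rw [h0, LinearMap.zero_apply, one_mul] at this
      exact this.symm))
    (fun x z => by
      induction z using TensorProduct.induction_on with
      | zero => simp
      | tmul a w =>
        rw [LinearMap.baseChange_tmul, hπt, hπt, ← hsmul, hθ]
        ring
      | add a b ha hb => rw [map_add, map_add, map_add, ha, hb, mul_add])
    rfl
  obtain ⟨d, hd0, v, hv⟩ := t5c52_clear_denominators (O := O) (K := K) u
  have hinj : Function.Injective (t5c52_incl O K V) :=
    t5c52_incl_injective (IsFractionRing.injective O K)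
  have hdK : algebraMap O K d ≠ 0 := by
    intro h0
    exact hd0 ((IsFractionRing.injective O K) (by rw [h0, map_zero]))
  refine ⟨v, ?_, fun x => ?_⟩
  · rintro rfl
    rw [map_zero] at hv
    rcases smul_eq_zero.mp hv.symm with h | h
    · exact hdK h
    · exact hu0 h
  · apply hinj
    rw [t5c52_incl_baseChange, hv, map_smul, hu x, map_smul, hv, smul_comm, ← algebraMap_smul K (χ x)]
    rfl

/-- **(T5.b) eigen-vector over a domain.** -/
theorem t5c52_exists_eigenvector {A : Type*} [CommRing A] {V : Type*} [AddCommGroup V]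
    [Module.Finite ℤ V] [Module.Free ℤ V] (φ : A →+* Module.End ℤ V)
    (hfaith : ∀ x : A, φ x = 0 → x = 0)
    {O : Type*} [CommRing O] [IsDomain O] (χ : A →+* O) :
    ∃ v : O ⊗[ℤ] V, v ≠ 0 ∧ ∀ x : A, LinearMap.baseChange O (φ x) v = χ x • v :=
  t5c52_exists_eigenvector_aux φ hfaith (FractionRing O) χ

/-- **primitive vectors** (Krull intersection): in a finite module over a Noetherian local ring every
nonzero vector is `p ^ k • v'` with `v' ∉ p • M`, for `p` in the maximal ideal. -/
theorem t5c52_exists_primitive {O : Type*} [CommRing O] [IsLocalRing O] [IsNoetherianRing O]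
    {M : Type*} [AddCommGroup M] [Module O M] [Module.Finite O M] (p : O)
    (hp : p ∈ IsLocalRing.maximalIdeal O) (v : M) (hv : v ≠ 0) :
    ∃ (k : ℕ) (v' : M), v = p ^ k • v' ∧ ¬ ∃ w : M, v' = p • w := by
  classical
  have hne : Ideal.span {p} ≠ ⊤ := by
    intro htop
    have h1 : (1 : O) ∈ Ideal.span {p} := by rw [htop]; exact Submodule.mem_top
    rw [Ideal.mem_span_singleton] at h1
    have hunit : IsUnit p := isUnit_of_dvd_one h1
    exact (IsLocalRing.mem_maximalIdeal p).mp hp hunit
  have hkrull := Ideal.iInf_pow_smul_eq_bot_of_isLocalRing (M := M) (Ideal.span {p}) hne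
  have hmem : ∀ (k : ℕ) (x : M), x ∈ (Ideal.span {p} ^ k • (⊤ : Submodule O M)) ↔
      ∃ w : M, x = p ^ k • w := by
    intro k x
    rw [Ideal.span_singleton_pow, Submodule.ideal_span_singleton_smul,
      Submodule.mem_smul_pointwise_iff_exists]
    constructor
    · rintro ⟨b, -, rfl⟩
      exact ⟨b, rfl⟩
    · rintro ⟨w, rfl⟩
      exact ⟨w, Submodule.mem_top, rfl⟩
  -- some `k` with `v ∉ p ^ k M`
  have hex : ∃ k : ℕ, ¬ ∃ w : M, v = p ^ k • w := by
    by_contra hcon
    push Not at hcon
    apply hv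
    have : v ∈ (⨅ i : ℕ, Ideal.span {p} ^ i • (⊤ : Submodule O M)) := by
      rw [Submodule.mem_iInf]
      intro k
      rw [hmem]
      exact hcon k
    rw [hkrull] at this
    exact (Submodule.mem_bot O).mp this
  have hk0 : Nat.find hex ≠ 0 := by
    intro h0
    have := Nat.find_spec hex
    rw [h0] at this
    exact this ⟨v, by rw [pow_zero, one_smul]⟩
  obtain ⟨k, hk⟩ := Nat.exists_eq_succ_of_ne_zero hk0
  have hlt : ¬ ¬ ∃ w : M, v = p ^ k • w := Nat.find_min hex (by rw [hk]; exact Nat.lt_succ_self k)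
  rw [not_not] at hlt
  obtain ⟨v', hv'⟩ := hlt
  refine ⟨k, v', hv', ?_⟩
  rintro ⟨w, rfl⟩
  have := Nat.find_spec hex
  rw [hk] at this
  exact this ⟨w, by rw [hv', smul_smul, pow_succ]⟩

/-- **(T5.b') primitive eigen-vector**: `O` a Noetherian local domain, `p ≠ 0` in its maximal ideal. -/
theorem t5c52_exists_primitive_eigenvector {A : Type*} [CommRing A] {V : Type*} [AddCommGroup V]
    [Module.Finite ℤ V] [Module.Free ℤ V] (φ : A →+* Module.End ℤ V)
    (hfaith : ∀ x : A, φ x = 0 → x = 0)
    {O : Type*} [CommRing O] [IsDomain O] [IsLocalRing O] [IsNoetherianRing O] (χ : A →+* O)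
    (p : O) (hp : p ∈ IsLocalRing.maximalIdeal O) (hp0 : p ≠ 0) :
    ∃ v : O ⊗[ℤ] V, (¬ ∃ w : O ⊗[ℤ] V, v = p • w) ∧
      ∀ x : A, LinearMap.baseChange O (φ x) v = χ x • v := by
  obtain ⟨v, hv0, hv⟩ := t5c52_exists_eigenvector φ hfaith χ
  obtain ⟨k, v', hvv', hprim⟩ := t5c52_exists_primitive p hp v hv0
  refine ⟨v', hprim, fun x => ?_⟩
  have h1 : p ^ k • (LinearMap.baseChange O (φ x) v' - χ x • v') = 0 := by
    rw [smul_sub, ← map_smul, ← hvv', hv x, hvv', smul_comm, sub_self]
  have h2 := (smul_eq_zero.mp h1).resolve_left (pow_ne_zero k hp0)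
  exact sub_eq_zero.mp h2

end Fermat.Agent.S30x
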