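/-
S30 (route `ROUTE_S30_helper88`, interfaces `ARCH-S30-1`), block T5 (`V[χ] ≠ 0`), leaf PUSH = (T5.d)
(helper52), prefix `t5d52_`.  Mathlib + `S30x/TateSeq11` (helper11) only, GENERIC.

Push an eigenvector of the lattice through a compatible tower `ι n : L →+ J` into the sequence model
`tsq11_T (p : O) (O ⊗[ℤ] J)` of the Tate module:

* `t5d52_seq`              : the sequence `n ↦ (O ⊗ ι n) v`, as an element of `tsq11_T`;
* `t5d52_seq_mem_eigen`    : it lies in `tsq11_eigen` when `v` is an eigenvector and the `ι n` are equivariant;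
* `t5d52_seq_ne_zero`      : it is NONZERO when `ker (ι 0) ⊆ p L`, `O` is flat over `ℤ` and `v ∉ p • (O ⊗ L)`;
* `t5d52_exists`           : the three together (existential form).
-/
import Mathlib
import Fermat.Agent.S30x.TateSeq11

set_option autoImplicit false

namespace Fermat.Agent.S30x

open TensorProduct

section Push

variable {O : Type*} [CommRing O] (p : ℕ) {L J : Type*} [AddCommGroup L] [AddCommGroup J]
  (ι : ℕ → L →+ J)

/-- `O ⊗ ι n : O ⊗[ℤ] L →ₗ[O] O ⊗[ℤ] J` -/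
noncomputable def t5d52_iotaO (n : ℕ) : O ⊗[ℤ] L →ₗ[O] O ⊗[ℤ] J :=
  LinearMap.baseChange O (ι n).toIntLinearMap

theorem t5d52_iotaO_tmul (n : ℕ) (a : O) (v : L) :
    t5d52_iotaO (O := O) ι n (a ⊗ₜ[ℤ] v) = a ⊗ₜ[ℤ] ι n v := rfl

variable (hcompat : ∀ n v, p • ι (n + 1) v = ι n v) (htors : ∀ v, p • ι 0 v = 0)

include hcompat in
theorem t5d52_iotaO_compat (n : ℕ) (z : O ⊗[ℤ] L) :
    (p : O) • t5d52_iotaO (O := O) ι (n + 1) z = t5d52_iotaO (O := O) ι n z := by
  induction z using TensorProduct.induction_on with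
  | zero => simp
  | tmul a v =>
    rw [t5d52_iotaO_tmul, t5d52_iotaO_tmul, ← hcompat n v, Nat.cast_smul_eq_nsmul,
      TensorProduct.tmul_smul]
  | add a b ha hb => rw [map_add, map_add, smul_add, ha, hb]

include htors in
theorem t5d52_iotaO_tors (z : O ⊗[ℤ] L) : (p : O) • t5d52_iotaO (O := O) ι 0 z = 0 := by
  induction z using TensorProduct.induction_on with
  | zero => simp
  | tmul a v =>
    rw [t5d52_iotaO_tmul, Nat.cast_smul_eq_nsmul, ← TensorProduct.tmul_smul, htors v,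
      TensorProduct.tmul_zero]
  | add a b ha hb => rw [map_add, smul_add, ha, hb, add_zero]

/-- the sequence `n ↦ (O ⊗ ι n) v` in the Tate module of `O ⊗ J` -/
noncomputable def t5d52_seq (v : O ⊗[ℤ] L) : tsq11_T (p : O) (O ⊗[ℤ] J) :=
  ⟨fun n => t5d52_iotaO (O := O) ι n v,
    t5d52_iotaO_tors p ι htors v, fun n => t5d52_iotaO_compat p ι hcompat n v⟩

@[simp] theorem t5d52_seq_apply (v : O ⊗[ℤ] L) (n : ℕ) :
    ((t5d52_seq p ι hcompat htors v : tsq11_T (p : O) (O ⊗[ℤ] J)) : ℕ → O ⊗[ℤ] J) n =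
      t5d52_iotaO (O := O) ι n v := rfl

/-- equivariance of `O ⊗ ι n` -/
theorem t5d52_iotaO_equiv (TB : Module.End ℤ L) (TJ : Module.End ℤ J)
    (hequiv : ∀ n v, ι n (TB v) = TJ (ι n v)) (n : ℕ) (z : O ⊗[ℤ] L) :
    t5d52_iotaO (O := O) ι n (LinearMap.baseChange O TB z) =
      LinearMap.baseChange O TJ (t5d52_iotaO (O := O) ι n z) := by
  induction z using TensorProduct.induction_on with
  | zero => simp
  | tmul a v =>
    rw [LinearMap.baseChange_tmul, t5d52_iotaO_tmul, t5d52_iotaO_tmul, LinearMap.baseChange_tmul,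
      hequiv]
  | add a b ha hb => simp only [map_add, ha, hb]

/-- the sequence of an eigenvector is in the eigen-submodule of the Tate module -/
theorem t5d52_seq_mem_eigen {I : Type*} (TB : I → Module.End ℤ L) (TJ : I → Module.End ℤ J)
    (hequiv : ∀ i n v, ι n (TB i v) = TJ i (ι n v)) (c : I → O) (v : O ⊗[ℤ] L)
    (hv : ∀ i, LinearMap.baseChange O (TB i) v = c i • v) :
    t5d52_seq p ι hcompat htors v ∈
      tsq11_eigen (p : O) (fun i => (LinearMap.baseChange O (TJ i) : Module.End O (O ⊗[ℤ] J))) c := by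
  rw [tsq11_mem_eigen]
  intro i
  apply tsq11_ext
  intro n
  show LinearMap.baseChange O (TJ i) (t5d52_iotaO (O := O) ι n v) =
    c i • t5d52_iotaO (O := O) ι n v
  rw [← t5d52_iotaO_equiv ι (TB i) (TJ i) (hequiv i), hv i, map_smul]

/-- the kernel of `O ⊗ ι 0` is `p • (O ⊗ L)` when `ker (ι 0) ⊆ p L` and `O` is flat over `ℤ` -/
theorem t5d52_iotaO_ker [Module.Flat ℤ O] (hp0 : ∀ v, p • ι 0 v = 0)
    (hker : ∀ v, ι 0 v = 0 → ∃ w : L, v = (p : ℤ) • w) (z : O ⊗[ℤ] L)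
    (hz : t5d52_iotaO (O := O) ι 0 z = 0) : ∃ w : O ⊗[ℤ] L, z = (p : O) • w := by
  have hex : Function.Exact ((p : ℤ) • (LinearMap.id : L →ₗ[ℤ] L)) (ι 0).toIntLinearMap := by
    intro v
    constructor
    · intro hv
      obtain ⟨w, rfl⟩ := hker v hv
      exact ⟨w, rfl⟩
    · rintro ⟨w, rfl⟩
      show ι 0 ((p : ℤ) • w) = 0
      rw [map_zsmul, natCast_zsmul]
      exact hp0 w
  have hex' := Module.Flat.lTensor_exact O hex
  have hz' : (LinearMap.lTensor O (ι 0).toIntLinearMap) z = 0 := by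
    rw [← LinearMap.baseChange_eq_ltensor (A := O)]
    exact hz
  obtain ⟨w, hw⟩ := (hex' z).mp hz'
  refine ⟨w, ?_⟩
  rw [← hw]
  have hall : ∀ w' : O ⊗[ℤ] L,
      (LinearMap.lTensor O ((p : ℤ) • (LinearMap.id : L →ₗ[ℤ] L))) w' = (p : O) • w' := by
    intro w'
    induction w' using TensorProduct.induction_on with
    | zero => simp
    | tmul a v =>
      rw [LinearMap.lTensor_tmul, LinearMap.smul_apply, LinearMap.id_apply, TensorProduct.tmul_smul,
        ← Int.cast_smul_eq_zsmul O, Int.cast_natCast]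
    | add a b ha hb => rw [map_add, ha, hb, smul_add]
  exact hall w

/-- the sequence of a primitive vector is nonzero -/
theorem t5d52_seq_ne_zero [Module.Flat ℤ O]
    (hker : ∀ v, ι 0 v = 0 → ∃ w : L, v = (p : ℤ) • w) (v : O ⊗[ℤ] L)
    (hprim : ¬ ∃ w : O ⊗[ℤ] L, v = (p : O) • w) :
    t5d52_seq p ι hcompat htors v ≠ 0 := by
  intro h0
  apply hprim
  apply t5d52_iotaO_ker p ι htors hker v
  have := congrArg (fun x : tsq11_T (p : O) (O ⊗[ℤ] J) => (x : ℕ → O ⊗[ℤ] J) 0) h0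
  exact this

end Push

/-- **(T5.d), existential form.** -/
theorem t5d52_exists {O : Type*} [CommRing O] [Module.Flat ℤ O] (p : ℕ)
    {L J : Type*} [AddCommGroup L] [AddCommGroup J] (ι : ℕ → L →+ J)
    (hcompat : ∀ n v, p • ι (n + 1) v = ι n v) (htors : ∀ v, p • ι 0 v = 0)
    (hker : ∀ v, ι 0 v = 0 → ∃ w : L, v = (p : ℤ) • w)
    {I : Type*} (TB : I → Module.End ℤ L) (TJ : I → Module.End ℤ J)
    (hequiv : ∀ i n v, ι n (TB i v) = TJ i (ι n v)) (c : I → O) (v : O ⊗[ℤ] L)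
    (hprim : ¬ ∃ w : O ⊗[ℤ] L, v = (p : O) • w)
    (hv : ∀ i, LinearMap.baseChange O (TB i) v = c i • v) :
    ∃ x : tsq11_T (p : O) (O ⊗[ℤ] J), x ≠ 0 ∧
      x ∈ tsq11_eigen (p : O)
        (fun i => (LinearMap.baseChange O (TJ i) : Module.End O (O ⊗[ℤ] J))) c :=
  ⟨t5d52_seq p ι hcompat htors v, t5d52_seq_ne_zero p ι hcompat htors hker v hprim,
    t5d52_seq_mem_eigen p ι hcompat htors TB TJ hequiv c v hv⟩

end Fermat.Agent.S30x
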