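/-
S30 (route `ROUTE_S30_helper88`, interfaces `ARCH-S30-1`), block T5 (`V[χ] ≠ 0`), TOP (helper52), prefix `t5x52_`.

`t5x52_top_of_pair`: from
* a commutative ring `A` with ring homs `fst : A →+* End_ℤ (lrL N)` (INJECTIVE) and `snd : A →+* 𝕋`
  (`𝕋` any ring, think `heckeAlgebra N 2 S`) and generators `gen i` with `fst (gen i) = lrtT N (idx i)`
  (= helper1's `hpa1_` pair algebra),
* a character `χ : 𝕋 →+* O`, `O` a Noetherian local domain of characteristic zero with `(p : O)` in its maximal ideal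
  (e.g. the complete DVR `𝒪'` of the frozen S30),
* a tower `ι n : lrL N →+ J` (`J` any additive group with operators `TJ i`, think `JZero N` with
  `heckeOperatorBar N (idx i)`) with `p ^ (n+1) • ι n = 0`, `ker (ι n) ⊆ p ^ (n+1) • lrL N`,
  `ι n ∘ lrtT N (idx i) = TJ i ∘ ι n`, `p • ι (n+1) = ι n` (= helper63's `iot63_tower`),
a NONZERO element of the eigen-submodule `tsq11_eigen (p : O) (TJ i ⊗ O) (χ (snd (gen i)))` of helper11's Tate module
`tsq11_T (p : O) (O ⊗[ℤ] J)`.
-/
import Fermat.Agent.S41x.EigenLRVec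
import Fermat.Agent.S30x.T5Core52
import Fermat.Agent.S30x.T5Push52

set_option autoImplicit false

namespace Fermat.Agent.S30x

open scoped MatrixGroups
open CongruenceSubgroup ModularCurve ModularCurve.Period TensorProduct
open Fermat.Agent.S41x

/-- the Betti lattice is a finite free `ℤ`-module -/
theorem t5x52_lrL_finite (N : ℕ) [NeZero N] : Module.Finite ℤ (lrL N) := by
  have hfg := emp_fg_Gamma0 N
  exact emp_finite_parabolicHoms (Gamma0 N)

theorem t5x52_lrL_torsionFree (N : ℕ) : Module.IsTorsionFree ℤ (lrL N) := by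
  apply Module.IsTorsionFree.of_smul_eq_zero
  intro r m hrm
  by_cases hr : r = 0
  · exact Or.inl hr
  · right
    apply Subtype.ext
    apply AddMonoidHom.ext
    intro g
    have h1 := congrArg (fun x : lrL N => (x : Additive (Gamma0 N) →+ ℤ) g) hrm
    simp only [Submodule.coe_smul, AddMonoidHom.smul_apply, smul_eq_mul, ZeroMemClass.coe_zero,
      AddMonoidHom.zero_apply] at h1
    exact (mul_eq_zero.mp h1).resolve_left hr

theorem t5x52_lrL_free (N : ℕ) [NeZero N] : Module.Free ℤ (lrL N) := by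
  have := t5x52_lrL_finite N
  have := t5x52_lrL_torsionFree N
  exact Module.free_of_finite_type_torsion_free'

/-- **T5 TOP (abstract pair algebra + abstract tower).** -/
theorem t5x52_top_of_pair {N : ℕ} [NeZero N] (p : ℕ) (hp : p ≠ 0)
    {A : Type*} [CommRing A] {𝕋 : Type*} [Semiring 𝕋]
    (fst : A →+* Module.End ℤ (lrL N)) (hfst : Function.Injective fst) (snd : A →+* 𝕋)
    {I : Type*} (idx : I → Nat.Primes) (gen : I → A) (hgen : ∀ i, fst (gen i) = lrtT N (idx i))
    {O : Type*} [CommRing O] [IsDomain O] [IsLocalRing O] [IsNoetherianRing O] [CharZero O]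
    (hpO : (p : O) ∈ IsLocalRing.maximalIdeal O) (χ : 𝕋 →+* O)
    {J : Type*} [AddCommGroup J] (TJ : I → Module.End ℤ J) (ι : ℕ → lrL N →+ J)
    (htors : ∀ n v, p ^ (n + 1) • ι n v = 0)
    (hker : ∀ n v, ι n v = 0 → ∃ w : lrL N, v = ((p ^ (n + 1) : ℕ) : ℤ) • w)
    (hequiv : ∀ n i v, ι n (lrtT N (idx i) v) = TJ i (ι n v))
    (hcompat : ∀ n v, p • ι (n + 1) v = ι n v) :
    ∃ x : tsq11_T (p : O) (O ⊗[ℤ] J), x ≠ 0 ∧
      x ∈ tsq11_eigen (p : O)
        (fun i => (LinearMap.baseChange O (TJ i) : Module.End O (O ⊗[ℤ] J)))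
        (fun i => χ (snd (gen i))) := by
  have hfin := t5x52_lrL_finite N
  have hfree := t5x52_lrL_free N
  have hp0 : (p : O) ≠ 0 := by exact_mod_cast hp
  obtain ⟨v, hprim, hv⟩ := t5c52_exists_primitive_eigenvector (V := lrL N) fst
    (fun x hx => hfst (by rw [hx, map_zero])) (χ.comp snd) (p : O) hpO hp0
  refine t5d52_exists p ι hcompat (fun v => by simpa using htors 0 v)
    (fun v hv0 => by
      obtain ⟨w, hw⟩ := hker 0 v hv0
      exact ⟨w, by simpa using hw⟩)
    (fun i => lrtT N (idx i)) TJ (fun i n v => hequiv n i v) (fun i => χ (snd (gen i))) v hprim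
    (fun i => ?_)
  rw [← hgen i]
  exact hv (gen i)

end Fermat.Agent.S30x
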