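/-
S30 (route `ROUTE_S30_helper88`, contract `S30_TOP_CONTRACT_helper88` item C5), block T5 FINAL (helper52), prefix `t5i52_`.

`t5i52_C5`: **`V[χ] ≠ 0`**, hypothesis-free, in the exact shape C5 of the S30 top contract:
for `0 < p`, a level `N`, a set `S`, a Noetherian local domain `O` of characteristic zero with `(p : O)` in its maximal
ideal (e.g. the complete DVR `𝒪'` of the frozen S30) and a character `χ : heckeAlgebra N 2 S →+* O`, the Tate module
`t4g37_V O N p = tsq11_T (p : O) (O ⊗[ℤ] JZero N)` contains a NONZERO `x` with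
`t4g37_TV O N p ⟨ℓ, hℓ⟩ x = χ (heckeAlgebra.T hℓ hℓN hℓS) • x` for all primes `ℓ ∉ S`, `ℓ ∤ N`.

Assembly of `t5x52_top_of_pair` (T5.a/b/d, helper52), helper1's pair algebra `hpa1_` (T5.c: `hpa1_fst_injective`) and
helper63's tower `iot63_tower_all` (T1, all `p`), stated against helper37's official definitions `t4g37_`.
-/
import Fermat.Agent.S30x.T5Top52
import Fermat.Agent.S30x.HeckePair1
import Fermat.Agent.S30x.IotaTowerAll63
import Fermat.Agent.S30x.T4Defs37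

set_option autoImplicit false

namespace Fermat.Agent.S30x

open scoped MatrixGroups
open CongruenceSubgroup ModularCurve ModularCurve.Period TensorProduct CuspForm
open Fermat.Agent.S41x

/-- **C5 of the S30 top contract: `V[χ] ≠ 0`.** -/
theorem t5i52_C5 (p : ℕ) (hp0 : 0 < p) (N : ℕ) [NeZero N] (S : Set ℕ)
    (O : Type*) [CommRing O] [IsDomain O] [IsLocalRing O] [IsNoetherianRing O] [CharZero O]
    (hpO : (p : O) ∈ IsLocalRing.maximalIdeal O) (χ : heckeAlgebra N 2 S →+* O) :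
    ∃ x : t4g37_V O N p, x ≠ 0 ∧
      ∀ (ℓ : ℕ) (hℓ : ℓ.Prime) (hℓN : ¬ ℓ ∣ N) (hℓS : ℓ ∉ S),
        t4g37_TV O N p ⟨ℓ, hℓ⟩ x = χ (heckeAlgebra.T hℓ hℓN hℓS) • x := by
  obtain ⟨ι, htors, hker, hequiv, hcompat⟩ := iot63_tower_all N p hp0
  obtain ⟨x, hx0, hx⟩ := t5x52_top_of_pair (N := N) p hp0.ne' (hpa1_fst N S) (hpa1_fst_injective N S)
    (hpa1_snd N S) (fun l : hpa1_I N S => l.1) (hpa1_tau N S) (fun l => hpa1_fst_tau N S l)
    hpO χ (fun l : hpa1_I N S => heckeOperatorBar N l.1) ι htors hker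
    (fun n l v => hequiv n l.1 l.2.2 v) hcompat
  refine ⟨x, hx0, fun ℓ hℓ hℓN hℓS => ?_⟩
  have h1 := tsq11_mem_eigen.mp hx ⟨⟨ℓ, hℓ⟩, hℓS, hℓN⟩
  exact h1

end Fermat.Agent.S30x
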