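/-
S30 project (parallel track), block T5, leaf T5(d) PUSH (helper63, under T5 captain helper52),
prefix `t5d63_`.  GENERIC part (Mathlib + S30x/TateSeq11 only).

Data: `O` a commutative ring, flat over `ℤ`; abelian groups `L`, `J`; `p : ℕ`; a TOWER
`ι : ℕ → L →+ J` with `p ^ (n + 1) • ι n v = 0`, `ι n v = 0 → v ∈ p ^ (n + 1) • L` and
`p • ι (n + 1) v = ι n v`.  Then

* `t5d63_seqHom` : the `O`-linear map `O ⊗ L → T = tsq11_T (p : O) (O ⊗ J)`,
  `z ↦ ((O ⊗ ι n) z)_n`;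
* `t5d63_ker_bc` (flatness): `(O ⊗ ι n) z = 0 → z ∈ p ^ (n + 1) • (O ⊗ L)`;
* `t5d63_seq_ne_zero` : `z ∉ p • (O ⊗ L) → t5d63_seqHom z ≠ 0`;
  `t5d63_seqHom_injective` when `O ⊗ L` is `p`-adically separated;
* `t5d63_seq_mem_eigen` : if `z` is a simultaneous eigenvector of `O ⊗ TL i` with eigenvalues
  `c i` and `ι n ∘ TL i = TJ i ∘ ι n`, then `t5d63_seqHom z ∈ tsq11_eigen (p : O) (O ⊗ TJ i) c`.
-/
import Mathlib
import Fermat.Agent.S30x.TateSeq11

set_option autoImplicit false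

namespace Fermat.Agent.S30x

open TensorProduct

noncomputable section

variable (O : Type*) [CommRing O] {L J : Type*} [AddCommGroup L] [AddCommGroup J]

/-- base change `O ⊗ L → O ⊗ J` of an additive map. -/
def t5d63_bc (f : L →+ J) : O ⊗[ℤ] L →ₗ[O] O ⊗[ℤ] J :=
  f.toIntLinearMap.baseChange O

theorem t5d63_bc_tmul (f : L →+ J) (a : O) (v : L) :
    t5d63_bc O f (a ⊗ₜ[ℤ] v) = a ⊗ₜ[ℤ] f v := rfl

theorem t5d63_bc_eq_lTensor (f : L →+ J) (z : O ⊗[ℤ] L) :
    t5d63_bc O f z = f.toIntLinearMap.lTensor O z := rfl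

theorem t5d63_bc_zero : t5d63_bc O (0 : L →+ J) = 0 := by
  apply LinearMap.ext
  intro z
  induction z using TensorProduct.induction_on with
  | zero => simp
  | tmul a v =>
    rw [t5d63_bc_tmul, AddMonoidHom.zero_apply, tmul_zero, LinearMap.zero_apply]
  | add x y hx hy => rw [map_add, hx, hy, map_add]

theorem t5d63_bc_nsmul (m : ℕ) (f : L →+ J) :
    t5d63_bc O (m • f) = (m : O) • t5d63_bc O f := by
  apply LinearMap.ext
  intro z
  induction z using TensorProduct.induction_on with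
  | zero => simp
  | tmul a v =>
    rw [LinearMap.smul_apply, t5d63_bc_tmul, t5d63_bc_tmul, AddMonoidHom.nsmul_apply,
      TensorProduct.tmul_smul, Nat.cast_smul_eq_nsmul]
  | add x y hx hy => rw [map_add, hx, hy, map_add]

theorem t5d63_bc_congr {f g : L →+ J} (h : ∀ v, f v = g v) : t5d63_bc O f = t5d63_bc O g := by
  have : f = g := AddMonoidHom.ext h
  rw [this]

/-- **flatness**: the kernel of `O ⊗ f` when `f` has kernel `m • L` and is killed by `m`. -/
theorem t5d63_ker_bc [Module.Flat ℤ O] (f : L →+ J) (m : ℕ) (htors : ∀ v, m • f v = 0)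
    (hker : ∀ v, f v = 0 → ∃ w : L, v = (m : ℤ) • w) (z : O ⊗[ℤ] L)
    (hz : t5d63_bc O f z = 0) : ∃ w : O ⊗[ℤ] L, z = (m : O) • w := by
  set g : L →ₗ[ℤ] L := (m : ℤ) • (LinearMap.id : L →ₗ[ℤ] L) with hg
  have hex : Function.Exact g f.toIntLinearMap := by
    intro y
    constructor
    · intro hy
      obtain ⟨w, rfl⟩ := hker y hy
      exact ⟨w, by simp [hg]⟩
    · rintro ⟨w, rfl⟩
      show f (g w) = 0
      have : g w = m • w := by simp [hg]
      rw [this, map_nsmul, htors]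
  have hex' := Module.Flat.lTensor_exact O hex
  rw [t5d63_bc_eq_lTensor] at hz
  obtain ⟨w, hw⟩ := (hex' z).mp hz
  refine ⟨w, ?_⟩
  rw [← hw, hg, LinearMap.lTensor_smul, LinearMap.lTensor_id, LinearMap.smul_apply,
    LinearMap.id_apply, ← Int.cast_smul_eq_zsmul O, Int.cast_natCast]

/-! ### the tower -/

variable {O} (p : ℕ) (ι : ℕ → L →+ J)
  (htors : ∀ n v, p ^ (n + 1) • ι n v = 0)
  (hcompat : ∀ n v, p • ι (n + 1) v = ι n v)

include htors hcompat in
theorem t5d63_seq_mem (z : O ⊗[ℤ] L) :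
    (fun n => t5d63_bc O (ι n) z) ∈ tsq11_T ((p : ℕ) : O) (O ⊗[ℤ] J) := by
  refine ⟨?_, fun n => ?_⟩
  · show ((p : ℕ) : O) • t5d63_bc O (ι 0) z = 0
    rw [← LinearMap.smul_apply, ← t5d63_bc_nsmul]
    have h0 : p • ι 0 = 0 := by
      refine AddMonoidHom.ext fun v => ?_
      have := htors 0 v
      rw [zero_add, pow_one] at this
      rw [AddMonoidHom.nsmul_apply, this, AddMonoidHom.zero_apply]
    rw [h0, t5d63_bc_zero, LinearMap.zero_apply]
  · show ((p : ℕ) : O) • t5d63_bc O (ι (n + 1)) z = t5d63_bc O (ι n) z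
    rw [← LinearMap.smul_apply, ← t5d63_bc_nsmul]
    have h1 : p • ι (n + 1) = ι n := by
      refine AddMonoidHom.ext fun v => ?_
      rw [AddMonoidHom.nsmul_apply, hcompat]
    rw [h1]

/-- **the push**: `z ↦ ((O ⊗ ι n) z)_n`, an `O`-linear map into the sequence model. -/
def t5d63_seqHom : O ⊗[ℤ] L →ₗ[O] tsq11_T ((p : ℕ) : O) (O ⊗[ℤ] J) where
  toFun z := ⟨fun n => t5d63_bc O (ι n) z, t5d63_seq_mem p ι htors hcompat z⟩
  map_add' x y := by
    apply Subtype.ext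
    funext n
    show t5d63_bc O (ι n) (x + y) = t5d63_bc O (ι n) x + t5d63_bc O (ι n) y
    rw [map_add]
  map_smul' c x := by
    apply Subtype.ext
    funext n
    show t5d63_bc O (ι n) (c • x) = c • t5d63_bc O (ι n) x
    rw [map_smul]

@[simp] theorem t5d63_seqHom_apply (z : O ⊗[ℤ] L) (n : ℕ) :
    ((t5d63_seqHom p ι htors hcompat z : tsq11_T ((p : ℕ) : O) (O ⊗[ℤ] J)) : ℕ → O ⊗[ℤ] J) n =
      t5d63_bc O (ι n) z := rfl

variable (hker : ∀ n v, ι n v = 0 → ∃ w : L, v = ((p ^ (n + 1) : ℕ) : ℤ) • w)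

include htors hker in
/-- vanishing of the `n`-th component. -/
theorem t5d63_component_eq_zero [Module.Flat ℤ O] (z : O ⊗[ℤ] L) (n : ℕ)
    (h : t5d63_bc O (ι n) z = 0) : ∃ w : O ⊗[ℤ] L, z = ((p : ℕ) : O) ^ (n + 1) • w := by
  obtain ⟨w, hw⟩ := t5d63_ker_bc O (ι n) (p ^ (n + 1)) (htors n) (hker n) z h
  refine ⟨w, ?_⟩
  rw [hw]
  push_cast
  rfl

include hker in
/-- **non-vanishing**: a vector which is not divisible by `p` has a nonzero image. -/
theorem t5d63_seq_ne_zero [Module.Flat ℤ O] (z : O ⊗[ℤ] L)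
    (hz : ¬ ∃ w : O ⊗[ℤ] L, z = ((p : ℕ) : O) • w) :
    t5d63_seqHom p ι htors hcompat z ≠ 0 := by
  intro h0
  apply hz
  have h1 : t5d63_bc O (ι 0) z = 0 := by
    have := congrArg (fun x : tsq11_T ((p : ℕ) : O) (O ⊗[ℤ] J) => (x : ℕ → O ⊗[ℤ] J) 0) h0
    exact this
  obtain ⟨w, hw⟩ := t5d63_component_eq_zero p ι htors hker z 0 h1
  exact ⟨w, by rw [hw, zero_add, pow_one]⟩

include hker in
/-- injectivity when `O ⊗ L` is `p`-adically separated. -/
theorem t5d63_seqHom_injective [Module.Flat ℤ O]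
    (hsep : ∀ z : O ⊗[ℤ] L, (∀ n : ℕ, ∃ w : O ⊗[ℤ] L, z = ((p : ℕ) : O) ^ (n + 1) • w) → z = 0) :
    Function.Injective (t5d63_seqHom (O := O) p ι htors hcompat) := by
  rw [injective_iff_map_eq_zero]
  intro z hz
  apply hsep
  intro n
  apply t5d63_component_eq_zero p ι htors hker z n
  have := congrArg (fun x : tsq11_T ((p : ℕ) : O) (O ⊗[ℤ] J) => (x : ℕ → O ⊗[ℤ] J) n) hz
  exact this

/-- **eigenvectors go to eigenvectors**. -/
theorem t5d63_seq_mem_eigen {I : Type*} (TL : I → Module.End ℤ L) (TJ : I → Module.End ℤ J)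
    (c : I → O) (hequiv : ∀ i n v, ι n (TL i v) = TJ i (ι n v)) (z : O ⊗[ℤ] L)
    (hz : ∀ i, (TL i).baseChange O z = c i • z) :
    t5d63_seqHom p ι htors hcompat z ∈
      tsq11_eigen ((p : ℕ) : O) (fun i => (TJ i).baseChange O) c := by
  rw [tsq11_mem_eigen_iff_components]
  intro i n
  show (TJ i).baseChange O (t5d63_bc O (ι n) z) = c i • t5d63_bc O (ι n) z
  have hcomp : (TJ i) ∘ₗ (ι n).toIntLinearMap = (ι n).toIntLinearMap ∘ₗ (TL i) := by
    apply LinearMap.ext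
    intro v
    exact (hequiv i n v).symm
  have h1 : (TJ i).baseChange O (t5d63_bc O (ι n) z) =
      t5d63_bc O (ι n) ((TL i).baseChange O z) := by
    unfold t5d63_bc
    rw [← LinearMap.comp_apply, ← LinearMap.baseChange_comp, hcomp, LinearMap.baseChange_comp,
      LinearMap.comp_apply]
  rw [h1, hz i, map_smul]

end

end Fermat.Agent.S30x
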