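/-
S30 project (parallel track), block T5, leaf T5(d) PUSH, INSTANCE (helper63), prefix `t5d63_`:
the tower `ι_n = iot63_iotaN N p` (S30x/IotaTowerAll63, every `p > 0`) pushes a `p`-primitive
simultaneous eigenvector `z ∈ O ⊗ lrL N` of the Betti Hecke operators `lrtT N ℓ` to a NONZERO
element of the eigen-submodule `V[χ] = tsq11_eigen` of the Tate sequence model
`T = tsq11_T (p : O) (O ⊗ JZero N)` for the operators `(heckeOperatorBar N ℓ).baseChange O`.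
-/
import Mathlib
import Fermat.Agent.S30x.T5Push63
import Fermat.Agent.S30x.IotaTowerAll63

set_option autoImplicit false

namespace Fermat.Agent.S30x

open TensorProduct ModularCurve AlgebraicCurve
open Fermat.Agent.S41x Fermat.Agent.S42x

noncomputable section

variable (N : ℕ) [NeZero N] (p : ℕ) (hp0 : 0 < p) (O : Type*) [CommRing O]

/-- the push map for the modular tower. -/
def t5d63_pushN : O ⊗[ℤ] lrL N →ₗ[O] tsq11_T ((p : ℕ) : O) (O ⊗[ℤ] JZero N) :=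
  t5d63_seqHom p (iot63_iotaN N p hp0) (iot63_iotaN_tors N p hp0) (iot63_iotaN_compat N p hp0)

theorem t5d63_pushN_apply (z : O ⊗[ℤ] lrL N) (n : ℕ) :
    ((t5d63_pushN N p hp0 O z : tsq11_T ((p : ℕ) : O) (O ⊗[ℤ] JZero N)) :
      ℕ → O ⊗[ℤ] JZero N) n = t5d63_bc O (iot63_iotaN N p hp0 n) z := rfl

/-- non-vanishing on `p`-primitive vectors. -/
theorem t5d63_pushN_ne_zero [Module.Flat ℤ O] (z : O ⊗[ℤ] lrL N)
    (hz : ¬ ∃ w : O ⊗[ℤ] lrL N, z = ((p : ℕ) : O) • w) : t5d63_pushN N p hp0 O z ≠ 0 :=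
  t5d63_seq_ne_zero p (iot63_iotaN N p hp0) (iot63_iotaN_tors N p hp0)
    (iot63_iotaN_compat N p hp0) (iot63_iotaN_ker N p hp0) z hz

/-- injectivity when `O ⊗ lrL N` is `p`-adically separated. -/
theorem t5d63_pushN_injective [Module.Flat ℤ O]
    (hsep : ∀ z : O ⊗[ℤ] lrL N,
      (∀ n : ℕ, ∃ w : O ⊗[ℤ] lrL N, z = ((p : ℕ) : O) ^ (n + 1) • w) → z = 0) :
    Function.Injective (t5d63_pushN N p hp0 O) :=
  t5d63_seqHom_injective p (iot63_iotaN N p hp0) (iot63_iotaN_tors N p hp0)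
    (iot63_iotaN_compat N p hp0) (iot63_iotaN_ker N p hp0) hsep

/-- Hecke equivariance of the push: eigenvectors go to `V[χ]`. -/
theorem t5d63_pushN_mem_eigen {I : Type*} (ℓ : I → Nat.Primes) (hℓ : ∀ i, ¬ ((ℓ i : ℕ) ∣ N))
    (c : I → O) (z : O ⊗[ℤ] lrL N) (hz : ∀ i, (lrtT N (ℓ i)).baseChange O z = c i • z) :
    t5d63_pushN N p hp0 O z ∈
      tsq11_eigen ((p : ℕ) : O) (fun i => (heckeOperatorBar N (ℓ i)).baseChange O) c :=
  t5d63_seq_mem_eigen p (iot63_iotaN N p hp0) (iot63_iotaN_tors N p hp0)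
    (iot63_iotaN_compat N p hp0) (fun i => lrtT N (ℓ i)) (fun i => heckeOperatorBar N (ℓ i)) c
    (fun i n v => iot63_iotaN_hecke N p hp0 n (ℓ i) (hℓ i) v) z hz

include hp0 in
/-- **T5(d)**: a `p`-primitive simultaneous eigenvector of the Betti Hecke operators gives a
NONZERO element of `V[χ]`. -/
theorem t5d63_exists_eigen [Module.Flat ℤ O] {I : Type*} (ℓ : I → Nat.Primes)
    (hℓ : ∀ i, ¬ ((ℓ i : ℕ) ∣ N)) (c : I → O) (z : O ⊗[ℤ] lrL N)
    (hprim : ¬ ∃ w : O ⊗[ℤ] lrL N, z = ((p : ℕ) : O) • w)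
    (hz : ∀ i, (lrtT N (ℓ i)).baseChange O z = c i • z) :
    ∃ x : tsq11_T ((p : ℕ) : O) (O ⊗[ℤ] JZero N), x ≠ 0 ∧
      x ∈ tsq11_eigen ((p : ℕ) : O) (fun i => (heckeOperatorBar N (ℓ i)).baseChange O) c :=
  ⟨t5d63_pushN N p hp0 O z, t5d63_pushN_ne_zero N p hp0 O z hprim,
    t5d63_pushN_mem_eigen N p hp0 O ℓ hℓ c z hz⟩

include hp0 in
/-- the eigen-submodule `V[χ]` is nontrivial. -/
theorem t5d63_eigen_ne_bot [Module.Flat ℤ O] {I : Type*} (ℓ : I → Nat.Primes)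
    (hℓ : ∀ i, ¬ ((ℓ i : ℕ) ∣ N)) (c : I → O) (z : O ⊗[ℤ] lrL N)
    (hprim : ¬ ∃ w : O ⊗[ℤ] lrL N, z = ((p : ℕ) : O) • w)
    (hz : ∀ i, (lrtT N (ℓ i)).baseChange O z = c i • z) :
    tsq11_eigen ((p : ℕ) : O) (fun i => (heckeOperatorBar N (ℓ i)).baseChange O) c ≠ ⊥ := by
  obtain ⟨x, hx0, hx⟩ := t5d63_exists_eigen N p hp0 O ℓ hℓ c z hprim hz
  intro hbot
  rw [hbot, Submodule.mem_bot] at hx
  exact hx0 hx

end

end Fermat.Agent.S30x
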