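/-
S30x/TateSeq95.lean (helper95, S30 project, block T2a, prefix `tsq95_`): the SEQUENCE MODEL of the
Tate module.  Mathlib only, fully generic: `O` a commutative ring, `J` an additive commutative
group, `p : ℕ`.  `tsq95_V O J p` is the `O`-module of sequences `x : ℕ → O ⊗[ℤ] J` with
`p • x 0 = 0` and `p • x (n + 1) = x n`.
-/
import Mathlib

set_option autoImplicit false
set_option linter.style.haveILetI false

namespace Fermat.Agent.S30x

open TensorProduct

section Defs

variable (O : Type*) [CommRing O] (J : Type*) [AddCommGroup J] (p : ℕ)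

/-- **The Tate module, sequence model**: compatible sequences in `O ⊗[ℤ] J`. -/
def tsq95_V : Submodule O (ℕ → O ⊗[ℤ] J) where
  carrier := {x | p • x 0 = 0 ∧ ∀ n, p • x (n + 1) = x n}
  add_mem' := by
    rintro x y ⟨hx0, hx⟩ ⟨hy0, hy⟩
    refine ⟨?_, fun n => ?_⟩
    · rw [Pi.add_apply, smul_add, hx0, hy0, add_zero]
    · rw [Pi.add_apply, smul_add, hx n, hy n, Pi.add_apply]
  zero_mem' := ⟨by rw [Pi.zero_apply, smul_zero], fun n => by rw [Pi.zero_apply, smul_zero]; rfl⟩
  smul_mem' := by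
    rintro c x ⟨hx0, hx⟩
    refine ⟨?_, fun n => ?_⟩
    · rw [Pi.smul_apply, smul_comm, hx0, smul_zero]
    · rw [Pi.smul_apply, smul_comm, hx n, Pi.smul_apply]

variable {O J p}

theorem tsq95_mem_V {x : ℕ → O ⊗[ℤ] J} :
    x ∈ tsq95_V O J p ↔ p • x 0 = 0 ∧ ∀ n, p • x (n + 1) = x n := Iff.rfl

theorem tsq95_smul_zero (x : tsq95_V O J p) : p • x.1 0 = 0 := x.2.1

theorem tsq95_smul_succ (x : tsq95_V O J p) (n : ℕ) : p • x.1 (n + 1) = x.1 n := x.2.2 n

theorem tsq95_pow_smul (x : tsq95_V O J p) (n k : ℕ) : p ^ k • x.1 (n + k) = x.1 n := by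
  induction k with
  | zero => rw [pow_zero, one_smul, add_zero]
  | succ k ih => rw [pow_succ, mul_smul, ← add_assoc, tsq95_smul_succ, ih]

theorem tsq95_pow_smul_eq_zero (x : tsq95_V O J p) (n : ℕ) : p ^ (n + 1) • x.1 n = 0 := by
  rw [pow_succ, mul_smul, tsq95_smul_zero_aux x n]
where
  tsq95_smul_zero_aux (x : tsq95_V O J p) (n : ℕ) : p ^ n • (p • x.1 n) = 0 := by
    induction n with
    | zero => rw [pow_zero, one_smul, tsq95_smul_zero]
    | succ n ih => rw [tsq95_smul_succ, pow_succ, mul_smul, ih]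

theorem tsq95_ext {x y : tsq95_V O J p} (h : ∀ n, x.1 n = y.1 n) : x = y :=
  Subtype.ext (funext h)

@[simp] theorem tsq95_add_apply (x y : tsq95_V O J p) (n : ℕ) : (x + y).1 n = x.1 n + y.1 n := rfl

@[simp] theorem tsq95_smul_apply (c : O) (x : tsq95_V O J p) (n : ℕ) : (c • x).1 n = c • x.1 n :=
  rfl

@[simp] theorem tsq95_zero_apply (n : ℕ) : (0 : tsq95_V O J p).1 n = 0 := rfl

@[simp] theorem tsq95_sub_apply (x y : tsq95_V O J p) (n : ℕ) : (x - y).1 n = x.1 n - y.1 n := rfl

@[simp] theorem tsq95_neg_apply (x : tsq95_V O J p) (n : ℕ) : (-x).1 n = -x.1 n := rfl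

theorem tsq95_nsmul_apply (k : ℕ) (x : tsq95_V O J p) (n : ℕ) : (k • x).1 n = k • x.1 n := rfl

end Defs

/-! ### functoriality: additive endomorphisms of `J` act on `V` -/

section Map

variable (O : Type*) [CommRing O] {J : Type*} [AddCommGroup J] (p : ℕ)

/-- `f ⊗ O` on `O ⊗[ℤ] J` -/
def tsq95_mapM (f : J →+ J) : O ⊗[ℤ] J →ₗ[O] O ⊗[ℤ] J :=
  f.toIntLinearMap.baseChange O

@[simp] theorem tsq95_mapM_tmul (f : J →+ J) (c : O) (x : J) :
    tsq95_mapM O f (c ⊗ₜ[ℤ] x) = c ⊗ₜ[ℤ] f x := by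
  rw [tsq95_mapM, LinearMap.baseChange_tmul]; rfl

theorem tsq95_mapM_id : tsq95_mapM O (AddMonoidHom.id J) = LinearMap.id := by
  apply TensorProduct.AlgebraTensorModule.curry_injective
  ext x
  simp

theorem tsq95_mapM_comp (f g : J →+ J) :
    tsq95_mapM O (f.comp g) = tsq95_mapM O f ∘ₗ tsq95_mapM O g := by
  apply TensorProduct.AlgebraTensorModule.curry_injective
  ext x
  simp

theorem tsq95_mapM_add (f g : J →+ J) :
    tsq95_mapM O (f + g) = tsq95_mapM O f + tsq95_mapM O g := by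
  apply TensorProduct.AlgebraTensorModule.curry_injective
  ext x
  simp [TensorProduct.tmul_add]

theorem tsq95_mapM_zero : tsq95_mapM O (0 : J →+ J) = 0 := by
  apply TensorProduct.AlgebraTensorModule.curry_injective
  ext x
  simp

/-- the action of an additive endomorphism of `J` on the sequence model, componentwise -/
def tsq95_map (f : J →+ J) : tsq95_V O J p →ₗ[O] tsq95_V O J p where
  toFun x := ⟨fun n => tsq95_mapM O f (x.1 n), by
    refine ⟨?_, fun n => ?_⟩
    · rw [← map_nsmul, tsq95_smul_zero, map_zero]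
    · rw [← map_nsmul, tsq95_smul_succ]⟩
  map_add' x y := by
    apply tsq95_ext; intro n
    simp
  map_smul' c x := by
    apply tsq95_ext; intro n
    simp

@[simp] theorem tsq95_map_apply (f : J →+ J) (x : tsq95_V O J p) (n : ℕ) :
    (tsq95_map O p f x).1 n = tsq95_mapM O f (x.1 n) := rfl

theorem tsq95_map_id : tsq95_map O p (AddMonoidHom.id J) = LinearMap.id := by
  ext x : 1
  apply tsq95_ext; intro n
  rw [tsq95_map_apply, tsq95_mapM_id]; rfl

theorem tsq95_map_comp (f g : J →+ J) :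
    tsq95_map O p (f.comp g) = tsq95_map O p f ∘ₗ tsq95_map O p g := by
  ext x : 1
  apply tsq95_ext; intro n
  rw [tsq95_map_apply, tsq95_mapM_comp]; rfl

theorem tsq95_map_add (f g : J →+ J) :
    tsq95_map O p (f + g) = tsq95_map O p f + tsq95_map O p g := by
  ext x : 1
  apply tsq95_ext; intro n
  rw [tsq95_map_apply, tsq95_mapM_add]; rfl

theorem tsq95_map_zero : tsq95_map O p (0 : J →+ J) = 0 := by
  ext x : 1
  apply tsq95_ext; intro n
  rw [tsq95_map_apply, tsq95_mapM_zero]; rfl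

/-- the ring homomorphism `End(J) → End_O(V)` -/
def tsq95_mapHom : AddMonoid.End J →+* Module.End O (tsq95_V O J p) where
  toFun f := tsq95_map O p f
  map_one' := tsq95_map_id O p
  map_mul' f g := tsq95_map_comp O p f g
  map_zero' := tsq95_map_zero O p
  map_add' f g := tsq95_map_add O p f g

@[simp] theorem tsq95_mapHom_apply (f : AddMonoid.End J) :
    tsq95_mapHom O p f = tsq95_map O p f := rfl

/-- a representation of a monoid `G` on `J` by additive endomorphisms induces an `O`-linear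
representation on `V` -/
def tsq95_rep {G : Type*} [Monoid G] (ρ : G →* AddMonoid.End J) :
    G →* Module.End O (tsq95_V O J p) :=
  (tsq95_mapHom O p (J := J)).toMonoidHom.comp ρ

@[simp] theorem tsq95_rep_apply {G : Type*} [Monoid G] (ρ : G →* AddMonoid.End J) (g : G)
    (x : tsq95_V O J p) (n : ℕ) : (tsq95_rep O p ρ g x).1 n = tsq95_mapM O (ρ g) (x.1 n) := rfl

/-- commuting endomorphisms of `J` induce commuting endomorphisms of `V` -/
theorem tsq95_map_commute {f g : J →+ J} (h : f.comp g = g.comp f) :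
    tsq95_map O p f ∘ₗ tsq95_map O p g = tsq95_map O p g ∘ₗ tsq95_map O p f := by
  rw [← tsq95_map_comp, ← tsq95_map_comp, h]

end Map

/-! ### (V1), (V2): the `p`-adic filtration, separatedness, completeness, torsion -/

section Adic

variable {O : Type*} [CommRing O] {J : Type*} [AddCommGroup J] {p : ℕ}

theorem tsq95_apply_eq_zero_of_le (x : tsq95_V O J p) {k m : ℕ} (hkm : k ≤ m) (h : x.1 m = 0) :
    x.1 k = 0 := by
  obtain ⟨d, rfl⟩ := Nat.exists_eq_add_of_le hkm
  rw [← tsq95_pow_smul x k d, h, smul_zero]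

/-- the shifted sequence `k ↦ x (k + (m + 1))`, when `x m = 0` -/
def tsq95_shift (x : tsq95_V O J p) (m : ℕ) (h : x.1 m = 0) : tsq95_V O J p :=
  ⟨fun k => x.1 (k + (m + 1)), by
    refine ⟨?_, fun n => ?_⟩
    · show p • x.1 (0 + (m + 1)) = 0
      rw [zero_add, tsq95_smul_succ, h]
    · show p • x.1 (n + 1 + (m + 1)) = x.1 (n + (m + 1))
      have e : n + 1 + (m + 1) = (n + (m + 1)) + 1 := by ring
      rw [e, tsq95_smul_succ]⟩

theorem tsq95_shift_apply (x : tsq95_V O J p) (m : ℕ) (h : x.1 m = 0) (k : ℕ) :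
    (tsq95_shift x m h).1 k = x.1 (k + (m + 1)) := rfl

theorem tsq95_pow_smul_shift (x : tsq95_V O J p) (m : ℕ) (h : x.1 m = 0) :
    p ^ (m + 1) • tsq95_shift x m h = x := by
  apply tsq95_ext; intro n
  rw [tsq95_nsmul_apply, tsq95_shift_apply]
  exact tsq95_pow_smul x n (m + 1)

/-- **(V1)**, element form: `x ∈ p^(m+1) V ↔ x m = 0`. -/
theorem tsq95_exists_pow_smul_iff (x : tsq95_V O J p) (m : ℕ) :
    (∃ y : tsq95_V O J p, p ^ (m + 1) • y = x) ↔ x.1 m = 0 := by
  constructor
  · rintro ⟨y, rfl⟩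
    rw [tsq95_nsmul_apply, tsq95_pow_smul_eq_zero]
  · intro h
    exact ⟨_, tsq95_pow_smul_shift x m h⟩

/-- **(V1)**, ideal form: `x ∈ (p)^(m+1) • ⊤ ↔ x m = 0`. -/
theorem tsq95_mem_pow_smul_top_iff (x : tsq95_V O J p) (m : ℕ) :
    x ∈ (Ideal.span {(p : O)} ^ (m + 1) • (⊤ : Submodule O (tsq95_V O J p))) ↔ x.1 m = 0 := by
  rw [Ideal.span_singleton_pow, Submodule.ideal_span_singleton_smul,
    Submodule.mem_smul_pointwise_iff_exists, ← tsq95_exists_pow_smul_iff]
  constructor
  · rintro ⟨y, -, hy⟩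
    refine ⟨y, ?_⟩
    rw [← hy, ← Nat.cast_pow, Nat.cast_smul_eq_nsmul]
  · rintro ⟨y, hy⟩
    refine ⟨y, Submodule.mem_top, ?_⟩
    rw [← hy, ← Nat.cast_pow, Nat.cast_smul_eq_nsmul]

/-- `x ∈ (p) • ⊤ ↔ x 0 = 0`. -/
theorem tsq95_mem_smul_top_iff (x : tsq95_V O J p) :
    x ∈ (Ideal.span {(p : O)} • (⊤ : Submodule O (tsq95_V O J p))) ↔ x.1 0 = 0 := by
  have := tsq95_mem_pow_smul_top_iff x 0
  rwa [zero_add, pow_one] at this

/-- **`V` is `p`-adically separated.** -/
theorem tsq95_isHausdorff : IsHausdorff (Ideal.span {(p : O)}) (tsq95_V O J p) := by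
  refine ⟨fun x hx => ?_⟩
  apply tsq95_ext; intro n
  have h := hx (n + 1)
  rw [SModEq.zero] at h
  exact (tsq95_mem_pow_smul_top_iff x n).1 h

/-- **(V2): `V` is `p`-adically precomplete.** -/
theorem tsq95_isPrecomplete : IsPrecomplete (Ideal.span {(p : O)}) (tsq95_V O J p) := by
  refine ⟨fun f hf => ?_⟩
  have key : ∀ m n, m ≤ n → ∀ k, k < m → (f m).1 k = (f n).1 k := by
    intro m n hmn k hk
    obtain ⟨m', rfl⟩ := Nat.exists_eq_succ_of_ne_zero (Nat.pos_iff_ne_zero.1 (by omega : 0 < m))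
    have h1 := hf hmn
    rw [SModEq.sub_mem, tsq95_mem_pow_smul_top_iff] at h1
    have h2 := tsq95_apply_eq_zero_of_le (f (m' + 1) - f n) (by omega : k ≤ m') h1
    rw [tsq95_sub_apply, sub_eq_zero] at h2
    exact h2
  refine ⟨⟨fun k => (f (k + 1)).1 k, ?_, fun k => ?_⟩, fun n => ?_⟩
  · exact tsq95_smul_zero (f 1)
  · show p • (f (k + 1 + 1)).1 (k + 1) = (f (k + 1)).1 k
    rw [tsq95_smul_succ]
    exact (key (k + 1) (k + 1 + 1) (by omega) k (by omega)).symm
  · rcases n with _ | n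
    · rw [pow_zero, Ideal.one_eq_top, Submodule.top_smul]
      exact SModEq.top
    · rw [SModEq.sub_mem, tsq95_mem_pow_smul_top_iff, tsq95_sub_apply, sub_eq_zero]

/-- **`V` is `p`-adically complete.** -/
theorem tsq95_isAdicComplete : IsAdicComplete (Ideal.span {(p : O)}) (tsq95_V O J p) :=
  { tsq95_isHausdorff, tsq95_isPrecomplete with }

/-- **no `p`-torsion.** -/
theorem tsq95_eq_zero_of_nsmul_eq_zero (x : tsq95_V O J p) (h : p • x = 0) : x = 0 := by
  apply tsq95_ext; intro n
  have h1 := congrArg (fun y : tsq95_V O J p => y.1 (n + 1)) h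
  simp only [tsq95_nsmul_apply, tsq95_smul_succ, tsq95_zero_apply] at h1
  exact h1

theorem tsq95_eq_zero_of_pow_nsmul_eq_zero (x : tsq95_V O J p) (k : ℕ) (h : p ^ k • x = 0) :
    x = 0 := by
  induction k with
  | zero => rwa [pow_zero, one_smul] at h
  | succ k ih =>
    apply ih
    apply tsq95_eq_zero_of_nsmul_eq_zero
    rw [← mul_smul, ← pow_succ']
    exact h

/-- **no `a`-torsion for any divisor `a` of a power of `p`** (e.g. a uniformiser of a DVR with
`p` in its maximal ideal, `p ≠ 0`). -/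
theorem tsq95_eq_zero_of_smul_eq_zero {a b : O} {k : ℕ} (hab : b * a = (p : O) ^ k)
    (x : tsq95_V O J p) (h : a • x = 0) : x = 0 := by
  apply tsq95_eq_zero_of_pow_nsmul_eq_zero x k
  rw [← Nat.cast_smul_eq_nsmul O, Nat.cast_pow, ← hab, mul_smul, h, smul_zero]

end Adic

/-! ### torsion of `O ⊗ J` for flat `O`, and the finiteness input of (V3) -/

section Flat

variable (O : Type*) [CommRing O] (J : Type*) [AddCommGroup J]

/-- the inclusion `O ⊗ J[k] → O ⊗ J` as an `O`-linear map -/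
def tsq95_torsIncl (k : ℕ) :
    O ⊗[ℤ] (Submodule.torsionBy ℤ J (k : ℤ)) →ₗ[O] O ⊗[ℤ] J :=
  (Submodule.torsionBy ℤ J (k : ℤ)).subtype.baseChange O

/-- **`(O ⊗ J)[k]` is the image of `O ⊗ J[k]`** when `O` is flat over `ℤ`. -/
theorem tsq95_mem_range_torsIncl [Module.Flat ℤ O] (k : ℕ) (z : O ⊗[ℤ] J) (hz : k • z = 0) :
    z ∈ LinearMap.range (tsq95_torsIncl O J k) := by
  set g : J →ₗ[ℤ] J := DistribSMul.toLinearMap ℤ J (k : ℤ) with hg
  have hex : Function.Exact (LinearMap.ker g).subtype g := LinearMap.exact_subtype_ker_map g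
  have hex' := Module.Flat.lTensor_exact O hex
  have hgz : g.lTensor O z = 0 := by
    have : g.lTensor O = (k : ℤ) • LinearMap.id := by
      apply TensorProduct.ext'
      intro c x
      rw [LinearMap.lTensor_tmul, LinearMap.smul_apply, LinearMap.id_apply,
        TensorProduct.smul_tmul', TensorProduct.smul_tmul]
      rfl
    rw [this, LinearMap.smul_apply, LinearMap.id_apply, natCast_zsmul, hz]
  obtain ⟨y, hy⟩ := (hex' z).1 hgz
  exact ⟨y, hy⟩

theorem tsq95_torsIncl_smul (k : ℕ) (y : O ⊗[ℤ] (Submodule.torsionBy ℤ J (k : ℤ))) :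
    k • tsq95_torsIncl O J k y = 0 := by
  induction y using TensorProduct.induction_on with
  | zero => rw [map_zero, smul_zero]
  | tmul c x =>
    rw [tsq95_torsIncl, LinearMap.baseChange_tmul, ← TensorProduct.tmul_smul]
    have hx : (k : ℤ) • (x : J) = 0 := (Submodule.mem_torsionBy_iff _ _).1 x.2
    rw [Submodule.subtype_apply, ← natCast_zsmul, hx, TensorProduct.tmul_zero]
  | add a b ha hb => rw [map_add, smul_add, ha, hb, add_zero]

variable (p : ℕ)

/-- the `n`-th component as an `O`-linear map `V → O ⊗ J` -/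
def tsq95_proj (n : ℕ) : tsq95_V O J p →ₗ[O] O ⊗[ℤ] J :=
  (LinearMap.proj n).comp (tsq95_V O J p).subtype

@[simp] theorem tsq95_proj_apply (n : ℕ) (x : tsq95_V O J p) : tsq95_proj O J p n x = x.1 n := rfl

/-- **(V1)**, kernel form: `ker (proj_n) = (p)^(n+1) V`. -/
theorem tsq95_ker_proj (n : ℕ) :
    LinearMap.ker (tsq95_proj O J p n) =
      Ideal.span {(p : O)} ^ (n + 1) • (⊤ : Submodule O (tsq95_V O J p)) := by
  ext x
  rw [LinearMap.mem_ker, tsq95_mem_pow_smul_top_iff, tsq95_proj_apply]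

theorem tsq95_range_proj_le [Module.Flat ℤ O] (n : ℕ) :
    LinearMap.range (tsq95_proj O J p n) ≤ LinearMap.range (tsq95_torsIncl O J (p ^ (n + 1))) := by
  rintro _ ⟨x, rfl⟩
  exact tsq95_mem_range_torsIncl O J _ _ (tsq95_pow_smul_eq_zero x n)

/-- **`V / p^(n+1) V` is a finite `O`-module** when `J[p^(n+1)]` is finite, `O` is Noetherian and
flat over `ℤ`. -/
theorem tsq95_finite_quotient_pow [Module.Flat ℤ O] [IsNoetherianRing O] (n : ℕ)
    (hfin : {x : J | p ^ (n + 1) • x = 0}.Finite) :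
    Module.Finite O (tsq95_V O J p ⧸
      (Ideal.span {(p : O)} ^ (n + 1) • (⊤ : Submodule O (tsq95_V O J p)))) := by
  haveI : Finite (Submodule.torsionBy ℤ J ((p ^ (n + 1) : ℕ) : ℤ)) := by
    refine Set.Finite.subset hfin ?_ |>.to_subtype
    intro x hx
    have h1 : ((p ^ (n + 1) : ℕ) : ℤ) • x = 0 := (Submodule.mem_torsionBy_iff _ _).1 hx
    rwa [natCast_zsmul] at h1
  haveI : Module.Finite ℤ (Submodule.torsionBy ℤ J ((p ^ (n + 1) : ℕ) : ℤ)) :=
    Module.Finite.of_finite
  haveI : Module.Finite O (O ⊗[ℤ] (Submodule.torsionBy ℤ J ((p ^ (n + 1) : ℕ) : ℤ))) :=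
    inferInstance
  have hfg : (LinearMap.range (tsq95_torsIncl O J (p ^ (n + 1)))).FG := by
    rw [LinearMap.range_eq_map]
    exact Submodule.FG.map _ Module.Finite.fg_top
  haveI : IsNoetherian O (LinearMap.range (tsq95_torsIncl O J (p ^ (n + 1)))) :=
    isNoetherian_of_fg_of_noetherian _ hfg
  have hfg2 : (LinearMap.range (tsq95_proj O J p n)).FG := by
    have h1 : (Submodule.comap (LinearMap.range (tsq95_torsIncl O J (p ^ (n + 1)))).subtype
        (LinearMap.range (tsq95_proj O J p n))).FG := IsNoetherian.noetherian _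
    have h2 := Submodule.FG.map (LinearMap.range (tsq95_torsIncl O J (p ^ (n + 1)))).subtype h1
    rwa [Submodule.map_comap_subtype, inf_eq_right.2 (tsq95_range_proj_le O J p n)] at h2
  haveI : Module.Finite O (LinearMap.range (tsq95_proj O J p n)) :=
    Module.Finite.of_fg hfg2
  rw [← tsq95_ker_proj]
  exact Module.Finite.equiv (LinearMap.quotKerEquivRange (tsq95_proj O J p n)).symm

/-- **the finiteness input of (V3)**: `V / pV` is a finite `O`-module when `J[p]` is finite. -/
theorem tsq95_finite_quotient [Module.Flat ℤ O] [IsNoetherianRing O]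
    (hfin : {x : J | p • x = 0}.Finite) :
    Module.Finite O (tsq95_V O J p ⧸
      (Ideal.span {(p : O)} • (⊤ : Submodule O (tsq95_V O J p)))) := by
  have h := tsq95_finite_quotient_pow O J p 0 (by simpa using hfin)
  rwa [zero_add, pow_one] at h

/-- an additive endomorphism of `J` killing all `p`-power torsion acts as `0` on `V`
(transfer of identities like the Eichler–Shimura relation, which hold on `J[p^∞]` only). -/
theorem tsq95_map_eq_zero_of_torsion [Module.Flat ℤ O] (f : J →+ J)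
    (hf : ∀ (n : ℕ) (x : J), p ^ n • x = 0 → f x = 0) : tsq95_map O p f = 0 := by
  ext x : 1
  apply tsq95_ext; intro n
  rw [tsq95_map_apply, LinearMap.zero_apply, tsq95_zero_apply]
  have key : ∀ y : O ⊗[ℤ] (Submodule.torsionBy ℤ J ((p ^ (n + 1) : ℕ) : ℤ)),
      tsq95_mapM O f (tsq95_torsIncl O J (p ^ (n + 1)) y) = 0 := by
    intro y
    induction y using TensorProduct.induction_on with
    | zero => rw [map_zero, map_zero]
    | tmul c z =>
      rw [tsq95_torsIncl, LinearMap.baseChange_tmul, tsq95_mapM_tmul, Submodule.subtype_apply]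
      have hz : ((p ^ (n + 1) : ℕ) : ℤ) • (z : J) = 0 := (Submodule.mem_torsionBy_iff _ _).1 z.2
      rw [natCast_zsmul] at hz
      rw [hf (n + 1) z hz, TensorProduct.tmul_zero]
    | add a b ha hb => rw [map_add, map_add, ha, hb, add_zero]
  obtain ⟨y, hy⟩ := tsq95_mem_range_torsIncl O J (p ^ (n + 1)) (x.1 n) (tsq95_pow_smul_eq_zero x n)
  rw [← hy, key]

/-- two additive endomorphisms of `J` agreeing on all `p`-power torsion induce the same
endomorphism of `V`. -/
theorem tsq95_map_eq_of_torsion [Module.Flat ℤ O] (f g : J →+ J)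
    (hfg : ∀ (n : ℕ) (x : J), p ^ n • x = 0 → f x = g x) : tsq95_map O p f = tsq95_map O p g := by
  have h := tsq95_map_eq_zero_of_torsion O J p (f - g) (fun n x hx => by
    rw [AddMonoidHom.sub_apply, hfg n x hx, sub_self])
  have h2 : tsq95_map O p f = tsq95_map O p (f - g) + tsq95_map O p g := by
    rw [← tsq95_map_add, sub_add_cancel]
  rw [h2, h, zero_add]

end Flat

/-! ### building elements; eigen-submodules (V4) -/

section Eigen

variable {O : Type*} [CommRing O] {J : Type*} [AddCommGroup J] {p : ℕ}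

/-- an element of `V` from a compatible sequence -/
def tsq95_mk (u : ℕ → O ⊗[ℤ] J) (h0 : p • u 0 = 0) (hs : ∀ n, p • u (n + 1) = u n) :
    tsq95_V O J p := ⟨u, h0, hs⟩

@[simp] theorem tsq95_mk_apply (u : ℕ → O ⊗[ℤ] J) (h0 : p • u 0 = 0)
    (hs : ∀ n, p • u (n + 1) = u n) (n : ℕ) : (tsq95_mk u h0 hs).1 n = u n := rfl

theorem tsq95_ne_zero_of_apply_ne_zero {x : tsq95_V O J p} {n : ℕ} (h : x.1 n ≠ 0) : x ≠ 0 := by
  rintro rfl
  exact h rfl

variable {E : Type*} [AddCommGroup E] [Module O E] {ι : Type*}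

/-- the simultaneous eigen-submodule `E[a] = {x | ∀ i, T i x = a i • x}` -/
def tsq95_eigen (T : ι → Module.End O E) (a : ι → O) : Submodule O E where
  carrier := {x | ∀ i, T i x = a i • x}
  add_mem' := by
    intro x y hx hy i
    rw [map_add, hx i, hy i, smul_add]
  zero_mem' := fun i => by rw [map_zero, smul_zero]
  smul_mem' := by
    intro c x hx i
    rw [map_smul, hx i, smul_comm]

theorem tsq95_mem_eigen {T : ι → Module.End O E} {a : ι → O} {x : E} :
    x ∈ tsq95_eigen T a ↔ ∀ i, T i x = a i • x := Iff.rfl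

/-- **(V4)**: eigen-submodules are saturated. -/
theorem tsq95_eigen_saturated (T : ι → Module.End O E) (a : ι → O) {c : O}
    (hc : ∀ y : E, c • y = 0 → y = 0) {x : E} (hx : c • x ∈ tsq95_eigen T a) :
    x ∈ tsq95_eigen T a := by
  intro i
  have h1 := hx i
  rw [map_smul, smul_comm] at h1
  have h2 : c • (T i x - a i • x) = 0 := by rw [smul_sub, h1, sub_self]
  exact sub_eq_zero.1 (hc _ h2)

/-- eigen-submodules are stable under every endomorphism commuting with the `T i`. -/
theorem tsq95_eigen_stable (T : ι → Module.End O E) (a : ι → O) (g : Module.End O E)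
    (hg : ∀ i, T i * g = g * T i) {x : E} (hx : x ∈ tsq95_eigen T a) :
    g x ∈ tsq95_eigen T a := by
  intro i
  have h1 := congrArg (fun F : Module.End O E => F x) (hg i)
  simp only [Module.End.mul_apply] at h1
  rw [h1, hx i, map_smul]

/-- the restriction of a commuting endomorphism to an eigen-submodule -/
def tsq95_eigenRestrict (T : ι → Module.End O E) (a : ι → O) (g : Module.End O E)
    (hg : ∀ i, T i * g = g * T i) : Module.End O (tsq95_eigen T a) :=
  g.restrict (fun _ hx => tsq95_eigen_stable T a g hg hx)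

@[simp] theorem tsq95_eigenRestrict_apply (T : ι → Module.End O E) (a : ι → O)
    (g : Module.End O E) (hg : ∀ i, T i * g = g * T i) (x : tsq95_eigen T a) :
    (tsq95_eigenRestrict T a g hg x : E) = g x := rfl

end Eigen

end Fermat.Agent.S30x
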