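/-
S30x/TateFree95.lean (helper95, S30 project, block T2 TOP, prefix `tsf95_`): over a complete
discrete valuation ring `O` of characteristic `0` with `p ∈ 𝔪`, `p ≠ 0`, the sequence model
`tsq95_V O J p` of the Tate module is a FINITE FREE `O`-module as soon as `J[p]` is finite
(`TateSeq95` + helper34's topological Nakayama `AdicFinite34`); the same for all its submodules, in
particular for the eigen-submodules `V[χ]`, which are moreover saturated.
-/
import Mathlib
import Fermat.Agent.S30x.TateSeq95
import Fermat.Agent.S30x.AdicFinite34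

set_option autoImplicit false
set_option linter.style.haveILetI false

namespace Fermat.Agent.S30x

open TensorProduct IsLocalRing

/-- submodules of a finite torsion-free module over a DVR are finite and free. -/
theorem tsf95_aux (R M : Type*) [CommRing R] [IsDomain R] [IsDiscreteValuationRing R]
    [AddCommGroup M] [Module R M] [NoZeroSMulDivisors R M] [Module.Finite R M]
    (W : Submodule R M) : Module.Finite R W ∧ Module.Free R W := by
  haveI : IsNoetherian R M := isNoetherian_of_isNoetherianRing_of_finite R M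
  exact ⟨inferInstance, inferInstance⟩

section DVR

variable (O : Type*) [CommRing O] [IsDomain O] [IsDiscreteValuationRing O]
  (J : Type*) [AddCommGroup J] (p : ℕ)

/-- in a DVR with `p ∈ 𝔪`, every nonzero element divides a power of `p`. -/
theorem tsf95_exists_mul_eq_pow (hpm : (p : O) ∈ maximalIdeal O) {r : O} (hr : r ≠ 0) :
    ∃ (b : O) (k : ℕ), b * r = (p : O) ^ k := by
  obtain ⟨ϖ, hϖ⟩ := IsDiscreteValuationRing.exists_irreducible O
  obtain ⟨k, u, hu⟩ := IsDiscreteValuationRing.eq_unit_mul_pow_irreducible hr hϖ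
  have hdvd : ϖ ∣ (p : O) := by
    rw [hϖ.maximalIdeal_eq, Ideal.mem_span_singleton] at hpm
    exact hpm
  obtain ⟨c, hc⟩ := hdvd
  refine ⟨((u⁻¹ : Oˣ) : O) * c ^ k, k, ?_⟩
  rw [hu, hc, mul_pow]
  calc ((u⁻¹ : Oˣ) : O) * c ^ k * ((u : O) * ϖ ^ k)
      = (((u⁻¹ : Oˣ) : O) * (u : O)) * (ϖ ^ k * c ^ k) := by ring
    _ = ϖ ^ k * c ^ k := by rw [Units.inv_mul, one_mul]

/-- **`V` is torsion-free** over a DVR with `p ∈ 𝔪`. -/
theorem tsf95_noZeroSMulDivisors (hpm : (p : O) ∈ maximalIdeal O) :
    NoZeroSMulDivisors O (tsq95_V O J p) := by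
  refine ⟨fun {r x} h => ?_⟩
  by_cases hr : r = 0
  · exact Or.inl hr
  · obtain ⟨b, k, hb⟩ := tsf95_exists_mul_eq_pow O p hpm hr
    exact Or.inr (tsq95_eq_zero_of_smul_eq_zero hb x h)

variable [IsAdicComplete (maximalIdeal O) O] [CharZero O]

/-- **(T2 TOP) the Tate module `V` is finite and free over `O`** when `J[p]` is finite. -/
theorem tsf95_finite_free (hpm : (p : O) ∈ maximalIdeal O) (hp0 : p ≠ 0)
    (hfin : {x : J | p • x = 0}.Finite) :
    Module.Finite O (tsq95_V O J p) ∧ Module.Free O (tsq95_V O J p) := by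
  haveI := tsf95_noZeroSMulDivisors O J p hpm
  haveI : Module.Finite O (tsq95_V O J p ⧸
      (Ideal.span {(p : O)} • (⊤ : Submodule O (tsq95_V O J p)))) :=
    tsq95_finite_quotient O J p hfin
  exact adf34_finite_free_of_complete (p : O) hpm (Nat.cast_ne_zero.2 hp0) tsq95_isHausdorff

/-- every submodule of `V` (e.g. an eigen-submodule `V[χ]`) is finite and free over `O`. -/
theorem tsf95_submodule_finite_free (hpm : (p : O) ∈ maximalIdeal O) (hp0 : p ≠ 0)
    (hfin : {x : J | p • x = 0}.Finite) (W : Submodule O (tsq95_V O J p)) :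
    Module.Finite O W ∧ Module.Free O W := by
  obtain ⟨h1, -⟩ := tsf95_finite_free O J p hpm hp0 hfin
  haveI := h1
  haveI := tsf95_noZeroSMulDivisors O J p hpm
  exact tsf95_aux O (tsq95_V O J p) W

/-- eigen-submodules of `V` are finite and free. -/
theorem tsf95_eigen_finite_free (hpm : (p : O) ∈ maximalIdeal O) (hp0 : p ≠ 0)
    (hfin : {x : J | p • x = 0}.Finite) {ι : Type*}
    (T : ι → Module.End O (tsq95_V O J p)) (a : ι → O) :
    Module.Finite O (tsq95_eigen T a) ∧ Module.Free O (tsq95_eigen T a) :=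
  tsf95_submodule_finite_free O J p hpm hp0 hfin _

omit [IsAdicComplete (maximalIdeal O) O] [CharZero O] in
/-- eigen-submodules of `V` are saturated: `r ≠ 0`, `r • x ∈ V[a]` ⟹ `x ∈ V[a]`. -/
theorem tsf95_eigen_saturated (hpm : (p : O) ∈ maximalIdeal O) {ι : Type*}
    (T : ι → Module.End O (tsq95_V O J p)) (a : ι → O) {r : O} (hr : r ≠ 0)
    {x : tsq95_V O J p} (hx : r • x ∈ tsq95_eigen T a) : x ∈ tsq95_eigen T a := by
  haveI := tsf95_noZeroSMulDivisors O J p hpm
  exact tsq95_eigen_saturated T a (fun y hy => (smul_eq_zero.1 hy).resolve_left hr) hx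

end DVR

end Fermat.Agent.S30x
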