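/-
S30x/TateInst95.lean (helper95, S30 project, block T2-inst, prefix `t2i95_`): instantiation of the
OFFICIAL sequence model `tsq11_T ((p : ℕ) : O) (O ⊗[ℤ] JZero N)` (helper11) at the Jacobian:

* `t2i95_isNoetherian_torsionBy` (generic): for `O` Noetherian and flat over `ℤ` and `J[p]` finite,
  `(O ⊗[ℤ] J)[p]` is a Noetherian `O`-module (the instance argument of `tsq11_finite_free`);
* `t2i95_finite_torsion` : `J₀(N)[p]` is finite, UNCONDITIONALLY, for every `p > 0`
  (`jtf85_finite` + `inj_cmp_R3_zero` + `cde29_evCompat`);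
* `t2i95_finite_free`, `t2i95_submodule_finite_free` : over a complete DVR `O` of characteristic
  `0` with `p ∈ 𝔪`, `p ≠ 0`, the Tate module `T` and every submodule of it (eigen-submodules `V[χ]`,
  intersections with subspaces, ...) are finite free `O`-modules.
-/
import Mathlib
import Fermat.Agent.S30x.TateSeq95
import Fermat.Agent.S30x.TateSeqFree11
import Fermat.Agent.S42x.JTorsFin85
import Fermat.Agent.S42x.InjComp
import Fermat.Agent.S42x.CDictEv29

set_option autoImplicit false
set_option linter.style.haveILetI false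

namespace Fermat.Agent.S30x

open TensorProduct IsLocalRing ModularCurve AlgebraicCurve Fermat.Agent.S42x

section Generic

variable (O : Type*) [CommRing O] [Module.Flat ℤ O] [IsNoetherianRing O]
  (J : Type*) [AddCommGroup J] (p : ℕ)

/-- the image of `O ⊗ J[k]` in `O ⊗ J` is a finitely generated `O`-module when `J[k]` is finite. -/
theorem t2i95_range_torsIncl_fg (k : ℕ) (hfin : {x : J | k • x = 0}.Finite) :
    (LinearMap.range (tsq95_torsIncl O J k)).FG := by
  haveI : Finite (Submodule.torsionBy ℤ J (k : ℤ)) := by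
    refine Set.Finite.subset hfin ?_ |>.to_subtype
    intro x hx
    have h1 : (k : ℤ) • x = 0 := (Submodule.mem_torsionBy_iff _ _).1 hx
    rwa [natCast_zsmul] at h1
  haveI : Module.Finite ℤ (Submodule.torsionBy ℤ J (k : ℤ)) := Module.Finite.of_finite
  haveI : Module.Finite O (O ⊗[ℤ] (Submodule.torsionBy ℤ J (k : ℤ))) := inferInstance
  rw [LinearMap.range_eq_map]
  exact Submodule.FG.map _ Module.Finite.fg_top

/-- **`(O ⊗[ℤ] J)[p]` is a Noetherian `O`-module** when `J[p]` is finite (`O` Noetherian, flat over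
`ℤ`): the instance argument of helper11's `tsq11_finite_free`. -/
theorem t2i95_isNoetherian_torsionBy (hfin : {x : J | p • x = 0}.Finite) :
    IsNoetherian O (Submodule.torsionBy O (O ⊗[ℤ] J) ((p : ℕ) : O)) := by
  haveI : IsNoetherian O (LinearMap.range (tsq95_torsIncl O J p)) :=
    isNoetherian_of_fg_of_noetherian _ (t2i95_range_torsIncl_fg O J p hfin)
  refine isNoetherian_of_le (t := LinearMap.range (tsq95_torsIncl O J p)) ?_
  intro z hz
  rw [Submodule.mem_torsionBy_iff] at hz
  apply tsq95_mem_range_torsIncl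
  rw [← Nat.cast_smul_eq_nsmul O]
  exact hz

/-- the same for every power of `p`. -/
theorem t2i95_isNoetherian_torsionBy_pow (n : ℕ) (hfin : {x : J | p ^ n • x = 0}.Finite) :
    IsNoetherian O (Submodule.torsionBy O (O ⊗[ℤ] J) (((p : ℕ) : O) ^ n)) := by
  have h := t2i95_isNoetherian_torsionBy O J (p ^ n) hfin
  rwa [Nat.cast_pow] at h

end Generic

section Jacobian

variable (N : ℕ) [NeZero N] (p : ℕ)

/-- **`J₀(N)[p]` is finite**, for every `p > 0` (unconditional form of `jtf85_finite`). -/
theorem t2i95_finite_torsion (hp : 0 < p) : {x : JZero N | p • x = 0}.Finite :=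
  jtf85_finite N p hp.ne' (inj_cmp_R3_zero N (cde29_ev N) p hp (cde29_evCompat N))

variable (O : Type*) [CommRing O] [IsDomain O] [IsDiscreteValuationRing O]
  [IsAdicComplete (maximalIdeal O) O] [CharZero O]

/-- the Noetherian instance for the official model. -/
theorem t2i95_isNoetherian (hp : 0 < p) :
    IsNoetherian O (Submodule.torsionBy O (O ⊗[ℤ] JZero N) ((p : ℕ) : O)) :=
  t2i95_isNoetherian_torsionBy O (JZero N) p (t2i95_finite_torsion N p hp)

/-- **(T2-inst) the Tate module of `J₀(N)` with coefficients in `O` is finite free.** -/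
theorem t2i95_finite_free (hp : 0 < p) (hpm : ((p : ℕ) : O) ∈ maximalIdeal O) :
    Module.Finite O (tsq11_T ((p : ℕ) : O) (O ⊗[ℤ] JZero N)) ∧
      Module.Free O (tsq11_T ((p : ℕ) : O) (O ⊗[ℤ] JZero N)) := by
  haveI := t2i95_isNoetherian N p O hp
  exact tsq11_finite_free _ _ (Nat.cast_ne_zero.2 hp.ne') hpm

/-- every `O`-submodule of the Tate module is finite free. -/
theorem t2i95_submodule_finite_free (hp : 0 < p) (hpm : ((p : ℕ) : O) ∈ maximalIdeal O)
    (W : Submodule O (tsq11_T ((p : ℕ) : O) (O ⊗[ℤ] JZero N))) :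
    Module.Finite O W ∧ Module.Free O W := by
  haveI := t2i95_isNoetherian N p O hp
  exact tsq11_submodule_finite_free _ _ (Nat.cast_ne_zero.2 hp.ne') hpm W

/-- a submodule containing a nonzero element is nontrivial. -/
theorem t2i95_nontrivial_of_ne_zero
    (W : Submodule O (tsq11_T ((p : ℕ) : O) (O ⊗[ℤ] JZero N)))
    {x : tsq11_T ((p : ℕ) : O) (O ⊗[ℤ] JZero N)} (hx : x ∈ W) (hx0 : x ≠ 0) : Nontrivial W :=
  ⟨⟨⟨x, hx⟩, 0, fun h => hx0 (congrArg Subtype.val h)⟩⟩

/-- a nonzero finite free module over a domain has positive rank. -/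
theorem t2i95_finrank_pos (hp : 0 < p) (hpm : ((p : ℕ) : O) ∈ maximalIdeal O)
    (W : Submodule O (tsq11_T ((p : ℕ) : O) (O ⊗[ℤ] JZero N)))
    {x : tsq11_T ((p : ℕ) : O) (O ⊗[ℤ] JZero N)} (hx : x ∈ W) (hx0 : x ≠ 0) :
    0 < Module.finrank O W := by
  obtain ⟨h1, h2⟩ := t2i95_submodule_finite_free N p O hp hpm W
  haveI := h1
  haveI := h2
  haveI := t2i95_nontrivial_of_ne_zero N p O W hx hx0
  exact Module.finrank_pos (R := O) (M := W)

end Jacobian

end Fermat.Agent.S30x
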