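/-
S30x/TateSeq74 (helper74; S30 block T2-core, prefix `tts74_`; Mathlib only): the `p`-adic Tate
module of an `R`-module `J` as COMPATIBLE SEQUENCES (no inverse limits, no `ℤ_p`):

  `tts74_V p J = {x : ℕ → J | p • x 0 = 0 ∧ ∀ n, p • x (n + 1) = x n}`  (a submodule of `ℕ → J`).

* (V1) `tts74_mem_pow_smul_iff` : `x ∈ p ^ n V ↔ x i = 0` for all `i < n`  (`p V` = right shift);
* (V2) `tts74_isHausdorff`, `tts74_isPrecomplete` : `V` is `p`-adically separated and complete;
* (V3) `tts74_finite` : if `R` is `p`-adically precomplete and `J[p]` is noetherian then `V` is a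
        finite `R`-module;  `tts74_smul_eq_zero` : `V` is torsion free (if every `a ≠ 0` divides a
        power of `p`);  `tts74_free` : over a PID, `V` is free;
* group / operator actions componentwise: `tts74_map`, and `tts74_map_sub_mem` : an operator
        fixing `J[p ^ n]` pointwise is congruent to the identity modulo `p ^ n V`.
-/
import Mathlib

set_option autoImplicit false
set_option linter.style.haveILetI false

namespace Fermat.Agent.S30x

open Submodule

section Seq

variable {R : Type*} [CommRing R] (p : R) (J : Type*) [AddCommGroup J] [Module R J]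

/-- the `p`-adic Tate module of `J`, as compatible sequences -/
def tts74_V : Submodule R (ℕ → J) where
  carrier := {x | p • x 0 = 0 ∧ ∀ n, p • x (n + 1) = x n}
  zero_mem' := by simp
  add_mem' := by
    rintro x y ⟨hx0, hx⟩ ⟨hy0, hy⟩
    refine ⟨?_, fun n => ?_⟩
    · rw [Pi.add_apply, smul_add, hx0, hy0, add_zero]
    · rw [Pi.add_apply, smul_add, hx n, hy n, Pi.add_apply]
  smul_mem' := by
    rintro c x ⟨hx0, hx⟩
    refine ⟨?_, fun n => ?_⟩
    · rw [Pi.smul_apply, smul_comm, hx0, smul_zero]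
    · rw [Pi.smul_apply, smul_comm, hx n, Pi.smul_apply]

variable {p J}

theorem tts74_mem_iff {x : ℕ → J} :
    x ∈ tts74_V p J ↔ p • x 0 = 0 ∧ ∀ n, p • x (n + 1) = x n := Iff.rfl

theorem tts74_pow_smul_apply {x : ℕ → J} (hx : x ∈ tts74_V p J) (n i : ℕ) :
    p ^ n • x (i + n) = x i := by
  induction n with
  | zero => simp
  | succ n ih =>
    rw [pow_succ, mul_smul, ← add_assoc, hx.2, ih]

theorem tts74_pow_succ_smul_apply {x : ℕ → J} (hx : x ∈ tts74_V p J) (n : ℕ) :
    p ^ (n + 1) • x n = 0 := by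
  have h := tts74_pow_smul_apply hx n 0
  rw [zero_add] at h
  rw [pow_succ', mul_smul, h, hx.1]

theorem tts74_pow_smul_apply_of_lt {x : ℕ → J} (hx : x ∈ tts74_V p J) {n i : ℕ} (h : i < n) :
    p ^ n • x i = 0 := by
  obtain ⟨k, rfl⟩ := Nat.exists_eq_add_of_lt h
  rw [show i + k + 1 = k + (i + 1) by ring, pow_add, mul_smul, tts74_pow_succ_smul_apply hx,
    smul_zero]

/-- the left shift of a sequence vanishing in degrees `< n` -/
theorem tts74_shift_mem {x : ℕ → J} (hx : x ∈ tts74_V p J) (n : ℕ) (h0 : ∀ i < n, x i = 0) :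
    (fun i => x (i + n)) ∈ tts74_V p J := by
  refine ⟨?_, fun i => ?_⟩
  · rcases n with _ | n
    · exact hx.1
    · show p • x (0 + (n + 1)) = 0
      rw [zero_add, hx.2, h0 n (Nat.lt_succ_self n)]
  · show p • x (i + 1 + n) = x (i + n)
    rw [show i + 1 + n = i + n + 1 by ring, hx.2]

/-- **(V1)** `p ^ n V` consists of the sequences vanishing in degrees `< n`. -/
theorem tts74_exists_pow_smul_iff {x : ℕ → J} (hx : x ∈ tts74_V p J) (n : ℕ) :
    (∃ y ∈ tts74_V p J, p ^ n • y = x) ↔ ∀ i < n, x i = 0 := by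
  constructor
  · rintro ⟨y, hy, rfl⟩ i hi
    exact tts74_pow_smul_apply_of_lt hy hi
  · intro h0
    refine ⟨fun i => x (i + n), tts74_shift_mem hx n h0, ?_⟩
    funext i
    exact tts74_pow_smul_apply hx n i

/-- **(V1)**, ideal form. -/
theorem tts74_mem_pow_smul_iff (x : tts74_V p J) (n : ℕ) :
    x ∈ (Ideal.span {p} ^ n) • (⊤ : Submodule R (tts74_V p J)) ↔
      ∀ i < n, (x : ℕ → J) i = 0 := by
  rw [Ideal.span_singleton_pow, ideal_span_singleton_smul, mem_smul_pointwise_iff_exists,
    ← tts74_exists_pow_smul_iff x.2 n]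
  constructor
  · rintro ⟨y, -, rfl⟩
    exact ⟨y, y.2, rfl⟩
  · rintro ⟨y, hy, hyx⟩
    exact ⟨⟨y, hy⟩, mem_top, Subtype.ext hyx⟩

theorem tts74_smodEq_iff (x y : tts74_V p J) (n : ℕ) :
    x ≡ y [SMOD (Ideal.span {p} ^ n) • (⊤ : Submodule R (tts74_V p J))] ↔
      ∀ i < n, (x : ℕ → J) i = (y : ℕ → J) i := by
  rw [SModEq.sub_mem, tts74_mem_pow_smul_iff]
  simp only [Submodule.coe_sub, Pi.sub_apply, sub_eq_zero]

/-- **(V2a)** `V` is `p`-adically separated. -/
theorem tts74_isHausdorff : IsHausdorff (Ideal.span {p}) (tts74_V p J) where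
  haus' x hx := by
    apply Subtype.ext
    funext i
    have := (tts74_smodEq_iff x 0 (i + 1)).mp (hx (i + 1)) i (Nat.lt_succ_self i)
    simpa using this

/-- **(V2b)** `V` is `p`-adically complete. -/
theorem tts74_isPrecomplete : IsPrecomplete (Ideal.span {p}) (tts74_V p J) where
  prec' f hf := by
    have hcomp : ∀ {m n : ℕ}, m ≤ n → ∀ i < m, (f m : ℕ → J) i = (f n : ℕ → J) i :=
      fun {m n} hmn => (tts74_smodEq_iff (f m) (f n) m).mp (hf hmn)
    have hL : (fun i => (f (i + 1) : ℕ → J) i) ∈ tts74_V p J := by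
      refine ⟨(f 1).2.1, fun i => ?_⟩
      show p • (f (i + 1 + 1) : ℕ → J) (i + 1) = (f (i + 1) : ℕ → J) i
      rw [(f (i + 1 + 1)).2.2 i]
      exact (hcomp (Nat.le_succ (i + 1)) i (Nat.lt_succ_self i)).symm
    refine ⟨⟨_, hL⟩, fun n => ?_⟩
    rw [tts74_smodEq_iff]
    intro i hi
    exact (hcomp (Nat.succ_le_of_lt hi) i (Nat.lt_succ_self i)).symm

theorem tts74_isAdicComplete : IsAdicComplete (Ideal.span {p}) (tts74_V p J) :=
  { tts74_isHausdorff, tts74_isPrecomplete with }

/-! ### (V3) finiteness -/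

/-- `x ↦ x 0` identifies `V / p V` with a submodule of `J[p]` -/
def tts74_ev0 : tts74_V p J →ₗ[R] torsionBy R J p where
  toFun x := ⟨(x : ℕ → J) 0, (mem_torsionBy_iff _ _).mpr x.2.1⟩
  map_add' _ _ := rfl
  map_smul' _ _ := rfl

theorem tts74_ker_ev0 :
    LinearMap.ker (tts74_ev0 (p := p) (J := J)) =
      Ideal.span {p} • (⊤ : Submodule R (tts74_V p J)) := by
  ext x
  have h := tts74_mem_pow_smul_iff x 1
  rw [pow_one] at h
  rw [h, LinearMap.mem_ker]
  constructor
  · intro h0 i hi
    obtain rfl : i = 0 := by omega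
    exact congrArg Subtype.val h0
  · intro h0
    exact Subtype.ext (h0 0 Nat.one_pos)

/-- `V / p V` is a finite `R`-module as soon as `J[p]` is noetherian -/
theorem tts74_finite_quotient [IsNoetherian R (torsionBy R J p)] :
    Module.Finite R ((tts74_V p J) ⧸ (Ideal.span {p} • (⊤ : Submodule R (tts74_V p J)))) := by
  rw [← tts74_ker_ev0]
  have e := (tts74_ev0 (p := p) (J := J)).quotKerEquivRange
  exact Module.Finite.equiv e.symm

/-- finite products of precomplete modules are precomplete -/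
theorem tts74_isPrecomplete_pi (I : Ideal R) [IsPrecomplete I R] (r : ℕ) :
    IsPrecomplete I (Fin r → R) where
  prec' f hf := by
    have hmem : ∀ (n : ℕ) (x : Fin r → R),
        x ∈ (I ^ n • ⊤ : Submodule R (Fin r → R)) ↔ ∀ i, x i ∈ I ^ n := by
      intro n x
      constructor
      · intro hx
        refine Submodule.smul_induction_on hx (fun a ha y _ i => ?_) (fun y z hy hz i => ?_)
        · exact Ideal.mul_mem_right _ _ ha
        · exact Ideal.add_mem _ (hy i) (hz i)
      · intro hx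
        have hsum : x = ∑ i, x i • (Pi.single i (1 : R) : Fin r → R) := by
          funext j
          simp [Finset.sum_apply, Pi.single_apply]
        rw [hsum]
        exact Submodule.sum_mem _ fun i _ => Submodule.smul_mem_smul (hx i) mem_top
    have hcomp : ∀ i : Fin r, ∀ {m n : ℕ}, m ≤ n →
        f m i ≡ f n i [SMOD (I ^ m • ⊤ : Submodule R R)] := by
      intro i m n hmn
      rw [SModEq.sub_mem, smul_eq_mul, Ideal.mul_top]
      have := (hmem m (f m - f n)).mp ((SModEq.sub_mem).mp (hf hmn)) i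
      simpa using this
    choose L hL using fun i => IsPrecomplete.prec' (I := I) (fun n => f n i) (hcomp i)
    refine ⟨L, fun n => ?_⟩
    rw [SModEq.sub_mem, hmem]
    intro i
    have := (SModEq.sub_mem).mp (hL i n)
    rw [smul_eq_mul, Ideal.mul_top] at this
    simpa using this

/-- **(V3)** `V` is a finite `R`-module, when `R` is `p`-adically precomplete and `J[p]` is
noetherian. -/
theorem tts74_finite [IsPrecomplete (Ideal.span {p}) R] [IsNoetherian R (torsionBy R J p)] :
    Module.Finite R (tts74_V p J) := by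
  classical
  haveI := tts74_finite_quotient (p := p) (J := J)
  set I : Ideal R := Ideal.span {p}
  set Q := (tts74_V p J) ⧸ (I • (⊤ : Submodule R (tts74_V p J)))
  obtain ⟨r, g, hg⟩ := Module.Finite.exists_fin (R := R) (M := Q)
  -- lift the generators
  have hlift : ∀ i : Fin r, ∃ v : tts74_V p J, (I • ⊤ : Submodule R (tts74_V p J)).mkQ v = g i :=
    fun i => Submodule.mkQ_surjective _ (g i)
  choose v hv using hlift
  let F : (Fin r → R) →ₗ[R] tts74_V p J := Fintype.linearCombination R v
  have hsurj : Function.Surjective ((I • ⊤ : Submodule R (tts74_V p J)).mkQ ∘ₗ F) := by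
    rw [← LinearMap.range_eq_top, eq_top_iff, ← hg, Submodule.span_le]
    rintro _ ⟨i, rfl⟩
    refine ⟨Pi.single i 1, ?_⟩
    rw [LinearMap.comp_apply, Fintype.linearCombination_apply_single, one_smul, hv]
  haveI := tts74_isPrecomplete_pi I r
  haveI := tts74_isHausdorff (p := p) (J := J)
  have hF : Function.Surjective F := surjective_of_mkQ_comp_surjective hsurj
  exact Module.Finite.of_surjective F hF

/-- **torsion freeness**: if every nonzero `a` divides a power of `p` (e.g. `R` a discrete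
valuation ring with `0 ≠ p ∈ 𝔪`) then `V` is torsion free. -/
theorem tts74_smul_eq_zero (hdiv : ∀ a : R, a ≠ 0 → ∃ (s : ℕ) (b : R), b * a = p ^ s)
    {a : R} (ha : a ≠ 0) {x : ℕ → J} (hx : x ∈ tts74_V p J) (hax : a • x = 0) : x = 0 := by
  obtain ⟨s, b, hb⟩ := hdiv a ha
  have hps : p ^ s • x = 0 := by rw [← hb, mul_smul, hax, smul_zero]
  funext i
  rw [← tts74_pow_smul_apply hx s i]
  exact congrFun hps (i + s)

/-- `V` is torsion free. -/
theorem tts74_isTorsionFree [IsDomain R]
    (hdiv : ∀ a : R, a ≠ 0 → ∃ (s : ℕ) (b : R), b * a = p ^ s) :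
    Module.IsTorsionFree R (tts74_V p J) where
  isSMulRegular a ha x y hxy := by
    have ha0 : a ≠ 0 := ha.ne_zero
    have h0 : a • ((x - y : tts74_V p J) : ℕ → J) = 0 := by
      have h1 : a • (x - y) = 0 := by rw [smul_sub, sub_eq_zero]; exact hxy
      exact congrArg Subtype.val h1
    have := tts74_smul_eq_zero hdiv ha0 (x - y).2 h0
    exact sub_eq_zero.mp (Subtype.ext this)

/-- **(V3)** over a principal ideal domain `V` is free of finite rank. -/
theorem tts74_free [IsDomain R] [IsPrincipalIdealRing R] [IsPrecomplete (Ideal.span {p}) R]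
    [IsNoetherian R (torsionBy R J p)]
    (hdiv : ∀ a : R, a ≠ 0 → ∃ (s : ℕ) (b : R), b * a = p ^ s) :
    Module.Free R (tts74_V p J) := by
  haveI := tts74_finite (p := p) (J := J)
  haveI := tts74_isTorsionFree (J := J) hdiv
  exact Module.free_of_finite_type_torsion_free'

end Seq

/-! ### Discrete valuation rings -/

section DVR

variable {O : Type*} [CommRing O] [IsDomain O] [IsDiscreteValuationRing O]

open IsLocalRing

/-- in a discrete valuation ring every nonzero element divides a power of a nonzero element of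
the maximal ideal -/
theorem tts74_hdiv_dvr {p : O} (hp0 : p ≠ 0) (hpm : p ∈ maximalIdeal O) :
    ∀ a : O, a ≠ 0 → ∃ (s : ℕ) (b : O), b * a = p ^ s := by
  intro a ha
  obtain ⟨ϖ, hϖ⟩ := IsDiscreteValuationRing.exists_irreducible O
  obtain ⟨k, u, rfl⟩ := IsDiscreteValuationRing.eq_unit_mul_pow_irreducible ha hϖ
  obtain ⟨e, u', rfl⟩ := IsDiscreteValuationRing.eq_unit_mul_pow_irreducible hp0 hϖ
  have he : e ≠ 0 := by
    rintro rfl
    rw [pow_zero, mul_one] at hpm
    exact (IsLocalRing.mem_maximalIdeal _).mp hpm u'.isUnit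
  obtain ⟨d, rfl⟩ : ∃ d, e = d + 1 := Nat.exists_eq_succ_of_ne_zero he
  refine ⟨k, (u' ^ k : Oˣ) * ϖ ^ (d * k) * (u⁻¹ : Oˣ), ?_⟩
  have hu : ((u⁻¹ : Oˣ) : O) * (u : O) = 1 := by rw [← Units.val_mul, inv_mul_cancel, Units.val_one]
  calc ((u' ^ k : Oˣ) : O) * ϖ ^ (d * k) * ((u⁻¹ : Oˣ) : O) * ((u : O) * ϖ ^ k)
      = ((u' ^ k : Oˣ) : O) * (ϖ ^ (d * k) * ϖ ^ k) * (((u⁻¹ : Oˣ) : O) * (u : O)) := by ring
    _ = ((u' : O) * ϖ ^ (d + 1)) ^ k := by
        rw [hu, mul_one, ← pow_add, Units.val_pow_eq_pow_val, mul_pow, ← pow_mul]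
        congr 2
        ring

/-- a complete discrete valuation ring is `p`-adically precomplete for every nonzero `p` in the
maximal ideal -/
theorem tts74_isPrecomplete_dvr [IsAdicComplete (maximalIdeal O) O] {p : O} (hp0 : p ≠ 0)
    (hpm : p ∈ maximalIdeal O) : IsPrecomplete (Ideal.span {p}) O where
  prec' f hf := by
    obtain ⟨ϖ, hϖ⟩ := IsDiscreteValuationRing.exists_irreducible O
    obtain ⟨e, u', rfl⟩ := IsDiscreteValuationRing.eq_unit_mul_pow_irreducible hp0 hϖ
    have he : e ≠ 0 := by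
      rintro rfl
      rw [pow_zero, mul_one] at hpm
      exact (IsLocalRing.mem_maximalIdeal _).mp hpm u'.isUnit
    have hm : maximalIdeal O = Ideal.span {ϖ} := hϖ.maximalIdeal_eq
    -- `(p)^n = 𝔪^(e n)`
    have hpow : ∀ n : ℕ, Ideal.span {(u' : O) * ϖ ^ e} ^ n = maximalIdeal O ^ (e * n) := by
      intro n
      rw [hm, Ideal.span_singleton_pow, Ideal.span_singleton_pow, mul_pow, ← pow_mul,
        ← Units.val_pow_eq_pow_val]
      exact Ideal.span_singleton_mul_left_unit (u' ^ n).isUnit _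
    have hf' : ∀ {m n : ℕ}, m ≤ n → f m - f n ∈ maximalIdeal O ^ (e * m) := by
      intro m n hmn
      have := (SModEq.sub_mem).mp (hf hmn)
      rwa [smul_eq_mul, Ideal.mul_top, hpow] at this
    have hcauchy : ∀ {m n : ℕ}, m ≤ n →
        f m ≡ f n [SMOD (maximalIdeal O ^ m • ⊤ : Submodule O O)] := by
      intro m n hmn
      rw [SModEq.sub_mem, smul_eq_mul, Ideal.mul_top]
      exact Ideal.pow_le_pow_right (Nat.le_mul_of_pos_left m (Nat.pos_of_ne_zero he)) (hf' hmn)
    obtain ⟨L, hL⟩ := IsPrecomplete.prec' (I := maximalIdeal O) f hcauchy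
    refine ⟨L, fun n => ?_⟩
    rw [SModEq.sub_mem, smul_eq_mul, Ideal.mul_top, hpow]
    have h1 : f n - f (e * n) ∈ maximalIdeal O ^ (e * n) :=
      hf' (Nat.le_mul_of_pos_left n (Nat.pos_of_ne_zero he))
    have h2 : f (e * n) - L ∈ maximalIdeal O ^ (e * n) := by
      have := (SModEq.sub_mem).mp (hL (e * n))
      rwa [smul_eq_mul, Ideal.mul_top] at this
    have : f n - L = (f n - f (e * n)) + (f (e * n) - L) := by ring
    rw [this]
    exact Ideal.add_mem _ h1 h2

end DVR

/-! ### Operators -/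

section Op

variable {R : Type*} [CommRing R] {p : R} {J : Type*} [AddCommGroup J] [Module R J]

/-- an `R`-linear endomorphism of `J` acts componentwise on `V` -/
def tts74_map (T : J →ₗ[R] J) : tts74_V p J →ₗ[R] tts74_V p J where
  toFun x := ⟨fun i => T ((x : ℕ → J) i), by
    refine ⟨?_, fun n => ?_⟩
    · show p • T ((x : ℕ → J) 0) = 0
      rw [← map_smul, x.2.1, map_zero]
    · show p • T ((x : ℕ → J) (n + 1)) = T ((x : ℕ → J) n)
      rw [← map_smul, x.2.2]⟩
  map_add' x y := Subtype.ext (funext fun i => map_add T _ _)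
  map_smul' c x := Subtype.ext (funext fun i => map_smul T _ _)

@[simp]
theorem tts74_map_apply (T : J →ₗ[R] J) (x : tts74_V p J) (i : ℕ) :
    ((tts74_map T x : tts74_V p J) : ℕ → J) i = T ((x : ℕ → J) i) := rfl

theorem tts74_map_one : tts74_map (p := p) (1 : J →ₗ[R] J) = 1 :=
  LinearMap.ext fun _ => Subtype.ext rfl

theorem tts74_map_mul (S T : J →ₗ[R] J) :
    tts74_map (p := p) (S * T) = tts74_map S * tts74_map T :=
  LinearMap.ext fun _ => Subtype.ext rfl

theorem tts74_map_add (S T : J →ₗ[R] J) :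
    tts74_map (p := p) (S + T) = tts74_map S + tts74_map T :=
  LinearMap.ext fun _ => Subtype.ext rfl

theorem tts74_map_smul (c : R) (T : J →ₗ[R] J) :
    tts74_map (p := p) (c • T) = c • tts74_map T :=
  LinearMap.ext fun _ => Subtype.ext rfl

/-- the componentwise action as a monoid homomorphism -/
def tts74_mapHom : (J →ₗ[R] J) →* (tts74_V p J →ₗ[R] tts74_V p J) where
  toFun := tts74_map
  map_one' := tts74_map_one
  map_mul' := tts74_map_mul

/-- **continuity**: an operator which fixes `J[p ^ n]` pointwise is congruent to the identity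
modulo `p ^ n V`. -/
theorem tts74_map_sub_mem (T : J →ₗ[R] J) (n : ℕ)
    (hT : ∀ y : J, p ^ n • y = 0 → T y = y) (x : tts74_V p J) :
    tts74_map T x - x ∈ (Ideal.span {p} ^ n) • (⊤ : Submodule R (tts74_V p J)) := by
  rw [tts74_mem_pow_smul_iff]
  intro i hi
  show T ((x : ℕ → J) i) - (x : ℕ → J) i = 0
  rw [hT _ (tts74_pow_smul_apply_of_lt x.2 hi), sub_self]

end Op

end Fermat.Agent.S30x
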