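/-
S30 project, block T2 (helper11), prefix `tsq11_`: BRIDGE between the two landed sequence models
`tsq11_T ((p : ℕ) : O) (O ⊗[ℤ] J)` (helper11, generic) and `tsq95_V O J p` (helper95, concrete):
they are THE SAME submodule of `ℕ → O ⊗[ℤ] J`, so every statement about one transfers to the other
(T4 is written against `tsq11_`, the official interface of T2 is `tsq95_`).
-/
import Mathlib
import Fermat.Agent.S30x.TateSeq11
import Fermat.Agent.S30x.TateSeqFree11
import Fermat.Agent.S30x.TateSeq95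

set_option autoImplicit false

namespace Fermat.Agent.S30x

open TensorProduct

variable (O : Type*) [CommRing O] (J : Type*) [AddCommGroup J] (p : ℕ)

/-- the two sequence models coincide. -/
theorem tsq11_T_eq_tsq95_V : tsq11_T ((p : ℕ) : O) (O ⊗[ℤ] J) = tsq95_V O J p := by
  ext x
  rw [tsq11_mem_iff, tsq95_mem_V]
  simp only [Nat.cast_smul_eq_nsmul]

/-- the linear equivalence between the two models (identity on sequences). -/
def tsq11_equiv95 : tsq11_T ((p : ℕ) : O) (O ⊗[ℤ] J) ≃ₗ[O] tsq95_V O J p :=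
  LinearEquiv.ofEq _ _ (tsq11_T_eq_tsq95_V O J p)

@[simp] theorem tsq11_equiv95_apply (x : tsq11_T ((p : ℕ) : O) (O ⊗[ℤ] J)) (n : ℕ) :
    (tsq11_equiv95 O J p x).1 n = (x : ℕ → O ⊗[ℤ] J) n := rfl

@[simp] theorem tsq11_equiv95_symm_apply (x : tsq95_V O J p) (n : ℕ) :
    (((tsq11_equiv95 O J p).symm x : tsq11_T ((p : ℕ) : O) (O ⊗[ℤ] J)) : ℕ → O ⊗[ℤ] J) n =
      x.1 n := rfl

/-- the componentwise maps correspond: `tsq95_map f` is `tsq11_map` of `f ⊗ O`. -/
theorem tsq11_equiv95_map (f : J →+ J) (x : tsq11_T ((p : ℕ) : O) (O ⊗[ℤ] J)) :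
    tsq11_equiv95 O J p (tsq11_map ((p : ℕ) : O) (tsq95_mapM O f) x) =
      tsq95_map O p f (tsq11_equiv95 O J p x) := by
  apply tsq95_ext
  intro n
  rfl

/-- **finite freeness of the concrete model over a complete DVR**, from the `p`-torsion of `J`
being finite: everything that `T8`/`T5` need about `V` as an `O`-module. -/
theorem tsq11_tsq95_finite_free [IsDomain O] [IsDiscreteValuationRing O]
    [IsAdicComplete (IsLocalRing.maximalIdeal O) O]
    (hp0 : ((p : ℕ) : O) ≠ 0) (hpm : ((p : ℕ) : O) ∈ IsLocalRing.maximalIdeal O)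
    [IsNoetherian O (Submodule.torsionBy O (O ⊗[ℤ] J) ((p : ℕ) : O))] :
    Module.Finite O (tsq95_V O J p) ∧ Module.Free O (tsq95_V O J p) := by
  obtain ⟨h1, h2⟩ := tsq11_finite_free ((p : ℕ) : O) (O ⊗[ℤ] J) hp0 hpm
  exact ⟨Module.Finite.equiv (tsq11_equiv95 O J p), Module.Free.of_equiv (tsq11_equiv95 O J p)⟩

end Fermat.Agent.S30x
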