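/-
S30 project, block T5.d (generic core, helper11), prefix `ttw11_`: FROM A COMPATIBLE TOWER
`ι n : L →+ J` (`p • ι 0 = 0`, `p • ι (n+1) = ι n`) TO THE SEQUENCE MODEL.

`ttw11_ofTower R p ι h0 hs : R ⊗[ℤ] L →ₗ[R] tsq11_T ((p : ℕ) : R) (R ⊗[ℤ] J)`,
`x ↦ (n ↦ (ι n ⊗ R) x)`.

* equivariance: `ι n (t v) = T (ι n v)` ⇒ `ofTower ((t ⊗ R) x) = tsq11_map (T ⊗ R) (ofTower x)`;
* eigenvectors go to the eigen-submodule `tsq11_eigen`;
* non-vanishing: `R` flat over `ℤ`, `ker (ι 0) ⊆ p L` ⇒ (`ofTower x = 0` ⇒ `x ∈ p (R ⊗ L)`),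
  so a PRIMITIVE eigenvector (`t5c52_exists_primitive_eigenvector`) has NONZERO image:
  `ttw11_exists_ne_zero`.
Mathlib + `TateSeq11` only.
-/
import Mathlib
import Fermat.Agent.S30x.TateSeq11

set_option autoImplicit false

namespace Fermat.Agent.S30x

open TensorProduct

section Basic

variable (R : Type*) [CommRing R] (p : ℕ) {L J : Type*} [AddCommGroup L] [AddCommGroup J]

/-- base change turns `p • f = g` into `(p : R) • (f ⊗ R) = g ⊗ R`. -/
theorem ttw11_baseChange_nsmul (f g : L →ₗ[ℤ] J) (h : ∀ v, p • f v = g v) (x : R ⊗[ℤ] L) :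
    ((p : ℕ) : R) • LinearMap.baseChange R f x = LinearMap.baseChange R g x := by
  induction x using TensorProduct.induction_on with
  | zero => simp
  | tmul r v =>
    rw [LinearMap.baseChange_tmul, LinearMap.baseChange_tmul, ← h v, Nat.cast_smul_eq_nsmul,
      ← natCast_zsmul, ← natCast_zsmul, TensorProduct.tmul_smul]
  | add x y hx hy => rw [map_add, map_add, smul_add, hx, hy]

/-- the map from `R ⊗ L` to the sequence model attached to a compatible tower. -/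
noncomputable def ttw11_ofTower (ι : ℕ → (L →+ J)) (h0 : ∀ v, p • ι 0 v = 0)
    (hs : ∀ n v, p • ι (n + 1) v = ι n v) :
    (R ⊗[ℤ] L) →ₗ[R] tsq11_T ((p : ℕ) : R) (R ⊗[ℤ] J) where
  toFun x := ⟨fun n => LinearMap.baseChange R (ι n).toIntLinearMap x, by
    refine ⟨?_, fun n => ?_⟩
    · show ((p : ℕ) : R) • LinearMap.baseChange R (ι 0).toIntLinearMap x = 0
      rw [ttw11_baseChange_nsmul R p (ι 0).toIntLinearMap 0 (fun v => h0 v) x]
      simp
    · show ((p : ℕ) : R) • LinearMap.baseChange R (ι (n + 1)).toIntLinearMap x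
        = LinearMap.baseChange R (ι n).toIntLinearMap x
      exact ttw11_baseChange_nsmul R p (ι (n + 1)).toIntLinearMap (ι n).toIntLinearMap
        (fun v => hs n v) x⟩
  map_add' := by
    intro x y
    apply tsq11_ext
    intro n
    show LinearMap.baseChange R (ι n).toIntLinearMap (x + y)
      = LinearMap.baseChange R (ι n).toIntLinearMap x
        + LinearMap.baseChange R (ι n).toIntLinearMap y
    rw [map_add]
  map_smul' := by
    intro c x
    apply tsq11_ext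
    intro n
    show LinearMap.baseChange R (ι n).toIntLinearMap (c • x)
      = c • LinearMap.baseChange R (ι n).toIntLinearMap x
    rw [map_smul]

variable {R p}

@[simp] theorem ttw11_ofTower_apply (ι : ℕ → (L →+ J)) (h0 : ∀ v, p • ι 0 v = 0)
    (hs : ∀ n v, p • ι (n + 1) v = ι n v) (x : R ⊗[ℤ] L) (n : ℕ) :
    ((ttw11_ofTower R p ι h0 hs x : tsq11_T ((p : ℕ) : R) (R ⊗[ℤ] J)) : ℕ → R ⊗[ℤ] J) n
      = LinearMap.baseChange R (ι n).toIntLinearMap x := rfl

/-- **equivariance**: if `ι n ∘ t = T ∘ ι n` for all `n` then `ofTower ∘ (t ⊗ R) =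
tsq11_map (T ⊗ R) ∘ ofTower`. -/
theorem ttw11_ofTower_equivariant (ι : ℕ → (L →+ J)) (h0 : ∀ v, p • ι 0 v = 0)
    (hs : ∀ n v, p • ι (n + 1) v = ι n v) (t : L →ₗ[ℤ] L) (T : J →ₗ[ℤ] J)
    (hT : ∀ n v, ι n (t v) = T (ι n v)) (x : R ⊗[ℤ] L) :
    ttw11_ofTower R p ι h0 hs (LinearMap.baseChange R t x)
      = tsq11_map ((p : ℕ) : R) (LinearMap.baseChange R T) (ttw11_ofTower R p ι h0 hs x) := by
  apply tsq11_ext
  intro n
  rw [ttw11_ofTower_apply, tsq11_map_apply, ttw11_ofTower_apply]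
  have : (LinearMap.baseChange R (ι n).toIntLinearMap) ∘ₗ (LinearMap.baseChange R t)
      = (LinearMap.baseChange R T) ∘ₗ (LinearMap.baseChange R (ι n).toIntLinearMap) := by
    rw [← LinearMap.baseChange_comp, ← LinearMap.baseChange_comp]
    congr 1
    ext v
    exact hT n v
  exact LinearMap.congr_fun this x

/-- **eigenvectors go to the eigen-submodule.** -/
theorem ttw11_ofTower_mem_eigen (ι : ℕ → (L →+ J)) (h0 : ∀ v, p • ι 0 v = 0)
    (hs : ∀ n v, p • ι (n + 1) v = ι n v) {I : Type*} (t : I → (L →ₗ[ℤ] L))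
    (T : I → (J →ₗ[ℤ] J)) (hT : ∀ i n v, ι n (t i v) = T i (ι n v)) (c : I → R)
    {x : R ⊗[ℤ] L} (hx : ∀ i, LinearMap.baseChange R (t i) x = c i • x) :
    ttw11_ofTower R p ι h0 hs x
      ∈ tsq11_eigen ((p : ℕ) : R) (fun i => LinearMap.baseChange R (T i)) c := by
  rw [tsq11_mem_eigen]
  intro i
  rw [← ttw11_ofTower_equivariant ι h0 hs (t i) (T i) (hT i) x, hx i, map_smul]

end Basic

section Flat

variable {R : Type*} [CommRing R] [Module.Flat ℤ R] {p : ℕ} {L J : Type*} [AddCommGroup L]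
  [AddCommGroup J]

/-- flatness: if `ker f ⊆ p L` then `ker (f ⊗ R) ⊆ p (R ⊗ L)`. -/
theorem ttw11_ker_baseChange (f : L →ₗ[ℤ] J) (hker : ∀ v, f v = 0 → ∃ w, v = p • w)
    (x : R ⊗[ℤ] L) (hx : LinearMap.baseChange R f x = 0) :
    ∃ y : R ⊗[ℤ] L, x = ((p : ℕ) : R) • y := by
  have hex : Function.Exact (LinearMap.ker f).subtype f := by
    intro v
    constructor
    · intro hv
      exact ⟨⟨v, hv⟩, rfl⟩
    · rintro ⟨w, rfl⟩
      exact w.2
  have hex' := Module.Flat.lTensor_exact R hex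
  have hx' : (f.lTensor R) x = 0 := by
    rw [← hx, LinearMap.baseChange_eq_ltensor]
  obtain ⟨z, rfl⟩ := (hex' x).mp hx'
  -- every element of the image of `R ⊗ ker f` is divisible by `p`
  induction z using TensorProduct.induction_on with
  | zero => exact ⟨0, by simp⟩
  | tmul r v =>
    obtain ⟨w, hw⟩ := hker v.1 v.2
    refine ⟨r ⊗ₜ w, ?_⟩
    rw [LinearMap.lTensor_tmul, Submodule.subtype_apply, hw, Nat.cast_smul_eq_nsmul,
      ← natCast_zsmul, ← natCast_zsmul, TensorProduct.tmul_smul]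
  | add a b ha hb =>
    have ha' : LinearMap.lTensor R f ((LinearMap.ker f).subtype.lTensor R a) = 0 :=
      (hex' _).mpr ⟨a, rfl⟩
    have hb' : LinearMap.lTensor R f ((LinearMap.ker f).subtype.lTensor R b) = 0 :=
      (hex' _).mpr ⟨b, rfl⟩
    obtain ⟨ya, hya⟩ := ha (by rw [LinearMap.baseChange_eq_ltensor]; exact ha') ha'
    obtain ⟨yb, hyb⟩ := hb (by rw [LinearMap.baseChange_eq_ltensor]; exact hb') hb'
    exact ⟨ya + yb, by rw [map_add, hya, hyb, smul_add]⟩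

/-- **non-vanishing**: if `ker (ι 0) ⊆ p L` and `R` is flat over `ℤ`, then `ofTower x = 0` forces
`x ∈ p (R ⊗ L)`. -/
theorem ttw11_ofTower_eq_zero (ι : ℕ → (L →+ J)) (h0 : ∀ v, p • ι 0 v = 0)
    (hs : ∀ n v, p • ι (n + 1) v = ι n v) (hker : ∀ v, ι 0 v = 0 → ∃ w, v = p • w)
    {x : R ⊗[ℤ] L} (hx : ttw11_ofTower R p ι h0 hs x = 0) :
    ∃ y : R ⊗[ℤ] L, x = ((p : ℕ) : R) • y := by
  apply ttw11_ker_baseChange (ι 0).toIntLinearMap (fun v hv => hker v hv) x
  have := congrArg (fun y : tsq11_T ((p : ℕ) : R) (R ⊗[ℤ] J) => (y : ℕ → R ⊗[ℤ] J) 0) hx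
  exact this

/-- **T5.d**: a primitive simultaneous eigenvector of `R ⊗ L` gives a NONZERO element of the
eigen-submodule of the sequence model. -/
theorem ttw11_exists_ne_zero (ι : ℕ → (L →+ J)) (h0 : ∀ v, p • ι 0 v = 0)
    (hs : ∀ n v, p • ι (n + 1) v = ι n v) (hker : ∀ v, ι 0 v = 0 → ∃ w, v = p • w)
    {I : Type*} (t : I → (L →ₗ[ℤ] L)) (T : I → (J →ₗ[ℤ] J))
    (hT : ∀ i n v, ι n (t i v) = T i (ι n v)) (c : I → R)
    {x : R ⊗[ℤ] L} (hprim : ¬ ∃ w : R ⊗[ℤ] L, x = ((p : ℕ) : R) • w)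
    (hx : ∀ i, LinearMap.baseChange R (t i) x = c i • x) :
    ∃ y : tsq11_T ((p : ℕ) : R) (R ⊗[ℤ] J), y ≠ 0 ∧
      y ∈ tsq11_eigen ((p : ℕ) : R) (fun i => LinearMap.baseChange R (T i)) c :=
  ⟨ttw11_ofTower R p ι h0 hs x, fun h => hprim (ttw11_ofTower_eq_zero ι h0 hs hker h),
    ttw11_ofTower_mem_eigen ι h0 hs t T hT c hx⟩

end Flat

end Fermat.Agent.S30x
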