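/-
S30 project, block T9 (TOP packaging), helper1, prefix `tpk1_`.

The frozen statement S30 (`CuspForm.exists_galoisRep_of_point`) asks for an extension `𝒪''/𝒪'` of
complete discrete valuation rings and a `GaloisRepAdic 𝒪''`.  We take `𝒪'' := 𝒪'` (`Algebra.id`):
all the structure fields are then trivial, and the statement reduces to the core `tpk1_Core`:
a free rank-2 `𝒪'`-module with an adically continuous Galois action, the Eichler--Shimura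
characteristic polynomial at Frobenius lifts and trivial inertia outside `N p`.

* `tpk1_Core` : the core statement (a `Prop`);
* `tpk1_result_of_core : tpk1_Core → (frozen S30 statement)`.
-/
import Mathlib
import Fermat.Prelude.Def_CuspForm_HeckeGaloisRepDatum

set_option autoImplicit false

open Polynomial CuspForm

namespace Fermat.Agent.S30x

/-- the absolute Galois group of `ℚ` -/
abbrev tpk1_GQ : Type := AlgebraicClosure ℚ ≃ₐ[ℚ] AlgebraicClosure ℚ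

/-- **The core of S30** (with `𝒪'' := 𝒪'`). -/
def tpk1_Core : Prop :=
  ∀ (p : ℕ) [Fact p.Prime] (N : ℕ) [NeZero N] (S : Finset ℕ)
    (_hpS : p ∈ S) (_hNS : ∀ q : ℕ, q.Prime → q ∣ N → q ∈ S)
    (𝒪' : Type) [CommRing 𝒪'] [IsDomain 𝒪'] [IsDiscreteValuationRing 𝒪']
    [IsAdicComplete (IsLocalRing.maximalIdeal 𝒪') 𝒪'] [Finite (IsLocalRing.ResidueField 𝒪')]
    [CharZero 𝒪'] (_hp𝒪' : (p : 𝒪') ∈ IsLocalRing.maximalIdeal 𝒪')
    (χ : CuspForm.heckeAlgebra N 2 (↑S : Set ℕ) →+* 𝒪'),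
    ∃ (V : Type) (_ : AddCommGroup V) (_ : Module 𝒪' V) (_ : Module.Free 𝒪' V)
      (_ : Module.Finite 𝒪' V) (ρ : tpk1_GQ →* Module.End 𝒪' V),
      Module.finrank 𝒪' V = 2 ∧
      GaloisActionIsAdicContinuous 𝒪' ρ ∧
      (∀ (ℓ : ℕ) (hℓ : ℓ.Prime) (hℓN : ¬ ℓ ∣ N) (hℓS : ℓ ∉ (↑S : Set ℕ)),
        ∀ A : ValuationSubring (AlgebraicClosure ℚ), A.LiesOverPrime ℓ →
          ∀ σ : tpk1_GQ, A.IsFrobeniusAt σ ℓ →
            LinearMap.charpoly (ρ σ) =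
              X ^ 2 - C (χ (CuspForm.heckeAlgebra.T hℓ hℓN hℓS)) * X + C ((ℓ : 𝒪'))) ∧
      (∀ q : ℕ, q.Prime → ¬ q ∣ N → q ≠ p →
        ∀ P : ValuationSubring (AlgebraicClosure ℚ), P.LiesOverPrime q →
          ∀ σ ∈ P.inertiaSubgroupIn ℚ, ρ σ = 1)

/-- **Packaging**: the core implies the frozen statement S30, with `𝒪'' := 𝒪'`. -/
theorem tpk1_result_of_core (hcore : tpk1_Core) :
    ∀ (p : ℕ) [Fact p.Prime] (N : ℕ) [NeZero N] (S : Finset ℕ)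
      (_hpS : p ∈ S) (_hNS : ∀ q : ℕ, q.Prime → q ∣ N → q ∈ S)
      (𝒪' : Type) [CommRing 𝒪'] [IsDomain 𝒪'] [IsDiscreteValuationRing 𝒪']
      [IsAdicComplete (IsLocalRing.maximalIdeal 𝒪') 𝒪'] [Finite (IsLocalRing.ResidueField 𝒪')]
      [CharZero 𝒪'] (_hp𝒪' : (p : 𝒪') ∈ IsLocalRing.maximalIdeal 𝒪')
      (χ : CuspForm.heckeAlgebra N 2 (↑S : Set ℕ) →+* 𝒪'),
      ∃ (𝒪'' : Type) (_ : CommRing 𝒪'') (_ : IsDomain 𝒪'') (_ : IsDiscreteValuationRing 𝒪'')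
        (_ : IsAdicComplete (IsLocalRing.maximalIdeal 𝒪'') 𝒪'')
        (_ : Finite (IsLocalRing.ResidueField 𝒪'')) (_ : CharZero 𝒪'')
        (_ : Algebra 𝒪' 𝒪'') (_ : Module.Finite 𝒪' 𝒪'') (_ : IsLocalHom (algebraMap 𝒪' 𝒪'')),
      Function.Injective (algebraMap 𝒪' 𝒪'') ∧
      ∃ ρ : GaloisRepAdic 𝒪'',
        (∀ (ℓ : ℕ) (hℓ : ℓ.Prime) (hℓN : ¬ ℓ ∣ N) (hℓS : ℓ ∉ (↑S : Set ℕ)),
          ∀ A : ValuationSubring (AlgebraicClosure ℚ), A.LiesOverPrime ℓ →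
            ∀ σ : AlgebraicClosure ℚ ≃ₐ[ℚ] AlgebraicClosure ℚ, A.IsFrobeniusAt σ ℓ →
              LinearMap.charpoly (ρ.ρ σ) =
                X ^ 2 - C (algebraMap 𝒪' 𝒪'' (χ (CuspForm.heckeAlgebra.T hℓ hℓN hℓS))) * X
                  + C ((ℓ : 𝒪''))) ∧
        (∀ q : ℕ, q.Prime → ¬ q ∣ N → q ≠ p → ρ.IsUnramifiedAt q) := by
  intro p _ N _ S hpS hNS 𝒪' _ _ _ _ _ _ hp𝒪' χ
  obtain ⟨V, iACG, iMod, iFree, iFin, ρ, hrank, hcont, hfrob, hinert⟩ :=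
    hcore p N S hpS hNS 𝒪' hp𝒪' χ
  refine ⟨𝒪', inferInstance, inferInstance, inferInstance, inferInstance, inferInstance,
    inferInstance, Algebra.id 𝒪', Module.Finite.self 𝒪', ⟨fun a ha => ha⟩,
    fun a b h => h, ?_⟩
  refine ⟨{ V := V, finrank_eq := hrank, ρ := ρ, isAdicContinuous := hcont }, ?_, ?_⟩
  · intro ℓ hℓ hℓN hℓS A hA σ hσ
    exact hfrob ℓ hℓ hℓN hℓS A hA σ hσ
  · intro q hq hqN hqp P hP σ hσ
    exact hinert q hq hqN hqp P hP σ hσ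

end Fermat.Agent.S30x
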