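/-
S30 project, TOP assembly, abstract half (helper88, S30 architect), prefix `top88_`.

Part A: abstract assembly  (T6 adic limit + uniqueness of the middle coefficient + T8 lattice step
as a hypothesis `hlat` of the shape of `lat32_exists_rank_two`).
Part B: `top88_core_of_data`: from the block outputs on `E = V[χ]` (Eichler--Shimura quadratic
relation at Frobenius lifts, the cyclotomic character `ε`, trivial inertia, the finite normal fields
`L_n`, complex conjugation) to the body of `tpk1_Core`; the density input `hdens` of the adic limit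
is derived inside from `fdndi_exists_frobenius` (B9).
-/
import Mathlib
import Fermat.Agent.S30x.AdicQuadLim88
import Fermat.Agent.S30x.TopPack1
import Fermat.Agent.S41x.FDnDictFinal

set_option autoImplicit false

open Polynomial CuspForm

namespace Fermat.Agent.S30x

section PartA

variable {O : Type*} [CommRing O]
variable {E : Type*} [AddCommGroup E] [Module O E]

/-- a scalar acting as zero on a nontrivial free module is zero -/
theorem top88_scalar_eq_zero [Module.Free O E] [Nontrivial E] {t : O}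
    (h : t • (1 : Module.End O E) = 0) : t = 0 := by
  have h0 : t ∈ (⊥ : Ideal O) := by
    apply aql88_scalar_mem (E := E) ⊥ t
    intro v
    have : t • v = 0 := by
      have := LinearMap.congr_fun h v
      simpa using this
    rw [this]
    exact Submodule.zero_mem _
  simpa using h0

/-- uniqueness of the middle coefficient of a quadratic relation of a unit -/
theorem top88_mid_unique [Module.Free O E] [Nontrivial E] {u u' : Module.End O E}
    (huu' : u * u' = 1) {t t' e : O}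
    (h : u * u - t • u + e • (1 : Module.End O E) = 0)
    (h' : u * u - t' • u + e • (1 : Module.End O E) = 0) : t = t' := by
  have h1 : (t' - t) • u = 0 := by
    have : (t' - t) • u = (u * u - t • u + e • (1 : Module.End O E))
        - (u * u - t' • u + e • (1 : Module.End O E)) := by
      rw [sub_smul]; abel
    rw [this, h, h', sub_zero]
  have h2 : (t' - t) • (1 : Module.End O E) = 0 := by
    rw [← huu', ← smul_mul_assoc, h1, zero_mul]
  have := top88_scalar_eq_zero (E := E) h2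
  exact (sub_eq_zero.mp this).symm

/-- the conclusion of the lattice step T8 (`lat32_exists_rank_two`) for given `ρ, ε, a`. -/
def top88_LatConcl {G : Type*} [Group G] (ρ : G →* Module.End O E) (ε : G →* O)
    (a : G → O) : Prop :=
  ∃ ρ' : G →* Module.End O (Fin 2 → O),
    (∀ g, LinearMap.charpoly (ρ' g) = X ^ 2 - C (a g) * X + C (ε g)) ∧
    ∀ (J : Ideal O) (g : G), (∀ v : E, ρ g v - v ∈ J • (⊤ : Submodule O E)) → ε g - 1 ∈ J →
      ∀ w, ρ' g w - w ∈ J • (⊤ : Submodule O (Fin 2 → O))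

/-- **Abstract assembly**: T6 (adic limit) + uniqueness of the middle coefficient + T8 (lattice
step, as the hypothesis `hlat`). -/
theorem top88_abstract (I : Ideal O) [IsAdicComplete I O]
    [Module.Free O E] [Nontrivial E]
    {G : Type*} [Group G] (ρ : G →* Module.End O E) (ε : G →* O)
    (Frob : G → O → O → Prop)
    (hFQ : ∀ φ a l, Frob φ a l → ρ φ * ρ φ - a • ρ φ + l • (1 : Module.End O E) = 0)
    (hFε : ∀ φ a l, Frob φ a l → ε φ = l)
    (hdens : ∀ (g : G) (n : ℕ), ∃ (φ : G) (a l : O) (j : ℕ), Frob φ a l ∧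
      (∀ v : E, ρ g v - (ρ φ ^ j) v ∈ (I ^ n) • (⊤ : Submodule O E)) ∧ ε g - l ^ j ∈ I ^ n)
    (hlat : ∀ a : G → O,
      (∀ g, ρ g * ρ g - a g • ρ g + ε g • (1 : Module.End O E) = 0) → top88_LatConcl ρ ε a) :
    ∃ ρ' : G →* Module.End O (Fin 2 → O),
      (∀ φ a l, Frob φ a l → LinearMap.charpoly (ρ' φ) = X ^ 2 - C a * X + C l) ∧
      ∀ (J : Ideal O) (g : G), (∀ v : E, ρ g v - v ∈ J • (⊤ : Submodule O E)) → ε g - 1 ∈ J →
        ∀ w, ρ' g w - w ∈ J • (⊤ : Submodule O (Fin 2 → O)) := by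
  classical
  have hq := aql88_quadratic I ρ ε Frob hFQ hdens
  choose a ha using hq
  obtain ⟨ρ', hchar, hideal⟩ := hlat a ha
  refine ⟨ρ', ?_, hideal⟩
  intro φ b l hφ
  have hε : ε φ = l := hFε φ b l hφ
  have hunit : ρ φ * ρ φ⁻¹ = 1 := by rw [← map_mul, mul_inv_cancel, map_one]
  have h1 := ha φ
  have h2 := hFQ φ b l hφ
  rw [hε] at h1
  have hab : a φ = b := top88_mid_unique hunit h1 h2
  rw [hchar φ, hab, hε]

end PartA

section PartB

open IsLocalRing

/-- product of the primes in `S`, times `N`: a prime not dividing it is outside `S` and prime to `N` -/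
def top88_M (N : ℕ) (S : Finset ℕ) : ℕ := N * ∏ q ∈ S.filter Nat.Prime, q

theorem top88_M_pos (N : ℕ) [NeZero N] (S : Finset ℕ) : 0 < top88_M N S := by
  unfold top88_M
  refine Nat.mul_pos (Nat.pos_of_ne_zero (NeZero.ne N)) (Finset.prod_pos ?_)
  intro q hq
  exact (Finset.mem_filter.mp hq).2.pos

theorem top88_not_dvd_M {N : ℕ} {S : Finset ℕ} {ℓ : ℕ} (hℓ : ℓ.Prime)
    (h : ¬ ℓ ∣ top88_M N S) : ¬ ℓ ∣ N ∧ ℓ ∉ (↑S : Set ℕ) := by
  refine ⟨fun hN => h (Dvd.dvd.mul_right hN _), fun hS => h ?_⟩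
  refine Dvd.dvd.mul_left ?_ _
  exact Finset.dvd_prod_of_mem _ (Finset.mem_filter.mpr ⟨hS, hℓ⟩)

/-- two finite subextensions of `ℚ̄` lie in a finite normal one -/
theorem top88_exists_normal (L₁ L₂ : IntermediateField ℚ (AlgebraicClosure ℚ)) (h1 : FiniteDimensional ℚ L₁)
    (h2 : FiniteDimensional ℚ L₂) :
    ∃ L : IntermediateField ℚ (AlgebraicClosure ℚ), FiniteDimensional ℚ L ∧
      (∀ σ : AlgebraicClosure ℚ ≃ₐ[ℚ] AlgebraicClosure ℚ, ∀ x ∈ L, σ x ∈ L) ∧ L₁ ≤ L ∧ L₂ ≤ L := by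
  have : FiniteDimensional ℚ ↥(L₁ ⊔ L₂) := IntermediateField.finiteDimensional_sup L₁ L₂
  have ialg : Algebra.IsAlgebraic ℚ (AlgebraicClosure ℚ) := AlgebraicClosure.isAlgebraic ℚ
  have iac : IsAlgClosure ℚ (AlgebraicClosure ℚ) := ⟨inferInstance, ialg⟩
  have inorm : Normal ℚ (AlgebraicClosure ℚ) := IsAlgClosure.normal ℚ (AlgebraicClosure ℚ)
  refine ⟨IntermediateField.normalClosure ℚ ↥(L₁ ⊔ L₂) (AlgebraicClosure ℚ), inferInstance, ?_, ?_, ?_⟩
  · intro σ x hx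
    have hn : Normal ℚ (IntermediateField.normalClosure ℚ ↥(L₁ ⊔ L₂) (AlgebraicClosure ℚ)) :=
      _root_.normalClosure.normal ℚ _ _
    have := (IntermediateField.normal_iff_forall_map_le'.mp hn) σ
    exact this ⟨x, hx, rfl⟩
  · exact le_sup_left.trans (IntermediateField.le_normalClosure _)
  · exact le_sup_right.trans (IntermediateField.le_normalClosure _)

variable (p : ℕ) [Fact p.Prime] (N : ℕ) [NeZero N] (S : Finset ℕ)
variable (O : Type) [CommRing O] [IsDomain O] [IsDiscreteValuationRing O]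
  [IsAdicComplete (maximalIdeal O) O]
variable (χ : CuspForm.heckeAlgebra N 2 (↑S : Set ℕ) →+* O)
variable {E : Type} [AddCommGroup E] [Module O E]

/-- the Frobenius predicate used in the abstract assembly -/
def top88_Frob (φ : tpk1_GQ) (a l : O) : Prop :=
  ∃ (ℓ : ℕ) (hℓ : ℓ.Prime) (hℓN : ¬ ℓ ∣ N) (hℓS : ℓ ∉ (↑S : Set ℕ))
    (A : ValuationSubring (AlgebraicClosure ℚ)), A.LiesOverPrime ℓ ∧ A.IsFrobeniusAt φ ℓ ∧
      a = χ (CuspForm.heckeAlgebra.T hℓ hℓN hℓS) ∧ l = (ℓ : O)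

omit [Fact p.Prime] in
/-- **Concrete assembly**: from the block outputs on `E = V[χ]` to the body of `tpk1_Core`. -/
theorem top88_core_of_data [Module.Free O E] [Nontrivial E]
    (ρ : tpk1_GQ →* Module.End O E) (ε : tpk1_GQ →* O)
    (hES : ∀ (ℓ : ℕ) (hℓ : ℓ.Prime) (hℓN : ¬ ℓ ∣ N) (hℓS : ℓ ∉ (↑S : Set ℕ)),
      ∀ A : ValuationSubring (AlgebraicClosure ℚ), A.LiesOverPrime ℓ →
        ∀ σ : tpk1_GQ, A.IsFrobeniusAt σ ℓ →
          ρ σ * ρ σ - χ (CuspForm.heckeAlgebra.T hℓ hℓN hℓS) • ρ σ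
            + (ℓ : O) • (1 : Module.End O E) = 0)
    (hεF : ∀ (ℓ : ℕ), ℓ.Prime → ¬ ℓ ∣ N → ℓ ∉ (↑S : Set ℕ) →
      ∀ A : ValuationSubring (AlgebraicClosure ℚ), A.LiesOverPrime ℓ →
        ∀ σ : tpk1_GQ, A.IsFrobeniusAt σ ℓ → ε σ = (ℓ : O))
    (hin : ∀ q : ℕ, q.Prime → ¬ q ∣ N → q ≠ p →
      ∀ P : ValuationSubring (AlgebraicClosure ℚ), P.LiesOverPrime q →
        ∀ σ ∈ P.inertiaSubgroupIn ℚ, ρ σ = 1 ∧ ε σ = 1)
    (hcont : ∀ n : ℕ, ∃ L : IntermediateField ℚ (AlgebraicClosure ℚ), FiniteDimensional ℚ L ∧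
      (∀ σ : tpk1_GQ, ∀ x ∈ L, σ x ∈ L) ∧
      ∀ σ : tpk1_GQ, (∀ x ∈ L, σ x = x) →
        (∀ v : E, ρ σ v - v ∈ (maximalIdeal O ^ n) • (⊤ : Submodule O E)) ∧
          ε σ - 1 ∈ maximalIdeal O ^ n)
    (hlat : ∀ a : tpk1_GQ → O,
      (∀ g, ρ g * ρ g - a g • ρ g + ε g • (1 : Module.End O E) = 0) → top88_LatConcl ρ ε a) :
    ∃ (V : Type) (_ : AddCommGroup V) (_ : Module O V) (_ : Module.Free O V)
      (_ : Module.Finite O V) (ρ' : tpk1_GQ →* Module.End O V),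
      Module.finrank O V = 2 ∧
      GaloisActionIsAdicContinuous O ρ' ∧
      (∀ (ℓ : ℕ) (hℓ : ℓ.Prime) (hℓN : ¬ ℓ ∣ N) (hℓS : ℓ ∉ (↑S : Set ℕ)),
        ∀ A : ValuationSubring (AlgebraicClosure ℚ), A.LiesOverPrime ℓ →
          ∀ σ : tpk1_GQ, A.IsFrobeniusAt σ ℓ →
            LinearMap.charpoly (ρ' σ) =
              X ^ 2 - C (χ (CuspForm.heckeAlgebra.T hℓ hℓN hℓS)) * X + C ((ℓ : O))) ∧
      (∀ q : ℕ, q.Prime → ¬ q ∣ N → q ≠ p →
        ∀ P : ValuationSubring (AlgebraicClosure ℚ), P.LiesOverPrime q →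
          ∀ σ ∈ P.inertiaSubgroupIn ℚ, ρ' σ = 1) := by
  classical
  -- the abstract assembly
  have hFQ : ∀ φ a l, top88_Frob N S O χ φ a l →
      ρ φ * ρ φ - a • ρ φ + l • (1 : Module.End O E) = 0 := by
    rintro φ a l ⟨ℓ, hℓ, hℓN, hℓS, A, hA, hφ, rfl, rfl⟩
    exact hES ℓ hℓ hℓN hℓS A hA φ hφ
  have hFε : ∀ φ a l, top88_Frob N S O χ φ a l → ε φ = l := by
    rintro φ a l ⟨ℓ, hℓ, hℓN, hℓS, A, hA, hφ, rfl, rfl⟩
    exact hεF ℓ hℓ hℓN hℓS A hA φ hφ
  have hdens : ∀ (g : tpk1_GQ) (n : ℕ), ∃ (φ : tpk1_GQ) (a l : O) (j : ℕ),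
      top88_Frob N S O χ φ a l ∧
      (∀ v : E, ρ g v - (ρ φ ^ j) v ∈ (maximalIdeal O ^ n) • (⊤ : Submodule O E)) ∧
        ε g - l ^ j ∈ maximalIdeal O ^ n := by
    intro g n
    obtain ⟨L, hfd, hnorm, hL⟩ := hcont n
    obtain ⟨ℓ, A, φ, j, hℓ, hℓM, hA, hφ, hfix⟩ :=
      Fermat.Agent.S41x.fdndi_exists_frobenius L hfd hnorm g (top88_M N S) (top88_M_pos N S)
    obtain ⟨hℓN, hℓS⟩ := top88_not_dvd_M hℓ hℓM
    have hfix' : ∀ x ∈ L, (g⁻¹ * φ ^ j) x = x := by
      intro x hx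
      exact (IntermediateField.mem_fixingSubgroup_iff L _).mp hfix x hx
    obtain ⟨h1, h2⟩ := hL _ hfix'
    refine ⟨φ, χ (CuspForm.heckeAlgebra.T hℓ hℓN hℓS), (ℓ : O), j,
      ⟨ℓ, hℓ, hℓN, hℓS, A, hA, hφ, rfl, rfl⟩, ?_, ?_⟩
    · intro v
      have h3 := aql88_end_mem (maximalIdeal O ^ n) (ρ g) (h1 v)
      have h4 : ρ g (ρ (g⁻¹ * φ ^ j) v - v) = (ρ φ ^ j) v - ρ g v := by
        rw [map_sub, ← Module.End.mul_apply, ← map_mul, mul_inv_cancel_left, map_pow]
      rw [h4] at h3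
      have := Submodule.neg_mem _ h3
      rwa [neg_sub] at this
    · have h5 : ε g * (ε (g⁻¹ * φ ^ j) - 1) = ε φ ^ j - ε g := by
        rw [mul_sub, ← map_mul, mul_inv_cancel_left, map_pow, mul_one]
      have h6 := Ideal.mul_mem_left (maximalIdeal O ^ n) (ε g) h2
      rw [h5, hεF ℓ hℓ hℓN hℓS A hA φ hφ] at h6
      have := (maximalIdeal O ^ n).neg_mem h6
      rwa [neg_sub] at this
  obtain ⟨ρ', hchar, hideal⟩ :=
    top88_abstract (maximalIdeal O) ρ ε (top88_Frob N S O χ) hFQ hFε hdens hlat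
  refine ⟨Fin 2 → O, inferInstance, inferInstance, inferInstance, inferInstance, ρ', ?_, ?_, ?_, ?_⟩
  · simp
  · intro n
    obtain ⟨L, hfd, -, hL⟩ := hcont n
    refine ⟨L, hfd, fun σ hσ v => ?_⟩
    obtain ⟨h1, h2⟩ := hL σ hσ
    exact hideal _ σ h1 h2 v
  · intro ℓ hℓ hℓN hℓS A hA σ hσ
    exact hchar σ _ _ ⟨ℓ, hℓ, hℓN, hℓS, A, hA, hσ, rfl, rfl⟩
  · intro q hq hqN hqp P hP σ hσ
    obtain ⟨h1, h2⟩ := hin q hq hqN hqp P hP σ hσ
    have h3 : ∀ w, ρ' σ w - w ∈ (⊥ : Ideal O) • (⊤ : Submodule O (Fin 2 → O)) := by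
      apply hideal ⊥ σ
      · intro v
        rw [h1, Module.End.one_apply, sub_self]
        exact Submodule.zero_mem _
      · rw [h2, sub_self]
        exact Submodule.zero_mem _
    refine LinearMap.ext fun w => ?_
    have h4 := h3 w
    rw [Submodule.bot_smul, Submodule.mem_bot, sub_eq_zero] at h4
    rw [h4, Module.End.one_apply]

end PartB

end Fermat.Agent.S30x
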