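/-
S30x/Top81 (helper81, S30 block T0 twin, prefix `top81_`): **PART C of the S30 assembly**:
instantiation of helper88's `top88_core_of_data` at `E := V[χ] ⊆ T := T_p(J₀(N)) ⊗ O`.

Blocks used (all on main):
* T1 `iot63_iotaN*` (helper63), T5 `t5x52_top_of_pair` (helper52) + pair algebra `hpa1_*` (helper1):
  `V[χ] ≠ 0`;
* T2 `t2i95_submodule_finite_free` (helper95): `V[χ]` finite free over `O`;
* T3 `cyc58_epsO*` (helper58): the cyclotomic character with values in `O`;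
* T4 `t4g37_*` (helper37): Eichler–Shimura, inertia and level fields on the Tate module;
* `egr11_*` (helper11): passage from `T` to the eigen-submodule `E`;
* T8 `lti97_exists_rank_two` (helper97): the lattice step;
* T0/T6/T9 `top88_core_of_data` (helper88), `tpk1_result_of_core` (helper1).
-/
import Mathlib
import Fermat.Agent.S30x.TopAbs88
import Fermat.Agent.S30x.T4Galois37
import Fermat.Agent.S30x.T4Comm37
import Fermat.Agent.S30x.CycAdic58
import Fermat.Agent.S30x.TateInst95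
import Fermat.Agent.S30x.T5Top52
import Fermat.Agent.S30x.HeckePair1
import Fermat.Agent.S30x.IotaTowerAll63
import Fermat.Agent.S30x.LatticeInt97
import Fermat.Agent.S30x.EigenRestrict11

set_option autoImplicit false
set_option maxSynthPendingDepth 3

namespace Fermat.Agent.S30x

open Polynomial CuspForm IsLocalRing TensorProduct ModularCurve
open Fermat.Agent.S41x

noncomputable section

variable (p : ℕ) [Fact p.Prime] (N : ℕ) [NeZero N] (S : Finset ℕ)
variable (O : Type) [CommRing O] [IsDomain O] [IsDiscreteValuationRing O]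
  [IsAdicComplete (maximalIdeal O) O] [CharZero O]
variable (χ : CuspForm.heckeAlgebra N 2 (↑S : Set ℕ) →+* O)

/-- the Hecke operators `T_ℓ ⊗ O`, `ℓ ∉ S`, `ℓ ∤ N`, on `O ⊗ J₀(N)` -/
def top81_phi (i : hpa1_I N (↑S : Set ℕ)) : Module.End O (O ⊗[ℤ] JZero N) :=
  (heckeOperatorBar N i.1).baseChange O

/-- the eigenvalues `χ(T_ℓ)` -/
def top81_c (i : hpa1_I N (↑S : Set ℕ)) : O := χ (hpa1_snd N (↑S : Set ℕ) (hpa1_tau N (↑S : Set ℕ) i))

/-- `E = V[χ]` -/
abbrev top81_E : Submodule O (tsq11_T ((p : ℕ) : O) (O ⊗[ℤ] JZero N)) :=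
  tsq11_eigen ((p : ℕ) : O) (top81_phi N S O) (top81_c N S O χ)

theorem top81_comm (g : tpk1_GQ) (i : hpa1_I N (↑S : Set ℕ)) :
    Commute (t4g37_galO O N g) (top81_phi N S O i) :=
  t4g37_commute O N i.1 g

/-- the Galois representation on `E` -/
def top81_rho : tpk1_GQ →* Module.End O (top81_E p N S O χ) :=
  egr11_rep (t4g37_galO O N) (top81_comm N S O)

/-- the cyclotomic character with values in `O` -/
def top81_eps (hpO : ((p : ℕ) : O) ∈ maximalIdeal O) : tpk1_GQ →* O :=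
  cyc58_epsO p (maximalIdeal O) hpO

/-- **T5**: `V[χ] ≠ 0`. -/
theorem top81_exists_eigen (hpO : ((p : ℕ) : O) ∈ maximalIdeal O) :
    ∃ x : tsq11_T ((p : ℕ) : O) (O ⊗[ℤ] JZero N), x ≠ 0 ∧ x ∈ top81_E p N S O χ := by
  have hp : p.Prime := Fact.out
  exact t5x52_top_of_pair p hp.ne_zero (hpa1_fst N (↑S : Set ℕ))
    (hpa1_fst_injective N (↑S : Set ℕ)) (hpa1_snd N (↑S : Set ℕ))
    (fun i : hpa1_I N (↑S : Set ℕ) => i.1) (hpa1_tau N (↑S : Set ℕ))
    (fun i => hpa1_fst_tau N (↑S : Set ℕ) i) hpO χ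
    (fun i : hpa1_I N (↑S : Set ℕ) => heckeOperatorBar N i.1)
    (iot63_iotaN N p hp.pos)
    (fun n v => iot63_iotaN_tors N p hp.pos n v)
    (fun n v hv => iot63_iotaN_ker N p hp.pos n v hv)
    (fun n i v => iot63_iotaN_hecke N p hp.pos n i.1 i.2.2 v)
    (fun n v => iot63_iotaN_compat N p hp.pos n v)

/-- **hES**: Eichler–Shimura on `E`. -/
theorem top81_hES (hpS : p ∈ S) (ℓ : ℕ) (hℓ : ℓ.Prime) (hℓN : ¬ ℓ ∣ N)
    (hℓS : ℓ ∉ (↑S : Set ℕ)) (A : ValuationSubring (AlgebraicClosure ℚ))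
    (hA : A.LiesOverPrime ℓ) (σ : tpk1_GQ) (hσ : A.IsFrobeniusAt σ ℓ) :
    top81_rho p N S O χ σ * top81_rho p N S O χ σ
      - χ (CuspForm.heckeAlgebra.T hℓ hℓN hℓS) • top81_rho p N S O χ σ
      + (ℓ : O) • (1 : Module.End O (top81_E p N S O χ)) = 0 := by
  have hp : p.Prime := Fact.out
  have hℓp : ℓ ≠ p := by
    rintro rfl
    exact hℓS (Finset.mem_coe.mpr hpS)
  exact egr11_quadratic (p := ((p : ℕ) : O)) (φ := top81_phi N S O) (c := top81_c N S O χ)
    (t4g37_galO O N) (top81_comm N S O) σ ⟨⟨ℓ, hℓ⟩, hℓS, hℓN⟩ (ℓ : O)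
    (fun x => t4g37_frob_quadratic O N p hp ℓ hℓ hℓN hℓp A hA σ hσ x)

/-- **hin**, representation part. -/
theorem top81_hin (q : ℕ) (hq : q.Prime) (hqN : ¬ q ∣ N) (hqp : q ≠ p)
    (P : ValuationSubring (AlgebraicClosure ℚ)) (hP : P.LiesOverPrime q) (σ : tpk1_GQ)
    (hσ : σ ∈ P.inertiaSubgroupIn ℚ) : top81_rho p N S O χ σ = 1 := by
  have hp : p.Prime := Fact.out
  refine egr11_eq_one (p := ((p : ℕ) : O)) (φ := top81_phi N S O) (c := top81_c N S O χ)
    (t4g37_galO O N) (top81_comm N S O) σ (fun x => ?_)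
  have h1 := t4g37_inertia_trivial O N p hp q hq hqN hqp P hP σ hσ
  have h2 := congrArg (fun F : Module.End O (t4g37_V O N p) => F x) h1
  exact h2

/-- level fields on the Tate module `T` and for the cyclotomic character, made normal. -/
theorem top81_hcontT (hpO : ((p : ℕ) : O) ∈ maximalIdeal O) (n : ℕ) :
    ∃ L : IntermediateField ℚ (AlgebraicClosure ℚ), FiniteDimensional ℚ L ∧
      (∀ σ : tpk1_GQ, ∀ x ∈ L, σ x ∈ L) ∧
      ∀ σ : tpk1_GQ, (∀ x ∈ L, σ x = x) →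
        (∀ x : t4g37_V O N p, t4g37_rhoV O N p σ x - x ∈
          ((Ideal.span {((p : ℕ) : O)}) ^ n • ⊤ : Submodule O (t4g37_V O N p))) ∧
          top81_eps p O hpO σ - 1 ∈ maximalIdeal O ^ n := by
  have hp : p.Prime := Fact.out
  have h1 := t4g37_exists_field O N p hp.ne_zero n
  have h2 := cyc58_eps_level_one_pow p (maximalIdeal O) hpO n
  have h3 := top88_exists_normal h1.choose h2.choose h1.choose_spec.1 h2.choose_spec.1
  exact ⟨h3.choose, h3.choose_spec.1, h3.choose_spec.2.1, fun σ hσ =>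
    ⟨fun x => h1.choose_spec.2 σ (fun a ha => hσ a (h3.choose_spec.2.2.1 ha)) x,
      h2.choose_spec.2 σ (fun a ha => hσ a (h3.choose_spec.2.2.2 ha))⟩⟩

/-- congruence on `T` gives congruence on `E`. -/
theorem top81_cong (hpO : ((p : ℕ) : O) ∈ maximalIdeal O) (n : ℕ) (σ : tpk1_GQ)
    (h : ∀ x : t4g37_V O N p, t4g37_rhoV O N p σ x - x ∈
      ((Ideal.span {((p : ℕ) : O)}) ^ n • ⊤ : Submodule O (t4g37_V O N p)))
    (v : top81_E p N S O χ) :
    top81_rho p N S O χ σ v - v ∈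
      (maximalIdeal O ^ n) • (⊤ : Submodule O (top81_E p N S O χ)) :=
  egr11_sub_mem (p := ((p : ℕ) : O)) (φ := top81_phi N S O) (c := top81_c N S O χ)
    (t4g37_galO O N) (top81_comm N S O) (maximalIdeal O) hpO n σ h v

/-- **hcont**. -/
theorem top81_hcont (hpO : ((p : ℕ) : O) ∈ maximalIdeal O) (n : ℕ) :
    ∃ L : IntermediateField ℚ (AlgebraicClosure ℚ), FiniteDimensional ℚ L ∧
      (∀ σ : tpk1_GQ, ∀ x ∈ L, σ x ∈ L) ∧
      ∀ σ : tpk1_GQ, (∀ x ∈ L, σ x = x) →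
        (∀ v : top81_E p N S O χ, top81_rho p N S O χ σ v - v ∈
          (maximalIdeal O ^ n) • (⊤ : Submodule O (top81_E p N S O χ))) ∧
          top81_eps p O hpO σ - 1 ∈ maximalIdeal O ^ n :=
  (top81_hcontT p N O hpO n).imp fun _ hL => ⟨hL.1, hL.2.1, fun σ hσ =>
    ⟨fun v => top81_cong p N S O χ hpO n σ (hL.2.2 σ hσ).1 v, (hL.2.2 σ hσ).2⟩⟩

/-- **the core of S30**. -/
theorem top81_core : tpk1_Core := by
  intro p _ N _ S hpS hNS O _ _ _ _ _ _ hpO χ
  have hp : p.Prime := Fact.out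
  obtain ⟨x, hx0, hx⟩ := top81_exists_eigen p N S O χ hpO
  haveI : Nontrivial (top81_E p N S O χ) := egr11_nontrivial hx0 hx
  obtain ⟨hfin, hfree⟩ := t2i95_submodule_finite_free N p O hp.pos hpO (top81_E p N S O χ)
  haveI := hfin
  haveI := hfree
  have h2 : (2 : O) ≠ 0 := two_ne_zero
  refine top88_core_of_data p N S O χ (top81_rho p N S O χ) (top81_eps p O hpO)
    (fun ℓ hℓ hℓN hℓS A hA σ hσ => top81_hES p N S O χ hpS ℓ hℓ hℓN hℓS A hA σ hσ)
    (fun ℓ hℓ hℓN hℓS A hA σ hσ => ?_)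
    (fun q hq hqN hqp P hP σ hσ => ⟨top81_hin p N S O χ q hq hqN hqp P hP σ hσ, ?_⟩)
    (fun n => top81_hcont p N S O χ hpO n)
    (fun a h => ?_)
  · have hℓp : ℓ ≠ p := by
      rintro rfl
      exact hℓS (Finset.mem_coe.mpr hpS)
    exact cyc58_epsO_frob p (maximalIdeal O) hpO hℓ hℓp A hA σ hσ
  · exact cyc58_epsO_inertia p (maximalIdeal O) hpO hq hqp P hP σ hσ
  · exact lti97_exists_rank_two h2 (top81_rho p N S O χ) (top81_eps p O hpO) a h
      complexConjugation_mul_self (cyc58_epsO_conj p (maximalIdeal O) hpO)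

end

end Fermat.Agent.S30x
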