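/-
S30 project, TOP assembly, model half (helper88, S30 architect), prefix `tpm88_`.

Part C (abstract `J`): the body of `tpk1_Core` from an ABSTRACT abelian group `J` with a Galois action
`galZ` and commuting Hecke operators `TJ ℓ` satisfying the Eichler--Shimura relation / trivial inertia
on `p`-power torsion, finiteness of `J[p]`, open stabilisers of `J[p^n]`, and a nonzero `χ`-eigenvector
in the sequence model `T = tsq11_T (p : O) (O ⊗[ℤ] J)`.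

Everything is done for an abstract `J` because elaboration on the concrete `J₀(N)(ℚ̄)` is very slow;
`S30x/Top88.lean` instantiates `J := JZero N` by a bare term.
-/
import Mathlib
import Fermat.Agent.S30x.TopAbs88
import Fermat.Agent.S30x.T4Abs37
import Fermat.Agent.S30x.EigenRestrict30
import Fermat.Agent.S30x.TateSeqFree11
import Fermat.Agent.S30x.TateInst95
import Fermat.Agent.S30x.CycLimit29
import Fermat.Agent.S30x.Lattice32

set_option autoImplicit false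
set_option linter.unusedSectionVars false

open Polynomial CuspForm TensorProduct IsLocalRing

noncomputable section

namespace Fermat.Agent.S30x

section Data

variable (p : ℕ) (N : ℕ) [NeZero N] (S : Finset ℕ)
variable (O : Type) [CommRing O] [IsDomain O] [IsDiscreteValuationRing O]
  [IsAdicComplete (maximalIdeal O) O] [CharZero O]
variable (χ : CuspForm.heckeAlgebra N 2 (↑S : Set ℕ) →+* O)
variable {E : Type} [AddCommGroup E] [Module O E]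

/-- `top88_core_of_data` with the lattice step T8 (`lat32_exists_rank_two`) plugged in. -/
theorem tpm88_core_of_data [Module.Free O E] [Module.Finite O E] [Nontrivial E]
    (ρ : tpk1_GQ →* Module.End O E) (ε : tpk1_GQ →* O)
    (hES : ∀ (ℓ : ℕ) (hℓ : ℓ.Prime) (hℓN : ¬ ℓ ∣ N) (hℓS : ℓ ∉ (↑S : Set ℕ)),
      ∀ A : ValuationSubring (AlgebraicClosure ℚ), A.LiesOverPrime ℓ →
        ∀ σ : tpk1_GQ, A.IsFrobeniusAt σ ℓ →
          ρ σ * ρ σ - χ (CuspForm.heckeAlgebra.T hℓ hℓN hℓS) • ρ σ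
            + (ℓ : O) • (1 : Module.End O E) = 0)
    (hεF : ∀ (ℓ : ℕ), ℓ.Prime → ¬ ℓ ∣ N → ℓ ∉ (↑S : Set ℕ) →
      ∀ A : ValuationSubring (AlgebraicClosure ℚ), A.LiesOverPrime ℓ →
        ∀ σ : tpk1_GQ, A.IsFrobeniusAt σ ℓ → ε σ = (ℓ : O))
    (hin : ∀ q : ℕ, q.Prime → ¬ q ∣ N → q ≠ p →
      ∀ P : ValuationSubring (AlgebraicClosure ℚ), P.LiesOverPrime q →
        ∀ σ ∈ P.inertiaSubgroupIn ℚ, ρ σ = 1 ∧ ε σ = 1)
    (hcont : ∀ n : ℕ, ∃ L : IntermediateField ℚ (AlgebraicClosure ℚ), FiniteDimensional ℚ L ∧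
      (∀ σ : tpk1_GQ, ∀ x ∈ L, σ x ∈ L) ∧
      ∀ σ : tpk1_GQ, (∀ x ∈ L, σ x = x) →
        (∀ v : E, ρ σ v - v ∈ (maximalIdeal O ^ n) • (⊤ : Submodule O E)) ∧
          ε σ - 1 ∈ maximalIdeal O ^ n)
    (cc : tpk1_GQ) (hcc : cc * cc = 1) (hεc : ε cc = -1) :
    ∃ (V : Type) (_ : AddCommGroup V) (_ : Module O V) (_ : Module.Free O V)
      (_ : Module.Finite O V) (ρ' : tpk1_GQ →* Module.End O V),
      Module.finrank O V = 2 ∧
      GaloisActionIsAdicContinuous O ρ' ∧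
      (∀ (ℓ : ℕ) (hℓ : ℓ.Prime) (hℓN : ¬ ℓ ∣ N) (hℓS : ℓ ∉ (↑S : Set ℕ)),
        ∀ A : ValuationSubring (AlgebraicClosure ℚ), A.LiesOverPrime ℓ →
          ∀ σ : tpk1_GQ, A.IsFrobeniusAt σ ℓ →
            LinearMap.charpoly (ρ' σ) =
              X ^ 2 - C (χ (CuspForm.heckeAlgebra.T hℓ hℓN hℓS)) * X + C ((ℓ : O))) ∧
      (∀ q : ℕ, q.Prime → ¬ q ∣ N → q ≠ p →
        ∀ P : ValuationSubring (AlgebraicClosure ℚ), P.LiesOverPrime q →
          ∀ σ ∈ P.inertiaSubgroupIn ℚ, ρ' σ = 1) :=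
  top88_core_of_data p N S O χ ρ ε hES hεF hin hcont
    (fun a h => lat32_exists_rank_two two_ne_zero ρ ε a h hcc hεc)

end Data

section Model

variable (p : ℕ) [hpF : Fact p.Prime] (S : Finset ℕ)
variable (O : Type) [CommRing O] [IsDomain O] [IsDiscreteValuationRing O]
  [IsAdicComplete (maximalIdeal O) O] [CharZero O]
variable {J : Type} [AddCommGroup J]
variable (galZ : tpk1_GQ →* Module.End ℤ J) (TJ : Nat.Primes → Module.End ℤ J)

/-- the index type of the good primes -/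
abbrev tpm88_I : Type := {ℓ : Nat.Primes // (ℓ : ℕ) ∉ (↑S : Set ℕ)}

variable (c : tpm88_I S → O)

/-- the Hecke family on `O ⊗ J` -/
def tpm88_phi (i : tpm88_I S) : Module.End O (O ⊗[ℤ] J) := t4a37_endO O (TJ i.1)

/-- `E = V[χ]` -/
def tpm88_E : Submodule O (t4a37_V O J p) :=
  tsq11_eigen ((p : ℕ) : O) (tpm88_phi S O TJ) c

variable (hcomm : ∀ (σ : tpk1_GQ) (ℓ : Nat.Primes), Commute (galZ σ) (TJ ℓ))

include hcomm in
theorem tpm88_comm (g : tpk1_GQ) (i : tpm88_I S) :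
    Commute (t4a37_repO O galZ g) (tpm88_phi S O TJ i) :=
  t4a37_commute O galZ (TJ i.1) g (hcomm g i.1)

include hcomm in
theorem tpm88_stable (g : tpk1_GQ) (w : t4a37_V O J p) (hw : w ∈ tpm88_E p S O TJ c) :
    t4a37_rhoV O galZ p g w ∈ tpm88_E p S O TJ c :=
  egr30_eigen_stable (tpm88_phi S O TJ) c (t4a37_repO O galZ) (tpm88_comm S O galZ TJ hcomm) g w hw

theorem tpm88_sat (k : ℕ) (z : t4a37_V O J p)
    (h : ((p : ℕ) : O) ^ k • z ∈ tpm88_E p S O TJ c) : z ∈ tpm88_E p S O TJ c :=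
  egr30_eigen_sat (tpm88_phi S O TJ) c k z h

/-- the Galois action on `E` -/
def tpm88_rhoE : tpk1_GQ →* Module.End O (tpm88_E p S O TJ c) :=
  egr30_restrict (t4a37_rhoV O galZ p) (tpm88_E p S O TJ c) (tpm88_stable p S O galZ TJ c hcomm)

/-- on `E`, the Hecke operator `T_ℓ` acts as the scalar `c ℓ`. -/
theorem tpm88_TV_eq (i : tpm88_I S) (w : t4a37_V O J p) (hw : w ∈ tpm88_E p S O TJ c) :
    t4a37_TV O (TJ i.1) p w = c i • w :=
  (tsq11_mem_eigen.mp hw) i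

/-- generic: restriction of a trivial action is trivial -/
theorem tpm88_restrict_eq_one {R : Type*} [CommRing R] {T : Type*} [AddCommGroup T] [Module R T]
    {G : Type*} [Monoid G] (ρ : G →* Module.End R T) (W : Submodule R T)
    (hW : ∀ g, ∀ w ∈ W, ρ g w ∈ W) (σ : G) (h : ρ σ = 1) : egr30_restrict ρ W hW σ = 1 := by
  apply LinearMap.ext
  intro w
  apply Subtype.ext
  rw [egr30_restrict_apply, h]
  rfl

include hcomm in
/-- **The body of `tpk1_Core` from an abstract model `J`.** -/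
theorem tpm88_core_of_model (N : ℕ) [NeZero N] (hpS : p ∈ S)
    (hpO : (p : O) ∈ maximalIdeal O)
    (χ : CuspForm.heckeAlgebra N 2 (↑S : Set ℕ) →+* O)
    (hc : ∀ (ℓ : ℕ) (hℓ : ℓ.Prime) (hℓN : ¬ ℓ ∣ N) (hℓS : ℓ ∉ (↑S : Set ℕ)),
      c ⟨⟨ℓ, hℓ⟩, hℓS⟩ = χ (CuspForm.heckeAlgebra.T hℓ hℓN hℓS))
    (hfinJ : {x : J | p • x = 0}.Finite)
    (hESJ : ∀ (ℓ : ℕ) (hℓ : ℓ.Prime), ¬ ℓ ∣ N → ℓ ≠ p →
      ∀ A : ValuationSubring (AlgebraicClosure ℚ), A.LiesOverPrime ℓ →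
        ∀ σ : tpk1_GQ, A.IsFrobeniusAt σ ℓ → ∀ (k : ℕ) (x : J), p ^ k • x = 0 →
          galZ σ (galZ σ x) - galZ σ (TJ ⟨ℓ, hℓ⟩ x) + ℓ • x = 0)
    (hinJ : ∀ q : ℕ, q.Prime → ¬ q ∣ N → q ≠ p →
      ∀ P : ValuationSubring (AlgebraicClosure ℚ), P.LiesOverPrime q →
        ∀ σ ∈ P.inertiaSubgroupIn ℚ, ∀ (k : ℕ) (x : J), p ^ k • x = 0 → galZ σ x = x)
    (hfieldJ : ∀ (n : ℕ) (E0 : IntermediateField ℚ (AlgebraicClosure ℚ)),
      FiniteDimensional ℚ E0 →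
        ∃ L : IntermediateField ℚ (AlgebraicClosure ℚ), FiniteDimensional ℚ L ∧ E0 ≤ L ∧
          (∀ σ : tpk1_GQ, ∀ a ∈ L, σ a ∈ L) ∧
          ∀ σ : tpk1_GQ, (∀ a ∈ L, σ a = a) → ∀ x : J, p ^ n • x = 0 → galZ σ x = x)
    (hT5 : ∃ x : tsq11_T ((p : ℕ) : O) (O ⊗[ℤ] J), x ≠ 0 ∧
      x ∈ tsq11_eigen ((p : ℕ) : O)
        (fun i : tpm88_I S => (LinearMap.baseChange O (TJ i.1) : Module.End O (O ⊗[ℤ] J))) c) :
    ∃ (V : Type) (_ : AddCommGroup V) (_ : Module O V) (_ : Module.Free O V)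
      (_ : Module.Finite O V) (ρ' : tpk1_GQ →* Module.End O V),
      Module.finrank O V = 2 ∧
      GaloisActionIsAdicContinuous O ρ' ∧
      (∀ (ℓ : ℕ) (hℓ : ℓ.Prime) (hℓN : ¬ ℓ ∣ N) (hℓS : ℓ ∉ (↑S : Set ℕ)),
        ∀ A : ValuationSubring (AlgebraicClosure ℚ), A.LiesOverPrime ℓ →
          ∀ σ : tpk1_GQ, A.IsFrobeniusAt σ ℓ →
            LinearMap.charpoly (ρ' σ) =
              X ^ 2 - C (χ (CuspForm.heckeAlgebra.T hℓ hℓN hℓS)) * X + C ((ℓ : O))) ∧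
      (∀ q : ℕ, q.Prime → ¬ q ∣ N → q ≠ p →
        ∀ P : ValuationSubring (AlgebraicClosure ℚ), P.LiesOverPrime q →
          ∀ σ ∈ P.inertiaSubgroupIn ℚ, ρ' σ = 1) := by
  classical
  have hp : p.Prime := hpF.out
  have hp0 : 0 < p := hp.pos
  have hpm : ((p : ℕ) : O) ∈ maximalIdeal O := hpO
  have hpI : Ideal.span {((p : ℕ) : O)} ≤ maximalIdeal O :=
    (Ideal.span_singleton_le_iff_mem _).mpr hpm
  have hflat : Module.Flat ℤ O := inferInstance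
  have hnoeth : IsNoetherian O (Submodule.torsionBy O (O ⊗[ℤ] J) ((p : ℕ) : O)) :=
    t2i95_isNoetherian_torsionBy O J p hfinJ
  obtain ⟨hfin, hfree⟩ := tsq11_submodule_finite_free ((p : ℕ) : O) (O ⊗[ℤ] J)
    (Nat.cast_ne_zero.2 hp0.ne') hpm (tpm88_E p S O TJ c)
  obtain ⟨x, hx0, hx⟩ := hT5
  have hnt : Nontrivial (tpm88_E p S O TJ c) :=
    ⟨⟨⟨x, hx⟩, 0, fun h => hx0 (congrArg Subtype.val h)⟩⟩
  obtain ⟨ε, hεF, hεin, ⟨cc, hcc, hεc⟩, hεL⟩ := cyl29_contract p O hpO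
  refine tpm88_core_of_data (E := ↥(tpm88_E p S O TJ c)) p N S O χ
    (tpm88_rhoE p S O galZ TJ c hcomm) ε ?_ ?_ ?_ ?_ cc hcc hεc
  · -- hES
    intro ℓ hℓ hℓN hℓS A hA σ hσ
    have hℓp : ℓ ≠ p := fun h => hℓS (h ▸ Finset.mem_coe.mpr hpS)
    exact egr30_restrict_quadratic (t4a37_rhoV O galZ p) (tpm88_E p S O TJ c)
      (tpm88_stable p S O galZ TJ c hcomm) σ (t4a37_TV O (TJ ⟨ℓ, hℓ⟩) p)
      (χ (CuspForm.heckeAlgebra.T hℓ hℓN hℓS)) (ℓ : O)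
      (fun w hw => by
        rw [← hc ℓ hℓ hℓN hℓS]
        exact tpm88_TV_eq p S O TJ c ⟨⟨ℓ, hℓ⟩, hℓS⟩ w hw)
      (fun x => t4a37_quadraticV O galZ (TJ ⟨ℓ, hℓ⟩) p ℓ σ
        (hESJ ℓ hℓ hℓN hℓp A hA σ hσ) x)
  · -- hεF
    intro ℓ hℓ hℓN hℓS A hA σ hσ
    have hℓp : ℓ ≠ p := fun h => hℓS (h ▸ Finset.mem_coe.mpr hpS)
    exact hεF ℓ hℓ hℓp A hA σ hσ
  · -- hin
    intro q hq hqN hqp P hP σ hσ
    refine ⟨?_, hεin q hq hqp P hP σ hσ⟩
    exact tpm88_restrict_eq_one (t4a37_rhoV O galZ p) (tpm88_E p S O TJ c)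
      (tpm88_stable p S O galZ TJ c hcomm) σ
      (t4a37_fixedV O galZ p σ (hinJ q hq hqN hqp P hP σ hσ))
  · -- hcont
    intro n
    obtain ⟨E0, hE0, hE0ε⟩ := hεL n
    obtain ⟨L, hL, hE0L, hstab, hLρ⟩ := hfieldJ n E0 hE0
    refine ⟨L, hL, hstab, fun σ hσ => ⟨fun v => ?_, hE0ε σ (fun a ha => hσ a (hE0L ha))⟩⟩
    exact qlg30_mem_of_le (maximalIdeal O) hpI
      (egr30_restrict_sub_mem ((p : ℕ) : O) (t4a37_rhoV O galZ p) (tpm88_E p S O TJ c)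
        (tpm88_stable p S O galZ TJ c hcomm) (tpm88_sat p S O TJ c) n σ
        (fun y => t4a37_congV O galZ p n σ (hLρ σ hσ) y) v)

end Model

end Fermat.Agent.S30x
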