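/-
S30 project, TOP assembly, concrete half (helper88, S30 architect), prefix `top88_`.

Instantiate `tpm88_core_of_model` (S30x/TopModel88, abstract `J`) at `J := J₀(N)(ℚ̄) = JZero N` and
deduce `tpk1_Core`, the core of the frozen statement S30.

Inputs (all on main): T1 `iot63_tower_all` (helper63), T2 `tsq11_` (helper11) + `t2i95_` (helper95),
T3 `cyl29_contract` (helper29), T4 `t4a37_`/`t4g37_` (helper37), `t4f74_` (helper74), B8 `esl_`,
T5 `t5x52_top_of_pair` (helper52) + `hpa1_` (helper1), transfer `egr30_` (helper30),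
T6 `aql88_` (helper88), T7 `qrr97_` (helper97), T8 `lat32_exists_rank_two` (helper32),
T9 `tpk1_` (helper1), B9 density `fdndi_exists_frobenius`.
-/
import Mathlib
import Fermat.Agent.S30x.TopModel88
import Fermat.Agent.S30x.T4Defs37
import Fermat.Agent.S30x.T4Fields74
import Fermat.Agent.S30x.HeckePair1
import Fermat.Agent.S30x.T5Top52
import Fermat.Agent.S30x.IotaTowerAll63
import Fermat.Agent.S42x.ESlFinal

set_option autoImplicit false
set_option linter.unusedSectionVars false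

open Polynomial CuspForm ModularCurve TensorProduct IsLocalRing

noncomputable section

namespace Fermat.Agent.S30x

section PartC

variable (p : ℕ) [hpF : Fact p.Prime] (N : ℕ) [NeZero N] (S : Finset ℕ)
variable (hNS : ∀ q : ℕ, q.Prime → q ∣ N → q ∈ S)
variable (O : Type) [CommRing O] [IsDomain O] [IsDiscreteValuationRing O]
  [IsAdicComplete (maximalIdeal O) O] [CharZero O]
variable (χ : CuspForm.heckeAlgebra N 2 (↑S : Set ℕ) →+* O)

variable {N S}

include hNS in
theorem top88_not_dvd (i : tpm88_I S) : ¬ ((i.1 : ℕ) ∣ N) := fun h =>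
  i.2 (Finset.mem_coe.mpr (hNS _ i.1.2 h))

variable (N S)

/-- the generators of the pair algebra indexed by the good primes -/
def top88_gen (i : tpm88_I S) : hpa1_A N (↑S : Set ℕ) :=
  hpa1_tau N (↑S : Set ℕ) ⟨i.1, i.2, top88_not_dvd hNS i⟩

/-- the eigenvalues -/
def top88_c (i : tpm88_I S) : O := χ (hpa1_snd N (↑S : Set ℕ) (top88_gen N S hNS i))

theorem top88_c_eq (ℓ : ℕ) (hℓ : ℓ.Prime) (hℓN : ¬ ℓ ∣ N) (hℓS : ℓ ∉ (↑S : Set ℕ)) :
    top88_c N S hNS O χ ⟨⟨ℓ, hℓ⟩, hℓS⟩ = χ (CuspForm.heckeAlgebra.T hℓ hℓN hℓS) := rfl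

/-- **T5**: `V[χ] ≠ 0`. -/
theorem top88_exists_ne_zero (hpO : (p : O) ∈ maximalIdeal O) :
    ∃ x : tsq11_T ((p : ℕ) : O) (O ⊗[ℤ] JZero N), x ≠ 0 ∧
      x ∈ tsq11_eigen ((p : ℕ) : O)
        (fun i : tpm88_I S =>
          (LinearMap.baseChange O (heckeOperatorBar N i.1) : Module.End O (O ⊗[ℤ] JZero N)))
        (top88_c N S hNS O χ) := by
  obtain ⟨ι, htors, hker, hequiv, hcompat⟩ := iot63_tower_all N p hpF.out.pos
  exact t5x52_top_of_pair (N := N) p hpF.out.ne_zero
    (hpa1_fst N (↑S : Set ℕ)) (hpa1_fst_injective N (↑S : Set ℕ)) (hpa1_snd N (↑S : Set ℕ))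
    (I := tpm88_I S) (fun i => i.1) (top88_gen N S hNS)
    (fun i => rfl) (O := O) hpO χ
    (fun i => heckeOperatorBar N i.1) ι htors hker
    (fun n i v => hequiv n i.1 (top88_not_dvd hNS i) v) hcompat

end PartC

/-- **The core of S30.** -/
theorem top88_core : tpk1_Core := by
  intro p _ N _ S hpS hNS O _ _ _ _ _ _ hpO χ
  have hp : p.Prime := Fact.out
  exact tpm88_core_of_model p S O (t4g37_galZ N) (heckeOperatorBar N) (top88_c N S hNS O χ)
    (fun σ ℓ => t4g37_commute_galZ_of N ℓ σ (Fermat.Agent.S42x.esl_heckeOperatorBar_smul N ℓ σ))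
    N hpS hpO χ (top88_c_eq N S hNS O χ)
    (t2i95_finite_torsion N p hp.pos)
    (fun ℓ hℓ hℓN hℓp A hA σ hσ k x hx =>
      Fermat.Agent.S42x.esl_frob_quadratic_ppow N ℓ hℓ hℓN A hA p hp hℓp k x hx σ hσ)
    (fun q hq hqN hqp P hP σ hσ k x hx =>
      Fermat.Agent.S42x.esl_inertia_trivial_ppow N q hq hqN P hP p hp hqp k x hx σ hσ)
    (fun n E0 hE0 => by
      obtain ⟨L, h1, h2, h3, h4⟩ :=
        t4f74_exists_field N (p ^ n) (pow_ne_zero n hp.ne_zero) E0 hE0
      exact ⟨L, h1, h2, h3, h4⟩)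
    (top88_exists_ne_zero p N S hNS O χ hpO)

end Fermat.Agent.S30x
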