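/-
S30 project, TOP instantiation (Part C of the TOP contract), helper63, prefix `tin63_`.
INDEPENDENT TWIN of helper88's `Top88`: instantiates `top88_core_of_data` (helper88, `TopAbs88`) at

  `E := V[χ] = tsq11_eigen (p : O) (T_ℓ ⊗ O)_ℓ (χ T_ℓ)_ℓ ⊆ T = tsq11_T (p : O) (O ⊗[ℤ] J₀(N)(ℚ̄))`

with the landed blocks:
* T1 `iot63_iotaN` (tower), T5 `t5x52_top_of_pair` + `hpa1_` pair algebra  ⟹ `E ≠ 0`;
* T2 `t2i95_submodule_finite_free` ⟹ `E` finite free;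
* T3 `cyl63_eps` (cyclotomic character);
* T4 `t4a37_quadraticV`, `t4a37_fixedV` + S42x `esl_` (Eichler–Shimura, inertia), `t4f74_field_rhoV`;
* T8 `lti97_exists_rank_two` (lattice step);
and proves `tin63_core : tpk1_Core`, hence (by `tpk1_result_of_core`) the frozen statement S30.
-/
import Mathlib
import Fermat.Agent.S30x.TopAbs88
import Fermat.Agent.S30x.TopPack1
import Fermat.Agent.S30x.T4Defs37
import Fermat.Agent.S30x.T4FieldsInst74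
import Fermat.Agent.S30x.TateInst95
import Fermat.Agent.S30x.CycLim63
import Fermat.Agent.S30x.HeckePair1
import Fermat.Agent.S30x.T5Top52
import Fermat.Agent.S30x.IotaTowerAll63
import Fermat.Agent.S30x.LatticeInt97
import Fermat.Agent.S30x.EigenRestrict30
import Fermat.Agent.S42x.ESlFinal

set_option autoImplicit false

namespace Fermat.Agent.S30x

open TensorProduct ModularCurve CuspForm IsLocalRing Polynomial
open Fermat.Agent.S42x Fermat.Agent.S41x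

local notation "Q̄" => AlgebraicClosure ℚ

noncomputable section

/-! ### T4 on the Tate module: Eichler–Shimura, inertia, commutation -/

section T4

variable (O : Type*) [CommRing O] [Module.Flat ℤ O] (N : ℕ) [NeZero N] (p : ℕ)

/-- Eichler–Shimura on `V`: `ρ_V(σ)² - ρ_V(σ) T_ℓ + ℓ = 0` for Frobenius lifts at `ℓ ∤ N p`. -/
theorem tin63_ES (hp : p.Prime) {ℓ : ℕ} (hℓ : ℓ.Prime) (hℓN : ¬ ℓ ∣ N) (hℓp : ℓ ≠ p)
    (A : ValuationSubring Q̄) (hA : A.LiesOverPrime ℓ) (σ : Q̄ ≃ₐ[ℚ] Q̄)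
    (hσ : A.IsFrobeniusAt σ ℓ) (x : t4g37_V O N p) :
    t4g37_rhoV O N p σ (t4g37_rhoV O N p σ x)
      - t4g37_rhoV O N p σ (t4g37_TV O N p ⟨ℓ, hℓ⟩ x) + (ℓ : O) • x = 0 :=
  t4a37_quadraticV O (t4g37_galZ N) (heckeOperatorBar N ⟨ℓ, hℓ⟩) p ℓ σ
    (fun k y hy => esl_frob_quadratic_ppow N ℓ hℓ hℓN A hA p hp hℓp k y hy σ hσ) x

/-- inertia at `q ∤ N p` acts trivially on `V`. -/
theorem tin63_inertia (hp : p.Prime) {q : ℕ} (hq : q.Prime) (hqN : ¬ q ∣ N) (hqp : q ≠ p)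
    (P : ValuationSubring Q̄) (hP : P.LiesOverPrime q) (τ : Q̄ ≃ₐ[ℚ] Q̄)
    (hτ : τ ∈ P.inertiaSubgroupIn ℚ) : t4g37_rhoV O N p τ = 1 :=
  t4a37_fixedV O (t4g37_galZ N) p τ
    (fun k y hy => esl_inertia_trivial_ppow N q hq hqN P hP p hp hqp k y hy τ hτ)

omit [Module.Flat ℤ O] in
/-- Galois commutes with the Hecke operators on `O ⊗ J`. -/
theorem tin63_commute (ℓ : Nat.Primes) (σ : Q̄ ≃ₐ[ℚ] Q̄) :
    Commute (t4g37_galO O N σ) (t4g37_heckeO O N ℓ) :=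
  t4g37_commute_of O N ℓ σ (fun x => esl_heckeOperatorBar_smul N ℓ σ x)

end T4

/-- the restriction of a trivially acting element is trivial. -/
theorem tin63_restrict_eq_one {R : Type*} [CommRing R] {T : Type*} [AddCommGroup T] [Module R T]
    {G : Type*} [Monoid G] (ρ : G →* Module.End R T) (W : Submodule R T)
    (hW : ∀ g, ∀ w ∈ W, ρ g w ∈ W) (σ : G) (h : ρ σ = 1) : egr30_restrict ρ W hW σ = 1 := by
  apply LinearMap.ext
  intro w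
  apply Subtype.ext
  rw [egr30_restrict_apply, h]
  rfl

/-! ### the eigen-submodule `E = V[χ]` -/

section E

variable (p : ℕ) (N : ℕ) [NeZero N] (S : Finset ℕ)
variable (O : Type) [CommRing O]
variable (χ : CuspForm.heckeAlgebra N 2 (↑S : Set ℕ) →+* O)

/-- the family of Hecke operators `T_ℓ ⊗ O`, `ℓ ∉ S`, `ℓ ∤ N`. -/
def tin63_phi : hpa1_I N (↑S : Set ℕ) → Module.End O (O ⊗[ℤ] JZero N) :=
  fun i => t4g37_heckeO O N i.1

/-- the eigenvalues `χ(T_ℓ)`. -/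
def tin63_c : hpa1_I N (↑S : Set ℕ) → O := fun i => χ (hpa1_T N (↑S : Set ℕ) i)

/-- `E = V[χ]`. -/
def tin63_E : Submodule O (t4g37_V O N p) :=
  tsq11_eigen ((p : ℕ) : O) (tin63_phi N S O) (tin63_c N S O χ)

/-- `T_ℓ` acts on `E` as `χ(T_ℓ)`. -/
theorem tin63_TV_apply_of_mem {ℓ : ℕ} (hℓ : ℓ.Prime) (hℓN : ¬ ℓ ∣ N) (hℓS : ℓ ∉ (↑S : Set ℕ))
    (w : t4g37_V O N p) (hw : w ∈ tin63_E p N S O χ) :
    t4g37_TV O N p ⟨ℓ, hℓ⟩ w = χ (CuspForm.heckeAlgebra.T hℓ hℓN hℓS) • w :=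
  (tsq11_mem_eigen.1 hw) (⟨⟨ℓ, hℓ⟩, hℓS, hℓN⟩ : hpa1_I N (↑S : Set ℕ))

/-- `E` is Galois-stable. -/
theorem tin63_E_stable (g : Q̄ ≃ₐ[ℚ] Q̄) (w : t4g37_V O N p) (hw : w ∈ tin63_E p N S O χ) :
    t4g37_rhoV O N p g w ∈ tin63_E p N S O χ :=
  egr30_eigen_stable (tin63_phi N S O) (tin63_c N S O χ) (t4g37_galO O N)
    (fun g i => tin63_commute O N i.1 g) g w hw

/-- `E` is `p`-saturated. -/
theorem tin63_E_sat (k : ℕ) (z : t4g37_V O N p)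
    (h : ((p : ℕ) : O) ^ k • z ∈ tin63_E p N S O χ) : z ∈ tin63_E p N S O χ :=
  egr30_eigen_sat (tin63_phi N S O) (tin63_c N S O χ) k z h

/-- the Galois representation on `E`. -/
def tin63_rhoE : (Q̄ ≃ₐ[ℚ] Q̄) →* Module.End O (tin63_E p N S O χ) :=
  egr30_restrict (t4g37_rhoV O N p) (tin63_E p N S O χ) (tin63_E_stable p N S O χ)

end E

/-! ### `E ≠ 0` (T1 + T5) -/

section Nonzero

variable (p : ℕ) (N : ℕ) [NeZero N] (S : Finset ℕ)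
variable (O : Type) [CommRing O] [IsDomain O] [IsLocalRing O] [IsNoetherianRing O] [CharZero O]
variable (χ : CuspForm.heckeAlgebra N 2 (↑S : Set ℕ) →+* O)

theorem tin63_exists_ne_zero (hp0 : 0 < p) (hpO : ((p : ℕ) : O) ∈ maximalIdeal O) :
    ∃ x : t4g37_V O N p, x ≠ 0 ∧ x ∈ tin63_E p N S O χ :=
  t5x52_top_of_pair p hp0.ne' (hpa1_fst N (↑S : Set ℕ)) (hpa1_fst_injective N (↑S : Set ℕ))
    (hpa1_snd N (↑S : Set ℕ)) (fun i : hpa1_I N (↑S : Set ℕ) => i.1) (hpa1_tau N (↑S : Set ℕ))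
    (fun _ => rfl) hpO χ (fun i => heckeOperatorBar N i.1) (iot63_iotaN N p hp0)
    (fun n v => iot63_iotaN_tors N p hp0 n v)
    (fun n v hv => iot63_iotaN_ker N p hp0 n v hv)
    (fun n i v => iot63_iotaN_hecke N p hp0 n i.1 i.2.2 v)
    (fun n v => iot63_iotaN_compat N p hp0 n v)

end Nonzero

/-! ### abstract form: from data on an abstract Tate module `T` and a submodule `W` -/

section Abstract

variable (p : ℕ) (N : ℕ) [NeZero N] (S : Finset ℕ)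
variable (O : Type) [CommRing O] [IsDomain O] [IsDiscreteValuationRing O]
  [IsAdicComplete (maximalIdeal O) O]
variable (χ : CuspForm.heckeAlgebra N 2 (↑S : Set ℕ) →+* O)

/-- **Part C, abstract form**: `T` an `O`-module with a Galois action `ρ`, `W` a stable saturated
finite free nonzero submodule on which the `T_ℓ` act through `χ`; Eichler–Shimura, inertia and the
fields `L_n` on `T`; a cyclotomic character `ε`.  Conclusion: the body of `tpk1_Core`. -/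
theorem tin63_core_of_tate (h2 : (2 : O) ≠ 0)
    {T : Type} [AddCommGroup T] [Module O T] (ρ : tpk1_GQ →* Module.End O T)
    (W : Submodule O T) [Module.Free O W] [Module.Finite O W] [Nontrivial W]
    (hW : ∀ g, ∀ w ∈ W, ρ g w ∈ W)
    (pO : O) (hpO : pO ∈ maximalIdeal O)
    (hsat : ∀ (k : ℕ) (z : T), pO ^ k • z ∈ W → z ∈ W)
    (Tl : Nat.Primes → Module.End O T)
    (hTl : ∀ (ℓ : ℕ) (hℓ : ℓ.Prime) (hℓN : ¬ ℓ ∣ N) (hℓS : ℓ ∉ (↑S : Set ℕ)),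
      ∀ w ∈ W, Tl ⟨ℓ, hℓ⟩ w = χ (CuspForm.heckeAlgebra.T hℓ hℓN hℓS) • w)
    (hES : ∀ (ℓ : ℕ) (hℓ : ℓ.Prime), ¬ ℓ ∣ N → ℓ ∉ (↑S : Set ℕ) →
      ∀ A : ValuationSubring Q̄, A.LiesOverPrime ℓ → ∀ σ : tpk1_GQ, A.IsFrobeniusAt σ ℓ →
        ∀ x : T, ρ σ (ρ σ x) - ρ σ (Tl ⟨ℓ, hℓ⟩ x) + (ℓ : O) • x = 0)
    (hinT : ∀ q : ℕ, q.Prime → ¬ q ∣ N → q ≠ p →
      ∀ P : ValuationSubring Q̄, P.LiesOverPrime q → ∀ σ ∈ P.inertiaSubgroupIn ℚ, ρ σ = 1)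
    (hfield : ∀ (n : ℕ) (E0 : IntermediateField ℚ Q̄), FiniteDimensional ℚ E0 →
      ∃ L : IntermediateField ℚ Q̄, FiniteDimensional ℚ L ∧ E0 ≤ L ∧
        (∀ σ : tpk1_GQ, ∀ a ∈ L, σ a ∈ L) ∧
        ∀ σ : tpk1_GQ, (∀ a ∈ L, σ a = a) → ∀ x : T,
          ρ σ x - x ∈ ((Ideal.span {pO}) ^ n • ⊤ : Submodule O T))
    (ε : tpk1_GQ →* O)
    (hεF : ∀ (ℓ : ℕ), ℓ.Prime → ¬ ℓ ∣ N → ℓ ∉ (↑S : Set ℕ) →
      ∀ A : ValuationSubring Q̄, A.LiesOverPrime ℓ →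
        ∀ σ : tpk1_GQ, A.IsFrobeniusAt σ ℓ → ε σ = (ℓ : O))
    (hεin : ∀ q : ℕ, q.Prime → ¬ q ∣ N → q ≠ p →
      ∀ P : ValuationSubring Q̄, P.LiesOverPrime q → ∀ σ ∈ P.inertiaSubgroupIn ℚ, ε σ = 1)
    (hεc : ∃ c : tpk1_GQ, c * c = 1 ∧ ε c = -1)
    (hεL : ∀ n : ℕ, ∃ E0 : IntermediateField ℚ Q̄, FiniteDimensional ℚ E0 ∧
      ∀ σ : tpk1_GQ, (∀ a ∈ E0, σ a = a) → ε σ - 1 ∈ maximalIdeal O ^ n) :
    ∃ (V : Type) (_ : AddCommGroup V) (_ : Module O V) (_ : Module.Free O V)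
      (_ : Module.Finite O V) (ρ' : tpk1_GQ →* Module.End O V),
      Module.finrank O V = 2 ∧
      GaloisActionIsAdicContinuous O ρ' ∧
      (∀ (ℓ : ℕ) (hℓ : ℓ.Prime) (hℓN : ¬ ℓ ∣ N) (hℓS : ℓ ∉ (↑S : Set ℕ)),
        ∀ A : ValuationSubring (AlgebraicClosure ℚ), A.LiesOverPrime ℓ →
          ∀ σ : tpk1_GQ, A.IsFrobeniusAt σ ℓ →
            LinearMap.charpoly (ρ' σ) =
              X ^ 2 - C (χ (CuspForm.heckeAlgebra.T hℓ hℓN hℓS)) * X + C ((ℓ : O))) ∧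
      (∀ q : ℕ, q.Prime → ¬ q ∣ N → q ≠ p →
        ∀ P : ValuationSubring (AlgebraicClosure ℚ), P.LiesOverPrime q →
          ∀ σ ∈ P.inertiaSubgroupIn ℚ, ρ' σ = 1) := by
  have hspan : Ideal.span {pO} ≤ maximalIdeal O := (Ideal.span_singleton_le_iff_mem _).2 hpO
  obtain ⟨c, hc, hεc'⟩ := hεc
  refine top88_core_of_data p N S O χ (E := W) (egr30_restrict ρ W hW) ε ?_ hεF ?_ ?_ ?_
  · -- Eichler–Shimura on `W`
    intro ℓ hℓ hℓN hℓS A hA σ hσ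
    exact egr30_restrict_quadratic ρ W hW σ (Tl ⟨ℓ, hℓ⟩)
      (χ (CuspForm.heckeAlgebra.T hℓ hℓN hℓS)) (ℓ : O) (hTl ℓ hℓ hℓN hℓS)
      (hES ℓ hℓ hℓN hℓS A hA σ hσ)
  · -- inertia
    intro q hq hqN hqp P hP σ hσ
    exact ⟨tin63_restrict_eq_one ρ W hW σ (hinT q hq hqN hqp P hP σ hσ),
      hεin q hq hqN hqp P hP σ hσ⟩
  · -- the fields `L_n`
    intro n
    obtain ⟨E0, hE0, hε⟩ := hεL n
    obtain ⟨L, hLfd, hE0L, hLst, hL⟩ := hfield n E0 hE0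
    refine ⟨L, hLfd, hLst, fun σ hσ => ⟨fun v => ?_, hε σ (fun a ha => hσ a (hE0L ha))⟩⟩
    have h1 := egr30_restrict_sub_mem pO ρ W hW hsat n σ (hL σ hσ) v
    exact Submodule.smul_mono_left (Ideal.pow_right_mono hspan n) h1
  · -- the lattice step
    intro a ha
    exact lti97_exists_rank_two (E := W) h2 (egr30_restrict ρ W hW) ε a ha hc hεc'

end Abstract

/-! ### the core of S30 -/

theorem tin63_core : tpk1_Core := by
  intro p hpF N _ S hpS hNS O _ _ _ _ _ _ hpO χ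
  have hp : p.Prime := hpF.out
  have : NeZero p := ⟨hp.ne_zero⟩
  have hpO' : ((p : ℕ) : O) ∈ maximalIdeal O := hpO
  have hne : ∀ {ℓ : ℕ}, ℓ ∉ (↑S : Set ℕ) → ℓ ≠ p := by
    intro ℓ hℓS h
    exact hℓS (by rw [h]; exact Finset.mem_coe.2 hpS)
  -- the eigen-submodule and its structure
  obtain ⟨hEfin, hEfree⟩ := t2i95_submodule_finite_free N p O hp.pos hpO' (tin63_E p N S O χ)
  obtain ⟨x0, hx0, hx0E⟩ := tin63_exists_ne_zero p N S O χ hp.pos hpO'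
  have hnt : Nontrivial (tin63_E p N S O χ) :=
    t2i95_nontrivial_of_ne_zero N p O (tin63_E p N S O χ) hx0E hx0
  obtain ⟨ε, hεF, hεin, hεc, hεL⟩ := cyl63_exists_eps p (maximalIdeal O) hpO' hp
  exact tin63_core_of_tate p N S O χ two_ne_zero (T := t4g37_V O N p) (t4g37_rhoV O N p)
    (tin63_E p N S O χ) (tin63_E_stable p N S O χ) ((p : ℕ) : O) hpO'
    (tin63_E_sat p N S O χ) (t4g37_TV O N p)
    (fun ℓ hℓ hℓN hℓS w hw => tin63_TV_apply_of_mem p N S O χ hℓ hℓN hℓS w hw)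
    (fun ℓ hℓ hℓN hℓS A hA σ hσ x => tin63_ES O N p hp hℓ hℓN (hne hℓS) A hA σ hσ x)
    (fun q hq hqN hqp P hP σ hσ => tin63_inertia O N p hp hq hqN hqp P hP σ hσ)
    (fun n E0 hE0 => by
      obtain ⟨L, hLfd, -, hE0L, hLst, hL⟩ := t4f74_field_rhoV O N p hp.ne_zero n E0 hE0
      exact ⟨L, hLfd, hE0L, hLst, hL⟩)
    ε
    (fun ℓ hℓ _ hℓS A hA σ hσ => hεF ℓ hℓ (hne hℓS) A hA σ hσ)
    (fun q hq _ hqp P hP σ hσ => hεin q hq hqp P hP σ hσ)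
    hεc hεL

end

end Fermat.Agent.S30x
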